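import Fermat.Agent.OpenImageAll.Traces
import Fermat.Agent.Root.SummarySupersingularDensity
import Fermat.Agent.SerreLarge.InertiaAtP
import Fermat.Agent.SerreLarge.Klein

/-!
# Supersingular primes when the traces vanish at the inert primes of a quadratic field

If `a_l = 0` at the good primes inert in `ℚ(√d)`, then modulo every prime `p` the trace is zero
outside the subgroup `H` fixing `√d`, so the image of `H` is commutative modulo scalars; for large
`p` inertia gives it an element of projective order at least `(p - 1) / 2`, so the elements of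
trace zero are at most a `2 / (p - 3)` share of it. By Chebotarev the primes with `a_p = 0` have
Dirichlet density one half, and the field is determined by the curve.
-/

set_option autoImplicit false
set_option linter.style.haveILetI false
set_option linter.unusedSectionVars false

noncomputable section

open Matrix NumberField IsDedekindDomain Filter Topology WeierstrassCurve FA.EC FA.Frob FA.RT

local notation "Qb" => AlgebraicClosure ℚ
local notation "GQ" => AlgebraicClosure ℚ ≃ₐ[ℚ] AlgebraicClosure ℚ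

namespace FA.Supersingular

open FA.SerreLarge (IsScalarMat exists_eq_add_smul)

/-! ### Groups of matrices with trace zero off a subgroup of index two -/

section algebra

variable {k : Type*} [Field k] {G : Type*} [Group G] (r : G →* Matrix (Fin 2) (Fin 2) k)

theorem det_rep_ne_zero (g : G) : (r g).det ≠ 0 :=
  ((Matrix.isUnit_iff_isUnit_det _).mp ((Group.isUnit g).map r)).ne_zero

/-- A matrix of trace zero has scalar square. -/
theorem rep_mul_self {g : G} (h : (r g).trace = 0) : r (g * g) = (-(r g).det) • 1 := by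
  rw [map_mul, FA.LocalDef.mul_self_two, h, zero_smul, zero_sub, ← neg_smul]

/-- Elements whose translates by `x` have trace zero commute up to a scalar. -/
theorem exists_smul_comm {x a b : G} (h0 : (r x).trace = 0) (h1 : (r (x * a)).trace = 0)
    (h2 : (r (x * b)).trace = 0) (h3 : (r (x * (a * b))).trace = 0) :
    ∃ c : k, r (a * b) = c • r (b * a) := by
  have key : ∀ g, (r (x * g)).trace = 0 → r (x * g * x) = (-(r (x * g)).det) • r g⁻¹ :=
    fun g hg => by
      rw [show x * g * x = x * g * (x * g) * g⁻¹ by group, map_mul r (x * g * (x * g)),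
        rep_mul_self r hg, smul_mul_assoc, one_mul]
  have hm : r (x * a * x * (x * b * x)) =
      ((-(r x).det) * (-(r (x * (a * b))).det)) • r (a * b)⁻¹ := by
    rw [show x * a * x * (x * b * x) = x * a * (x * x) * (b * x) by group, map_mul, map_mul _ _
      (x * x), rep_mul_self r h0, mul_smul_comm, mul_one, smul_mul_assoc, ← map_mul,
      show x * a * (b * x) = x * (a * b) * x by group, key _ h3, smul_smul]
  rw [map_mul r (x * a * x), key a h1, key b h2, smul_mul_assoc, mul_smul_comm, smul_smul,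
    ← map_mul] at hm
  have h := congrArg (fun Z => r (b * a) * Z * r (a * b)) hm
  simp only [mul_smul_comm, smul_mul_assoc, ← map_mul] at h
  rw [show b * a * (a⁻¹ * b⁻¹) * (a * b) = a * b by group,
    show b * a * (a * b)⁻¹ * (a * b) = b * a by group] at h
  have hne : -(r (x * a)).det * -(r (x * b)).det ≠ 0 :=
    mul_ne_zero (neg_ne_zero.mpr (det_rep_ne_zero r _)) (neg_ne_zero.mpr (det_rep_ne_zero r _))
  refine ⟨(-(r (x * a)).det * -(r (x * b)).det)⁻¹ *
    (-(r x).det * -(r (x * (a * b))).det), ?_⟩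
  rw [mul_smul, ← h, smul_smul, inv_mul_cancel₀ hne, one_smul]

/-- Commuting up to a scalar with an element whose square is not scalar is commuting. -/
theorem commute_of_smul_comm (h2 : (2 : k) ≠ 0) {a s : G} {c : k}
    (h : r (a * s) = c • r (s * a)) (hs : ∀ e : k, r (s * s) ≠ e • 1) :
    r a * r s = r s * r a := by
  have hd := congrArg Matrix.det h
  rw [det_smul, Fintype.card_fin, map_mul, map_mul, det_mul, det_mul, mul_comm (r s).det] at hd
  have hc : c ^ 2 = 1 := mul_right_cancel₀ (mul_ne_zero (det_rep_ne_zero r a) (det_rep_ne_zero r s))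
    (hd.symm.trans (one_mul _).symm)
  rw [map_mul, map_mul] at h
  rcases sq_eq_one_iff.mp hc with rfl | rfl
  · rwa [one_smul] at h
  · exfalso
    have h' : r s = -(r a * r s * r a⁻¹) := by
      rw [h, neg_one_smul, neg_mul, neg_neg, mul_assoc, ← map_mul r a, mul_inv_cancel, map_one,
        mul_one]
    have ht := congrArg Matrix.trace h'
    rw [trace_neg, trace_mul_comm, ← mul_assoc, ← map_mul r, inv_mul_cancel, map_one, one_mul]
      at ht
    exact hs _ (rep_mul_self r ((mul_eq_zero.mp (show (2 : k) * (r s).trace = 0 by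
      linear_combination ht)).resolve_left h2))

/-- Two matrices of trace zero commuting with a matrix which is not scalar are proportional. -/
theorem exists_smul_eq (h2 : (2 : k) ≠ 0) {S : Matrix (Fin 2) (Fin 2) k} (hS : ¬ IsScalarMat S)
    {g g' : G} (hg : (r g).trace = 0) (hg' : (r g').trace = 0) (hgS : r g * S = S * r g)
    (hgS' : r g' * S = S * r g') : ∃ c : k, r g' = c • r g := by
  obtain ⟨u, v, h⟩ := exists_eq_add_smul hS hgS
  obtain ⟨u', v', h'⟩ := exists_eq_add_smul hS hgS'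
  rw [h, trace_add, trace_smul, trace_smul, trace_one, smul_eq_mul, smul_eq_mul,
    Fintype.card_fin, Nat.cast_ofNat] at hg
  rw [h', trace_add, trace_smul, trace_smul, trace_one, smul_eq_mul, smul_eq_mul,
    Fintype.card_fin, Nat.cast_ofNat] at hg'
  have hv : v ≠ 0 := by
    rintro rfl
    rw [zero_mul, add_zero, mul_eq_zero, or_iff_left h2] at hg
    exact det_rep_ne_zero r g (by rw [h, hg]; simp)
  refine ⟨v' / v, ?_⟩
  rw [h, h', smul_add, smul_smul, smul_smul, div_mul_cancel₀ _ hv]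
  congr 2
  field_simp
  exact mul_right_cancel₀ h2 (by linear_combination v * hg' - v' * hg)

/-- **Few elements of trace zero**: in a finite group whose matrices all commute with that of an
element `s` whose powers below `m` are not scalar, the share of trace zero is at most `1 / m`. -/
theorem card_trace_zero_mul_le [Finite G] (h2 : (2 : k) ≠ 0)
    {s : G} {m : ℕ} (hm : 1 < m)
    (hs : ∀ i : ℕ, 0 < i → i < m → ∀ c : k, r (s ^ i) ≠ c • 1)
    (hcomm : ∀ g, r g * r s = r s * r g) :
    Nat.card {g : G // (r g).trace = 0} * m ≤ Nat.card G := by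
  have hS : ¬ IsScalarMat (r s) := fun h => hs 1 one_pos hm (r s 0 0) (by
    obtain ⟨h01, h10, h11⟩ := h
    rw [pow_one]
    ext i j
    fin_cases i <;> fin_cases j <;> simp [h01, h10, h11])
  have key : ∀ (g g' : {g : G // (r g).trace = 0}) (i j : Fin m), (j : ℕ) ≤ i →
      g.1 * s ^ (i : ℕ) = g'.1 * s ^ (j : ℕ) → i = j ∧ g = g' := by
    intro g g' i j hji h
    obtain ⟨l, hl⟩ := Nat.exists_eq_add_of_le hji
    rw [hl, add_comm, pow_add, ← mul_assoc, mul_left_inj] at h
    rcases Nat.eq_zero_or_pos l with rfl | hl0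
    · exact ⟨Fin.ext (by omega), Subtype.ext (by rwa [pow_zero, mul_one] at h)⟩
    · exfalso
      obtain ⟨c, hc⟩ := exists_smul_eq r h2 hS g.2 g'.2 (hcomm _) (hcomm _)
      rw [← h, map_mul] at hc
      refine hs l hl0 (by omega) c ?_
      have h' := congrArg (fun Z => r g.1⁻¹ * Z) hc
      simp only [← mul_assoc, ← map_mul r g.1⁻¹, inv_mul_cancel, map_one, one_mul,
        mul_smul_comm] at h'
      exact h'
  rw [← Nat.card_fin m, ← Nat.card_prod]
  refine Nat.card_le_card_of_injective (fun x => x.1.1 * s ^ (x.2 : ℕ)) ?_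
  rintro ⟨g, i⟩ ⟨g', j⟩ h
  rcases le_total (j : ℕ) i with hle | hle
  · obtain ⟨e1, e2⟩ := key g g' i j hle h
    rw [e1, e2]
  · obtain ⟨e1, e2⟩ := key g' g j i hle h.symm
    rw [e1, e2]

end algebra

/-! ### The density of a set between approximations -/

/-- A set with a subset of density `δ` and sets of density nearly `δ` above it, up to finitely many
primes, has density `δ`. -/
theorem density_eq_of_approx {S L F₀ : Set (HeightOneSpectrum (𝓞 ℚ))} {δ : ℝ}
    (hL : L.HasDirichletDensity δ) (hF₀ : F₀.Finite) (hLS : L ⊆ S ∪ F₀)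
    (h : ∀ ε : ℝ, 0 < ε → ∃ (X F : Set (HeightOneSpectrum (𝓞 ℚ))) (δ' : ℝ),
      X.HasDirichletDensity δ' ∧ δ' < δ + ε ∧ F.Finite ∧ S ⊆ X ∪ F) :
    S.HasDirichletDensity δ := by
  refine tendsto_order.mpr ⟨fun b hb => ?_, fun b hb => ?_⟩
  · filter_upwards [hL.eventually_const_lt (show (δ + b) / 2 < δ by linarith),
      self_mem_nhdsWithin,
      tendsto_univ_atTop.eventually_gt_atTop (2 * F₀.ncard / (δ - b))] with s hsL hs hU
    have hU0 : 0 < (Set.univ : Set (HeightOneSpectrum (𝓞 ℚ))).primeIdealZetaSum s :=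
      lt_of_le_of_lt (div_nonneg (by positivity) (by linarith)) hU
    have hsub : L \ S ⊆ F₀ := fun v hv => (hLS hv.1).resolve_left hv.2
    have hle : L.primeIdealZetaSum s ≤ S.primeIdealZetaSum s + F₀.ncard :=
      (FA.Chebotarev.primeIdealZetaSum_le_add (hF₀.subset hsub) hs).trans
        (add_le_add le_rfl (Nat.cast_le.mpr (Set.ncard_le_ncard hsub hF₀)))
    rw [lt_div_iff₀ hU0] at hsL ⊢
    rw [div_lt_iff₀ (by linarith)] at hU
    linarith
  · obtain ⟨X, F, δ', hX, hδ, hF, hSX⟩ := h ((b - δ) / 2) (by linarith)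
    filter_upwards [hX.eventually_lt_const hδ, self_mem_nhdsWithin,
      tendsto_univ_atTop.eventually_gt_atTop (2 * F.ncard / (b - δ))] with s hsX hs hU
    have hU0 : 0 < (Set.univ : Set (HeightOneSpectrum (𝓞 ℚ))).primeIdealZetaSum s :=
      lt_of_le_of_lt (div_nonneg (by positivity) (by linarith)) hU
    have hsub : S \ X ⊆ F := fun v hv => (hSX hv.1).resolve_left hv.2
    have hle : S.primeIdealZetaSum s ≤ X.primeIdealZetaSum s + F.ncard :=
      (FA.Chebotarev.primeIdealZetaSum_le_add (hF.subset hsub) hs).trans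
        (add_le_add le_rfl (Nat.cast_le.mpr (Set.ncard_le_ncard hsub hF)))
    rw [div_lt_iff₀ hU0] at hsX ⊢
    rw [div_lt_iff₀ (by linarith)] at hU
    linarith

/-! ### The curve -/

variable (W : WeierstrassCurve ℤ) [(ratCurve W).IsElliptic]

/-- The trace vanishes at the good primes inert in `ℚ(√d)`. -/
def InertVanish (d : ℤ) : Prop :=
  ∀ l : ℕ, l.Prime → ¬ (l : ℤ) ∣ W.Δ → ¬ IsSquare (d : ZMod l) → W.apOfModel l = 0

variable {W} {d : ℤ}

/-- Modulo every prime, the trace is zero outside the subgroup fixing `√d`. -/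
theorem trace_eq_zero_of_not_mem (hd : Squarefree d) (h0 : InertVanish W d) {s : Qb}
    (hs : s ^ 2 = (d : Qb)) {H : Subgroup GQ} (hH : H.index = 2) (hopen : IsOpen (H : Set GQ))
    (hfix : ∀ σ, σ ∈ H ↔ σ s = s) (p : ℕ) [Fact p.Prime] {σ : GQ} (hσ : σ ∉ H) :
    (curveRep p W σ).trace = 0 := by
  classical
  haveI : H.Normal := Subgroup.normal_of_index_eq_two hH
  haveI : H.FiniteIndex := ⟨by omega⟩
  have hΔ : W.Δ ≠ 0 := fun h => (ratCurve W).isUnit_Δ.ne_zero (by simp [ratCurve, h])
  by_contra hne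
  let f := (curveRep p W).toHomUnits.prod (QuotientGroup.mk' H)
  have hker : IsOpen (f.ker : Set GQ) := by
    rw [show f.ker = (curveRep p W).toHomUnits.ker ⊓ H by
      rw [MonoidHom.ker_prod, QuotientGroup.ker_mk'], Subgroup.coe_inf]
    exact (FA.OpenImageAll.isOpen_ker_toHomUnits p).inter hopen
  let X : Set ((Matrix (Fin 2) (Fin 2) (ZMod p))ˣ × GQ ⧸ H) :=
    {g | (g.1 : Matrix (Fin 2) (Fin 2) (ZMod p)).trace ≠ 0 ∧ g.2 ≠ 1}
  have hX : ∀ g ∈ X, ∀ x, x * g * x⁻¹ ∈ X := fun g hg x => by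
    refine ⟨?_, fun h => hg.2 (conj_eq_one_iff.mp h)⟩
    rw [Prod.fst_mul, Prod.fst_mul, Prod.fst_inv, Units.val_mul, Units.val_mul,
      Matrix.trace_units_conj]
    exact hg.1
  obtain ⟨l, hl, hlS, hF⟩ := FA.OpenImageAll.exists_frobenius_mem_of_mem f hker hX (σ := σ)
    ⟨hne, fun h => hσ ((QuotientGroup.eq_one_iff σ).mp h)⟩
    ({2, p} ∪ d.natAbs.primeFactors ∪ W.Δ.natAbs.primeFactors)
  simp only [Finset.mem_union, Finset.mem_insert, Finset.mem_singleton, not_or] at hlS
  obtain ⟨⟨⟨hl2, hlp⟩, hld⟩, hlΔ⟩ := hlS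
  have hgood : W.IsGoodPrimeFor l := fun hd' => hlΔ (Nat.mem_primeFactors.mpr
    ⟨hl, Int.natCast_dvd.mp hd', Int.natAbs_ne_zero.mpr hΔ⟩)
  obtain ⟨A, hA⟩ := FA.Deform.exists_liesOverPrime hl
  obtain ⟨F, hFr⟩ := FA.Deform.exists_isFrobeniusAt hl hA
  have hns := FA.OpenImageAll.not_isSquare_of_frobenius_apply_ne hl hl2
    (fun hd' => hld (Nat.mem_primeFactors.mpr
      ⟨hl, Int.natCast_dvd.mp hd', Int.natAbs_ne_zero.mpr hd.ne_zero⟩)) hA hFr hs
    fun e => (hF A hA F hFr).2 ((QuotientGroup.eq_one_iff F).mpr ((hfix F).mpr e))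
  refine (hF A hA F hFr).1 ?_
  show (curveRep p W F).trace = 0
  rw [trace_curveRep W hl hgood (Ne.symm hlp) hA hFr, h0 l hl hgood hns, Int.cast_zero]

variable (W) in
/-- **Inertia at a large prime gives a square of large projective order.** -/
theorem exists_sq_pow_not_scalar {p : ℕ} [hp : Fact p.Prime] (hp2 : p ≠ 2)
    (hgood : W.IsGoodPrimeFor p) :
    ∃ σ : GQ, ∀ i : ℕ, 0 < i → i < (p - 1) / 2 → ∀ c : ZMod p,
      curveRep p W ((σ * σ) ^ i) ≠ c • 1 := by
  obtain ⟨A, hA⟩ := FA.Deform.exists_liesOverPrime hp.out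
  obtain ⟨σ, hσ⟩ : ∃ σ : GQ, ∀ (k : ℕ) (c : ZMod p),
      curveRep p W σ ^ k = c • 1 → 0 < k → p - 1 ≤ k := by
    rcases FA.SerreLarge.curveRep_inertia_at_p W hp2 hgood hA with
      ⟨σ, -, hsq, hne⟩ | ⟨-, σ, -, h | h⟩
    · refine ⟨σ, fun k c hk hk0 => le_trans (Nat.sub_le p 1) (Nat.le_of_dvd hk0 ?_)⟩
      set N := curveRep p W σ - 1
      have hN : curveRep p W σ = 1 + N := (add_sub_cancel _ _).symm
      have hpow : ∀ n : ℕ, curveRep p W σ ^ n = 1 + (n : ZMod p) • N := fun n => by
        induction n with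
        | zero => simp
        | succ n ih =>
          rw [pow_succ, ih, hN, mul_add, mul_one, add_mul, one_mul, smul_mul_assoc, hsq,
            smul_zero, add_zero, Nat.cast_succ, add_smul, one_smul, add_assoc]
      rw [hpow] at hk
      have e : (k : ZMod p) • N = (c - 1) • 1 := by
        rw [sub_smul, one_smul, ← hk, add_sub_cancel_left]
      have e2 := congrArg (fun Z => Z * Z) e
      simp only [smul_mul_smul_comm, hsq, smul_zero, one_mul] at e2
      have hc0 : c - 1 = 0 := mul_self_eq_zero.mp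
        ((smul_eq_zero.mp e2.symm).resolve_right one_ne_zero)
      rw [hc0, zero_smul, smul_eq_zero, or_iff_left (sub_ne_zero.mpr hne)] at e
      exact (ZMod.natCast_eq_zero_iff k p).mp e
    · exact ⟨σ, fun k c hk hk0 => Nat.le_of_dvd hk0 (h k c hk)⟩
    · exact ⟨σ, fun k c hk hk0 => (show p - 1 ≤ p + 1 by omega).trans
        (Nat.le_of_dvd hk0 (h k c hk))⟩
  refine ⟨σ, fun i hi hlt c hc => ?_⟩
  have := hσ (2 * i) c (by rw [pow_mul, sq, ← map_mul, ← map_pow, hc]) (by omega)
  omega

/-- In the image of the subgroup fixing `√d` everything commutes with such a square. -/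
theorem commute_sq (hd : Squarefree d) (h0 : InertVanish W d) {s : Qb} (hs : s ^ 2 = (d : Qb))
    {H : Subgroup GQ} (hH : H.index = 2) (hopen : IsOpen (H : Set GQ))
    (hfix : ∀ σ, σ ∈ H ↔ σ s = s) {p : ℕ} [hp : Fact p.Prime] (hp2 : p ≠ 2) {τ : GQ}
    (hτ : ∀ c : ZMod p, curveRep p W (τ * τ * (τ * τ)) ≠ c • 1) {h : GQ} (hh : h ∈ H) :
    curveRep p W h * curveRep p W (τ * τ) = curveRep p W (τ * τ) * curveRep p W h := by
  obtain ⟨x, hx⟩ := SetLike.exists_not_mem_of_ne_top H (fun h => by simp [h] at hH) rfl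
  have hmem : ∀ g ∈ H, x * g ∉ H := fun g hg hxg => hx ((H.mul_mem_cancel_right hg).mp hxg)
  have h2 : (2 : ZMod p) ≠ 0 := fun h =>
    hp2 ((Nat.prime_dvd_prime_iff_eq hp.out Nat.prime_two).mp
      ((ZMod.natCast_eq_zero_iff 2 p).mp (by exact_mod_cast h)))
  have hsq := Subgroup.mul_self_mem_of_index_two hH τ
  have ht := fun g hg => trace_eq_zero_of_not_mem hd h0 hs hH hopen hfix p (σ := x * g) (hmem g hg)
  obtain ⟨c, hc⟩ := exists_smul_comm (curveRep p W)
    (trace_eq_zero_of_not_mem hd h0 hs hH hopen hfix p hx) (ht h hh) (ht _ hsq)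
    (ht _ (H.mul_mem hh hsq))
  exact commute_of_smul_comm _ h2 hc hτ

/-- **The upper bound**: the primes with `a = 0` lie, up to finitely many, in sets of density
arbitrarily close to one half. -/
theorem exists_density_le (hd : Squarefree d) (hd1 : d ≠ 1) (h0 : InertVanish W d) {ε : ℝ}
    (hε : 0 < ε) :
    ∃ (X F : Set (HeightOneSpectrum (𝓞 ℚ))) (δ : ℝ), X.HasDirichletDensity δ ∧ δ < 1 / 2 + ε ∧
      F.Finite ∧ {v | W.apOfModel (Ideal.absNorm v.asIdeal) = 0} ⊆ X ∪ F := by
  classical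
  obtain ⟨s, H, hs, hH, hopen, hfix⟩ := FA.OpenImageAll.exists_index_two_of_sqrt hd hd1
  haveI : H.Normal := Subgroup.normal_of_index_eq_two hH
  haveI : H.FiniteIndex := ⟨by omega⟩
  have hΔ : W.Δ ≠ 0 := fun h => (ratCurve W).isUnit_Δ.ne_zero (by simp [ratCurve, h])
  obtain ⟨p, hp, hpp⟩ := Nat.exists_infinite_primes (2 * ⌈1 / ε⌉₊ + W.Δ.natAbs + 9)
  haveI := Fact.mk hpp
  have hgood : W.IsGoodPrimeFor p := fun hd' => by
    have := Nat.le_of_dvd (Int.natAbs_pos.mpr hΔ) (Int.natCast_dvd.mp hd')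
    omega
  obtain ⟨τ, hτ⟩ := exists_sq_pow_not_scalar W (p := p) (by omega) hgood
  set m := (p - 1) / 2 with hm
  let f := (curveRep p W).toHomUnits.prod (QuotientGroup.mk' H)
  have hker : IsOpen (f.ker : Set GQ) := by
    rw [show f.ker = (curveRep p W).toHomUnits.ker ⊓ H by
      rw [MonoidHom.ker_prod, QuotientGroup.ker_mk'], Subgroup.coe_inf]
    exact (FA.OpenImageAll.isOpen_ker_toHomUnits p).inter hopen
  haveI : Fintype f.range := Fintype.ofFinite _
  let X : Set f.range := {g | (g.1.1 : Matrix (Fin 2) (Fin 2) (ZMod p)).trace = 0}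
  have hX : ∀ g ∈ X, ∀ x, x * g * x⁻¹ ∈ X := fun g hg x => by
    show Matrix.trace _ = _
    rw [Subgroup.coe_mul, Subgroup.coe_mul, Prod.fst_mul, Prod.fst_mul, Subgroup.coe_inv,
      Prod.fst_inv, Units.val_mul, Units.val_mul, Matrix.trace_units_conj]
    exact hg
  have hdens := FA.Chebotarev.hasDirichletDensity_frobSet f.rangeRestrict
    f.rangeRestrict_surjective (by rwa [MonoidHom.ker_rangeRestrict]) hX
  -- the kernel of the quadratic character and its representation
  let φ : f.range →* GQ ⧸ H := (MonoidHom.snd _ _).comp f.range.subtype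
  have hφ : Function.Surjective φ := fun q => by
    obtain ⟨g, rfl⟩ := QuotientGroup.mk'_surjective H q
    exact ⟨f.rangeRestrict g, rfl⟩
  let rK : φ.ker →* Matrix (Fin 2) (Fin 2) (ZMod p) :=
    (Units.coeHom _).comp ((MonoidHom.fst _ _).comp (f.range.subtype.comp φ.ker.subtype))
  have h2 : (2 : ZMod p) ≠ 0 := fun h => by
    have := Nat.le_of_dvd two_pos ((ZMod.natCast_eq_zero_iff 2 p).mp (by exact_mod_cast h))
    omega
  have hττ : τ * τ ∈ H := Subgroup.mul_self_mem_of_index_two hH τ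
  let s₀ : φ.ker := ⟨f.rangeRestrict (τ * τ), (QuotientGroup.eq_one_iff _).mpr hττ⟩
  have hcount : Nat.card {g : φ.ker // (rK g).trace = 0} * m ≤ Nat.card φ.ker := by
    refine card_trace_zero_mul_le rK h2 (s := s₀) (by omega) (fun i hi hlt c => ?_) fun g => ?_
    · have := hτ i hi hlt c
      rwa [map_pow] at this ⊢
    · obtain ⟨⟨_, h, rfl⟩, hg⟩ := g
      exact commute_sq hd h0 hs hH hopen hfix (by omega)
        (fun c => by rw [← sq]; exact hτ 2 two_pos (by omega) c)
        ((QuotientGroup.eq_one_iff _).mp hg)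
  have hcard : (Nat.card X : ℝ) / Fintype.card f.range < 1 / 2 + ε := by
    have hidx : φ.ker.index = 2 := by
      rw [Subgroup.index_ker, MonoidHom.range_eq_top.mpr hφ, Subgroup.card_top,
        ← Subgroup.index_eq_card, hH]
    have hG : Nat.card φ.ker * 2 = Nat.card f.range := by
      simpa only [hidx] using φ.ker.card_mul_index
    have hXle : Nat.card X ≤ Nat.card φ.ker + Nat.card {g : φ.ker // (rK g).trace = 0} := by
      refine (Nat.card_mono (Set.toFinite _) (show X ⊆ (φ.ker : Set f.range)ᶜ ∪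
        Subtype.val '' {g : φ.ker | (rK g).trace = 0} from fun g hg =>
          (em (g ∈ φ.ker)).symm.imp id fun hgk => ⟨⟨g, hgk⟩, hg, rfl⟩)).trans ?_
      rw [Nat.card_coe_set_eq]
      refine (Set.ncard_union_le _ _).trans (add_le_add (le_of_eq ?_)
        (le_of_eq (Set.ncard_image_of_injective _ Subtype.val_injective)))
      rw [Set.ncard_compl _ (Set.toFinite _), ← hG, ← Nat.card_coe_set_eq]
      show Nat.card φ.ker * 2 - Nat.card φ.ker = _
      omega
    have hεm : 1 / ε < (m : ℝ) :=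
      (Nat.le_ceil _).trans_lt (by exact_mod_cast (by omega : ⌈1 / ε⌉₊ < m))
    rw [div_lt_iff₀ hε] at hεm
    rw [← Nat.card_eq_fintype_card, ← hG, Nat.cast_mul, Nat.cast_ofNat]
    have hK : (0 : ℝ) < Nat.card φ.ker := by exact_mod_cast Nat.card_pos
    rw [div_lt_iff₀ (by positivity)]
    have hXR : (Nat.card X : ℝ) ≤ Nat.card φ.ker +
        Nat.card {g : φ.ker // (rK g).trace = 0} := by exact_mod_cast hXle
    have hTR : (Nat.card {g : φ.ker // (rK g).trace = 0} : ℝ) * m ≤ Nat.card φ.ker := by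
      exact_mod_cast hcount
    have hm0 : (0 : ℝ) < m := by exact_mod_cast (show 0 < m by omega)
    nlinarith [mul_lt_mul_of_pos_right hεm hK]
  refine ⟨FA.Chebotarev.frobSet f.rangeRestrict X,
    {v | Ideal.absNorm v.asIdeal ∈ insert p W.Δ.natAbs.primeFactors}, _, hdens, hcard,
    finite_absNorm_mem _, fun v hv => ?_⟩
  refine or_iff_not_imp_right.mpr fun hvF A hA σ hσ => ?_
  simp only [Set.mem_ofPred_eq, Finset.mem_insert, not_or] at hvF
  have hq := FA.Chebotarev.absNorm_prime v
  have hgood' : W.IsGoodPrimeFor (Ideal.absNorm v.asIdeal) := fun hd' => hvF.2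
    (Nat.mem_primeFactors.mpr ⟨hq, Int.natCast_dvd.mp hd', Int.natAbs_ne_zero.mpr hΔ⟩)
  show (curveRep p W σ).trace = 0
  rw [trace_curveRep W hq hgood' (Ne.symm hvF.1) hA hσ, show W.apOfModel _ = 0 from hv,
    Int.cast_zero]

/-- **The primes with `a = 0` have density one half.** -/
theorem density_half_of_inertVanish (hd : Squarefree d) (hd1 : d ≠ 1) (h0 : InertVanish W d) :
    {v : HeightOneSpectrum (𝓞 ℚ) |
      W.apOfModel (Ideal.absNorm v.asIdeal) = 0}.HasDirichletDensity (1 / 2) := by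
  classical
  obtain ⟨s, H, hs, hH, hopen, hfix⟩ := FA.OpenImageAll.exists_index_two_of_sqrt hd hd1
  haveI : H.Normal := Subgroup.normal_of_index_eq_two hH
  haveI : H.FiniteIndex := ⟨by omega⟩
  haveI : Fintype (GQ ⧸ H) := Fintype.ofFinite _
  have hcard : Fintype.card (GQ ⧸ H) = 2 := by
    rw [← Nat.card_eq_fintype_card, ← Subgroup.index_eq_card, hH]
  have hL := FA.Chebotarev.hasDirichletDensity_frobSet (QuotientGroup.mk' H)
    (QuotientGroup.mk'_surjective H) (by rwa [QuotientGroup.ker_mk'])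
    (X := {g | g ≠ 1}) fun g hg x h => hg (conj_eq_one_iff.mp h)
  have hX : Nat.card ({g | g ≠ 1} : Set (GQ ⧸ H)) = 1 := by
    rw [Nat.card_coe_set_eq, show ({g | g ≠ 1} : Set (GQ ⧸ H)) = {1}ᶜ from rfl,
      Set.ncard_compl _ (Set.toFinite _), Set.ncard_singleton, Nat.card_eq_fintype_card, hcard]
  rw [hX, hcard, Nat.cast_one, Nat.cast_ofNat] at hL
  refine density_eq_of_approx hL
    (finite_absNorm_mem ({2} ∪ d.natAbs.primeFactors ∪ W.Δ.natAbs.primeFactors))
    (fun v hv => or_iff_not_imp_right.mpr fun hvF => ?_)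
    fun ε hε => exists_density_le hd hd1 h0 hε
  simp only [Set.mem_ofPred_eq, Finset.mem_union, Finset.mem_singleton, not_or] at hvF
  obtain ⟨⟨hq2, hqd⟩, hqΔ⟩ := hvF
  have hq := FA.Chebotarev.absNorm_prime v
  have hΔ : W.Δ ≠ 0 := fun h => (ratCurve W).isUnit_Δ.ne_zero (by simp [ratCurve, h])
  obtain ⟨A, hA⟩ := FA.Deform.exists_liesOverPrime hq
  obtain ⟨F, hF⟩ := FA.Deform.exists_isFrobeniusAt hq hA
  exact h0 _ hq (fun h => hqΔ (Nat.mem_primeFactors.mpr
      ⟨hq, Int.natCast_dvd.mp h, Int.natAbs_ne_zero.mpr hΔ⟩))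
    (FA.OpenImageAll.not_isSquare_of_frobenius_apply_ne hq hq2
      (fun h => hqd (Nat.mem_primeFactors.mpr
        ⟨hq, Int.natCast_dvd.mp h, Int.natAbs_ne_zero.mpr hd.ne_zero⟩)) hA hF hs
      fun e => hv A hA F hF ((QuotientGroup.eq_one_iff F).mpr ((hfix F).mpr e)))

/-- Squarefree integers whose product is a square are equal. -/
theorem eq_of_isSquare_mul {a b : ℤ} (ha : Squarefree a) (hb : Squarefree b)
    (h : IsSquare (a * b)) : a = b := by
  obtain ⟨t, ht⟩ := h
  have hn : a.natAbs = b.natAbs := by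
    refine Nat.eq_of_factorization_eq (Int.natAbs_ne_zero.mpr ha.ne_zero)
      (Int.natAbs_ne_zero.mpr hb.ne_zero) fun q => ?_
    have h1 := (Int.squarefree_natAbs.mpr ha).natFactorization_le_one q
    have h2 := (Int.squarefree_natAbs.mpr hb).natFactorization_le_one q
    have h3 := congrArg (fun n : ℕ => n.factorization q) (congrArg Int.natAbs ht)
    have ht0 : t ≠ 0 := fun h => mul_ne_zero ha.ne_zero hb.ne_zero (by rw [ht, h, mul_zero])
    simp only [Int.natAbs_mul, Nat.factorization_mul (Int.natAbs_ne_zero.mpr ha.ne_zero)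
      (Int.natAbs_ne_zero.mpr hb.ne_zero), Nat.factorization_mul (Int.natAbs_ne_zero.mpr ht0)
      (Int.natAbs_ne_zero.mpr ht0), Finsupp.add_apply] at h3
    omega
  rcases Int.natAbs_eq_natAbs_iff.mp hn with h | h
  · exact h
  · exfalso
    rw [h] at ht
    nlinarith [sq_pos_of_ne_zero hb.ne_zero, mul_self_nonneg t]

/-- **The quadratic field is determined.** -/
theorem inertVanish_unique {d' : ℤ} (hd : Squarefree d) (hd1 : d ≠ 1) (h0 : InertVanish W d)
    (hd' : Squarefree d') (hd1' : d' ≠ 1) (h0' : InertVanish W d') : d = d' := by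
  obtain ⟨p, hp, hpp⟩ := Nat.exists_infinite_primes (W.Δ.natAbs + 11)
  haveI := Fact.mk hpp
  have hΔ : W.Δ ≠ 0 := fun h => (ratCurve W).isUnit_Δ.ne_zero (by simp [ratCurve, h])
  obtain ⟨τ, hτ⟩ := exists_sq_pow_not_scalar W (p := p) (by omega) fun hdvd => by
    have := Nat.le_of_dvd (Int.natAbs_pos.mpr hΔ) (Int.natCast_dvd.mp hdvd)
    omega
  have h2 : (2 : ZMod p) ≠ 0 := fun h => by
    have := Nat.le_of_dvd two_pos ((ZMod.natCast_eq_zero_iff 2 p).mp (by exact_mod_cast h))
    omega
  set r := curveRep p W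
  have hτ1 : ∀ c, r (τ * τ) ≠ c • 1 := fun c => by
    simpa using hτ 1 one_pos (by omega) c
  have hτ2 : ∀ c, r (τ * τ * (τ * τ)) ≠ c • 1 := fun c => by
    rw [← sq]
    exact hτ 2 two_pos (by omega) c
  obtain ⟨s, H, hs, hH, hopen, hfix⟩ := FA.OpenImageAll.exists_index_two_of_sqrt hd hd1
  obtain ⟨s', H', hs', hH', hopen', hfix'⟩ := FA.OpenImageAll.exists_index_two_of_sqrt hd' hd1'
  have hS : ¬ IsScalarMat (r (τ * τ)) := fun ⟨h01, h10, h11⟩ => hτ1 (r (τ * τ) 0 0) (by
    ext i j
    fin_cases i <;> fin_cases j <;> simp [h01, h10, h11])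
  -- an element of one subgroup outside the other makes the square scalar
  have key : ∀ σ, σ ∈ H → σ ∈ H' := fun σ hσ => by
    by_contra hσ'
    have hmem := H.mul_mem hσ (Subgroup.mul_self_mem_of_index_two hH τ)
    have hmem' : σ * (τ * τ) ∉ H' := fun h =>
      hσ' ((H'.mul_mem_cancel_right (Subgroup.mul_self_mem_of_index_two hH' τ)).mp h)
    obtain ⟨c, hc⟩ := exists_smul_eq r h2 hS
      (trace_eq_zero_of_not_mem hd' h0' hs' hH' hopen' hfix' p hσ')
      (trace_eq_zero_of_not_mem hd' h0' hs' hH' hopen' hfix' p hmem')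
      (commute_sq hd h0 hs hH hopen hfix (by omega) hτ2 hσ)
      (commute_sq hd h0 hs hH hopen hfix (by omega) hτ2 hmem)
    refine hτ1 c ?_
    have h' := congrArg (fun Z => r σ⁻¹ * Z) hc
    simp only [← map_mul r σ⁻¹, mul_smul_comm, inv_mul_cancel_left, inv_mul_cancel,
      map_one] at h'
    exact h'
  have heq : ∀ σ, σ ∈ H ↔ σ ∈ H' := fun σ => by
    refine ⟨key σ, fun hσ' => by_contra fun hσ => ?_⟩
    obtain ⟨x, hx⟩ := SetLike.exists_not_mem_of_ne_top H' (fun h => by simp [h] at hH') rfl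
    have hxH : x ∉ H := fun h => hx (key x h)
    exact hx ((H'.mul_mem_cancel_right hσ').mp
      (key (x * σ) ((Subgroup.mul_mem_iff_of_index_two hH).mpr (iff_of_false hxH hσ))))
  -- so the product of the square roots is rational
  obtain ⟨q, hq⟩ := FA.Local.exists_ratCast_of_fixed (s * s') fun σ => by
    rw [map_mul]
    by_cases hσ : σ ∈ H
    · exact congrArg₂ (· * ·) ((hfix σ).mp hσ) ((hfix' σ).mp ((heq σ).mp hσ))
    · have e : ∀ {e : ℤ} {z : Qb}, z ^ 2 = (e : Qb) → σ z ≠ z → σ z = -z := fun {e z} hz hne =>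
        (sq_eq_sq_iff_eq_or_eq_neg.mp (by rw [← map_pow, hz, map_intCast])).resolve_left hne
      exact (congrArg₂ (· * ·) (e hs fun h => hσ ((hfix σ).mpr h))
        (e hs' fun h => hσ ((heq σ).mpr ((hfix' σ).mpr h)))).trans (neg_mul_neg s s')
  refine eq_of_isSquare_mul hd hd' (Rat.isSquare_intCast_iff.mp ⟨q, ?_⟩)
  have h1 : (((d * d' : ℤ) : ℚ) : Qb) = ((q * q : ℚ) : Qb) := by
    push_cast
    rw [← hs, ← hs', hq]
    ring
  exact_mod_cast h1

end FA.Supersingular

end
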