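import Fermat.Agent.Frob.Reduction
import Fermat.Agent.EC.TorsionCard

/-!
# The `p`-power torsion above an ordinary place

At a place above the odd prime `p` of good reduction whose reduced curve has a point of order `p`,
reduction has a kernel of order `p` on the `p`-torsion and is onto that of the reduced curve. So the
kernel on `p ^ n`-torsion is cyclic, with compatible generators; their abscissae grow strictly when
multiplied by `p`.
-/

set_option autoImplicit false
set_option linter.style.haveILetI false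
set_option linter.unusedSectionVars false

noncomputable section

open Polynomial WeierstrassCurve
open scoped Classical

namespace FA.CMReduction

open FA.Frob FA.EC FA.Local

/-- Fewer than `p ^ 2` elements killed by `p` lie in the multiples of any nonzero one. -/
theorem mem_zmultiples_of_card_lt {G : Type*} [AddCommGroup G] {p : ℕ} (hp : p.Prime)
    (H : AddSubgroup G) [Finite H] (hH : ∀ x ∈ H, p • x = 0) (hcard : Nat.card H < p ^ 2)
    {Q : G} (hQ : Q ∈ H) (hQ0 : Q ≠ 0) {S : G} (hS : S ∈ H) : S ∈ AddSubgroup.zmultiples Q := by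
  by_contra hS'
  haveI := Fact.mk hp
  have hZ : ∀ {x : G}, x ∈ H → ∀ a : ℤ, (p : ℤ) ∣ a → a • x = 0 := fun {x} hx a ha => by
    obtain ⟨b, rfl⟩ := ha
    rw [mul_comm, mul_smul, natCast_zsmul, hH x hx, zsmul_zero]
  let f : ZMod p × ZMod p → H := fun c =>
    ⟨(c.1.val : ℤ) • Q + (c.2.val : ℤ) • S, add_mem (zsmul_mem hQ _) (zsmul_mem hS _)⟩
  refine absurd (Nat.card_le_card_of_injective f ?_) (by
    simp only [Nat.card_prod, Nat.card_zmod]; rw [← pow_two]; omega)
  intro c d h
  have e : ((c.1.val : ℤ) - d.1.val) • Q + ((c.2.val : ℤ) - d.2.val) • S = 0 := by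
    rw [sub_smul, sub_smul]
    have h' := congrArg Subtype.val h
    simp only [f] at h'
    linear_combination (norm := abel) h'
  have hdiv : ∀ (a : ℤ) (x y : G), x ∈ H → a • x = y → ¬ (p : ℤ) ∣ a →
      x ∈ AddSubgroup.zmultiples y := fun a x y hx hxy ha => by
    obtain ⟨u, v, huv⟩ := ((Nat.prime_iff_prime_int.1 hp).coprime_iff_not_dvd.2 ha)
    refine AddSubgroup.mem_zmultiples_iff.2 ⟨v, ?_⟩
    rw [← hxy, ← mul_smul]
    calc (v * a) • x = (1 - u * (p : ℤ)) • x := by rw [← huv]; ring_nf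
      _ = x := by rw [sub_smul, one_smul, hZ hx _ (dvd_mul_left _ _), sub_zero]
  have hc2 : (p : ℤ) ∣ (c.2.val : ℤ) - d.2.val := by
    by_contra ha
    refine hS' ?_
    obtain ⟨k, hk⟩ := AddSubgroup.mem_zmultiples_iff.1
      (hdiv _ S (-(((c.1.val : ℤ) - d.1.val) • Q)) hS (eq_neg_of_add_eq_zero_right e) ha)
    exact AddSubgroup.mem_zmultiples_iff.2 ⟨-k * ((c.1.val : ℤ) - d.1.val), by
      rw [← hk, neg_mul, neg_smul, mul_smul, smul_neg]⟩
  have hc1 : (p : ℤ) ∣ (c.1.val : ℤ) - d.1.val := by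
    by_contra ha
    rw [hZ hS _ hc2, add_zero] at e
    exact hQ0 (by simpa using hdiv _ Q 0 hQ e ha)
  refine Prod.ext ?_ ?_
  · have := (ZMod.intCast_zmod_eq_zero_iff_dvd _ p).2 hc1
    rw [Int.cast_sub, Int.cast_natCast, Int.cast_natCast, ZMod.natCast_zmod_val,
      ZMod.natCast_zmod_val, sub_eq_zero] at this
    exact this
  · have := (ZMod.intCast_zmod_eq_zero_iff_dvd _ p).2 hc2
    rw [Int.cast_sub, Int.cast_natCast, Int.cast_natCast, ZMod.natCast_zmod_val,
      ZMod.natCast_zmod_val, sub_eq_zero] at this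
    exact this

/-- The points killed by `n`. -/
abbrev killed {F : Type*} [Field F] [DecidableEq F] (W : WeierstrassCurve F) (n : ℕ) :
    AddSubgroup W.toAffine.Point :=
  (nsmulAddMonoidHom n).ker

section residue

variable {k : Type*} [Field k] [IsAlgClosed k] {p : ℕ} (W : WeierstrassCurve k) [W.IsElliptic]

/-- In characteristic `p` the polynomial of the `p`-torsion is not zero. -/
theorem preΨ'_ne_zero_charP (hp : p.Prime) (_hodd : Odd p) : W.preΨ' p ≠ 0 := fun h => by
  have hd : (W.Φ (p : ℤ)).natDegree = p ^ 2 := by simp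
  obtain ⟨r, hr⟩ := IsAlgClosed.exists_root (W.Φ (p : ℤ)) (fun h0 => by
    rw [natDegree_eq_zero_iff_degree_le_zero.2 h0.le] at hd
    exact absurd hd.symm (pow_ne_zero 2 hp.ne_zero))
  refine numDen_ne_zero W (p : ℤ) r ?_
  funext i
  fin_cases i
  · exact hr
  · simp [numDen, ΨSq_ofNat, h]

/-- In characteristic `p` fewer than `p ^ 2` points are killed by `p`. -/
theorem card_killed_lt (hp : p.Prime) (hodd : Odd p) (hpk : (p : k) = 0) :
    Finite (killed W p) ∧ Nat.card (killed W p) < p ^ 2 := by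
  set f := W.preΨ' p with hf
  have hf0 : f ≠ 0 := preΨ'_ne_zero_charP W hp hodd
  have hne : ¬ Even p := Nat.not_even_iff_odd.2 hodd
  have hdeg : f.natDegree < (p ^ 2 - 1) / 2 := by
    refine lt_of_le_of_ne (by simpa [hne] using W.natDegree_preΨ'_le p) fun e => ?_
    have h1 := W.coeff_preΨ' p
    simp only [hne, if_false] at h1
    rw [← hf, ← e, coeff_natDegree] at h1
    exact leadingCoeff_ne_zero.2 hf0 (h1.trans hpk)
  choose Y hY using fun r : k => exists_nonsingular W r
  let g : Option ({r // r ∈ f.roots.toFinset} × Bool) → W.toAffine.Point := fun o =>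
    match o with
    | none => 0
    | some (r, true) => .some _ _ (hY r)
    | some (r, false) => -.some _ _ (hY r)
  have hcover : (killed W p : Set W.toAffine.Point) ⊆ Set.range g := by
    intro P hP
    rcases P with _ | ⟨x, y, h⟩
    · exact ⟨none, rfl⟩
    have hx : x ∈ f.roots.toFinset := by
      rw [Multiset.mem_toFinset, mem_roots hf0]
      have h' := (nsmul_eq_zero_iff h p).1 hP
      rw [ΨSq_ofNat, if_neg hne, mul_one, eval_pow] at h'
      exact (pow_eq_zero_iff two_ne_zero).1 h'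
    rcases eq_or_eq_neg_of_xc_eq (Affine.Point.some_ne_zero h) (Affine.Point.some_ne_zero (hY x))
      rfl with e | e
    · exact ⟨some (⟨x, hx⟩, true), e.symm⟩
    · exact ⟨some (⟨x, hx⟩, false), e.symm⟩
  have hfin : Finite (killed W p) := ((Set.finite_range g).subset hcover).to_subtype
  refine ⟨hfin, ?_⟩
  calc Nat.card (killed W p) = (killed W p : Set W.toAffine.Point).ncard :=
        Nat.card_coe_set_eq _
    _ ≤ (Set.range g).ncard := Set.ncard_le_ncard hcover (Set.finite_range g)
    _ ≤ Nat.card (Option ({r // r ∈ f.roots.toFinset} × Bool)) := by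
        rw [← Nat.card_coe_set_eq]; exact Finite.card_range_le g
    _ < p ^ 2 := by
        rw [Finite.card_option, Nat.card_prod, Nat.card_eq_fintype_card, Fintype.card_coe,
          Nat.card_eq_fintype_card, Fintype.card_bool]
        have h1 := (Multiset.toFinset_card_le f.roots).trans (card_roots' f)
        omega

end residue

variable {L : Type*} [Field L] [IsAlgClosed L] {A : ValuationSubring L} {W : WeierstrassCurve L}
  [W.IsElliptic] {p : ℕ} [hp : Fact p.Prime] (hI : IntCoeff A.valuation W.toAffine)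
  (hΔ : A.valuation W.toAffine.Δ = 1) [(redCurve A W.toAffine hI).IsElliptic]

/-- Over an algebraically closed field every point is a `p`-th multiple. -/
theorem exists_nsmul_eq (P : W.toAffine.Point) : ∃ R, p • R = P := by
  rcases eq_or_ne P 0 with rfl | hP
  · exact ⟨0, nsmul_zero _⟩
  obtain ⟨x, y, h, rfl⟩ := exists_some_of_ne_zero hP
  set G := W.Φ (p : ℤ) - C x * W.ΨSq (p : ℤ) with hG
  have hp2 : 0 < p ^ 2 := pow_pos hp.out.pos 2
  have hd : G.natDegree = p ^ 2 := by
    refine (natDegree_sub_eq_left_of_natDegree_lt ?_).trans (by simp)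
    refine ((natDegree_C_mul_le _ _).trans (W.natDegree_ΨSq_le _)).trans_lt ?_
    rw [natDegree_Φ, Int.natAbs_natCast]
    omega
  obtain ⟨r, hr⟩ := IsAlgClosed.exists_root G (fun h0 => by
    rw [natDegree_eq_zero_iff_degree_le_zero.2 h0.le] at hd
    omega)
  simp only [IsRoot.def, hG, eval_sub, eval_mul, eval_C, sub_eq_zero] at hr
  have hΨ : (W.ΨSq (p : ℤ)).eval r ≠ 0 := fun h0 => numDen_ne_zero W (p : ℤ) r (by
    funext i
    fin_cases i
    · rw [h0, mul_zero] at hr
      exact hr
    · exact h0)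
  obtain ⟨b, hb⟩ := exists_nonsingular W r
  have hne : p • Affine.Point.some r b hb ≠ 0 := fun e => hΨ ((nsmul_eq_zero_iff hb p).1 e)
  have hx : xc (p • Affine.Point.some r b hb) = x := by
    have := xc_zsmul hb (p : ℤ) (by rwa [natCast_zsmul])
    rw [natCast_zsmul] at this
    rw [this, hr, mul_div_cancel_right₀ _ hΨ]
  rcases eq_or_eq_neg_of_xc_eq hne (Affine.Point.some_ne_zero h) (by rw [hx, xc_some]) with e | e
  · exact ⟨_, e⟩
  · exact ⟨-.some r b hb, by rw [smul_neg, e, neg_neg]⟩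

variable (hodd : Odd p) (hpA : A.valuation (p : L) < 1) (hpL : (p : L) ≠ 0)

theorem natCast_res_eq_zero (hpA : A.valuation (p : L) < 1) : (p : Res A) = 0 := by
  rw [← map_natCast (IsLocalRing.residue A), IsLocalRing.residue_eq_zero_iff,
    ← A.coe_mem_nonunits_iff, A.mem_nonunits_iff]
  simpa using hpA

/-- The values of `f` on `A` all have the value at `0` if no root is integral. -/
theorem valuation_eval_eq {f : L[X]} (h : ∀ x ∈ f.roots, 1 < A.valuation x) {a : L} (ha : a ∈ A) :
    A.valuation (f.eval a) = A.valuation (f.eval 0) := by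
  rw [(IsAlgClosed.splits f).eval_eq_prod_roots, (IsAlgClosed.splits f).eval_eq_prod_roots,
    map_mul, map_mul, map_multiset_prod, map_multiset_prod, Multiset.map_map, Multiset.map_map]
  congr 2
  refine Multiset.map_congr rfl fun x hx => ?_
  simp only [Function.comp_apply, zero_sub, A.valuation.map_neg]
  exact A.valuation.map_sub_eq_of_lt_right (((A.valuation_le_one_iff a).2 ha).trans_lt (h x hx))

include hodd in
theorem eq_zero_iff_root {x y : L} (h : W.toAffine.Nonsingular x y) :
    p • (Affine.Point.some x y h : W.toAffine.Point) = 0 ↔ (W.preΨ' p).eval x = 0 :=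
  eval_preΨ'_eq_zero_iff hodd h

include hodd hpA hpL in
/-- A point of order `p` on the reduced curve is met by one upstairs. -/
theorem exists_nonzero_red {R : (redCurve A W.toAffine hI).toAffine.Point} (hR : p • R = 0)
    (hR0 : R ≠ 0) : ∃ P : W.toAffine.Point, p • P = 0 ∧ redHom hI hΔ P ≠ 0 := by
  haveI : IsAlgClosed (Res A) := residueField_isAlgClosed A
  set W₁ := intModel A W.toAffine hI
  have hmap : W₁.map A.subtype = W := intModel_map A W.toAffine hI
  set f := W.preΨ' p with hf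
  set f₁ := W₁.preΨ' p
  have hf₁ : f = f₁.map A.subtype := by rw [hf, ← map_preΨ', hmap]
  set fr := (redCurve A W.toAffine hI).preΨ' p with hfr
  have hfr₁ : fr = f₁.map (IsLocalRing.residue A) := by rw [hfr, redCurve, map_preΨ']
  have hev : ∀ a : A, fr.eval (IsLocalRing.residue A a) = 0 ↔ A.valuation (f.eval (a : L)) < 1 :=
    fun a => by
    rw [hfr₁, eval_map, eval₂_at_apply, IsLocalRing.residue_eq_zero_iff, ← A.coe_mem_nonunits_iff,
      A.mem_nonunits_iff, hf₁, eval_map, show (a : L) = A.subtype a from rfl, eval₂_at_apply]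
    rfl
  obtain ⟨xr, yr, hns, rfl⟩ := exists_some_of_ne_zero hR0
  obtain ⟨a₀, rfl⟩ := IsLocalRing.residue_surjective xr
  have h0 : A.valuation (f.eval (a₀ : L)) < 1 := (hev a₀).1 (by
    have h := (nsmul_eq_zero_iff hns p).1 hR
    rw [ΨSq_ofNat, if_neg (Nat.not_even_iff_odd.2 hodd), mul_one, eval_pow] at h
    exact (pow_eq_zero_iff two_ne_zero).1 h)
  obtain ⟨x, hx, hxA⟩ : ∃ x, x ∈ f.roots ∧ A.valuation x ≤ 1 := by
    by_contra hc
    push Not at hc
    have hall : ∀ r : Res A, fr.IsRoot r := fun r => by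
      obtain ⟨a, rfl⟩ := IsLocalRing.residue_surjective r
      rw [IsRoot.def, hev, valuation_eval_eq hc a.2, ← valuation_eval_eq hc a₀.2]
      exact h0
    refine preΨ'_ne_zero_charP (redCurve A W.toAffine hI) hp.out hodd ?_
    exact eq_zero_of_infinite_isRoot fr (Set.infinite_univ.mono fun r _ => hall r)
  obtain ⟨y, hy⟩ := exists_nonsingular W x
  refine ⟨.some x y hy, (eq_zero_iff_root hodd hy).2 (mem_roots'.1 hx).2, ?_⟩
  rw [redHom_apply, ne_eq, redFun_eq_zero_iff, e1_some, not_lt]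
  exact hxA

include hodd hpA hpL in
/-- The kernel of reduction has a point of order `p`. -/
theorem exists_kernel_point :
    ∃ P : W.toAffine.Point, P ≠ 0 ∧ p • P = 0 ∧ redHom hI hΔ P = 0 := by
  haveI : IsAlgClosed (Res A) := residueField_isAlgClosed A
  set W₁ := intModel A W.toAffine hI
  have hmap : W₁.map A.subtype = W := intModel_map A W.toAffine hI
  set f := W.preΨ' p with hf
  by_contra hc
  push Not at hc
  have hroots : ∀ x ∈ f.roots, A.valuation x ≤ 1 := fun x hx => by
    by_contra hlt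
    obtain ⟨y, hy⟩ := exists_nonsingular W x
    refine hc _ (Affine.Point.some_ne_zero hy) ((eq_zero_iff_root hodd hy).2 (mem_roots'.1 hx).2) ?_
    rw [redHom_apply, redFun_eq_zero_iff, e1_some]
    exact not_le.1 hlt
  let g : A[X] := C ⟨(p : L), mem_of_le A hpA.le⟩ *
    (f.roots.attach.map fun x => X - C ⟨x.1, mem_of_le A (hroots x.1 x.2)⟩).prod
  have hg : g.map A.subtype = f := by
    conv_rhs => rw [(IsAlgClosed.splits f).eq_prod_roots, hf, W.leadingCoeff_preΨ' hpL,
      if_neg (Nat.not_even_iff_odd.2 hodd)]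
    rw [Polynomial.map_mul, map_C, Polynomial.map_multiset_prod, Multiset.map_map]
    congr 2
    conv_rhs => rw [← hf, ← Multiset.attach_map_val f.roots, Multiset.map_map]
    exact Multiset.map_congr rfl fun x _ => by simp
  have he : W₁.preΨ' p = g := map_injective A.subtype Subtype.coe_injective (by
    rw [hg, hf, ← map_preΨ', hmap])
  refine preΨ'_ne_zero_charP (redCurve A W.toAffine hI) hp.out hodd ?_
  rw [redCurve, map_preΨ', he, Polynomial.map_mul, map_C]
  have : IsLocalRing.residue A ⟨(p : L), mem_of_le A hpA.le⟩ = 0 := by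
    rw [show (⟨(p : L), mem_of_le A hpA.le⟩ : A) = (p : A) from Subtype.ext (by simp), map_natCast]
    exact natCast_res_eq_zero hpA
  rw [this, C_0, zero_mul]

variable {R₀ : (redCurve A W.toAffine hI).toAffine.Point}

include hodd hpA hpL in
/-- The kernel on the `p`-torsion is generated by any of its nonzero points. -/
theorem kernel_cyclic_one (hR : p • R₀ = 0) (hR0 : R₀ ≠ 0) {Q S : W.toAffine.Point} (hQ : p • Q = 0)
    (hQr : redHom hI hΔ Q = 0) (hQ0 : Q ≠ 0) (hS : p • S = 0) (hSr : redHom hI hΔ S = 0) :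
    S ∈ AddSubgroup.zmultiples Q := by
  obtain ⟨P, hP, hPr⟩ := exists_nonzero_red hI hΔ hodd hpA hpL hR hR0
  have hc := natCard_nsmul_eq_zero W hpL
  haveI : Finite (killed W p) :=
    Nat.finite_of_card_ne_zero (hc.trans_ne (pow_ne_zero _ hp.out.ne_zero))
  have hfin : (killed W p : Set W.toAffine.Point).Finite := Set.toFinite _
  let H : AddSubgroup W.toAffine.Point := killed W p ⊓ (redHom hI hΔ).ker
  haveI : Finite H := (hfin.subset fun x hx => hx.1).to_subtype
  refine mem_zmultiples_of_card_lt hp.out H (fun x hx => hx.1) ?_ ⟨hQ, hQr⟩ hQ0 ⟨hS, hSr⟩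
  calc Nat.card H = (H : Set W.toAffine.Point).ncard := Nat.card_coe_set_eq _
    _ < (killed W p : Set W.toAffine.Point).ncard :=
        Set.ncard_lt_ncard ⟨fun x hx => hx.1, fun h => hPr (h hP).2⟩ hfin
    _ = p ^ 2 := (Nat.card_coe_set_eq _).symm.trans hc

include hodd hpA hpL in
/-- The kernel on the `p ^ (n + 1)`-torsion is generated by any point of that order. -/
theorem kernel_cyclic (hR : p • R₀ = 0) (hR0 : R₀ ≠ 0) :
    ∀ (n : ℕ) {Q S : W.toAffine.Point}, p ^ (n + 1) • Q = 0 → redHom hI hΔ Q = 0 →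
      p ^ n • Q ≠ 0 → p ^ (n + 1) • S = 0 → redHom hI hΔ S = 0 →
      S ∈ AddSubgroup.zmultiples Q := by
  intro n
  induction n with
  | zero =>
    intro Q S hQ hQr hQ0 hS hSr
    simp only [zero_add, pow_one, pow_zero, one_smul] at hQ hQ0 hS
    exact kernel_cyclic_one hI hΔ hodd hpA hpL hR hR0 hQ hQr hQ0 hS hSr
  | succ n ih =>
    intro Q S hQ hQr hQ0 hS hSr
    have key : ∀ {X : W.toAffine.Point} (j : ℕ), p ^ j • (p • X) = p ^ (j + 1) • X := fun j => by
      rw [← mul_smul, ← pow_succ]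
    obtain ⟨i, hi⟩ := AddSubgroup.mem_zmultiples_iff.1 (ih (Q := p • Q) (S := p • S)
      (by rw [key]; exact hQ) (by rw [map_nsmul, hQr, nsmul_zero]) (by rw [key]; exact hQ0)
      (by rw [key]; exact hS) (by rw [map_nsmul, hSr, nsmul_zero]))
    obtain ⟨l, hl⟩ := AddSubgroup.mem_zmultiples_iff.1
      (kernel_cyclic_one hI hΔ hodd hpA hpL hR hR0 (Q := p ^ (n + 1) • Q) (S := S - i • Q)
      (by rw [← mul_smul, ← pow_succ']; exact hQ) (by rw [map_nsmul, hQr, nsmul_zero]) hQ0
      (by rw [smul_sub, smul_comm, hi, sub_self]) (by rw [map_sub, map_zsmul, hSr, hQr, zsmul_zero, sub_zero]))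
    refine AddSubgroup.mem_zmultiples_iff.2 ⟨i + l * (p ^ (n + 1) : ℕ), ?_⟩
    rw [add_smul, mul_smul, natCast_zsmul, hl, add_sub_cancel]

include hodd hpA hpL in
/-- Compatible generators of the kernels. -/
theorem exists_chain (hR : p • R₀ = 0) (hR0 : R₀ ≠ 0) : ∃ Q : ℕ → W.toAffine.Point,
    Q 0 ≠ 0 ∧ p • Q 0 = 0 ∧ (∀ n, redHom hI hΔ (Q n) = 0) ∧ ∀ n, p • Q (n + 1) = Q n := by
  haveI : IsAlgClosed (Res A) := residueField_isAlgClosed A
  obtain ⟨P, hP, hPr⟩ := exists_nonzero_red hI hΔ hodd hpA hpL hR hR0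
  obtain ⟨Q₀, hQ0, hQp, hQr⟩ := exists_kernel_point hI hΔ hodd hpA hpL
  obtain ⟨hfin, hlt⟩ := card_killed_lt (redCurve A W.toAffine hI) hp.out hodd
    (natCast_res_eq_zero hpA)
  have hstep : ∀ S : {S // redHom hI hΔ S = 0}, ∃ T : {T // redHom hI hΔ T = 0},
      p • T.1 = S.1 := fun ⟨S, hS⟩ => by
    obtain ⟨R, hR'⟩ := exists_nsmul_eq (p := p) S
    obtain ⟨i, hi⟩ := AddSubgroup.mem_zmultiples_iff.1 (mem_zmultiples_of_card_lt hp.out
      (killed (redCurve A W.toAffine hI) p) (fun x hx => hx) hlt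
      (Q := redHom hI hΔ P) (S := redHom hI hΔ R)
      (by show p • redHom hI hΔ P = 0; rw [← map_nsmul, hP, map_zero]) hPr
      (by show p • redHom hI hΔ R = 0; rw [← map_nsmul, hR', hS]))
    refine ⟨⟨R - i • P, by rw [map_sub, map_zsmul, hi, sub_self]⟩, ?_⟩
    show p • (R - i • P) = S
    rw [smul_sub, smul_comm, hP, zsmul_zero, sub_zero, hR']
  choose T hT using hstep
  exact ⟨fun n => (T^[n] ⟨Q₀, hQr⟩).1, hQ0, hQp, fun n => (T^[n] ⟨Q₀, hQr⟩).2, fun n => by
    show p • (T^[n + 1] ⟨Q₀, hQr⟩).1 = _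
    rw [Function.iterate_succ_apply', hT]⟩

include hodd hpA hpL in
/-- In the kernel the abscissa grows on multiplying by `p`. -/
theorem valuation_lt_of_kernel {Q : W.toAffine.Point} (hQ : redHom hI hΔ Q = 0)
    (h0 : p • Q ≠ 0) : 1 < A.valuation (xc Q) ∧ A.valuation (xc Q) < A.valuation (xc (p • Q)) := by
  obtain ⟨x, y, h, rfl⟩ := exists_some_of_ne_zero (P := Q) fun e => h0 (by rw [e, nsmul_zero])
  rw [redHom_apply, redFun_eq_zero_iff, e1_some] at hQ
  refine ⟨by rwa [xc_some], ?_⟩
  rw [xc_some, ← natCast_zsmul, xc_zsmul h _ (by rwa [natCast_zsmul]), ΨSq_ofNat,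
    if_neg (Nat.not_even_iff_odd.2 hodd), mul_one, eval_pow, map_div₀, map_pow]
  set v := A.valuation
  have hx0 : (0 : _) < v x := zero_lt_one.trans hQ
  have hΦ : v ((W.Φ (p : ℤ)).eval x) = v x ^ (p ^ 2) := by
    set W₁ := intModel A W.toAffine hI
    have hmap : W₁.map A.subtype = W := intModel_map A W.toAffine hI
    have hd : (W.Φ (p : ℤ)).natDegree = p ^ 2 := by simp
    rw [eval_eq_sum_range, Finset.sum_range_succ, hd, v.map_add_eq_of_lt_right]
    · rw [← hd, coeff_natDegree, leadingCoeff_Φ, one_mul, map_pow]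
    · rw [show (W.Φ (p : ℤ)).coeff (p ^ 2) = 1 by rw [← hd, coeff_natDegree, leadingCoeff_Φ],
        one_mul, map_pow]
      refine v.map_sum_lt (pow_ne_zero _ hx0.ne') fun i hi => ?_
      rw [map_mul, map_pow]
      refine (mul_le_of_le_one_left' ?_).trans_lt
        (pow_lt_pow_right₀ hQ (Finset.mem_range.1 hi))
      rw [← hmap, map_Φ, coeff_map]
      exact (A.valuation_le_one_iff _).2 ((W₁.Φ (p : ℤ)).coeff i).2
  set d := (p ^ 2 - 1) / 2 with hdd
  have hd : (W.preΨ' p).natDegree = d := by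
    rw [W.natDegree_preΨ' hpL, if_neg (Nat.not_even_iff_odd.2 hodd)]
  have hΨ : v ((W.preΨ' p).eval x) < v x ^ d := by
    rw [eval_eq_sum_range, hd]
    refine v.map_sum_lt (pow_ne_zero _ hx0.ne') fun i hi => ?_
    rw [map_mul, map_pow]
    rcases lt_or_eq_of_le (Nat.lt_succ_iff.1 (Finset.mem_range.1 hi)) with hlt | rfl
    · exact (mul_le_of_le_one_left' (coeff_preΨ'_le_one hI p i)).trans_lt
        (pow_lt_pow_right₀ hQ hlt)
    · rw [← hd, coeff_natDegree, W.leadingCoeff_preΨ' hpL, if_neg (Nat.not_even_iff_odd.2 hodd),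
        hd]
      exact mul_lt_of_lt_one_left (pow_pos hx0 _) hpA
  have hne : (W.preΨ' p).eval x ≠ 0 := fun e => h0 ((eq_zero_iff_root hodd h).2 e)
  rw [hΦ, lt_div_iff₀ (pow_pos (v.pos_iff.2 hne) 2)]
  calc v x * v ((W.preΨ' p).eval x) ^ 2 < v x * (v x ^ d) ^ 2 :=
        mul_lt_mul_of_pos_left (pow_lt_pow_left₀ hΨ zero_le two_ne_zero) hx0
    _ = v x ^ (p ^ 2) := by
        have : p ^ 2 = 1 + d * 2 := by
          obtain ⟨l, rfl⟩ := hodd
          rw [hdd, show (2 * l + 1) ^ 2 = 2 * (2 * l * l + 2 * l) + 1 by ring]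
          omega
        rw [this, pow_add, pow_one, pow_mul]

end FA.CMReduction

end
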