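import Fermat.Agent.Supersingular.CMInertia
import Fermat.Agent.ThirteenOrders.Curve
import Fermat.Agent.Tau.SingularConjugate
import Mathlib.AlgebraicGeometry.EllipticCurve.IsomOfJ
import Mathlib.FieldTheory.IsAlgClosed.AlgebraicClosure

/-!
# Deuring: singular moduli reduce to supersingular invariants at non-split primes

A short Legendre model of a singular modulus has good reduction above every `p ≥ 5`, and the
multiplier of its lattice gives an endomorphism of the `p`-power torsion commuting with the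
automorphisms of `ℚ̄` fixing the coefficients and the multiplier. If `D` is no square in `ℚ_p` the
reduced curve therefore has no point of order `p`.
-/

set_option autoImplicit false
set_option linter.style.haveILetI false

noncomputable section

open WeierstrassCurve Polynomial
open scoped Classical UpperHalfPlane

namespace FA.CMReduction

open FA.Frob FA.Local FA.EC FA.ClassNumberOne FA.Mazur.Wp
open FA.ModField (jfun)

local notation "Qb" => AlgebraicClosure ℚ
local notation "GQ" => AlgebraicClosure ℚ ≃ₐ[ℚ] AlgebraicClosure ℚ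

/-- The short model of the Legendre curve. -/
def shortLegendre {F : Type*} [Field F] (t : F) : WeierstrassCurve F :=
  ⟨0, 0, 0, -(t ^ 2 - t + 1) / 3, -((t + 1) * (t - 2) * (2 * t - 1)) / 27⟩

theorem shortLegendre_Δ {F : Type*} [Field F] (h3 : (3 : F) ≠ 0) (t : F) :
    (shortLegendre t).Δ = 16 * (t * (t - 1)) ^ 2 := by
  have h27 : (27 : F) ≠ 0 := by rw [show (27 : F) = 3 ^ 3 by norm_num]; exact pow_ne_zero _ h3
  simp only [shortLegendre, WeierstrassCurve.Δ, b₂, b₄, b₆, b₈]
  field_simp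
  ring

theorem shortLegendre_j {F : Type*} [Field F] (h3 : (3 : F) ≠ 0) (t : F)
    [(shortLegendre t).IsElliptic] :
    (shortLegendre t).j * (16 * (t * (t - 1)) ^ 2) = 16 ^ 3 * (t ^ 2 - t + 1) ^ 3 := by
  rw [WeierstrassCurve.j, ← shortLegendre_Δ h3 t, Units.val_inv_eq_inv_val,
    WeierstrassCurve.coe_Δ', mul_comm, ← mul_assoc,
    mul_inv_cancel₀ (shortLegendre t).isUnit_Δ.ne_zero, one_mul]
  simp only [shortLegendre, c₄, b₂, b₄]
  field_simp
  ring

variable {p : ℕ} [hp : Fact p.Prime] {A : ValuationSubring Qb}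

/-- A root modulo the place of a monic integral polynomial lifts to one in the valuation ring. -/
theorem exists_root_lift {H : ℤ[X]} (hH : H.Monic) {r : Res A}
    (hr : (H.map (Int.castRingHom (Res A))).IsRoot r) :
    ∃ z : A, IsLocalRing.residue A z = r ∧ aeval (z : Qb) H = 0 := by
  set f : Qb[X] := H.map (Int.castRingHom Qb) with hf
  have hfm : f.Monic := hH.map _
  have hroots : ∀ x ∈ f.roots, A.valuation x ≤ 1 := fun x hx => by
    refine root_le_one (P := f) (fun k => ?_) (by rw [hfm.leadingCoeff, map_one])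
      (mem_roots'.1 hx).2
    rw [hf, coeff_map]
    exact (A.valuation_le_one_iff _).2 (intCast_mem A _)
  set g : A[X] :=
    (f.roots.attach.map fun x => X - C ⟨x.1, mem_of_le A (hroots x.1 x.2)⟩).prod with hg
  have hgf : g = H.map (Int.castRingHom A) := map_injective A.subtype Subtype.coe_injective (by
    rw [Polynomial.map_map,
      show A.subtype.comp (Int.castRingHom A) = Int.castRingHom Qb from RingHom.ext_int _ _, ← hf,
      hg, Polynomial.map_multiset_prod, Multiset.map_map]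
    conv_rhs => rw [(IsAlgClosed.splits f).eq_prod_roots_of_monic hfm,
      ← Multiset.attach_map_val f.roots, Multiset.map_map]
    congr 1
    exact Multiset.map_congr rfl fun x _ => by simp)
  have h0 : (g.map (IsLocalRing.residue A)).IsRoot r := by
    rwa [hgf, Polynomial.map_map, show (IsLocalRing.residue A).comp (Int.castRingHom A) =
      Int.castRingHom (Res A) from RingHom.ext_int _ _]
  rw [hg, Polynomial.map_multiset_prod, Multiset.map_map, IsRoot.def, eval_multiset_prod,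
    Multiset.map_map, Multiset.prod_eq_zero_iff] at h0
  obtain ⟨x, -, hx⟩ := Multiset.mem_map.1 h0
  refine ⟨⟨x.1, mem_of_le A (hroots x.1 x.2)⟩, ?_, ?_⟩
  · simp only [Function.comp_apply, Polynomial.map_sub, map_X, map_C, eval_sub, eval_X, eval_C,
      sub_eq_zero] at hx
    exact hx.symm
  · have h2 := (mem_roots'.1 x.2).2
    have h3 : ∀ y : Qb, f.eval y = aeval y H := fun y => by
      rw [hf, eval_map, aeval_def, RingHom.ext_int (algebraMap ℤ Qb) (Int.castRingHom Qb)]
    rw [IsRoot.def, h3] at h2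
    exact h2

/-- The short Legendre model of an integral invariant, with good reduction. -/
theorem exists_model (hp5 : 5 ≤ p) (hA : A.LiesOverPrime p) (z : A) :
    ∃ (t : Qb) (_ : (shortLegendre t).IsElliptic), (shortLegendre t).j = z ∧
      IntCoeff A.valuation (shortLegendre t).toAffine ∧
      A.valuation (shortLegendre t).toAffine.Δ = 1 := by
  haveI := residueField_charP A hp.out hA
  have hnat : ∀ m : ℕ, m ≠ 0 → m < p → A.valuation (m : Qb) = 1 := fun m hm hmp => by
    have hr : (m : Res A) ≠ 0 := fun h => hm (Nat.eq_zero_of_dvd_of_lt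
      ((CharP.cast_eq_zero_iff (Res A) p m).1 h) hmp)
    have hu : IsUnit (m : A) := IsLocalRing.notMem_maximalIdeal.1 fun h => hr (by
      rw [← map_natCast (IsLocalRing.residue A)]
      exact (IsLocalRing.residue_eq_zero_iff _).2 h)
    simpa using (valuation_eq_one_iff A _).2 hu
  have h2 : A.valuation (2 : Qb) = 1 := by exact_mod_cast hnat 2 two_ne_zero (by omega)
  have h3 : A.valuation (3 : Qb) = 1 := by exact_mod_cast hnat 3 three_ne_zero (by omega)
  set P : Qb[X] := C (256 : Qb) * (X ^ 2 - X + 1) ^ 3 - C (z : Qb) * (X * (X - 1)) ^ 2 with hP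
  have hc : P.coeff 6 = 256 := by
    have h1 : ((X ^ 2 - X + 1 : Qb[X]) ^ 3).coeff (3 * 2) = ((X ^ 2 - X + 1 : Qb[X]).coeff 2) ^ 3 :=
      coeff_pow_of_natDegree_le (by compute_degree)
    have h1' : (X ^ 2 - X + 1 : Qb[X]).coeff 2 = 1 := by simp [coeff_X, coeff_one]
    have h2' : (C (z : Qb) * (X * (X - 1)) ^ 2).coeff 6 = 0 :=
      coeff_eq_zero_of_natDegree_lt (Nat.lt_of_le_of_lt (m := 4) (by compute_degree) (by norm_num))
    rw [hP, coeff_sub, h2', sub_zero, coeff_C_mul, show (6 : ℕ) = 3 * 2 from rfl, h1, h1', one_pow,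
      mul_one]
  have hd : P.natDegree = 6 := by
    refine natDegree_eq_of_le_of_coeff_ne_zero ?_ (by rw [hc]; norm_num)
    rw [hP]; compute_degree
  obtain ⟨t, ht⟩ := IsAlgClosed.exists_root P (fun h0 => by
    rw [natDegree_eq_zero_iff_degree_le_zero.2 h0.le] at hd; omega)
  have hle : A.valuation t ≤ 1 := by
    refine root_le_one (P := P) (fun k => ?_) ?_ ht
    · let P₁ : A[X] := C (256 : A) * (X ^ 2 - X + 1) ^ 3 - C z * (X * (X - 1)) ^ 2
      have : P = P₁.map A.subtype := by simp [hP, P₁, map_ofNat]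
      rw [this, coeff_map]
      exact (A.valuation_le_one_iff _).2 (P₁.coeff k).2
    · rw [leadingCoeff, hd, hc, show (256 : Qb) = 2 ^ 8 by norm_num, map_pow, h2, one_pow]
  have ht' : 256 * (t ^ 2 - t + 1) ^ 3 = (z : Qb) * (t * (t - 1)) ^ 2 := by
    simp only [IsRoot.def, hP, eval_sub, eval_mul, eval_C, eval_pow, eval_add, eval_X, eval_one]
      at ht
    linear_combination ht
  set T : A := ⟨t, mem_of_le A hle⟩
  have hT : (256 : A) * (T ^ 2 - T + 1) ^ 3 = z * (T * (T - 1)) ^ 2 := Subtype.ext (by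
    push_cast; exact ht')
  have h256 : (256 : Res A) ≠ 0 := fun h => by
    have e : ((2 : ℕ) : Res A) ^ 8 = 0 := by rw [← h]; norm_num
    have := (CharP.cast_eq_zero_iff (Res A) p 2).1 ((pow_eq_zero_iff (by norm_num)).1 e)
    exact absurd (Nat.le_of_dvd two_pos this) (by omega)
  have hres : IsLocalRing.residue A (T * (T - 1)) ≠ 0 := fun h0 => by
    have := congrArg (IsLocalRing.residue A) hT
    simp only [map_mul, map_pow, map_sub, map_add, map_one, map_ofNat] at this h0
    rw [h0, zero_pow two_ne_zero, mul_zero] at this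
    have hq : IsLocalRing.residue A T ^ 2 - IsLocalRing.residue A T + 1 = 0 :=
      (pow_eq_zero_iff three_ne_zero).1 ((mul_eq_zero.1 this).resolve_left h256)
    exact one_ne_zero (α := Res A) (by linear_combination hq - h0)
  have hunit : A.valuation (t * (t - 1)) = 1 := by
    have := (valuation_eq_one_iff A (T * (T - 1))).2
      (IsLocalRing.notMem_maximalIdeal.1 fun h => hres ((IsLocalRing.residue_eq_zero_iff _).2 h))
    simpa [T] using this
  have h30 : (3 : Qb) ≠ 0 := three_ne_zero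
  have hΔ : A.valuation (shortLegendre t).toAffine.Δ = 1 := by
    show A.valuation (shortLegendre t).Δ = 1
    rw [shortLegendre_Δ h30, map_mul, map_pow, hunit, show (16 : Qb) = 2 ^ 4 by norm_num, map_pow,
      h2, one_pow, one_pow, one_mul]
  haveI hE : (shortLegendre t).IsElliptic := ⟨by
    rw [isUnit_iff_ne_zero]
    intro e
    rw [show (shortLegendre t).toAffine.Δ = (shortLegendre t).Δ from rfl, e, map_zero] at hΔ
    exact zero_ne_one hΔ⟩
  refine ⟨t, hE, ?_, ?_, hΔ⟩
  · have hne : (16 : Qb) * (t * (t - 1)) ^ 2 ≠ 0 := by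
      rw [← shortLegendre_Δ h30]; exact hE.isUnit.ne_zero
    refine mul_right_cancel₀ hne ?_
    rw [shortLegendre_j h30]
    linear_combination 16 * ht'
  · have hint : ∀ a : A, A.valuation (a : Qb) ≤ 1 := fun a => (A.valuation_le_one_iff _).2 a.2
    refine ⟨by simp [shortLegendre], by simp [shortLegendre], by simp [shortLegendre], ?_, ?_⟩
    · show A.valuation (-(t ^ 2 - t + 1) / 3) ≤ 1
      rw [map_div₀, A.valuation.map_neg, h3, div_one]
      exact hint (T ^ 2 - T + 1)
    · show A.valuation (-((t + 1) * (t - 2) * (2 * t - 1)) / 27) ≤ 1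
      rw [map_div₀, A.valuation.map_neg, show (27 : Qb) = 3 ^ 3 by norm_num, map_pow, h3, one_pow,
        div_one]
      exact hint ((T + 1) * (T - 2) * (2 * T - 1))

/-- The numbers fixed with the multiplier: the coefficients and the multiplier. -/
def fixing (W : WeierstrassCurve Qb) (t : Qb) : Finset Qb := {W.a₄, W.a₆, t}

theorem map_eq_of_fixing {a b t : Qb} (W : WeierstrassCurve Qb) (hW : W = ⟨0, 0, 0, a, b⟩)
    (σ : GQ) (hσ : ∀ x ∈ fixing W t, σ x = x) : W.map (σ : Qb →+* Qb) = W := by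
  subst hW
  ext <;> simp [hσ a (by simp [fixing]), hσ b (by simp [fixing])]

/-- The multiplier is algebraic. -/
theorem exists_theta (ι : Qb →+* ℂ) {τ : ℍ} {A₀ B C₀ : ℤ}
    (h : FA.ThirteenOrders.IsRootOf τ A₀ B C₀) : ∃ t : Qb, ι t = (A₀ : ℂ) * τ := by
  set θ : ℂ := (A₀ : ℂ) * τ with hθ
  obtain ⟨r, hr⟩ := IsAlgClosed.exists_pow_nat_eq ((B ^ 2 - 4 * A₀ * C₀ : ℤ) : Qb) two_pos
  have e : (2 * θ + B) ^ 2 = ι r ^ 2 := by
    rw [← map_pow, hr, map_intCast, hθ, ← mul_assoc, h.sq]
  rcases sq_eq_sq_iff_eq_or_eq_neg.1 e with e | e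
  · exact ⟨(r - B) / 2, by
      rw [map_div₀, map_sub, map_intCast, map_ofNat, ← e]; ring⟩
  · exact ⟨(-r - B) / 2, by
      rw [map_div₀, map_sub, map_neg, map_intCast, map_ofNat, ← e]; ring⟩

/-- The multiplier of the lattice on the `p`-power torsion of a model of a singular modulus, with
the numbers to be fixed independent of `p`. -/
theorem exists_multiplier_of (p : ℕ) [Fact p.Prime] (ι : Qb →+* ℂ) {a b : Qb}
    (W : WeierstrassCurve Qb) (hW : W = ⟨0, 0, 0, a, b⟩) [W.IsElliptic]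
    {τ : ℍ} {A₀ B C₀ : ℤ} (h : FA.ThirteenOrders.IsRootOf τ A₀ B C₀)
    (hj : ι W.j = jfun τ) {t : Qb} (ht : ι t = (A₀ : ℂ) * τ) :
    ∃ M : primary W p →+ primary W p,
      (∀ P, M (M P) + B • M P + (A₀ * C₀) • P = 0) ∧
      (∀ (σ : GQ) (hσ : ∀ x ∈ fixing W t, σ x = x) (P Q : primary W p),
        mapPt (σ : Qb →+* Qb) (map_eq_of_fixing W hW σ hσ) P.1 = Q.1 →
          mapPt (σ : Qb →+* Qb) (map_eq_of_fixing W hW σ hσ) (M P).1 = (M Q).1) ∧
      ∀ k : ℤ, ∃ P : primary W p, p • P = 0 ∧ M P ≠ k • P := by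
  -- the lattice
  have hne : (-4 * ι a) ^ 3 - 27 * (-4 * ι b) ^ 2 ≠ 0 := by
    have h1 : W.Δ = -16 * (4 * a ^ 3 + 27 * b ^ 2) := by
      subst hW; simp [WeierstrassCurve.Δ, b₂, b₄, b₆, b₈]; ring
    intro e
    refine W.isUnit_Δ.ne_zero (ι.injective ?_)
    rw [h1, map_zero, map_mul, map_add, map_mul, map_mul, map_pow, map_pow, map_neg, map_ofNat,
      map_ofNat, map_ofNat]
    linear_combination e
  have hjL : (-4 * ι a) ^ 3 / ((-4 * ι a) ^ 3 - 27 * (-4 * ι b) ^ 2) = jLat (latPair τ) := by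
    have hW' : W.j * W.Δ = W.c₄ ^ 3 := by
      rw [WeierstrassCurve.j, Units.val_inv_eq_inv_val, WeierstrassCurve.coe_Δ', mul_comm,
        ← mul_assoc, mul_inv_cancel₀ W.isUnit_Δ.ne_zero, one_mul]
    rw [div_eq_iff hne]
    have := congrArg ι hW'
    rw [map_mul, hj, FA.ThirteenOrders.jfun_eq_jLat] at this
    subst hW
    simp only [WeierstrassCurve.Δ, WeierstrassCurve.c₄, b₂, b₄, b₆, b₈, map_mul, map_sub, map_add,
      map_neg, map_pow, map_zero, map_ofNat] at this
    linear_combination (-(1 / 1728) : ℂ) * this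
  obtain ⟨u, hu, hu4, hu6⟩ := FA.ClassNumberOne.exists_scale hne (discr_latPair_ne_zero τ) hjL
  set L := scaled (latPair τ) (inv_ne_zero hu) with hL
  have hg2 : L.g₂ = -4 * ι a := by rw [hL, g₂_scaled, inv_inv, hu4]
  have hg3 : L.g₃ = -4 * ι b := by rw [hL, g₃_scaled, inv_inv, hu6]
  haveI : (latCurve L).IsElliptic := isElliptic_latCurve (by rw [hg2, hg3]; exact hne)
  set θ : ℂ := (A₀ : ℂ) * τ with hθ
  have hstab : ∀ l ∈ L.lattice, θ * l ∈ L.lattice := fun l hl => by
    rw [hL, mem_scaled] at hl ⊢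
    rw [mul_assoc]
    exact h.stable _ hl
  have hpoly := h.poly
  rw [← hθ] at hpoly
  have hn : A₀ * C₀ ≠ 0 := mul_ne_zero h.pos.ne' h.C_pos.ne'
  set μ := mulPt L hstab with hμ
  have hμμ : ∀ Q, μ (μ Q) + B • μ Q + (A₀ * C₀) • Q = 0 := fun Q => by
    obtain ⟨z, rfl⟩ := unif_surjective L Q
    rw [hμ, mulPt_unif, mulPt_unif, ← unifHom_apply, ← unifHom_apply, ← unifHom_apply,
      ← map_zsmul, ← map_zsmul, ← map_add, ← map_add, ← map_zero (unifHom L)]
    congr 1
    rw [zsmul_eq_mul, zsmul_eq_mul]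
    push_cast at hpoly ⊢
    linear_combination z * hpoly
  have hmap : W.map ι = latCurve L := by
    subst hW
    ext <;> simp [latCurve, hg2, hg3]
  let j : W.toAffine.Point →+ (latCurve L).toAffine.Point := mapPt ι hmap
  have hinj : Function.Injective j := fun P Q he =>
    sub_eq_zero.1 ((mapPt_eq_zero_iff ι hmap).1 (by rw [map_sub, he, sub_self]))
  have hpre : ∀ (Q : (latCurve L).toAffine.Point) (n : ℕ), p ^ n • Q = 0 →
      ∃ P : primary W p, j P.1 = Q := fun Q n hQ => by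
    have hp0 : (p : Qb) ^ n ≠ 0 := pow_ne_zero _ (Nat.cast_ne_zero.2 (Fact.out : p.Prime).ne_zero)
    have c₁ := natCard_nsmul_eq_zero W (n := p ^ n) (by exact_mod_cast hp0)
    have c₂ := natCard_nsmul_eq_zero (latCurve L) (n := p ^ n)
      (by exact_mod_cast pow_ne_zero n (Nat.cast_ne_zero.2 (Fact.out : p.Prime).ne_zero :
        (p : ℂ) ≠ 0))
    have hpn : (p ^ n) ^ 2 ≠ 0 := pow_ne_zero _ (pow_ne_zero _ (Fact.out : p.Prime).ne_zero)
    haveI : Finite {P : W.toAffine.Point // p ^ n • P = 0} :=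
      Nat.finite_of_card_ne_zero (c₁.trans_ne hpn)
    haveI : Finite {P : (latCurve L).toAffine.Point // p ^ n • P = 0} :=
      Nat.finite_of_card_ne_zero (c₂.trans_ne hpn)
    let g : {P : W.toAffine.Point // p ^ n • P = 0} →
        {P : (latCurve L).toAffine.Point // p ^ n • P = 0} :=
      fun P => ⟨j P.1, by rw [← map_nsmul, P.2, map_zero]⟩
    have hg : Function.Bijective g := (Nat.bijective_iff_injective_and_card g).2
      ⟨fun P P' e => Subtype.ext (hinj (congrArg Subtype.val e)), c₁.trans c₂.symm⟩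
    obtain ⟨⟨P, hP⟩, hPQ⟩ := hg.2 ⟨Q, hQ⟩
    exact ⟨⟨P, n, hP⟩, congrArg Subtype.val hPQ⟩
  have hex : ∀ P : primary W p, ∃ P' : primary W p, j P'.1 = μ (j P.1) := fun P => by
    obtain ⟨n, hn'⟩ := P.2
    exact hpre _ n (by rw [← map_nsmul, ← map_nsmul, hn', map_zero, map_zero])
  choose M hM using hex
  let Mh : primary W p →+ primary W p := AddMonoidHom.mk' M fun P Q => Subtype.ext (hinj (by
    rw [AddSubgroup.coe_add, map_add, hM, hM, hM, AddSubgroup.coe_add, map_add, map_add]))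
  have hMh : ∀ P, j (Mh P).1 = μ (j P.1) := hM
  refine ⟨Mh, fun P => Subtype.ext (hinj ?_), fun σ hσ P Q hPQ => hinj ?_, fun k => ?_⟩
  · rw [AddSubgroup.coe_add, AddSubgroup.coe_add, AddSubgroup.coe_zsmul, AddSubgroup.coe_zsmul,
      map_add, map_add, map_zsmul, map_zsmul, hMh, hMh, AddSubgroup.coe_zero, map_zero, hμμ]
  · letI : Algebra Qb ℂ := ι.toAlgebra
    obtain ⟨σ', hσ'⟩ := FA.Carayol.exists_extend_complex σ
    replace hσ' : ∀ x, σ' (ι x) = ι (σ x) := hσ'
    have hg : σ' L.g₂ = L.g₂ ∧ σ' L.g₃ = L.g₃ := by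
      rw [hg2, hg3]
      constructor <;>
        simp [map_ofNat, hσ', hσ a (by simp [fixing, hW]), hσ b (by simp [fixing, hW])]
    have hθ' : σ' θ = θ := by rw [← ht, hσ', hσ t (by simp [fixing])]
    set e := mapPt (σ' : ℂ →+* ℂ) (map_latCurve σ' hg.1 hg.2) with he
    have hnat : ∀ (h' : W.map (σ : Qb →+* Qb) = W) (R : W.toAffine.Point),
        j (mapPt (σ : Qb →+* Qb) h' R) = e (j R) := by
      rintro h' (_ | ⟨x, y, hxy⟩)
      · rfl
      · show Affine.Point.some _ _ _ = Affine.Point.some _ _ _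
        simp only [Affine.Point.some.injEq]
        exact ⟨(hσ' x).symm, (hσ' y).symm⟩
    rw [hnat, hMh, hMh]
    obtain ⟨z, hz⟩ := unif_surjective L (e (j P.1))
    rw [show e (μ (j P.1)) = _ from (transport σ' hg.1 hg.2 hstab hn hpoly).2 (j P.1) z hz.symm,
      hθ', ← hPQ, hnat, ← hz, hμ, mulPt_unif]
  · by_contra hall
    push Not at hall
    have hp0 : (p : ℂ) ≠ 0 := Nat.cast_ne_zero.2 (Fact.out : p.Prime).ne_zero
    have key : ∀ z : ℂ, (p : ℂ) * z ∈ L.lattice → θ * z - (k : ℂ) * z ∈ L.lattice := by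
      intro z hz
      have hpz : p • unif L z = 0 := by
        rw [← unifHom_apply, ← map_nsmul, nsmul_eq_mul, unifHom_apply, unif_eq_zero_iff]
        exact hz
      obtain ⟨P, hP⟩ := hpre (unif L z) 1 (by rw [pow_one]; exact hpz)
      have hP0 : p • P = 0 := Subtype.ext (hinj (by
        rw [AddSubgroup.coe_nsmul, map_nsmul, hP, hpz, AddSubgroup.coe_zero, map_zero]))
      have h' := congrArg (fun Q : primary W p => j Q.1) (hall P hP0)
      simp only [AddSubgroup.coe_zsmul, map_zsmul, hMh, hP] at h'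
      rw [hμ, mulPt_unif, ← unifHom_apply, ← unifHom_apply, ← map_zsmul, zsmul_eq_mul,
        unifHom_apply, unifHom_apply, unif_eq_unif_iff] at h'
      exact h'
    have key' : ∀ w ∈ (latPair τ).lattice, ∃ m n : ℤ,
        (θ - k) * w = (p : ℂ) * ((m : ℂ) * τ + n) := by
      intro w hw
      have h' := key (w / u / p) (by
        rw [hL, mem_scaled, inv_inv]
        convert hw using 1
        field_simp)
      rw [hL, mem_scaled, inv_inv, mem_latPair] at h'
      obtain ⟨m, n, hmn⟩ := h'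
      exact ⟨m, n, by rw [hmn]; field_simp⟩
    obtain ⟨m₁, n₁, e₁⟩ := key' 1 (mem_latPair.2 ⟨0, 1, by simp⟩)
    obtain ⟨m₂, n₂, e₂⟩ := key' τ (mem_latPair.2 ⟨1, 0, by simp⟩)
    obtain ⟨hA1, hk1⟩ := FA.JInj.eq_zero_of_add (z := τ) (u := A₀ - p * m₁) (v := -k - p * n₁) (by
      rw [hθ] at e₁; push_cast; linear_combination e₁)
    obtain ⟨hB2, hC2⟩ := FA.JInj.eq_zero_of_add (z := τ) (u := -B - k - p * m₂)
      (v := -C₀ - p * n₂) (by
      have hr := h.eq
      rw [hθ] at e₂; push_cast; linear_combination e₂ - hr)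
    have h1 : (p : ℤ) ∣ A₀ := ⟨m₁, by linarith⟩
    have h2 : (p : ℤ) ∣ B := ⟨n₁ - m₂, by linear_combination -hB2 + hk1⟩
    have h3 : (p : ℤ) ∣ C₀ := ⟨-n₂, by linarith⟩
    have h4 := Int.dvd_coe_gcd (Int.dvd_coe_gcd h1 h2) h3
    rw [h.prim, Nat.cast_one] at h4
    exact (Fact.out : p.Prime).not_dvd_one (by exact_mod_cast h4)

/-- The multiplier of the lattice on the `p`-power torsion of a model of a singular modulus. -/
theorem exists_multiplier (p : ℕ) [Fact p.Prime] (ι : Qb →+* ℂ) {a b : Qb}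
    (W : WeierstrassCurve Qb) (hW : W = ⟨0, 0, 0, a, b⟩) [W.IsElliptic]
    {τ : ℍ} {A₀ B C₀ : ℤ} (h : FA.ThirteenOrders.IsRootOf τ A₀ B C₀)
    (hj : ι W.j = jfun τ) :
    ∃ (s : Finset Qb) (hs : ∀ σ : GQ, (∀ x ∈ s, σ x = x) → W.map (σ : Qb →+* Qb) = W)
      (M : primary W p →+ primary W p),
      (∀ P, M (M P) + B • M P + (A₀ * C₀) • P = 0) ∧
      (∀ (σ : GQ) (hσ : ∀ x ∈ s, σ x = x) (P Q : primary W p),
        mapPt (σ : Qb →+* Qb) (hs σ hσ) P.1 = Q.1 →
          mapPt (σ : Qb →+* Qb) (hs σ hσ) (M P).1 = (M Q).1) ∧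
      ∀ k : ℤ, ∃ P : primary W p, p • P = 0 ∧ M P ≠ k • P := by
  obtain ⟨t, ht⟩ := exists_theta ι h
  obtain ⟨M, h1, h2, h3⟩ := exists_multiplier_of p ι W hW h hj ht
  exact ⟨fixing W t, map_eq_of_fixing W hW, M, h1, h2, h3⟩

variable {k : Type*} [Field k] [Algebra (ZMod p) k] [IsAlgClosure (ZMod p) k]

/-- **The reduction of a singular modulus at a non-split prime has no point of order `p`.** -/
theorem no_pTorsion (hp5 : 5 ≤ p) {D : ℤ} (hns : ¬ IsSquare ((D : ℤ) : ℚ_[p])) {H : ℤ[X]}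
    (hH : H.Monic)
    (hroots : ∀ z : ℂ, aeval z H = 0 → ∃ (a b c : ℤ) (τ : ℍ), 0 < a ∧ b ^ 2 - 4 * a * c = D ∧
      Int.gcd (Int.gcd a b) c = 1 ∧ (a : ℂ) * (τ : ℂ) ^ 2 + b * (τ : ℂ) + c = 0 ∧ jfun τ = z)
    (W₀ : WeierstrassCurve k) [W₀.IsElliptic]
    (hr : (H.map (Int.castRingHom k)).IsRoot W₀.j) (P : W₀.toAffine.Point) (hP : p • P = 0) :
    P = 0 := by
  have hodd : Odd p := hp.out.odd_of_ne_two (by omega)
  obtain ⟨A, hA⟩ := FA.Deform.exists_liesOverPrime hp.out
  haveI := residueField_charP A hp.out hA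
  haveI : IsAlgClosed (Res A) := residueField_isAlgClosed A
  letI : Algebra (ZMod p) (Res A) := ZMod.algebra _ p
  haveI : Algebra.IsAlgebraic (ZMod p) k := IsAlgClosure.isAlgebraic
  let φ : k →+* Res A := (IsAlgClosed.lift : k →ₐ[ZMod p] Res A).toRingHom
  obtain ⟨z, hzr, hz⟩ := exists_root_lift (A := A) hH (r := φ W₀.j) (by
    rw [show Int.castRingHom (Res A) = φ.comp (Int.castRingHom k) from RingHom.ext_int _ _,
      ← Polynomial.map_map]
    exact hr.map)
  obtain ⟨t, hE, hjz, hI, hΔ⟩ := exists_model hp5 hA z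
  haveI := hE
  haveI := redCurve_isElliptic hI hΔ
  let ι : Qb →+* ℂ := (IsAlgClosed.lift : Qb →ₐ[ℚ] ℂ).toRingHom
  obtain ⟨a, b, c, τ, ha, hD, hg, hτ, hjf⟩ := hroots (ι z) (by
    rw [aeval_def, ← RingHom.ext_int (ι.comp (algebraMap ℤ Qb)) (algebraMap ℤ ℂ), ← hom_eval₂,
      ← aeval_def, hz, map_zero])
  obtain ⟨s, hs, M, hMM, hcomm, -⟩ := exists_multiplier p ι (shortLegendre t) rfl
    (τ := τ) (A₀ := a) (B := b) (C₀ := c) ⟨ha, hg, hτ⟩ (by rw [hjz, hjf])
  have key := pTorsion_residue_eq_zero (W := shortLegendre t) hI hΔ hodd hA s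
    (fun σ _ h => hs σ h) M hMM (fun σ _ h => hcomm σ h) (by rwa [← mul_assoc, hD])
  -- the same invariant over the residue field
  haveI : (intModel A (shortLegendre t).toAffine hI).IsElliptic := ⟨by
    rw [← valuation_eq_one_iff]
    show A.valuation (A.subtype (intModel A (shortLegendre t).toAffine hI).Δ) = 1
    rw [← WeierstrassCurve.map_Δ, intModel_map]
    exact hΔ⟩
  set W₁ := intModel A (shortLegendre t).toAffine hI with hW₁
  have hj₁ : W₁.j = z := by
    refine Subtype.ext ?_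
    show A.subtype W₁.j = (z : Qb)
    rw [← WeierstrassCurve.map_j, ← hjz]
    exact congrArg _ rfl
  have hjred : (redCurve A (shortLegendre t).toAffine hI).j = (W₀.map φ).j := by
    rw [WeierstrassCurve.map_j, ← hzr, ← hj₁]
    exact WeierstrassCurve.map_j W₁ (IsLocalRing.residue A)
  obtain ⟨C, hC⟩ := exists_variableChange_of_j_eq (E := W₀.map φ)
    (E' := redCurve A (shortLegendre t).toAffine hI) hjred.symm
  refine (mapPt_eq_zero_iff φ (rfl : W₀.map φ = W₀.map φ)).1 ?_
  obtain ⟨R, hR⟩ := (vcEquiv C hC).surjective (mapPt φ rfl P)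
  rw [← hR, key R ((vcEquiv C hC).injective (by rw [map_nsmul, hR, ← map_nsmul, hP, map_zero,
    map_zero])), map_zero]

end FA.CMReduction

end
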