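import Fermat.Agent.CurveRed.Haupt.Function
import Fermat.Agent.Tau.JBound

/-!
# The Hauptmodul of level two and `j`

With `s = Δ(z) / Δ(2 z)`: `j(z) s² = (s + 256)³` and, by the involution `z ↦ -1 / (2 z)`,
`j(2 z) s = (s + 16)³`. Also an elementary bound for `j - q⁻¹` on `Im z ≥ 1`.
-/

set_option autoImplicit false
set_option linter.style.haveILetI false

noncomputable section

open UpperHalfPlane hiding I
open Complex ModularCurve FA.ModField FA.CurveRed.Haupt
open scoped MatrixGroups Real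

namespace FA.Elkies

/-- `j(z) s(z)² = (s(z) + 256)³`. -/
theorem jfun_mul_haupt_sq (z : ℍ) : jfun z * haupt2Fun z ^ 2 = (haupt2Fun z + 256) ^ 3 := by
  haveI : Fact (Nat.Prime 2) := ⟨Nat.prime_two⟩
  set P : Polynomial ℤ := (Polynomial.X + Polynomial.C 256) ^ 3 with hP
  have hrel := isHaupt_two.relation P (by
    simpa [hP, Polynomial.eval₂_pow, Polynomial.eval₂_add, map_ofNat]
      using ordGE_identity_two (R := ℂ)) ℂ
  have h1 := hasExp_jfun.mul (qp_ne_zero 1) (isHaupt_two.exp.pow (qp_ne_zero 1) 2)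
  have h2 := hasExp_poly (qp_ne_zero 1) isHaupt_two.exp (P.map (Int.castRingHom ℂ))
  rw [hrel] at h1
  have := congrFun (h1.fun_unique h2) z
  simpa [hP, map_ofNat] using this

theorem haupt_ne_zero (z : ℍ) : haupt2Fun z ≠ 0 :=
  mul_ne_zero (ModularForm.discriminant_ne_zero _)
    (inv_ne_zero (ModularForm.discriminant_ne_zero _))

theorem scale_S (z : ℍ) :
    scaleH 2 (ModularGroup.S • scaleH 2 z) = ModularGroup.S • z := by
  refine UpperHalfPlane.ext ?_
  rw [coe_scaleH, modular_S_smul, modular_S_smul, coe_mk, coe_mk, coe_scaleH]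
  have := z.ne_zero
  field_simp

/-- The involution `z ↦ -1 / (2 z)` inverts `s / 64`. -/
theorem haupt_fricke (z : ℍ) :
    haupt2Fun (ModularGroup.S • scaleH 2 z) * haupt2Fun z = 4096 := by
  have e := scale_S z
  rw [haupt2Fun, haupt2Fun, e, discriminant_smul, discriminant_smul, ModularGroup.denom_S,
    ModularGroup.denom_S, coe_scaleH]
  have h1 := ModularForm.discriminant_ne_zero z
  have h2 := ModularForm.discriminant_ne_zero (scaleH 2 z)
  have h3 := z.ne_zero
  push_cast
  field_simp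
  norm_num

/-- `j(2 z) s(z) = (s(z) + 16)³`. -/
theorem jfun_scale_mul_haupt (z : ℍ) :
    jfun (scaleH 2 z) * haupt2Fun z = (haupt2Fun z + 16) ^ 3 := by
  have h := jfun_mul_haupt_sq (ModularGroup.S • scaleH 2 z)
  rw [jfun_smul] at h
  have e := haupt_fricke z
  set s := haupt2Fun z
  set s' := haupt2Fun (ModularGroup.S • scaleH 2 z)
  have h' : jfun (scaleH 2 z) * (s' * s) ^ 2 * s = (s' * s + 256 * s) ^ 3 := by
    linear_combination s ^ 3 * h
  rw [e] at h'
  linear_combination h' / 16777216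

/-- `s` determines `j(z)` and `j(2 z)`. -/
theorem jfun_eq_of_haupt_eq {z w : ℍ} (h : haupt2Fun z = haupt2Fun w) :
    jfun z = jfun w ∧ jfun (scaleH 2 z) = jfun (scaleH 2 w) := by
  refine ⟨mul_right_cancel₀ (pow_ne_zero 2 (haupt_ne_zero z)) ?_,
    mul_right_cancel₀ (haupt_ne_zero z) ?_⟩
  · rw [jfun_mul_haupt_sq, h, jfun_mul_haupt_sq]
  · rw [jfun_scale_mul_haupt, h, jfun_scale_mul_haupt]

/-- The discriminant of `(t + 16)³ - x t`. -/
theorem cubic_disc {K : Type*} [Field K] {a b c x : K} (hab : a ≠ b) (hac : a ≠ c) (hbc : b ≠ c)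
    (ha : x * a = (a + 16) ^ 3) (hb : x * b = (b + 16) ^ 3) (hc : x * c = (c + 16) ^ 3) :
    ((a - b) * (a - c) * (b - c)) ^ 2 = 4 * x ^ 2 * (x - 1728) := by
  have hxab : x = (a + 16) ^ 2 + (a + 16) * (b + 16) + (b + 16) ^ 2 :=
    mul_left_cancel₀ (sub_ne_zero.2 hab) (by linear_combination ha - hb)
  have hxac : x = (a + 16) ^ 2 + (a + 16) * (c + 16) + (c + 16) ^ 2 :=
    mul_left_cancel₀ (sub_ne_zero.2 hac) (by linear_combination ha - hc)
  have hsum : c + 16 = -((a + 16) + (b + 16)) :=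
    mul_left_cancel₀ (sub_ne_zero.2 hbc) (by linear_combination hxac - hxab)
  set u := a + 16
  set v := b + 16
  set w := c + 16
  have hq : u * v * (u + v) = 16 * x := by
    rw [show a = u - 16 by simp [u]] at ha
    rw [hxab] at ha ⊢
    linear_combination ha
  rw [show a - b = u - v by simp [u, v], show a - c = u - w by simp [u, w],
    show b - c = v - w by simp [v, w], hsum, hxab]
  rw [hxab] at hq
  linear_combination -27 * (u * v * (u + v) + 16 * (u ^ 2 + u * v + v ^ 2)) * hq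

/-- A root of a cubic with three known roots is one of them. -/
theorem mem_of_cubic {K : Type*} [Field K] {P : Polynomial K} (hP : P.natDegree = 3) {a b c t : K}
    (hab : a ≠ b) (hac : a ≠ c) (hbc : b ≠ c) (ha : P.eval a = 0) (hb : P.eval b = 0)
    (hc : P.eval c = 0) (ht : P.eval t = 0) : t = a ∨ t = b ∨ t = c := by
  classical
  have h0 : P ≠ 0 := fun e => by simp [e] at hP
  by_contra hn
  push Not at hn
  have h := Polynomial.card_le_degree_of_subset_roots (p := P) (Z := {t, a, b, c}) (fun x hx => by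
    rw [Finset.mem_val] at hx
    simp only [Finset.mem_insert, Finset.mem_singleton] at hx
    rcases hx with rfl | rfl | rfl | rfl <;> exact (Polynomial.mem_roots h0).2 ‹_›)
  have hcard : ({t, a, b, c} : Finset K).card = 4 := by simp [*]
  omega

/-- `j` is `q⁻¹` up to a constant on `Im z ≥ 1`. -/
theorem exists_jfun_bound : ∃ C : ℝ, 0 ≤ C ∧
    ∀ z : ℍ, 1 ≤ z.im → ‖jfun z - (qp 1 z)⁻¹‖ ≤ C := by
  set E₀ := Real.exp (2 * π)
  refine ⟨|984 * E₀ ^ 3 - E₀ ^ 4 - 196884 * E₀ ^ 2 - 21493760 * E₀| + (744 + 196884 + 21493760),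
    by positivity, fun z hz => ?_⟩
  have hn : ‖qp 1 z‖ = Real.exp (-(2 * π * z.im)) := by
    rw [qp_eq, Complex.norm_exp]
    congr 1
    simp
  have hle : ‖qp 1 z‖ ≤ Real.exp (-(2 * π)) := by
    rw [hn, Real.exp_le_exp, neg_le_neg_iff]
    exact le_mul_of_one_le_right (by positivity) hz
  have h1 : ‖qp 1 z‖ ≤ 1 := hle.trans (Real.exp_le_one_iff.2 (by linarith [Real.pi_pos]))
  have h := FA.JBound.norm_tail_le rfl (norm_pos_iff.2 (qp_ne_zero 1 z)) hle (E₀ := E₀) rfl
  set q := qp 1 z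
  set K := 984 * E₀ ^ 3 - E₀ ^ 4 - 196884 * E₀ ^ 2 - 21493760 * E₀
  have hT : ‖(744 : ℂ) + 196884 * q + 21493760 * q ^ 2‖ ≤ 744 + 196884 + 21493760 := by
    refine (norm_add₃_le).trans ?_
    simp only [norm_mul, norm_pow, Complex.norm_ofNat]
    gcongr
    · exact mul_le_of_le_one_right (by norm_num) h1
    · exact mul_le_of_le_one_right (by norm_num) (pow_le_one₀ (norm_nonneg _) h1)
  calc ‖jfun z - q⁻¹‖
      = ‖(jfun z - (q⁻¹ + 744 + 196884 * q + 21493760 * q ^ 2)) +
          (744 + 196884 * q + 21493760 * q ^ 2)‖ := by congr 1; ring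
    _ ≤ _ := norm_add_le _ _
    _ ≤ ‖q‖ ^ 3 * |K| + (744 + 196884 + 21493760) :=
        add_le_add (h.trans (mul_le_mul_of_nonneg_left (le_abs_self K) (by positivity))) hT
    _ ≤ _ := by
        gcongr
        exact mul_le_of_le_one_left (abs_nonneg _) (pow_le_one₀ (norm_nonneg _) h1)

end FA.Elkies

end
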