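import Fermat.Agent.Supersingular.Criterion
import Fermat.Agent.HasseBound.Extensions

/-!
# Supersingular point counts over the extensions of `𝔽_q`
-/

set_option autoImplicit false
set_option linter.style.haveILetI false

noncomputable section

open WeierstrassCurve
open scoped Classical

namespace FA.SupersingularExtensions

open FA.HasseBound

/-- The sequence for trace zero. -/
theorem pointTrace_zero (q : ℤ) : ∀ n, pointTrace 0 q n = if Even n then 2 * (-q) ^ (n / 2) else 0
  | 0 => by simp [pointTrace]
  | 1 => by simp [pointTrace]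
  | n + 2 => by
    rw [pointTrace, zero_mul, zero_sub, pointTrace_zero q n,
      show (n + 2) / 2 = n / 2 + 1 by omega, pow_succ]
    by_cases h : Even n
    · rw [if_pos h, if_pos (h.add even_two)]; ring
    · rw [if_neg h, if_neg (fun e => h ((Nat.even_add.1 e).2 even_two)), mul_zero, neg_zero]

/-- The sequence modulo `q`. -/
theorem dvd_pointTrace_sub (t q : ℤ) : ∀ n, q ∣ pointTrace t q (n + 1) - t ^ (n + 1)
  | 0 => by simp [pointTrace]
  | n + 1 => by
    obtain ⟨c, hc⟩ := dvd_pointTrace_sub t q n
    exact ⟨t * c - pointTrace t q n, by rw [pointTrace]; linear_combination t * hc⟩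

variable {q : ℕ} [hq : Fact q.Prime] (W : WeierstrassCurve (ZMod q)) [W.IsElliptic]
  (K : Type) [Field K] [Fintype K] [Algebra (ZMod q) K]

/-- **The counts over all extensions characterise trace zero.** -/
theorem trace_eq_zero_iff_card (h5 : 5 ≤ q) :
    W.traceOfFrobenius = 0 ↔ (Nat.card (W.map (algebraMap (ZMod q) K)).toAffine.Point : ℤ) =
      if Even (Module.finrank (ZMod q) K) then
        ((-(q : ℤ)) ^ (Module.finrank (ZMod q) K / 2) - 1) ^ 2
      else (q : ℤ) ^ Module.finrank (ZMod q) K + 1 := by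
  have h := natCard_point_extension W K
  rw [ZMod.card] at h
  have htr : (q : ℤ) + 1 - Nat.card W.toAffine.Point = W.traceOfFrobenius := by
    show _ = (Nat.card (ZMod q) : ℤ) + 1 - (Nat.card W.toAffine.Point : ℤ)
    rw [Nat.card_zmod]
  rw [htr] at h
  set n := Module.finrank (ZMod q) K
  have hn : n ≠ 0 := Module.finrank_pos.ne'
  have hsq : ∀ m : ℕ, (q : ℤ) ^ (m + m) + 1 - 2 * (-(q : ℤ)) ^ m = ((-(q : ℤ)) ^ m - 1) ^ 2 :=
    fun m => by
      rw [pow_add, ← mul_pow, show (q : ℤ) * q = -(q : ℤ) * -(q : ℤ) by ring, mul_pow]; ring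
  constructor
  · intro h0
    rw [h, h0, pointTrace_zero]
    by_cases he : Even n
    · obtain ⟨m, hm⟩ := he
      rw [if_pos ⟨m, hm⟩, if_pos ⟨m, hm⟩, hm, show (m + m) / 2 = m by omega, hsq]
    · rw [if_neg he, if_neg he, sub_zero]
  · intro hc
    refine FA.DeuringCriterion.trace_eq_zero W h5
      ((Nat.prime_iff_prime_int.1 hq.out).dvd_of_dvd_pow (n := n) ?_)
    have hd : (q : ℤ) ∣ pointTrace W.traceOfFrobenius q n := by
      rw [hc] at h
      by_cases he : Even n
      · rw [if_pos he] at h
        obtain ⟨m, hm⟩ := he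
        rw [hm, show (m + m) / 2 = m by omega, ← hsq] at h
        rw [hm, show pointTrace W.traceOfFrobenius q (m + m) = 2 * (-(q : ℤ)) ^ m by linarith]
        exact (dvd_neg.2 dvd_rfl).trans (dvd_pow_self _ (by omega)) |>.mul_left 2
      · rw [if_neg he] at h
        rw [show pointTrace W.traceOfFrobenius q n = 0 by linarith]
        exact dvd_zero _
    obtain ⟨j, hj⟩ := Nat.exists_eq_succ_of_ne_zero hn
    rw [hj] at hd ⊢
    exact (dvd_sub_right hd).1 (dvd_pointTrace_sub _ _ j)

end FA.SupersingularExtensions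

end
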