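import Fermat.Agent.Frob.Trace
import Fermat.Agent.HasseBound.Main

/-!
# The `q`-power torsion in characteristic `q` and Deuring's criterion

With `π` the Frobenius and `a` the trace, `q = π (a - π)`. If `q ∤ a` the map `a - π` is surjective
with `q` points in its kernel, so the points killed by `q ^ n` form a cyclic group of order `q ^ n`.
If `q ∣ a` then `a = 0` and `π ^ 2 = -q` is injective, so there is no point of order `q`.
-/

set_option autoImplicit false
set_option linter.style.haveILetI false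

noncomputable section

open Polynomial WeierstrassCurve
open scoped Classical

namespace FA.DeuringCriterion

open FA.Frob

universe u

variable {k : Type u} [Field k] [IsAlgClosed k] {q : ℕ} [hq : Fact q.Prime] [CharP k q]
  (W₀ : WeierstrassCurve (ZMod q)) [W₀.IsElliptic] (f : ZMod q →+* k)

/-- The Frobenius of the points over `k`. -/
def pi : (W₀.map f).toAffine.Point →+ (W₀.map f).toAffine.Point :=
  frobEnd (W₀.map f) (map_frobenius_map W₀ f)

omit [W₀.IsElliptic] in
theorem pi_injective : Function.Injective (pi W₀ f) :=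
  mapHom_injective (frobenius k q) (map_frobenius_map W₀ f)

omit [W₀.IsElliptic] in
theorem pi_surjective : Function.Surjective (pi W₀ f) := by
  rintro (_ | ⟨x, y, h⟩)
  · exact ⟨0, rfl⟩
  obtain ⟨x', rfl⟩ := IsAlgClosed.exists_pow_nat_eq x hq.out.pos
  obtain ⟨y', rfl⟩ := IsAlgClosed.exists_pow_nat_eq y hq.out.pos
  have h' : (W₀.map f).toAffine.Nonsingular x' y' :=
    ((W₀.map f).toAffine.map_nonsingular (frobenius k q).injective x' y').1 (by
      show ((W₀.map f).map (frobenius k q)).toAffine.Nonsingular _ _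
      rw [map_frobenius_map W₀ f]
      exact h)
  exact ⟨.some x' y' h', rfl⟩

/-- `π² - a π + q = 0`. -/
theorem pi_quadratic (P : (W₀.map f).toAffine.Point) :
    pi W₀ f (pi W₀ f P) - W₀.traceOfFrobenius • pi W₀ f P + (q : ℤ) • P = 0 := by
  have h := frobEnd_quadratic (W₀.map f) (map_frobenius_map W₀ f) P
  rw [trEnd_map W₀ f] at h
  exact h

/-- A trace divisible by `q` vanishes. -/
theorem trace_eq_zero (h5 : 5 ≤ q) (h : (q : ℤ) ∣ W₀.traceOfFrobenius) :
    W₀.traceOfFrobenius = 0 := by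
  obtain ⟨c, hc⟩ := h
  by_contra h0
  have hc0 : c ≠ 0 := fun e => h0 (by rw [hc, e, mul_zero])
  have h1 : (q : ℤ) ^ 2 ≤ W₀.traceOfFrobenius ^ 2 := by
    rw [hc, mul_pow]
    exact le_mul_of_one_le_right (sq_nonneg _) (by
      have := Int.one_le_abs hc0
      nlinarith [sq_abs c])
  have h2 := FA.HasseBound.traceOfFrobenius_sq_le W₀
  have h3 : (5 : ℤ) ≤ q := by exact_mod_cast h5
  nlinarith

/-- **No point of order `q` if `q ∣ a`.** -/
theorem eq_zero_of_dvd (h5 : 5 ≤ q) (ha : (q : ℤ) ∣ W₀.traceOfFrobenius)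
    {P : (W₀.map f).toAffine.Point} (hP : q • P = 0) : P = 0 := by
  have h := pi_quadratic W₀ f P
  rw [trace_eq_zero W₀ h5 ha, zero_zsmul, sub_zero, natCast_zsmul, hP, add_zero,
    ← map_zero (pi W₀ f)] at h
  have h' := pi_injective W₀ f h
  rw [← map_zero (pi W₀ f)] at h'
  exact pi_injective W₀ f h'

/-- The cofactor `a - π`. -/
def psi : (W₀.map f).toAffine.Point →+ (W₀.map f).toAffine.Point :=
  W₀.traceOfFrobenius • AddMonoidHom.id _ - pi W₀ f

theorem nsmul_eq (P : (W₀.map f).toAffine.Point) : q • P = pi W₀ f (psi W₀ f P) := by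
  have h := pi_quadratic W₀ f P
  rw [natCast_zsmul] at h
  rw [psi, AddMonoidHom.sub_apply, AddMonoidHom.smul_apply, AddMonoidHom.id_apply, map_sub,
    map_zsmul, ← sub_eq_zero, ← h]
  abel

theorem psi_facts (ha : ¬ (q : ℤ) ∣ W₀.traceOfFrobenius) :
    Nat.card (psi W₀ f).ker = q ∧ Function.Surjective (psi W₀ f) := by
  set W := W₀.map f
  set hW := map_frobenius_map W₀ f
  have hp := hq.out
  have hne : W₀.traceOfFrobenius ^ 2 ≠ hM W (g1 W hW) := by
    rw [hM_g1]
    intro e
    exact (Nat.prime_iff_prime_int.mp hp).not_isSquare ⟨W₀.traceOfFrobenius, by rw [← e, sq]⟩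
  obtain ⟨hk, hs⟩ := natCard_ker_sub_aux W (cast_ne_zero_of_not_dvd (k := k) ha) (spec_g1 W hW)
    (insep_g1 W hW) (by rw [hM_g1]; exact_mod_cast hp.ne_zero) hne
  refine ⟨?_, hs⟩
  have h := natCard_ker_sub W hW ha
  rw [trEnd_map W₀ f] at h
  have : (Nat.card (psi W₀ f).ker : ℤ) = q := h.trans (by ring)
  exact_mod_cast this

/-- Multiplication by `q` is onto. -/
theorem nsmul_surjective (ha : ¬ (q : ℤ) ∣ W₀.traceOfFrobenius) (n : ℕ) :
    Function.Surjective fun P : (W₀.map f).toAffine.Point => q ^ n • P := by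
  induction n with
  | zero => exact fun P => ⟨P, by simp⟩
  | succ n ih =>
    intro P
    obtain ⟨R, hR⟩ := pi_surjective W₀ f P
    obtain ⟨S, hS⟩ := (psi_facts W₀ f ha).2 R
    obtain ⟨T, hT⟩ := ih S
    exact ⟨T, by
      show q ^ (n + 1) • T = P
      rw [pow_succ, mul_nsmul, show q ^ n • T = S from hT, nsmul_eq, hS, hR]⟩

/-- There are `q ^ n` points killed by `q ^ n` if `q ∤ a`. -/
theorem natCard_pow (ha : ¬ (q : ℤ) ∣ W₀.traceOfFrobenius) : ∀ n : ℕ,
    Nat.card (nsmulAddMonoidHom (α := (W₀.map f).toAffine.Point) (q ^ n)).ker = q ^ n := by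
  have h1 : (nsmulAddMonoidHom (α := (W₀.map f).toAffine.Point) q).ker = (psi W₀ f).ker := by
    ext P
    simp only [AddMonoidHom.mem_ker, nsmulAddMonoidHom_apply, nsmul_eq W₀ f]
    exact map_eq_zero_iff _ (pi_injective W₀ f)
  intro n
  induction n with
  | zero =>
    rw [pow_zero, Nat.card_eq_one_iff_unique]
    exact ⟨⟨fun P Q => Subtype.ext (by
      have hP := P.2; have hQ := Q.2
      simp only [AddMonoidHom.mem_ker, nsmulAddMonoidHom_apply, one_nsmul] at hP hQ
      rw [hP, hQ])⟩, ⟨0⟩⟩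
  | succ n ih =>
    let r : (nsmulAddMonoidHom (α := (W₀.map f).toAffine.Point) (q ^ (n + 1))).ker →+
        (nsmulAddMonoidHom (α := (W₀.map f).toAffine.Point) (q ^ n)).ker :=
      ((nsmulAddMonoidHom q).comp (AddSubgroup.subtype _)).codRestrict _ fun P => by
        have hP := P.2
        simp only [AddMonoidHom.mem_ker, nsmulAddMonoidHom_apply, AddMonoidHom.comp_apply,
          AddSubgroup.coe_subtype] at hP ⊢
        rwa [← mul_nsmul, ← pow_succ']
    have hr : Function.Surjective r := fun ⟨Q, hQ⟩ => by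
      obtain ⟨P, hP⟩ := nsmul_surjective W₀ f ha 1 Q
      simp only [pow_one] at hP
      refine ⟨⟨P, ?_⟩, Subtype.ext hP⟩
      simp only [AddMonoidHom.mem_ker, nsmulAddMonoidHom_apply] at hQ ⊢
      rw [pow_succ', mul_nsmul, hP, hQ]
    have hker : Nat.card r.ker = q := by
      refine Eq.trans ?_ (psi_facts W₀ f ha).1
      rw [← h1]
      refine Nat.card_eq_of_bijective (fun P => ⟨P.1.1, congrArg Subtype.val P.2⟩)
        ⟨fun a b e => Subtype.ext (Subtype.ext (congrArg Subtype.val e :)), fun ⟨P, hP⟩ => ?_⟩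
      refine ⟨⟨⟨P, ?_⟩, Subtype.ext hP⟩, rfl⟩
      simp only [AddMonoidHom.mem_ker, nsmulAddMonoidHom_apply] at hP ⊢
      rw [pow_succ', mul_nsmul, hP, nsmul_zero]
    rw [AddSubgroup.card_eq_card_quotient_mul_card_addSubgroup r.ker,
      Nat.card_congr (QuotientAddGroup.quotientKerEquivOfSurjective r hr).toEquiv, ih, hker,
      pow_succ]

/-- **The `q`-power torsion is cyclic if `q ∤ a`.** -/
theorem isAddCyclic_pow (ha : ¬ (q : ℤ) ∣ W₀.traceOfFrobenius) (n : ℕ) :
    IsAddCyclic (nsmulAddMonoidHom (α := (W₀.map f).toAffine.Point) (q ^ n)).ker := by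
  set K := (nsmulAddMonoidHom (α := (W₀.map f).toAffine.Point) (q ^ n)).ker with hK
  haveI : Finite K := Nat.finite_of_card_ne_zero (by
    rw [hK, natCard_pow W₀ f ha]; exact pow_ne_zero _ hq.out.ne_zero)
  cases n with
  | zero =>
    haveI : Subsingleton K := (Nat.card_eq_one_iff_unique.1 (by
      rw [hK, natCard_pow W₀ f ha, pow_zero])).1
    infer_instance
  | succ m =>
    have h1 := natCard_pow W₀ f ha 1
    haveI : Nontrivial (nsmulAddMonoidHom (α := (W₀.map f).toAffine.Point) (q ^ 1)).ker := by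
      haveI : Finite (nsmulAddMonoidHom (α := (W₀.map f).toAffine.Point) (q ^ 1)).ker :=
        Nat.finite_of_card_ne_zero (by rw [h1]; exact pow_ne_zero _ hq.out.ne_zero)
      exact Finite.one_lt_card_iff_nontrivial.1 (by rw [h1, pow_one]; exact hq.out.one_lt)
    obtain ⟨⟨P₁, hP₁⟩, hne⟩ := exists_ne
      (0 : (nsmulAddMonoidHom (α := (W₀.map f).toAffine.Point) (q ^ 1)).ker)
    have hne' : P₁ ≠ 0 := fun e => hne (Subtype.ext e)
    obtain ⟨P, hP⟩ := nsmul_surjective W₀ f ha m P₁
    simp only [AddMonoidHom.mem_ker, nsmulAddMonoidHom_apply, pow_one] at hP₁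
    simp only at hP
    have hPK : P ∈ K := by
      rw [hK, AddMonoidHom.mem_ker, nsmulAddMonoidHom_apply, pow_succ, mul_nsmul, hP, hP₁]
    refine isAddCyclic_of_addOrderOf_eq_card (⟨P, hPK⟩ : K) ?_
    rw [← AddSubgroup.addOrderOf_coe, AddSubgroup.coe_mk,
      addOrderOf_eq_prime_pow (p := q) (n := m) (by rw [hP]; exact hne')
        (by rw [pow_succ, mul_nsmul, hP, hP₁]), hK, natCard_pow W₀ f ha]

end FA.DeuringCriterion

end
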