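import Fermat.Agent.Supersingular.DiagonalFactorization

/-!
# The class polynomials of `-p` and `-4 p` modulo `p`

In Kronecker's factorisation modulo `p ≥ 5`, the only discriminants with a supersingular root are
those with `t = 0`, that is `-4 p`, and `-p` for `p ≡ 3 (mod 4)`, both of multiplicity one. So the
product of their class polynomials is modulo `p` the square of the supersingular polynomial of `𝔽_p`.
-/

set_option autoImplicit false
set_option linter.style.haveILetI false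

noncomputable section

open UpperHalfPlane hiding I
open Polynomial
open scoped Classical

namespace FA.ElkiesSquare

open FA.ModField FA.ClassRelation FA.Singular FA.DiagFactor FA.ClassTrace
open FA.ReducedGroups (jFibre)

/-- The invariants in `𝔽_p` of the curves of trace zero. -/
def ssInv (p : ℕ) [Fact p.Prime] : Finset (ZMod p) :=
  Finset.univ.filter fun r => ∃ ab ∈ jFibre r, tr ab = 0

/-- The discriminants of trace zero. -/
def zeroDiscs (p : ℕ) : Finset ℤ :=
  if p % 4 = 3 then {-(p : ℤ), -(4 * (p : ℤ))} else {-(4 * (p : ℤ))}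

variable (p : ℕ) [hp : Fact p.Prime]

theorem fixPairs_zero (h5 : 5 ≤ p) :
    posPairs p (-(4 * (p : ℤ))) = {((0 : ℤ), (1 : ℤ))} ∧
      posPairs p (-(p : ℤ)) = {((0 : ℤ), (2 : ℤ))} := by
  have h5' : (5 : ℤ) ≤ p := by exact_mod_cast h5
  refine ⟨?_, ?_⟩ <;> ext ⟨t, k⟩ <;>
    simp only [posPairs, Finset.mem_filter, Finset.mem_singleton, Prod.mk.injEq]
  · rw [mem_fixPairs (by omega)]
    refine ⟨fun ⟨h, hk⟩ => ?_, by rintro ⟨rfl, rfl⟩; exact ⟨by ring, one_pos⟩⟩
    simp only at h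
    have hk1 : k = 1 := by
      by_contra hne
      have h2 : (2 : ℤ) ^ 2 ≤ k ^ 2 := pow_le_pow_left₀ (by norm_num) (by omega) 2
      nlinarith [sq_nonneg t, mul_le_mul_of_nonneg_left h2 (Int.natCast_nonneg p)]
    subst hk1
    exact ⟨pow_eq_zero_iff two_ne_zero |>.1 (by linarith), rfl⟩
  · rw [mem_fixPairs (by omega)]
    refine ⟨fun ⟨h, hk⟩ => ?_, by rintro ⟨rfl, rfl⟩; exact ⟨by ring, two_pos⟩⟩
    simp only at h
    have hk2 : k ≤ 2 := by
      by_contra hne
      have h2 : (3 : ℤ) ^ 2 ≤ k ^ 2 := pow_le_pow_left₀ (by norm_num) (by omega) 2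
      nlinarith [sq_nonneg t, mul_le_mul_of_nonneg_left h2 (Int.natCast_nonneg p)]
    rcases (show k = 1 ∨ k = 2 by omega) with rfl | rfl
    · exfalso
      obtain ⟨s, rfl⟩ : (p : ℤ) ∣ t :=
        (Nat.prime_iff_prime_int.1 hp.out).dvd_of_dvd_pow (n := 2) ⟨3, by linarith⟩
      rcases eq_or_ne s 0 with rfl | hs
      · linarith
      · nlinarith [mul_le_mul_of_nonneg_left (Int.add_one_le_iff.2 (sq_pos_iff.2 hs) : 1 ≤ s ^ 2)
          (sq_nonneg (p : ℤ))]
    · exact ⟨pow_eq_zero_iff two_ne_zero |>.1 (by linarith), rfl⟩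

theorem mult_zero_disc (h5 : 5 ≤ p) {D : ℤ} (hD : D ∈ zeroDiscs p) :
    D ∈ discs p ∧ mult p D = 1 ∧ ∃ k : ℤ, (0 : ℤ) ^ 2 - 4 * (p : ℤ) = k ^ 2 * D := by
  obtain ⟨e4, e1⟩ := fixPairs_zero p h5
  have h : D = -(4 * (p : ℤ)) ∨ (p % 4 = 3 ∧ D = -(p : ℤ)) := by
    rw [zeroDiscs] at hD
    split_ifs at hD with hp4
    · rcases Finset.mem_insert.1 hD with h | h
      · exact Or.inr ⟨hp4, h⟩
      · exact Or.inl (Finset.mem_singleton.1 h)
    · exact Or.inl (Finset.mem_singleton.1 hD)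
  rcases h with rfl | ⟨hp4, rfl⟩
  · refine ⟨Finset.mem_filter.2 ⟨Finset.mem_Icc.2 ⟨le_rfl, by omega⟩, by omega⟩, ?_, 1, by ring⟩
    rw [mult, e4, halfUnits, if_neg (by omega), if_neg (by omega)]
    rfl
  · refine ⟨Finset.mem_filter.2 ⟨Finset.mem_Icc.2 ⟨by omega, by omega⟩, by omega⟩, ?_, 2, by ring⟩
    rw [mult, e1, halfUnits, if_neg (by omega), if_neg (by omega)]
    rfl

/-- The other discriminants have a trace `t ≠ 0`. -/
theorem exists_trace (h5 : 5 ≤ p) {D : ℤ} (hD : D ∈ discs p) (hD' : D ∉ zeroDiscs p)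
    (hm : mult p D ≠ 0) :
    ∃ t k : ℤ, t ≠ 0 ∧ t ^ 2 < 4 * (p : ℤ) ∧ t ^ 2 - 4 * (p : ℤ) = k ^ 2 * D := by
  obtain ⟨hI, h4⟩ := Finset.mem_filter.1 hD
  obtain ⟨hlo, hhi⟩ := Finset.mem_Icc.1 hI
  have hne : (posPairs p D).Nonempty :=
    Finset.card_pos.1 (Nat.pos_of_ne_zero fun e => hm (by simp [mult, e]))
  obtain ⟨⟨t, k⟩, hq⟩ := hne
  rw [posPairs, Finset.mem_filter, mem_fixPairs (by omega)] at hq
  obtain ⟨hq, hk⟩ := hq
  simp only at hq hk
  have hk2 : 0 < k ^ 2 := pow_pos hk 2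
  refine ⟨t, k, fun ht => hD' ?_, by nlinarith, by linarith⟩
  subst ht
  obtain ⟨m, rfl⟩ : ∃ m : ℕ, k = m := ⟨k.toNat, by omega⟩
  have hpD : (m : ℤ) ^ 2 * -D = 4 * p := by linarith
  have hnat : m ^ 2 * D.natAbs = 4 * p := by
    have := congrArg Int.natAbs hpD
    simpa [Int.natAbs_mul, Int.natAbs_pow] using this
  have hm2 : m = 1 ∨ m = 2 := by
    have hdvd : m ^ 2 ∣ 4 * p := Dvd.intro _ hnat
    have hnp : ¬ p ∣ m := fun hpm => by
      have h2 : p * p ∣ 4 * p := (Nat.mul_dvd_mul hpm hpm).trans (by rwa [← pow_two])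
      have := Nat.le_of_dvd (by norm_num) (Nat.dvd_of_mul_dvd_mul_right hp.out.pos h2)
      omega
    have h4 : m ^ 2 ∣ 4 := (((hp.out.coprime_iff_not_dvd).2 hnp).symm.pow_left 2).dvd_of_dvd_mul_right
      hdvd
    have hle : m ≤ 2 := by nlinarith [Nat.le_of_dvd (by norm_num) h4]
    omega
  rw [zeroDiscs]
  rcases hm2 with rfl | rfl
  · have e : D = -(4 * (p : ℤ)) := by push_cast at hpD; linarith
    split_ifs <;> simp [e]
  · have e : D = -(p : ℤ) := by push_cast at hpD; linarith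
    have hodd := Nat.odd_iff.1 (hp.out.odd_of_ne_two (by omega))
    rw [if_pos (by omega)]
    simp [e]

variable [Fintype (FA.Dim.Cos p)] {H : ℤ → ℤ[X]} (hH : ∀ D ∈ discs p, (H D).Monic ∧
  (H D).natDegree = (values D).ncard ∧ ∀ z ∈ values D, aeval z (H D) = 0)

omit hp [Fintype (FA.Dim.Cos p)] in
include hH in
theorem roots_values {D : ℤ} (hD : D ∈ discs p) (z : ℂ) (hz : aeval z (H D) = 0) :
    ∃ (a b c : ℤ) (τ : ℍ), 0 < a ∧ b ^ 2 - 4 * a * c = D ∧ Int.gcd (Int.gcd a b) c = 1 ∧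
      (a : ℂ) * (τ : ℂ) ^ 2 + b * (τ : ℂ) + c = 0 ∧ jfun τ = z := by
  have h := count_roots_class p hH hD z
  have hmem : z ∈ ((H D).map (Int.castRingHom ℂ)).roots := by
    rw [mem_roots ((hH D hD).1.map _).ne_zero, IsRoot.def, eval_map, ← algebraMap_int_eq,
      ← aeval_def]
    exact hz
  split_ifs at h with hv
  · obtain ⟨f, hf, τ, hτ, rfl⟩ := hv
    exact ⟨f.1, f.2.1, f.2.2, τ, hf.2.2.1, hf.1, hf.2.1, hτ, rfl⟩
  · exact absurd (Multiset.count_pos.2 hmem) (by omega)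

omit [Fintype (FA.Dim.Cos p)] in
include hH in
/-- Roots at trace zero are supersingular, the others are not. -/
theorem root_mem_iff (h5 : 5 ≤ p) {D : ℤ} (hD : D ∈ discs p) (hm : mult p D ≠ 0) {r : ZMod p}
    (hr : ((H D).map (Int.castRingHom (ZMod p))).IsRoot r) :
    r ∈ ssInv p ↔ D ∈ zeroDiscs p := by
  have hD0 : D < 0 := by
    have := Finset.mem_Icc.1 (Finset.mem_filter.1 hD).1
    omega
  refine ⟨fun hs => by_contra fun hD' => ?_, fun hD' => ?_⟩
  · obtain ⟨-, ⟨A, B⟩, hab, htr⟩ := Finset.mem_filter.1 hs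
    obtain ⟨t, k, ht, hlt, hd⟩ := exists_trace p h5 hD hD' hm
    exact (ordinary_facts h5 hlt hD0 hd (hH D hD).1 (roots_values p hH hD) hr hab ht).1 htr
  · obtain ⟨k, hd⟩ := (mult_zero_disc p h5 hD').2.2
    obtain ⟨A, B, hab⟩ := exists_mem_jFibre h5 r
    exact Finset.mem_filter.2 ⟨Finset.mem_univ r, (A, B), hab,
      tr_eq_zero h5 hd (hH D hD).1 (roots_values p hH hD) hr hab rfl⟩

include hH in
/-- **The square of the supersingular polynomial.** -/
theorem prod_zeroDiscs [NeZero p] (h5 : 5 ≤ p) :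
    (∏ D ∈ zeroDiscs p, H D).map (Int.castRingHom (ZMod p)) =
      (∏ r ∈ ssInv p, (X - C r)) ^ 2 := by
  have hsub : zeroDiscs p ⊆ discs p := fun D hD => (mult_zero_disc p h5 hD).1
  have hprod := prod_mod_p p hH
  rw [← Finset.prod_sdiff hsub, Polynomial.map_mul,
    Finset.prod_congr rfl (fun D hD => by rw [(mult_zero_disc p h5 hD).2.1, pow_one] :
      ∀ D ∈ zeroDiscs p, H D ^ mult p D = H D)] at hprod
  set f := (∏ D ∈ zeroDiscs p, H D).map (Int.castRingHom (ZMod p)) with hf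
  set g := (∏ D ∈ discs p \ zeroDiscs p, H D ^ mult p D).map (Int.castRingHom (ZMod p)) with hg
  have hfm : f.Monic := (monic_prod_of_monic _ _ fun D hD => (hH D (hsub hD)).1).map _
  have hgm : g.Monic := (monic_prod_of_monic _ _ fun D hD =>
    ((hH D (Finset.mem_sdiff.1 hD).1).1.pow _)).map _
  have hfroot : ∀ r, f.IsRoot r → r ∈ ssInv p := fun r hr => by
    rw [hf, IsRoot.def, Polynomial.map_prod, eval_prod, Finset.prod_eq_zero_iff] at hr
    obtain ⟨D, hD, h0⟩ := hr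
    exact (root_mem_iff p hH h5 (hsub hD) (by rw [(mult_zero_disc p h5 hD).2.1]; omega) h0).2 hD
  have hgroot : ∀ r, g.IsRoot r → r ∉ ssInv p := fun r hr hs => by
    rw [hg, IsRoot.def, Polynomial.map_prod, eval_prod, Finset.prod_eq_zero_iff] at hr
    obtain ⟨D, hD, h0⟩ := hr
    obtain ⟨hD, hD'⟩ := Finset.mem_sdiff.1 hD
    rw [Polynomial.map_pow, eval_pow, pow_eq_zero_iff'] at h0
    exact hD' ((root_mem_iff p hH h5 hD h0.2 h0.1).1 hs)
  have hX : ((X : (ZMod p)[X]) ^ p - X).Monic :=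
    monic_X_pow_sub (by rw [degree_X]; exact_mod_cast hp.out.one_lt)
  have hXr : ((X : (ZMod p)[X]) ^ p - X).roots = Finset.univ.val := by
    have := FiniteField.roots_X_pow_card_sub_X (ZMod p)
    rwa [ZMod.card] at this
  have hXs : ((X : (ZMod p)[X]) ^ p - X).Splits := by
    rw [splits_iff_card_roots, hXr, Finset.card_val, Finset.card_univ, ZMod.card,
      FiniteField.X_pow_card_sub_X_natDegree_eq (ZMod p) hp.out.one_lt]
  have hfs : f.Splits := (hXs.pow 2).of_dvd (pow_ne_zero 2 hX.ne_zero)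
    ⟨g, by rw [← hprod]; ring⟩
  have hroots : f.roots = 2 • (ssInv p).val := by
    ext r
    have h := congrArg (fun P : (ZMod p)[X] => P.roots.count r) hprod
    simp only [roots_mul (mul_ne_zero hgm.ne_zero hfm.ne_zero), roots_pow, hXr, Multiset.count_add,
      Multiset.count_nsmul, Multiset.count_univ] at h
    rw [Multiset.count_nsmul]
    by_cases hs : r ∈ ssInv p
    · have h0 : g.roots.count r = 0 := Multiset.count_eq_zero.2 fun hm =>
        hgroot r ((mem_roots hgm.ne_zero).1 hm) hs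
      rw [Multiset.count_eq_one_of_mem (ssInv p).nodup hs]
      omega
    · rw [Multiset.count_eq_zero.2 hs, mul_zero, Multiset.count_eq_zero.2 fun hm =>
        hs (hfroot r ((mem_roots hfm.ne_zero).1 hm))]
  rw [hfs.eq_prod_roots_of_monic hfm, hroots, Multiset.map_nsmul, Multiset.prod_nsmul]
  rfl

end FA.ElkiesSquare

end
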