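import Fermat.Agent.Supersingular.SchoofTorsion
import Fermat.Agent.Tau.SingularConjugate

/-!
# The class numbers of `-p` and `-4 p`

For `p ≡ 3 (mod 4)` join a singular modulus of discriminant `-p` to one of `-4 p` when a matrix of
determinant two carries a point of the one to one of the other. The latter have one neighbour each,
the former three for `p ≡ 3 (mod 8)` and one for `p ≡ 7 (mod 8)`: so `h(-4 p)` is `3 h(-p)` resp.
`h(-p)`.
-/

set_option autoImplicit false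
set_option linter.style.haveILetI false
set_option linter.unusedSectionVars false

noncomputable section

open UpperHalfPlane hiding I
open scoped Classical MatrixGroups

namespace FA.Schoof

open FA.ClassRelation FA.ModField FA.JInj FA.Singular

/-- A form at a singular modulus of discriminant `D` is a multiple of a primitive one of it. -/
theorem exists_of_value {D : ℤ} (hD : D < 0) {h : ℤ × ℤ × ℤ} (ha : 0 < h.1) {σ : ℍ}
    (hr : FA.Singular.IsRoot h σ) (hv : jfun σ ∈ values D) :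
    ∃ (k : ℤ) (f : ℤ × ℤ × ℤ), 0 < k ∧ h = smulForm k f ∧ disc f = D ∧
      Int.gcd (Int.gcd f.1 f.2.1) f.2.2 = 1 := by
  obtain ⟨k, f, hk, rfl, hf, hprim⟩ := exists_content h ha
  have hr₁ : FA.Singular.IsRoot f σ := by
    simp only [FA.Singular.IsRoot, smulForm] at hr ⊢
    push_cast at hr
    refine mul_left_cancel₀ (show (k : ℂ) ≠ 0 by exact_mod_cast hk.ne') ?_
    linear_combination hr
  obtain ⟨f', hf', τ, hτ, hj⟩ := hv
  obtain ⟨g, hg⟩ := (jfun_eq_iff _ _).1 hj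
  have hd' : disc f' = D := hf'.1
  obtain ⟨u, hu⟩ := exists_disc_multiple hf'.2.2.1.ne' hf'.2.1 hτ hr₁ hg
  obtain ⟨v, hv'⟩ := exists_disc_multiple hf.ne' hprim hr₁ hτ (g := g⁻¹)
    (by rw [← hg, inv_smul_smul])
  refine ⟨k, f, hk, rfl, ?_, hprim⟩
  rw [hd'] at hu hv'
  have h1 : (u * v) ^ 2 = 1 := mul_right_cancel₀ hD.ne (by
    rw [one_mul, mul_pow, mul_comm (u ^ 2), mul_assoc, ← hu, ← hv'])
  have h2 : u ^ 2 = 1 := by
    rcases sq_eq_one_iff.1 h1 with h | h
    · rcases Int.eq_one_or_neg_one_of_mul_eq_one' h with ⟨e, -⟩ | ⟨e, -⟩ <;> simp [e]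
    · rcases Int.eq_one_or_neg_one_of_mul_eq_neg_one' h with ⟨e, -⟩ | ⟨e, -⟩ <;> simp [e]
  rw [hu, h2, one_mul]

/-- The three matrices of determinant two. -/
def nbr : Fin 3 → Mat := ![!![2, 0; 0, 1], !![1, 0; 0, 2], !![1, 1; 0, 2]]

theorem det_nbr (i : Fin 3) : (nbr i).det = 2 := by
  fin_cases i <;> simp [nbr, Matrix.det_fin_two_of]

/-- The three neighbours of a point. -/
def nbrH (i : Fin 3) (τ : ℍ) : ℍ := mobH (M := nbr i) (by rw [det_nbr]; norm_num) τ

/-- A matrix of determinant two is one of the three times a unimodular one. -/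
theorem exists_nbr {M : Mat} (hM : M.det = 2) : ∃ (g : SL(2, ℤ)) (i : Fin 3),
    M = (g : Mat) * nbr i := by
  rw [Matrix.det_fin_two] at hM
  have key : ∀ a b c d : ZMod 2, a * d - b * c = 0 →
      (a = 0 ∧ c = 0) ∨ (b = 0 ∧ d = 0) ∨ (b = a ∧ d = c) := by decide
  have hev : ∀ x : ℤ, (x : ZMod 2) = 0 → ∃ y, x = 2 * y := fun x hx =>
    (ZMod.intCast_zmod_eq_zero_iff_dvd x 2).1 hx
  rcases key (M 0 0) (M 0 1) (M 1 0) (M 1 1) (by
    rw [← Int.cast_mul, ← Int.cast_mul, ← Int.cast_sub, hM]; decide) with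
    ⟨h1, h2⟩ | ⟨h1, h2⟩ | ⟨h1, h2⟩
  · obtain ⟨x, hx⟩ := hev _ h1
    obtain ⟨y, hy⟩ := hev _ h2
    refine ⟨⟨!![x, M 0 1; y, M 1 1], ?_⟩, 0, ?_⟩
    · rw [Matrix.det_fin_two_of]
      rw [hx, hy] at hM
      linarith
    · ext i j
      fin_cases i <;> fin_cases j <;> simp [nbr, Matrix.mul_apply, Fin.sum_univ_two] <;> linarith
  · obtain ⟨x, hx⟩ := hev _ h1
    obtain ⟨y, hy⟩ := hev _ h2
    refine ⟨⟨!![M 0 0, x; M 1 0, y], ?_⟩, 1, ?_⟩
    · rw [Matrix.det_fin_two_of]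
      rw [hx, hy] at hM
      linarith
    · ext i j
      fin_cases i <;> fin_cases j <;> simp [nbr, Matrix.mul_apply, Fin.sum_univ_two] <;> linarith
  · obtain ⟨x, hx⟩ := hev (M 0 1 - M 0 0) (by push_cast; rw [h1, sub_self])
    obtain ⟨y, hy⟩ := hev (M 1 1 - M 1 0) (by push_cast; rw [h2, sub_self])
    refine ⟨⟨!![M 0 0, x; M 1 0, y], ?_⟩, 2, ?_⟩
    · rw [Matrix.det_fin_two_of]
      rw [show M 0 1 = M 0 0 + 2 * x by linarith, show M 1 1 = M 1 0 + 2 * y by linarith] at hM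
      linarith
    · ext i j
      fin_cases i <;> fin_cases j <;> simp [nbr, Matrix.mul_apply, Fin.sum_univ_two] <;> linarith

/-- Two invariants at neighbouring points. -/
def Adj (v w : ℂ) : Prop := ∃ (τ : ℍ) (M : Mat) (h : 0 < M.det),
  M.det = 2 ∧ jfun τ = v ∧ jfun (mobH h τ) = w

/-- The invariants adjacent to `j(τ)`. -/
theorem adj_iff {τ : ℍ} {w : ℂ} : Adj (jfun τ) w ↔ ∃ i, jfun (nbrH i τ) = w := by
  refine ⟨?_, fun ⟨i, hi⟩ => ⟨τ, nbr i, _, det_nbr i, rfl, hi⟩⟩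
  rintro ⟨τ', M, h, hM, hj, rfl⟩
  obtain ⟨γ, hγ⟩ := (jfun_eq_iff _ _).1 hj.symm
  obtain ⟨g, i, hgi⟩ := exists_nbr (M := M * (γ : Mat)) (by
    rw [Matrix.det_mul, γ.det_coe, mul_one, hM])
  refine ⟨i, ?_⟩
  rw [← jfun_smul g (nbrH i τ)]
  refine congrArg _ (UpperHalfPlane.ext ?_)
  show ((g • nbrH i τ : ℍ) : ℂ) = mob M τ'
  rw [← mob_SL, ← hγ, ← mob_SL γ τ, ← mob_mul (B := (γ : Mat)) (by rw [γ.det_coe]; norm_num), hgi,
    mob_mul (B := nbr i) (by rw [det_nbr]; norm_num)]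
  rfl

theorem adj_symm {v w : ℂ} : Adj v w → Adj w v := by
  rintro ⟨τ, M, h, hM, rfl, rfl⟩
  have hadj : M.adjugate.det = 2 := by rw [Matrix.det_adjugate, hM]; simp
  refine ⟨mobH h τ, M.adjugate, by rw [hadj]; norm_num, hadj, rfl,
    congrArg _ (UpperHalfPlane.ext ?_)⟩
  show mob M.adjugate (mob M τ) = _
  rw [← mob_mul h, Matrix.adjugate_mul, hM]
  simp [mob]

/-- The forms at the three neighbours. -/
def nform (i : Fin 3) (f : ℤ × ℤ × ℤ) : ℤ × ℤ × ℤ :=
  ![(f.1, 2 * f.2.1, 4 * f.2.2), (4 * f.1, 2 * f.2.1, f.2.2),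
    (4 * f.1, 2 * f.2.1 - 4 * f.1, f.1 - f.2.1 + f.2.2)] i

/-- The coefficient deciding the content at a neighbour. -/
def crit (i : Fin 3) (f : ℤ × ℤ × ℤ) : ℤ := ![f.1, f.2.2, f.1 - f.2.1 + f.2.2] i

theorem nform_facts {f : ℤ × ℤ × ℤ} {τ : ℍ} (hf : 0 < f.1) (hr : FA.Singular.IsRoot f τ)
    (i : Fin 3) : 0 < (nform i f).1 ∧ FA.Singular.IsRoot (nform i f) (nbrH i τ) ∧
      disc (nform i f) = 4 * disc f := by
  obtain ⟨a, b, c⟩ := f
  simp only at hf
  simp only [FA.Singular.IsRoot] at hr ⊢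
  fin_cases i <;> refine ⟨?_, ?_, by simp [nform, disc]; ring⟩ <;>
    simp [nform, nbrH, mobH, mob, nbr] <;> first
      | positivity
      | linear_combination 4 * hr
      | linear_combination hr

/-- At a form of discriminant `-4 p` all is even but the ends. -/
theorem even_middle {a b c n : ℤ} (h : b ^ 2 - 4 * a * c = -4 * n) : ∃ β, b = 2 * β :=
  Int.prime_two.dvd_of_dvd_pow (n := 2) ⟨2 * a * c - 2 * n, by linarith⟩

variable {p : ℕ} [hp : Fact p.Prime]

theorem neg_disc_neg : (-(p : ℤ)) < 0 ∧ -4 * (p : ℤ) < 0 := by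
  have : (0 : ℤ) < p := by exact_mod_cast hp.out.pos
  omega

/-- From `-p` the neighbour has discriminant `-4 p` exactly when `crit` is odd. -/
theorem mem_values_four_iff {f : ℤ × ℤ × ℤ} (hf : f ∈ Red (-(p : ℤ))) {τ : ℍ}
    (hr : FA.Singular.IsRoot f τ) (i : Fin 3) :
    jfun (nbrH i τ) ∈ values (-4 * (p : ℤ)) ↔ ¬ (2 : ℤ) ∣ crit i f := by
  obtain ⟨hd, hprim, ha, -⟩ := hf
  obtain ⟨hpos, hroot, hdisc⟩ := nform_facts ha hr i
  have hd4 : disc (nform i f) = -4 * (p : ℤ) := by rw [hdisc, disc, hd]; ring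
  constructor
  · intro hv h2
    obtain ⟨k, g, hk, e, hg, hgp⟩ := exists_of_value neg_disc_neg.2 hpos hroot hv
    rw [e, disc_smulForm, hg] at hd4
    obtain rfl : k = 1 := by
      have : k ^ 2 = 1 := mul_right_cancel₀ neg_disc_neg.2.ne (hd4.trans (one_mul _).symm)
      rcases sq_eq_one_iff.1 this with h | h <;> omega
    have hall :
        (2 : ℤ) ∣ (nform i f).1 ∧ (2 : ℤ) ∣ (nform i f).2.1 ∧ (2 : ℤ) ∣ (nform i f).2.2 := by
      fin_cases i <;> simp [nform, crit] at h2 ⊢ <;> omega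
    rw [e] at hall
    simp only [smulForm, one_mul] at hall
    have := Int.dvd_coe_gcd (Int.dvd_coe_gcd hall.1 hall.2.1) hall.2.2
    rw [hgp] at this
    norm_num at this
  · intro hx
    have hg : Int.gcd (Int.gcd (nform i f).1 (nform i f).2.1) (nform i f).2.2 = 1 := by
      set G := Int.gcd (Int.gcd (nform i f).1 (nform i f).2.1) (nform i f).2.2
      have h1 : (G : ℤ) ∣ (Int.gcd (nform i f).1 (nform i f).2.1 : ℤ) := Int.gcd_dvd_left _ _
      have hA := h1.trans (Int.gcd_dvd_left (nform i f).1 _)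
      have hB := h1.trans (Int.gcd_dvd_right _ (nform i f).2.1)
      have hC : (G : ℤ) ∣ (nform i f).2.2 := Int.gcd_dvd_right _ _
      have hcr : (G : ℤ) ∣ crit i f := by fin_cases i <;> simpa [nform, crit] using by assumption
      have hco : IsCoprime (G : ℤ) 2 :=
        (Int.prime_two.coprime_iff_not_dvd.2 fun h => hx (h.trans hcr)).symm
      have h2 : ∀ x : ℤ, (G : ℤ) ∣ 2 * x → (G : ℤ) ∣ x := fun x => hco.dvd_of_dvd_mul_left
      have h4 : ∀ x : ℤ, (G : ℤ) ∣ 4 * x → (G : ℤ) ∣ x := fun x h =>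
        h2 x (h2 _ (by rwa [← mul_assoc]))
      obtain ⟨ha', hb', hc'⟩ : (G : ℤ) ∣ f.1 ∧ (G : ℤ) ∣ f.2.1 ∧ (G : ℤ) ∣ f.2.2 := by
        fin_cases i <;> simp [nform, crit] at hA hB hC hcr
        · exact ⟨hA, h2 _ hB, h4 _ hC⟩
        · exact ⟨h4 _ hA, h2 _ hB, hC⟩
        · have ha' := h4 _ hA
          have hb' : (G : ℤ) ∣ f.2.1 := h2 _ (by simpa using dvd_add hB (ha'.mul_left 4))
          have hc' := dvd_add (dvd_sub hC ha') hb'
          ring_nf at hc'
          exact ⟨ha', hb', hc'⟩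
      have := Int.dvd_coe_gcd (Int.dvd_coe_gcd ha' hb') hc'
      rw [hprim] at this
      exact_mod_cast Int.eq_one_of_dvd_one (Int.natCast_nonneg G) this
    rw [← hd4]
    exact jfun_mem_values hpos (hd4 ▸ neg_disc_neg.2) hg hroot

/-- From `-4 p` the neighbour has discriminant `-p` exactly when `crit` is divisible by four. -/
theorem mem_values_one_iff {f : ℤ × ℤ × ℤ} (hf : f ∈ Red (-4 * (p : ℤ))) {τ : ℍ}
    (hr : FA.Singular.IsRoot f τ) (i : Fin 3) :
    jfun (nbrH i τ) ∈ values (-(p : ℤ)) ↔ (4 : ℤ) ∣ crit i f := by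
  obtain ⟨a, b, c⟩ := f
  obtain ⟨hd, hprim, ha, -⟩ := hf
  simp only at hd hprim ha
  obtain ⟨β, rfl⟩ := even_middle hd
  obtain ⟨hpos, hroot, hdisc⟩ := nform_facts (f := (a, 2 * β, c)) ha hr i
  have hd4 : disc (nform i (a, 2 * β, c)) = (4 : ℤ) ^ 2 * -(p : ℤ) := by
    rw [hdisc]; simp only [disc]; rw [hd]; ring
  constructor
  · intro hv
    obtain ⟨k, g, hk, e, hg, -⟩ := exists_of_value neg_disc_neg.1 hpos hroot hv
    rw [e, disc_smulForm, hg] at hd4
    obtain rfl : k = 4 := (pow_left_inj₀ hk.le (by norm_num) two_ne_zero).1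
      (mul_right_cancel₀ neg_disc_neg.1.ne hd4)
    have h1 := congrArg Prod.fst e
    have h3 := congrArg (fun x => x.2.2) e
    fin_cases i <;> simp [nform, crit, smulForm] at h1 h3 ⊢ <;> omega
  · intro hx
    obtain ⟨A, B, C, he, hgp⟩ : ∃ A B C : ℤ, nform i (a, 2 * β, c) = smulForm 4 (A, B, C) ∧
        ∀ G : ℤ, G ∣ A → G ∣ B → G ∣ C → G ∣ a ∧ G ∣ 2 * β ∧ G ∣ c := by
      fin_cases i <;> simp [nform, crit] at hx ⊢
      · obtain ⟨x, rfl⟩ := hx
        exact ⟨x, β, c, by simp [smulForm]; ring,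
          fun G h1 h2 h3 => ⟨h1.mul_left 4, h2.mul_left 2, h3⟩⟩
      · obtain ⟨x, rfl⟩ := hx
        exact ⟨a, β, x, by simp [smulForm]; ring,
          fun G h1 h2 h3 => ⟨h1, h2.mul_left 2, h3.mul_left 4⟩⟩
      · obtain ⟨x, hx⟩ := hx
        refine ⟨a, β - a, x, by simp [smulForm, hx]; ring, fun G h1 h2 h3 => ?_⟩
        have hβ : G ∣ 2 * β := (by simpa using dvd_add h2 h1 : G ∣ β).mul_left 2
        exact ⟨h1, hβ, by
          rw [show c = 4 * x - a + 2 * β by linarith]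
          exact dvd_add (dvd_sub (h3.mul_left 4) h1) hβ⟩
    rw [he] at hpos hroot hd4
    have hg : Int.gcd (Int.gcd A B) C = 1 := by
      have h1 : ((Int.gcd (Int.gcd A B) C : ℕ) : ℤ) ∣ (Int.gcd A B : ℤ) := Int.gcd_dvd_left _ _
      obtain ⟨e1, e2, e3⟩ := hgp _ (h1.trans (Int.gcd_dvd_left A B))
        (h1.trans (Int.gcd_dvd_right A B)) (Int.gcd_dvd_right _ _)
      have := Int.dvd_coe_gcd (Int.dvd_coe_gcd e1 e2) e3
      rw [hprim] at this
      exact_mod_cast Int.eq_one_of_dvd_one (Int.natCast_nonneg _) this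
    rw [disc_smulForm] at hd4
    have hD : disc (A, B, C) = -(p : ℤ) := mul_left_cancel₀ (by norm_num) hd4
    rw [← hD]
    refine jfun_mem_values (by simp [smulForm] at hpos; exact hpos) (hD ▸ neg_disc_neg.1) hg ?_
    simp only [FA.Singular.IsRoot, smulForm] at hroot ⊢
    push_cast at hroot
    linear_combination (1 / 4 : ℂ) * hroot

theorem odd_crit_cases (h4 : p % 4 = 3) {f : ℤ × ℤ × ℤ} (hf : f ∈ Red (-(p : ℤ))) :
    if p % 8 = 3 then ∀ i, ¬ (2 : ℤ) ∣ crit i f else ∃! i, ¬ (2 : ℤ) ∣ crit i f := by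
  obtain ⟨a, b, c⟩ := f
  obtain ⟨hd, -⟩ := hf
  simp only at hd
  obtain ⟨m, rfl⟩ : ∃ m, b = 2 * m + 1 := by
    rcases Int.even_or_odd' b with ⟨m, rfl | rfl⟩
    · exfalso; ring_nf at hd; omega
    · exact ⟨m, rfl⟩
  have hac : 4 * (a * c) = 4 * (m * (m + 1)) + 1 + p := by linear_combination -hd
  obtain ⟨u, hu⟩ := Int.even_mul_succ_self m
  have hpar := Int.mul_emod a c 2
  rcases Int.emod_two_eq_zero_or_one a with ea | ea <;>
    rcases Int.emod_two_eq_zero_or_one c with ec | ec <;> simp [ea, ec] at hpar <;>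
    split_ifs with h8 <;>
    first
      | (exfalso; omega)
      | (intro i; fin_cases i <;> simp [crit] <;> omega)
      | (refine ⟨2, by simp [crit]; omega, fun i hi => ?_⟩
         fin_cases i <;> simp [crit] at hi ⊢ <;> omega)
      | (refine ⟨1, by simp [crit]; omega, fun i hi => ?_⟩
         fin_cases i <;> simp [crit] at hi ⊢ <;> omega)
      | (refine ⟨0, by simp [crit]; omega, fun i hi => ?_⟩
         fin_cases i <;> simp [crit] at hi ⊢ <;> omega)

theorem four_crit_unique (h4 : p % 4 = 3) {f : ℤ × ℤ × ℤ} (hf : f ∈ Red (-4 * (p : ℤ))) :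
    ∃! i, (4 : ℤ) ∣ crit i f := by
  obtain ⟨a, b, c⟩ := f
  obtain ⟨hd, hprim, -⟩ := hf
  simp only at hd hprim
  obtain ⟨β, rfl⟩ := even_middle hd
  have hac : a * c = β ^ 2 + p := by linarith
  have hodd : ¬ ((2 : ℤ) ∣ a ∧ (2 : ℤ) ∣ c) := fun ⟨h1, h2⟩ => by
    have := Int.dvd_coe_gcd (Int.dvd_coe_gcd h1 (dvd_mul_right 2 β)) h2
    rw [hprim] at this
    norm_num at this
  have hmod := Int.mul_emod a c 4
  obtain ⟨m, rfl | rfl⟩ := Int.even_or_odd' β <;> ring_nf at hac <;>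
    rcases (show a % 4 = 0 ∨ a % 4 = 1 ∨ a % 4 = 2 ∨ a % 4 = 3 by omega) with ea | ea | ea | ea <;>
    rcases (show c % 4 = 0 ∨ c % 4 = 1 ∨ c % 4 = 2 ∨ c % 4 = 3 by omega) with ec | ec | ec | ec <;>
    rw [ea, ec] at hmod <;> norm_num at hmod <;>
    first
      | (exfalso; omega)
      | (refine ⟨2, by simp [crit]; omega, fun i hi => ?_⟩
         fin_cases i <;> simp [crit] at hi ⊢ <;> omega)
      | (refine ⟨1, by simp [crit]; omega, fun i hi => ?_⟩
         fin_cases i <;> simp [crit] at hi ⊢ <;> omega)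
      | (refine ⟨0, by simp [crit]; omega, fun i hi => ?_⟩
         fin_cases i <;> simp [crit] at hi ⊢ <;> omega)

/-- The neighbours of a point of discriminant `-p` are distinct, `p ≥ 11`. -/
theorem nbr_injective (h8 : p % 8 = 3) (h5 : 5 ≤ p) {f : ℤ × ℤ × ℤ} (hf : f ∈ Red (-(p : ℤ)))
    {τ : ℍ} (hr : FA.Singular.IsRoot f τ) : Function.Injective fun i => jfun (nbrH i τ) := by
  intro i j hij
  obtain ⟨γ, hγ⟩ := (jfun_eq_iff _ _).1 hij
  set N : Mat := (nbr j).adjugate * ((γ : Mat) * nbr i) with hN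
  have hi : 0 < (nbr i).det := by rw [det_nbr]; norm_num
  have hj : 0 < (nbr j).det := by rw [det_nbr]; norm_num
  have hdet : N.det = 4 := by
    rw [hN, Matrix.det_mul, Matrix.det_mul, Matrix.det_adjugate, γ.det_coe, det_nbr, det_nbr]
    simp
  have hgi : 0 < ((γ : Mat) * nbr i).det := by rwa [Matrix.det_mul, γ.det_coe, one_mul]
  have e : mob ((γ : Mat) * nbr i) τ = (nbrH j τ : ℂ) := by
    rw [mob_mul hi, show mob (nbr i) τ = (nbrH i τ : ℂ) from rfl, mob_SL, hγ]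
  have hfix : mob N τ = (τ : ℂ) := by
    rw [hN, mob_mul hgi, e, show (nbrH j τ : ℂ) = mob (nbr j) τ from rfl, ← mob_mul hj,
      Matrix.adjugate_mul, det_nbr]
    simp [mob]
  rw [fixes_iff (by rw [hdet]; norm_num)] at hfix
  obtain ⟨hd, hprim, ha, -⟩ := hf
  obtain ⟨k, hk⟩ := exists_multiple (h := (N 1 0, N 1 1 - N 0 0, -N 0 1)) ha.ne' hprim hr (by
    simp only [FA.Singular.IsRoot]; push_cast; linear_combination hfix)
  simp only [smulForm, Prod.mk.injEq] at hk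
  obtain ⟨hk1, hk2, hk3⟩ := hk
  rw [Matrix.det_fin_two] at hdet
  have hpell : (N 0 0 + N 1 1) ^ 2 + k ^ 2 * p = 16 := by
    rw [show (p : ℤ) = -(f.2.1 ^ 2 - 4 * f.1 * f.2.2) by rw [hd]; ring]
    linear_combination 4 * hdet + (N 1 1 - N 0 0 + k * f.2.1) * hk2 - 4 * N 1 0 * hk3 -
      4 * k * f.2.2 * hk1
  have hp11 : (11 : ℤ) ≤ p := by omega
  have hk0 : k = 0 := by
    by_contra h0
    have h1 : 1 ≤ k ^ 2 := Int.add_one_le_iff.2 (pow_pos (abs_pos.2 h0) 2 |>.trans_eq (sq_abs k))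
    have h2 : k ^ 2 * p ≤ 16 := by nlinarith [sq_nonneg (N 0 0 + N 1 1)]
    have h3 : k ^ 2 = 1 := by nlinarith
    rw [h3, one_mul] at hpell h2
    obtain rfl : p = 11 := by omega
    have ht : -2 ≤ N 0 0 + N 1 1 ∧ N 0 0 + N 1 1 ≤ 2 := by constructor <;> nlinarith
    obtain ⟨t, ht'⟩ : ∃ t, N 0 0 + N 1 1 = t := ⟨_, rfl⟩
    rw [ht'] at hpell ht
    rcases (show t = -2 ∨ t = -1 ∨ t = 0 ∨ t = 1 ∨ t = 2 by omega) with
      rfl | rfl | rfl | rfl | rfl <;> norm_num at hpell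
  subst hk0
  rw [zero_mul] at hk1 hk2 hk3
  have hsq : N 0 0 ^ 2 = 2 ^ 2 := by
    linear_combination hdet - N 0 0 * hk2 + N 0 1 * hk1
  rcases sq_eq_sq_iff_eq_or_eq_neg.1 hsq with h00 | h00 <;>
    fin_cases i <;> fin_cases j <;>
    first
      | rfl
      | (exfalso
         simp [hN, nbr, Matrix.mul_apply, Fin.sum_univ_two, Matrix.adjugate_fin_two, Matrix.vecMul,
           dotProduct]
           at h00 hk1 hk2 hk3
         omega)

/-- **`h(-4 p)` against `h(-p)`.** -/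
theorem ncard_red_four (h5 : 5 ≤ p) (h4 : p % 4 = 3) :
    (Red (-4 * (p : ℤ))).ncard = (if p % 8 = 3 then 3 else 1) * (Red (-(p : ℤ))).ncard := by
  have hfin : ∀ D, (values D).Finite := fun D => (values_finite_card D).1
  rw [← values_ncard neg_disc_neg.1, ← values_ncard neg_disc_neg.2,
    Set.ncard_eq_toFinset_card _ (hfin _), Set.ncard_eq_toFinset_card _ (hfin _)]
  set V := (hfin (-(p : ℤ))).toFinset with hV
  set W := (hfin (-4 * (p : ℤ))).toFinset with hW
  have habove : ∀ v ∈ V, (W.bipartiteAbove Adj v).card = if p % 8 = 3 then 3 else 1 :=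
    fun v hv => by
    obtain ⟨f, hf, τ, hr, rfl⟩ := (Set.Finite.mem_toFinset _).1 hv
    have e : W.bipartiteAbove Adj (jfun τ) =
        ((Finset.univ : Finset (Fin 3)).filter fun i => ¬ (2 : ℤ) ∣ crit i f).image
          fun i => jfun (nbrH i τ) := by
      ext w
      simp only [Finset.mem_bipartiteAbove, hW, Set.Finite.mem_toFinset, adj_iff,
        Finset.mem_image, Finset.mem_filter, Finset.mem_univ, true_and]
      constructor
      · rintro ⟨hw, i, rfl⟩
        exact ⟨i, (mem_values_four_iff hf hr i).1 hw, rfl⟩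
      · rintro ⟨i, hi, rfl⟩
        exact ⟨(mem_values_four_iff hf hr i).2 hi, i, rfl⟩
    rw [e]
    have hc := odd_crit_cases h4 hf
    split_ifs at hc ⊢ with h8
    · rw [Finset.card_image_of_injective _ (nbr_injective h8 h5 hf hr),
        Finset.filter_true_of_mem fun i _ => hc i]
      rfl
    · obtain ⟨i, hi, huniq⟩ := hc
      rw [show (Finset.univ : Finset (Fin 3)).filter (fun i => ¬ (2 : ℤ) ∣ crit i f) = {i} by
        ext j
        simp only [Finset.mem_filter, Finset.mem_univ, true_and, Finset.mem_singleton]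
        exact ⟨huniq j, fun e => e ▸ hi⟩, Finset.image_singleton, Finset.card_singleton]
  have hbelow : ∀ w ∈ W, (V.bipartiteBelow Adj w).card = 1 := fun w hw => by
    obtain ⟨f, hf, τ, hr, rfl⟩ := (Set.Finite.mem_toFinset _).1 hw
    obtain ⟨i, hi, huniq⟩ := four_crit_unique h4 hf
    refine Finset.card_eq_one.2 ⟨jfun (nbrH i τ), Finset.ext fun v => ?_⟩
    simp only [Finset.mem_bipartiteBelow, hV, Set.Finite.mem_toFinset, Finset.mem_singleton]
    constructor
    · rintro ⟨hv, ha⟩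
      obtain ⟨j, rfl⟩ := adj_iff.1 (adj_symm ha)
      rw [huniq j ((mem_values_one_iff hf hr j).1 hv)]
    · rintro rfl
      exact ⟨(mem_values_one_iff hf hr i).2 hi, adj_symm (adj_iff.2 ⟨i, rfl⟩)⟩
  have h := Finset.sum_card_bipartiteAbove_eq_sum_card_bipartiteBelow (s := V) (t := W) Adj
  rw [Finset.sum_congr rfl habove, Finset.sum_congr rfl hbelow, Finset.sum_const,
    Finset.sum_const, smul_eq_mul, smul_eq_mul, mul_one] at h
  rw [← h, mul_comm]

/-! ### The class numbers of Hurwitz -/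

theorem weight_eq_one (h5 : 5 ≤ p) {N : ℕ} (hN : N = p ∨ N = 4 * p)
    {f : ℤ × ℤ × ℤ} (hf : f ∈ redForms N) : weight f = 1 := by
  obtain ⟨a, b, c⟩ := f
  obtain ⟨hd, ha, -⟩ := mem_redForms.1 hf
  simp only at hd ha
  have hpr : Prime (p : ℤ) := Nat.prime_iff_prime_int.1 hp.out
  unfold weight
  simp only
  rw [if_neg, if_neg]
  · rintro ⟨rfl, rfl⟩
    have h3 : (3 : ℤ) ∣ 4 * p := by
      rcases hN with rfl | rfl <;> push_cast at hd
      · exact ⟨4 * a ^ 2, by linear_combination 4 * hd⟩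
      · exact ⟨a ^ 2, by linear_combination hd⟩
    have := (Nat.prime_dvd_prime_iff_eq Nat.prime_three hp.out).1
      (Int.natCast_dvd_natCast.1 ((Int.prime_three.dvd_or_dvd h3).resolve_left (by norm_num)))
    omega
  · rintro ⟨rfl, rfl⟩
    rcases hN with rfl | rfl <;> push_cast at hd
    · have : (4 : ℤ) ∣ N := ⟨a * a, by linarith⟩
      have := hp.out.eq_two_or_odd
      omega
    · exact hpr.not_isSquare ⟨a, by linarith⟩

theorem coe_primitive_redForms {N : ℕ} :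
    {f | f ∈ redForms N ∧ Int.gcd (Int.gcd f.1 f.2.1) f.2.2 = 1} = Red (-(N : ℤ)) := by
  ext f
  simp only [Set.mem_ofPred_eq, mem_redForms]
  exact ⟨fun ⟨⟨h1, h2⟩, h3⟩ => ⟨h1, h3, h2⟩, fun ⟨h1, h3, h2⟩ => ⟨⟨h1, h2⟩, h3⟩⟩

theorem gcd_cases (h5 : 5 ≤ p) {f : ℤ × ℤ × ℤ} {N : ℕ} (hN : N ∣ 4 * p) (hf : f ∈ redForms N) :
    Int.gcd (Int.gcd f.1 f.2.1) f.2.2 = 1 ∨
      (4 ∣ N ∧ DvdForm 2 f ∧ Int.gcd (Int.gcd f.1 f.2.1) f.2.2 ≠ 1) := by
  obtain ⟨hd, ha, -⟩ := mem_redForms.1 hf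
  obtain ⟨k, g, hk, rfl, -, hprim⟩ := exists_content f ha
  have hk2 : k ∣ 2 := FA.Rueck.dvd_two_of_sq_dvd h5 (p := p) (by
    refine dvd_trans ?_ (show (N : ℤ) ∣ 4 * (p : ℤ) by exact_mod_cast hN)
    rw [← dvd_neg]
    exact ⟨disc g, by rw [← hd]; simp only [disc, smulForm]; ring⟩)
  have hgcd : Int.gcd (Int.gcd (smulForm k g).1 (smulForm k g).2.1) (smulForm k g).2.2 =
      k.natAbs := by
    simp only [smulForm]
    rw [Int.gcd_mul_left, Nat.cast_mul, Int.natAbs_of_nonneg hk.le, Int.gcd_mul_left, hprim,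
      mul_one]
  have := Int.le_of_dvd two_pos hk2
  rcases (show k = 1 ∨ k = 2 by omega) with rfl | rfl
  · exact Or.inl (by rw [hgcd]; rfl)
  · refine Or.inr ⟨?_, ⟨dvd_mul_right _ _, dvd_mul_right _ _, dvd_mul_right _ _⟩,
      by rw [hgcd]; norm_num⟩
    rw [← Int.natCast_dvd_natCast, ← dvd_neg]
    exact ⟨disc g, by rw [← hd]; simp only [disc, smulForm]; push_cast; ring⟩

/-- `H(p)` and `H(4 p)` by the primitive forms. -/
theorem classNumberH_eq (h5 : 5 ≤ p) (h4 : p % 4 = 3) :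
    classNumberH p = (Red (-(p : ℤ))).ncard ∧
      classNumberH (4 * p) = (Red (-4 * (p : ℤ))).ncard + classNumberH p := by
  have hw : ∀ {N : ℕ}, (N = p ∨ N = 4 * p) → ∀ s ⊆ redForms N, ∑ f ∈ s, weight f = s.card :=
    fun hN s hs => by
      rw [Finset.sum_congr rfl fun f hf => weight_eq_one h5 hN (hs hf), Finset.sum_const,
        nsmul_eq_mul, mul_one]
  have hcard : ∀ N : ℕ, ((redForms N).filter fun f =>
      Int.gcd (Int.gcd f.1 f.2.1) f.2.2 = 1).card = (Red (-(N : ℤ))).ncard := fun N => by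
    rw [← coe_primitive_redForms, ← Set.ncard_coe_finset, Finset.coe_filter]
  constructor
  · rw [classNumberH, hw (Or.inl rfl) _ subset_rfl, ← hcard, Finset.filter_true_of_mem fun f hf =>
      ((gcd_cases h5 (dvd_mul_left p 4) hf).resolve_right fun h => by omega)]
  · rw [← sum_weight_dvdForm two_pos p, show (2 : ℕ) ^ 2 * p = 4 * p by norm_num,
      show -4 * (p : ℤ) = -((4 * p : ℕ) : ℤ) by push_cast; ring, ← hcard, ← hw (Or.inr rfl) _
      (Finset.filter_subset _ _), classNumberH,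
      ← Finset.sum_filter_add_sum_filter_not (redForms (4 * p))
        fun f => Int.gcd (Int.gcd f.1 f.2.1) f.2.2 = 1]
    congr 1
    refine Finset.sum_congr (Finset.filter_congr fun f hf => ?_) fun _ _ => rfl
    rcases gcd_cases h5 dvd_rfl hf with h | ⟨-, h2, hne⟩
    · refine iff_of_false (fun hh => hh h) fun ⟨h1, h2, h3⟩ => ?_
      have := Int.dvd_coe_gcd (Int.dvd_coe_gcd h1 h2) h3
      rw [h] at this
      norm_num at this
    · exact iff_of_true hne h2

end FA.Schoof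

end
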