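import Fermat.Agent.Supersingular.SchoofCount
import Mathlib.NumberTheory.ArithmeticFunction.Moebius

/-!
# The census of the groups over `𝔽_p`

A curve with trace `t` has group `ℤ/d × ℤ/e`, `d ∣ e`, `d e = p + 1 - t`, exactly when `d` is the
largest level of full rational torsion; Möbius inversion turns Schoof's counts of full torsion at
the levels `d m` into the count of this group.
-/

set_option autoImplicit false
set_option linter.style.haveILetI false
set_option linter.unusedSectionVars false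

noncomputable section

open scoped Classical

namespace FA.GroupCensus

open FA.BirchMoment FA.ClassRelation FA.ClassTrace FA.Schoof FA.Singular

open scoped ArithmeticFunction.Moebius

variable {p : ℕ} [hp : Fact p.Prime]

/-- The group `ℤ/d × ℤ/e`. -/
def HasGroup (d e : ℕ) (ab : ZMod p × ZMod p) : Prop :=
  Nonempty ((shortMod ab.1 ab.2).toAffine.Point ≃+ ZMod d × ZMod e)

/-- The levels `d m` of the inversion. -/
def steps (p d e : ℕ) : Finset ℕ :=
  (e / d).divisors.filter fun m => m ^ 2 ∣ e / d ∧ d * m ∣ p - 1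

/-- For a single equation. -/
theorem indicator (h5 : 5 ≤ p) {d e : ℕ} (hd : 0 < d) (he : 0 < e) (hde : d ∣ e)
    {ab : ZMod p × ZMod p} (hab : ab ∈ nonsingular p) :
    (if HasGroup d e ab then (1 : ℤ) else 0) = ∑ m ∈ steps p d e, μ m *
      if tr ab = (p : ℤ) + 1 - (d * e : ℕ) ∧ FullAt (d * m) ab then 1 else 0 := by
  haveI : (shortMod ab.1 ab.2).IsElliptic :=
    ⟨(shortMod_Δ_ne_zero h5 (Finset.mem_filter.1 hab).2).isUnit⟩
  haveI : NeZero d := ⟨hd.ne'⟩
  haveI : NeZero e := ⟨he.ne'⟩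
  obtain ⟨d', hde', hcard, h1, -, ⟨φ⟩⟩ :=
    FA.ReducedGroups.exists_equiv_zmod (by omega) (shortMod ab.1 ab.2)
  set e' := AddMonoid.exponent (shortMod ab.1 ab.2).toAffine.Point with he'
  haveI : NeZero e' := ⟨AddMonoid.exponent_ne_zero_of_finite⟩
  haveI : NeZero d' := ⟨fun h => by rw [h, zero_mul] at hcard; exact Nat.card_pos.ne hcard⟩
  have hfull : ∀ n, 0 < n → (FullAt n ab ↔ n ∣ d') := fun n hn =>
    FA.ReducedGroups.natCard_nsmul_eq_sq_iff φ hde' hn
  by_cases htr : tr ab = (p : ℤ) + 1 - (d * e : ℕ)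
  swap
  · rw [if_neg, Finset.sum_eq_zero fun m _ => by rw [if_neg fun h => htr h.1, mul_zero]]
    rintro ⟨ψ⟩
    refine htr ?_
    rw [tr, FA.Rueck.trace_eq_sub_card, Nat.card_congr ψ.toEquiv, Nat.card_prod, Nat.card_zmod,
      Nat.card_zmod]
  have hN : d' * e' = d * e := by
    have h := htr
    rw [tr, FA.Rueck.trace_eq_sub_card] at h
    omega
  have hgroup : HasGroup d e ab ↔ d = d' := by
    refine ⟨fun ⟨ψ⟩ => Nat.dvd_antisymm ?_ ?_, fun h => ?_⟩
    · exact (hfull d hd).1 ((FA.ReducedGroups.natCard_nsmul_eq_sq_iff ψ hde hd).2 dvd_rfl)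
    · exact (FA.ReducedGroups.natCard_nsmul_eq_sq_iff ψ hde (Nat.pos_of_ne_zero (NeZero.ne d'))).1
        ((hfull d' (Nat.pos_of_ne_zero (NeZero.ne d'))).2 dvd_rfl)
    · subst h
      rw [← Nat.eq_of_mul_eq_mul_left hd hN]
      exact ⟨φ⟩
  rcases em (d ∣ d') with ⟨k, hk⟩ | hndvd
  swap
  · rw [if_neg fun h => hndvd (hgroup.1 h ▸ dvd_rfl), Finset.sum_eq_zero fun m hm => ?_]
    rw [if_neg, mul_zero]
    rintro ⟨-, h⟩
    have hm0 : 0 < m := Nat.pos_of_mem_divisors (Finset.mem_filter.1 hm).1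
    exact hndvd ((dvd_mul_right d m).trans ((hfull _ (Nat.mul_pos hd hm0)).1 h))
  have hk0 : k ≠ 0 := fun h => NeZero.ne d' (by rw [hk, h, mul_zero])
  have hsum : ∑ m ∈ k.divisors, μ m = if k = 1 then 1 else 0 := by
    rw [← ArithmeticFunction.coe_mul_zeta_apply, ArithmeticFunction.moebius_mul_coe_zeta,
      ArithmeticFunction.one_apply]
  have hiff : HasGroup d e ab ↔ k = 1 := hgroup.trans
    ⟨fun h => (mul_eq_left₀ hd.ne').1 (hk.symm.trans h.symm), fun h => by rw [hk, h, mul_one]⟩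
  rw [if_congr hiff rfl rfl, ← hsum]
  simp only [mul_ite, mul_one, mul_zero]
  rw [← Finset.sum_filter]
  refine Finset.sum_congr (Finset.ext fun m => ?_) fun _ _ => rfl
  simp only [Finset.mem_filter, steps, Nat.mem_divisors]
  constructor
  · rintro ⟨hmk, -⟩
    have hm0 : 0 < m := Nat.pos_of_dvd_of_pos hmk (Nat.pos_of_ne_zero hk0)
    have hsq : m ^ 2 ∣ e / d := by
      refine (pow_dvd_pow_of_dvd hmk 2).trans ?_
      obtain ⟨c, hc⟩ := hde'
      obtain ⟨n, rfl⟩ := hde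
      rw [Nat.mul_div_cancel_left _ hd]
      refine ⟨c, mul_left_cancel₀ (pow_ne_zero 2 hd.ne') ?_⟩
      rw [hk] at hc hN
      rw [hc] at hN
      linarith
    have he0 : e / d ≠ 0 := (Nat.div_pos (Nat.le_of_dvd he hde) hd).ne'
    refine ⟨⟨⟨(dvd_pow_self m two_ne_zero).trans hsq, he0⟩, hsq, ?_⟩, htr, ?_⟩
    · exact (hk ▸ Nat.mul_dvd_mul_left d hmk).trans h1
    · exact (hfull _ (Nat.mul_pos hd hm0)).2 (hk ▸ Nat.mul_dvd_mul_left d hmk)
  · rintro ⟨⟨⟨hm, hm'⟩, -⟩, -, hf⟩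
    have hm0 : 0 < m := Nat.pos_of_dvd_of_pos hm (Nat.pos_of_ne_zero hm')
    exact ⟨(Nat.mul_dvd_mul_iff_left hd).1 (hk ▸ (hfull _ (Nat.mul_pos hd hm0)).1 hf), hk0⟩

/-- **The census.** -/
theorem two_mul_card (h5 : 5 ≤ p) {d e : ℕ} (hd : d ∣ p - 1) (hde : d ∣ e)
    (ht : ((p : ℤ) + 1 - (d * e : ℕ)) ^ 2 < 4 * (p : ℤ)) :
    2 * (((nonsingular p).filter fun ab => HasGroup d e ab).card : ℚ) =
      ((p : ℚ) - 1) * ∑ m ∈ steps p d e, (μ m : ℚ) * classNumberH
        ((4 * (p : ℤ) - ((p : ℤ) + 1 - (d * e : ℕ)) ^ 2) / ((d * m : ℕ) : ℤ) ^ 2).toNat := by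
  have hd0 : 0 < d := Nat.pos_of_ne_zero fun h => by
    rw [h, zero_dvd_iff] at hd
    omega
  have he0 : 0 < e := Nat.pos_of_ne_zero fun h => by
    rw [h, mul_zero] at ht
    push_cast at ht
    nlinarith
  have h : (((nonsingular p).filter fun ab => HasGroup d e ab).card : ℤ) = ∑ m ∈ steps p d e,
      μ m * (((nonsingular p).filter fun ab =>
        tr ab = (p : ℤ) + 1 - (d * e : ℕ) ∧ FullAt (d * m) ab).card : ℤ) := by
    rw [← Finset.sum_boole, Finset.sum_congr rfl fun ab hab => indicator h5 hd0 he0 hde hab,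
      Finset.sum_comm]
    refine Finset.sum_congr rfl fun m _ => ?_
    rw [← Finset.mul_sum, Finset.sum_boole]
  have h' := congrArg (fun x : ℤ => (x : ℚ)) h
  simp only [Int.cast_natCast, Int.cast_sum, Int.cast_mul] at h'
  rw [h', Finset.mul_sum, Finset.mul_sum]
  refine Finset.sum_congr rfl fun m hm => ?_
  obtain ⟨-, hm2, hdm⟩ := Finset.mem_filter.1 hm
  rw [mul_left_comm, mul_left_comm ((p : ℚ) - 1)]
  refine congrArg ((μ m : ℚ) * ·) (FA.Schoof.two_mul_card h5 ht hdm ?_)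
  rw [sub_sub_cancel, ← Nat.cast_pow, Int.natCast_dvd_natCast]
  obtain ⟨n, rfl⟩ := hde
  rw [Nat.mul_div_cancel_left _ hd0] at hm2
  rw [mul_pow, sq d, ← mul_assoc]
  exact mul_dvd_mul_left _ hm2

/-- `H(4 p) = h(-4 p)` for `p ≡ 1 (mod 4)`. -/
theorem classNumberH_four (h5 : 5 ≤ p) (h4 : p % 4 = 1) :
    classNumberH (4 * p) = (Red (-4 * (p : ℤ))).ncard := by
  rw [classNumberH, Finset.sum_congr rfl fun f hf => weight_eq_one h5 (Or.inr rfl) hf,
    Finset.sum_const, nsmul_eq_mul, mul_one,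
    show -4 * (p : ℤ) = -((4 * p : ℕ) : ℤ) by push_cast; ring,
    ← coe_primitive_redForms, ← Set.ncard_coe_finset]
  refine congrArg _ (congrArg _ (Set.ext fun f => ⟨fun hf => ⟨hf, ?_⟩, fun h => h.1⟩))
  rcases gcd_cases h5 dvd_rfl hf with h | ⟨-, ⟨⟨a, ha⟩, ⟨b, hb⟩, c, hc⟩, -⟩
  · exact h
  · obtain ⟨hd, -⟩ := mem_redForms.1 hf
    rw [ha, hb, hc] at hd
    push_cast at hd
    obtain ⟨u, rfl | rfl⟩ := Int.even_or_odd' b <;> ring_nf at hd <;> omega

end FA.GroupCensus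

end
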