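import Fermat.Agent.Supersingular.CMOrdinary
import Fermat.Agent.HasseBound.FiniteField
import Fermat.Agent.Mazur.UnitLift
import Fermat.Agent.Root.SummaryFrobenius

/-!
# Deuring: the Frobenius field of an ordinary reduction of a singular modulus

Above a split prime the multiplier acts on the prime-to-`p` torsion of the reduced curve and
commutes with a power of Frobenius. Both are no scalars modulo almost every `l`, so one has an
eigenvector there if and only if the other has: `D` and `a² - 4 q` are squares modulo the same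
primes, and their product is a square.
-/

set_option autoImplicit false
set_option linter.style.haveILetI false
set_option linter.unusedSectionVars false

noncomputable section

open WeierstrassCurve Polynomial
open scoped Classical UpperHalfPlane Pointwise

namespace FA.CMField

open FA.Frob FA.EC FA.Local FA.HasseBound FA.CMReduction FA.ClassNumberOne
open FA.ModField (jfun)

local notation "Qb" => AlgebraicClosure ℚ
local notation "GQ" => AlgebraicClosure ℚ ≃ₐ[ℚ] AlgebraicClosure ℚ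

/-- An integer which is a square modulo all large primes is a square. -/
theorem isSquare_of_isSquare_mod {N : ℤ} (_hN : N ≠ 0) (B : ℕ)
    (h : ∀ l : ℕ, ∀ [Fact l.Prime], B < l → IsSquare (N : ZMod l)) : IsSquare N := by
  by_contra hns
  set f : ℤ[X] := X ^ 2 - C N with hf
  have hm : f.Monic := monic_X_pow_sub_C _ two_ne_zero
  have hd : f.natDegree = 2 := natDegree_X_pow_sub_C
  have hirr : Irreducible f := by
    rw [hm.irreducible_iff_roots_eq_zero_of_degree_le_three (by omega) (by omega)]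
    refine Multiset.eq_zero_of_forall_notMem fun x hx => hns ⟨x, ?_⟩
    have := (mem_roots'.1 hx).2
    simp only [hf, IsRoot.def, eval_sub, eval_pow, eval_X, eval_C, sub_eq_zero] at this
    rw [← this, sq]
  obtain ⟨l, ⟨hl, hroot⟩, hlB⟩ :=
    (FA.Summary.infinitely_many_primes_without_root f hm hirr hd.ge).exists_gt B
  haveI := Fact.mk hl
  obtain ⟨r, hr⟩ := h l hlB
  refine hroot r ?_
  simp [hf, hr, sq]

/-! ### Eigenvectors of commuting maps of a plane over a prime field -/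

section eigen

variable {T : Type*} [AddCommGroup T]

/-- There is an eigenvector with an integral eigenvalue. -/
def HasEigen (f : T →+ T) : Prop := ∃ v, v ≠ 0 ∧ ∃ a : ℤ, f v = a • v

/-- An eigenvector of a nonscalar map is one of every map commuting with it. -/
theorem HasEigen.of_commute {l : ℕ} (hl : l.Prime) (hT : Nat.card T = l ^ 2)
    (hTl : ∀ P : T, l • P = 0) {f g : T →+ T} (hfg : ∀ P, f (g P) = g (f P))
    (hns : ∀ c : ℤ, ∃ P, f P ≠ c • P) (hf : HasEigen f) : HasEigen g := by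
  obtain ⟨v, hv, a, ha⟩ := hf
  haveI : Finite T := Nat.finite_of_card_ne_zero (hT.trans_ne (pow_ne_zero _ hl.ne_zero))
  obtain ⟨P, hP⟩ := hns a
  set H : AddSubgroup T := (f - a • AddMonoidHom.id T).ker with hH
  have hmem : ∀ X, X ∈ H ↔ f X = a • X := fun X => by
    rw [hH, AddMonoidHom.mem_ker, AddMonoidHom.sub_apply, sub_eq_zero]; rfl
  have hcard : Nat.card H < l ^ 2 :=
    calc Nat.card H = (H : Set T).ncard := Nat.card_coe_set_eq _
      _ < (Set.univ : Set T).ncard := Set.ncard_lt_ncard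
          ⟨Set.subset_univ _, fun h => hP ((hmem P).1 (h (Set.mem_univ P)))⟩ (Set.toFinite _)
      _ = l ^ 2 := (Set.ncard_univ T).trans hT
  obtain ⟨b, hb⟩ := AddSubgroup.mem_zmultiples_iff.1 (mem_zmultiples_of_card_lt hl H
    (fun X _ => hTl X) hcard ((hmem v).2 ha) hv
    ((hmem (g v)).2 (by rw [hfg, ha, map_zsmul])))
  exact ⟨v, hv, b, hb.symm⟩

/-- An eigenvalue of a square root of `D` is one modulo `l`. -/
theorem isSquare_of_hasEigen {l : ℕ} (hl : l.Prime) (hTl : ∀ P : T, l • P = 0) {D : ℤ}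
    {e : T →+ T} (hee : ∀ P, e (e P) = D • P) (he : HasEigen e) : IsSquare (D : ZMod l) := by
  haveI := Fact.mk hl
  obtain ⟨v, hv, a, ha⟩ := he
  have h0 : (a * a - D) • v = 0 := by
    rw [sub_smul, ← hee, ha, map_zsmul, ha, mul_smul, sub_self]
  have hord : addOrderOf v = l := addOrderOf_eq_prime (hTl v) hv
  have := addOrderOf_dvd_iff_zsmul_eq_zero.2 h0
  rw [hord, ← ZMod.intCast_zmod_eq_zero_iff_dvd, Int.cast_sub, Int.cast_mul, sub_eq_zero] at this
  exact ⟨_, this.symm⟩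

/-- A nonscalar square root of a square has an eigenvector. -/
theorem hasEigen_of_isSquare {l : ℕ} [Fact l.Prime] (hTl : ∀ P : T, l • P = 0) {D : ℤ}
    {e : T →+ T} (hee : ∀ P, e (e P) = D • P) (hns : ∀ c : ℤ, ∃ P, e P ≠ c • P)
    (hD : IsSquare (D : ZMod l)) : HasEigen e := by
  obtain ⟨r, hr⟩ := hD
  obtain ⟨P, hP⟩ := hns (-(r.val : ℤ))
  obtain ⟨u, hu⟩ : (l : ℤ) ∣ D - (r.val : ℤ) * r.val := by
    rw [← ZMod.intCast_zmod_eq_zero_iff_dvd]
    push_cast
    rw [ZMod.natCast_zmod_val, hr, sub_self]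
  have h0 : ((l : ℤ) * u) • P = 0 := by
    rw [mul_comm, mul_smul, natCast_zsmul, hTl, zsmul_zero]
  refine ⟨e P + (r.val : ℤ) • P, fun e0 => hP ?_, r.val, ?_⟩
  · rw [neg_smul]; exact eq_neg_of_add_eq_zero_left e0
  · rw [map_add, map_zsmul, hee, smul_add, ← mul_smul]
    rw [← hu, sub_smul, sub_eq_zero] at h0
    rw [h0]
    exact add_comm _ _

end eigen

/-! ### Powers of Frobenius -/

section frobenius

universe u

variable {k : Type u} [Field k] [IsAlgClosed k] [DecidableEq k] {p : ℕ} [hp : Fact p.Prime]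
  [CharP k p] {n : ℕ} (W : WeierstrassCurve k) [W.IsElliptic] [DecidableEq (FF W)]
  (hW : W.map (iterateFrobenius k p n) = W)

/-- The trace of the `q`-power map. -/
def trQ : ℤ := pol (hM W) (g0 W) (gq W hW)

theorem hM_gq : hM W (gq W hW) = (p : ℤ) ^ n := by
  simp [hM, gq, hgt_qGen W hW (gen_mem W), hgt_gen]

theorem spec_gq : Spec W (gq W hW).1 (qEnd W hW) := by
  have h := spec_qGen W hW (spec_gen W)
  rwa [AddMonoidHom.comp_id] at h

/-- `#ker (c - π) = c² - t c + q`. -/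
theorem natCard_ker_qEnd (hn : n ≠ 0) {c : ℤ} (hc : ¬ (p : ℤ) ∣ c) :
    (Nat.card (c • AddMonoidHom.id _ - qEnd W hW).ker : ℤ) =
      c ^ 2 - trQ W hW * c + (p : ℤ) ^ n := by
  have hpq : (p : ℤ) ∣ (p : ℤ) ^ n := dvd_pow_self _ hn
  have hne : c ^ 2 ≠ hM W (gq W hW) := by
    rw [hM_gq]
    intro h
    exact hc ((Nat.prime_iff_prime_int.1 hp.out).dvd_of_dvd_pow (h ▸ hpq))
  have := (natCard_ker_sub_aux W (cast_ne_zero_of_not_dvd (k := k) hc) (spec_gq W hW)
    (insep_qGen W hW hn (gen_mem W))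
    (by rw [hM_gq]; exact pow_ne_zero _ (Nat.cast_ne_zero.2 hp.out.ne_zero)) hne).1
  rw [this, hM_gq, trQ]
  ring

/-- These kernels are finite. -/
theorem natCard_ker_qEnd_ne_zero (hn : n ≠ 0) {c : ℤ} (hc : ¬ (p : ℤ) ∣ c) :
    Nat.card (c • AddMonoidHom.id _ - qEnd W hW).ker ≠ 0 := by
  intro h0
  have h := natCard_ker_qEnd W hW hn hc
  rw [h0, Nat.cast_zero] at h
  set t := trQ W hW with ht
  have e := (isPara_hM W).map_combo t (-2) (g0 W) (gq W hW)
  have hpos : (0 : ℤ) ≤ hM W (t • g0 W + (-2 : ℤ) • gq W hW) := Int.natCast_nonneg _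
  rw [hM_g0, hM_gq, ← trQ, ← ht] at e
  have ht2 : t = 2 * c := by nlinarith [sq_nonneg (t - 2 * c)]
  exact hc ((Nat.prime_iff_prime_int.1 hp.out).dvd_of_dvd_pow (n := 2)
    (by rw [show c ^ 2 = (p : ℤ) ^ n by rw [ht2] at h; linarith]; exact dvd_pow_self _ hn))

/-- With a point of order `p` the discriminant of the `q`-power map does not vanish. -/
theorem disc_ne_zero (hn : n ≠ 0) {P : W.toAffine.Point} (hP0 : P ≠ 0) (hP : p • P = 0) :
    trQ W hW ^ 2 - 4 * (p : ℤ) ^ n ≠ 0 := by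
  intro h
  obtain ⟨c, hc⟩ : (2 : ℤ) ∣ trQ W hW := by
    refine Int.prime_two.dvd_of_dvd_pow (n := 2) ⟨2 * (p : ℤ) ^ n, ?_⟩
    linear_combination h
  have hc2 : c ^ 2 = (p : ℤ) ^ n := by rw [hc] at h; linarith
  have hh := isPara_hM W
  set Z := c • g0 W + (-1 : ℤ) • gq W hW with hZ
  have h0 : hM W Z = 0 := by
    rw [hZ, hh.map_combo, hM_g0, hM_gq, ← trQ, hc, ← hc2]
    ring
  have hS : Spec W Z.1 (c • AddMonoidHom.id _ + (-1 : ℤ) • qEnd W hW) :=
    ((spec_gen W).zsmul W c).add W ((spec_gq W hW).zsmul W (-1))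
  have hfin := eq_zero_of_hgt_eq_zero W Z.2 hS (by simpa [hM] using h0)
  obtain ⟨d, hd⟩ : (p : ℤ) ∣ c :=
    (Nat.prime_iff_prime_int.1 hp.out).dvd_of_dvd_pow (hc2.symm ▸ dvd_pow_self _ hn)
  have hcP : c • P = 0 := by rw [hd, mul_comm, mul_smul, natCast_zsmul, hP, zsmul_zero]
  have h' := DFunLike.congr_fun hfin P
  simp only [AddMonoidHom.add_apply, AddMonoidHom.zero_apply, AddMonoidHom.coe_smul, Pi.smul_apply,
    AddMonoidHom.id_apply, hcP, zero_add, neg_one_zsmul, AddMonoidHom.neg_apply, neg_eq_zero] at h'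
  exact hP0 (mapHom_injective _ hW (h'.trans (map_zero _).symm))

/-- The `q`-power map on the points killed by `l`. -/
def qKilled (l : ℕ) : killed W l →+ killed W l :=
  ((qEnd W hW).comp (killed W l).subtype).codRestrict _ fun P => by
    show l • qEnd W hW P.1 = 0
    rw [← map_nsmul, show l • P.1 = 0 from P.2, map_zero]

theorem qKilled_coe (l : ℕ) (P : killed W l) :
    (qKilled W hW l P).1 = qEnd W hW P.1 := rfl

theorem natCard_killed {l : ℕ} (hl : l.Prime) (hlp : l ≠ p) :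
    Nat.card (killed W l) = l ^ 2 := by
  rw [← natCard_nsmul_eq_zero W (n := l) fun h => hlp
    ((Nat.prime_dvd_prime_iff_eq hp.out hl).1 ((CharP.cast_eq_zero_iff k p l).1 h)).symm]
  exact Nat.card_congr (Equiv.subtypeEquivRight fun P => Iff.rfl)

/-- Powers of Frobenius commute. -/
theorem qKilled_comm {m : ℕ} (hW' : W.map (iterateFrobenius k p m) = W) (l : ℕ) (P : killed W l) :
    qKilled W hW l (qKilled W hW' l P) = qKilled W hW' l (qKilled W hW l P) := by
  refine Subtype.ext ?_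
  rw [qKilled_coe, qKilled_coe, qKilled_coe, qKilled_coe]
  rcases P.1 with _ | ⟨x, y, h⟩
  · rfl
  · simp only [qEnd, mapHom_some, iterateFrobenius_def, ← pow_mul, mul_comm (p ^ m)]

/-- Modulo a prime not dividing the discriminant the `q`-power map is no scalar. -/
theorem qKilled_ne_smul (hn : n ≠ 0) {l : ℕ} (hl : l.Prime) (hlp : l ≠ p)
    (hd : ¬ (l : ℤ) ∣ trQ W hW ^ 2 - 4 * (p : ℤ) ^ n) (c₀ : ℤ) :
    ∃ P, qKilled W hW l P ≠ c₀ • P := by
  by_contra hall
  push Not at hall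
  set a := trQ W hW
  have hdvd : ∀ c : ℤ, (l : ℤ) ∣ c - c₀ → ¬ (p : ℤ) ∣ c →
      (l : ℤ) ^ 2 ∣ c ^ 2 - a * c + (p : ℤ) ^ n := by
    intro c hc hcp
    rw [← natCard_ker_qEnd W hW hn hcp, ← Nat.cast_pow, Int.natCast_dvd_natCast,
      ← natCard_killed W hl hlp]
    refine AddSubgroup.card_dvd_of_le fun P hP => AddMonoidHom.mem_ker.mpr ?_
    obtain ⟨t, ht⟩ := hc
    have h := congrArg Subtype.val (hall ⟨P, hP⟩)
    rw [qKilled_coe, AddSubgroup.coe_zsmul] at h
    show c • P - qEnd W hW P = 0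
    rw [h, ← sub_smul, ht, mul_comm, mul_smul, natCast_zsmul, show l • P = 0 from hP, zsmul_zero]
  have hlm : ¬ (p : ℤ) ∣ l := fun h0 => hlp
    ((Nat.prime_dvd_prime_iff_eq hp.out hl).mp (Int.natCast_dvd_natCast.mp h0)).symm
  obtain ⟨c₁, hc₁, hc₁p⟩ : ∃ c, (l : ℤ) ∣ c - c₀ ∧ ¬ (p : ℤ) ∣ c := by
    by_cases hd : (p : ℤ) ∣ c₀
    · exact ⟨c₀ + l, ⟨1, by ring⟩, fun h0 => hlm ((Int.dvd_add_right hd).mp h0)⟩
    · exact ⟨c₀, ⟨0, by ring⟩, hd⟩
  obtain ⟨u, hu⟩ := hdvd c₁ hc₁ hc₁p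
  obtain ⟨v, hv⟩ := hdvd (c₁ + p * l) (by
      obtain ⟨t, ht⟩ := hc₁; exact ⟨t + p, by linear_combination ht⟩)
    fun h0 => hc₁p ((Int.dvd_add_left (dvd_mul_right _ _)).mp h0)
  have hl0 : (l : ℤ) ≠ 0 := Nat.cast_ne_zero.2 hl.ne_zero
  have hd' : (l : ℤ) ∣ (p : ℤ) * (2 * c₁ - a) :=
    ⟨v - u - (p : ℤ) * p, mul_left_cancel₀ hl0 (by linear_combination hv - hu)⟩
  obtain ⟨w, hw⟩ := ((Nat.prime_iff_prime_int.mp hl).dvd_mul.mp hd').resolve_left fun h0 => hlp
    ((Nat.prime_dvd_prime_iff_eq hl hp.out).mp (Int.natCast_dvd_natCast.mp h0))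
  exact hd ⟨w * (2 * c₁ - a) - 4 * l * u, by linear_combination (2 * c₁ - a) * hw - 4 * hu⟩

/-- Eigenvectors of the `q`-power map modulo `l` and square roots of the discriminant. -/
theorem hasEigen_qKilled_iff (hn : n ≠ 0) {l : ℕ} [hl : Fact l.Prime] (hlp : l ≠ p) (hl2 : l ≠ 2) :
    HasEigen (qKilled W hW l) ↔
      IsSquare ((trQ W hW ^ 2 - 4 * (p : ℤ) ^ n : ℤ) : ZMod l) := by
  set a := trQ W hW with ha
  have hlm : ¬ (p : ℤ) ∣ l := fun h0 => hlp
    ((Nat.prime_dvd_prime_iff_eq hp.out hl.out).mp (Int.natCast_dvd_natCast.mp h0)).symm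
  have hlift : ∀ c₀ : ℤ, ∃ c, (l : ℤ) ∣ c - c₀ ∧ ¬ (p : ℤ) ∣ c := fun c₀ => by
    by_cases hd : (p : ℤ) ∣ c₀
    · exact ⟨c₀ + l, ⟨1, by ring⟩, fun h0 => hlm ((Int.dvd_add_right hd).mp h0)⟩
    · exact ⟨c₀, ⟨0, by ring⟩, hd⟩
  constructor
  · rintro ⟨⟨P, hP⟩, hP0, c₀, hc₀⟩
    obtain ⟨c, ⟨t, ht⟩, hcp⟩ := hlift c₀
    have hP' : P ≠ 0 := fun e => hP0 (Subtype.ext e)
    have h := congrArg Subtype.val hc₀
    rw [qKilled_coe, AddSubgroup.coe_zsmul] at h
    have hmem : P ∈ (c • AddMonoidHom.id _ - qEnd W hW).ker := by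
      show c • P - qEnd W hW P = 0
      rw [h, ← sub_smul, ht, mul_comm, mul_smul, natCast_zsmul, show l • P = 0 from hP, zsmul_zero]
    have hord : addOrderOf (⟨P, hmem⟩ : (c • AddMonoidHom.id _ - qEnd W hW).ker) = l :=
      addOrderOf_eq_prime (Subtype.ext hP) fun e => hP' (congrArg Subtype.val e)
    have hdvd : (l : ℤ) ∣ c ^ 2 - a * c + (p : ℤ) ^ n := by
      rw [ha, ← natCard_ker_qEnd W hW hn hcp, Int.natCast_dvd_natCast]
      exact hord ▸ addOrderOf_dvd_natCard _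
    refine ⟨((2 * c - a : ℤ) : ZMod l), ?_⟩
    rw [← Int.cast_mul, ← sub_eq_zero, ← Int.cast_sub, ZMod.intCast_zmod_eq_zero_iff_dvd]
    obtain ⟨u, hu⟩ := hdvd
    exact ⟨-4 * u, by linear_combination -4 * hu⟩
  · rintro ⟨r, hr⟩
    have h2 : (2 : ZMod l) ≠ 0 := Ring.two_ne_zero ((ZMod.ringChar_zmod_n l).trans_ne hl2)
    set r₀ : ZMod l := ((a : ZMod l) + r) / 2 with hr₀
    obtain ⟨c, hc, hcp⟩ := hlift (r₀.val : ℤ)
    have hc' : (c : ZMod l) = r₀ := by
      rw [← ZMod.intCast_zmod_eq_zero_iff_dvd, Int.cast_sub, sub_eq_zero] at hc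
      rw [hc, Int.cast_natCast, ZMod.natCast_zmod_val]
    have hz : ((c ^ 2 - a * c + (p : ℤ) ^ n : ℤ) : ZMod l) = 0 := by
      push_cast at hr ⊢
      rw [hc', hr₀]
      field_simp
      linear_combination -hr
    rw [ZMod.intCast_zmod_eq_zero_iff_dvd, ha, ← natCard_ker_qEnd W hW hn hcp,
      Int.natCast_dvd_natCast] at hz
    haveI : Finite (c • AddMonoidHom.id _ - qEnd W hW).ker := by
      exact Nat.finite_of_card_ne_zero (natCard_ker_qEnd_ne_zero W hW hn hcp)
    obtain ⟨⟨P, hP⟩, hord⟩ := exists_prime_addOrderOf_dvd_card' (G := _) l hz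
    have hlP : l • P = 0 := congrArg Subtype.val (hord ▸ addOrderOf_nsmul_eq_zero _)
    refine ⟨⟨P, hlP⟩, fun e => ?_, c, Subtype.ext ?_⟩
    · have h1 : (⟨P, hP⟩ : (c • AddMonoidHom.id _ - qEnd W hW).ker) = 0 :=
        Subtype.ext (show P = 0 from congrArg Subtype.val e)
      rw [h1, addOrderOf_zero] at hord
      exact hl.out.ne_one hord.symm
    · rw [qKilled_coe, AddSubgroup.coe_zsmul]
      exact (sub_eq_zero.1 hP).symm

end frobenius

/-! ### The reduced multiplier -/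

section reduced

variable {p : ℕ} [hp : Fact p.Prime] {A : ValuationSubring Qb}

/-- Residues are fixed by powers of Frobenius. -/
theorem exists_iterate_fixed [CharP (Res A) p] (x : Res A) :
    ∃ r : ℕ, 0 < r ∧ ∀ i : ℕ, iterateFrobenius (Res A) p (i * r) x = x := by
  obtain ⟨a, rfl⟩ := IsLocalRing.residue_surjective x
  letI : Algebra (ZMod p) (Res A) := ZMod.algebra _ p
  obtain ⟨P, hP, hPc⟩ := FA.Mazur.exists_poly_residue (q := p) a
  set c := IsLocalRing.residue A a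
  have halg : IsAlgebraic (ZMod p) c := ⟨_, hP, by
    rw [aeval_def, eval₂_map, show (algebraMap (ZMod p) (Res A)).comp
      (Int.castRingHom (ZMod p)) = Int.castRingHom _ from RingHom.ext_int _ _, hPc]⟩
  let E := IntermediateField.adjoin (ZMod p) ({c} : Set (Res A))
  haveI : FiniteDimensional (ZMod p) E := IntermediateField.adjoin.finiteDimensional halg.isIntegral
  haveI : Finite E := Module.finite_of_finite (ZMod p)
  haveI := Fintype.ofFinite E
  haveI : CharP E p := charP_of_injective_algebraMap (algebraMap (ZMod p) E).injective p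
  obtain ⟨f, hf⟩ := FiniteField.card E p
  refine ⟨f, f.pos, fun i => ?_⟩
  have h := congrArg Subtype.val (FiniteField.pow_card_pow (K := E) i
    ⟨c, IntermediateField.mem_adjoin_simple_self _ c⟩)
  rw [iterateFrobenius_def, mul_comm, pow_mul, ← hf.2]
  simpa using h

/-- A power of a Frobenius element at the place fixes finitely many numbers. -/
theorem exists_frobenius_pow (hA : A.LiesOverPrime p) (s : Finset Qb) (m₀ : ℕ) :
    ∃ (σ : GQ) (i : ℕ), 0 < i ∧ (∀ a ∈ s, σ a = a) ∧ (∀ x, σ x ∈ A ↔ x ∈ A) ∧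
      ∀ x, x ∈ A → resOf A (σ x) = resOf A x ^ p ^ (i * m₀) := by
  haveI : Algebra.IsAlgebraic ℚ Qb := AlgebraicClosure.isAlgebraic ℚ
  obtain ⟨σ₀, hσ₀⟩ := FA.Deform.exists_isFrobeniusAt hp.out hA
  have hper : ∀ a : Qb, ∃ d : ℕ, 0 < d ∧ (σ₀ ^ d) a = a := fun a => by
    have hT : ((minpoly ℚ a).rootSet Qb).Finite := rootSet_finite _ _
    obtain ⟨i, -, j, -, hij, he⟩ := Set.Infinite.exists_ne_map_eq_of_mapsTo
      Set.infinite_univ (f := fun i : ℕ => (σ₀ ^ i) a) (fun i _ => by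
        rw [Polynomial.mem_rootSet]
        refine ⟨minpoly.ne_zero (Algebra.IsAlgebraic.isAlgebraic a).isIntegral, ?_⟩
        show Polynomial.aeval ((σ₀ ^ i).toAlgHom a) _ = 0
        rw [Polynomial.aeval_algHom_apply, minpoly.aeval, map_zero]) hT
    wlog hlt : i < j generalizing i j
    · exact this j i hij.symm he.symm (by omega)
    refine ⟨j - i, by omega, (σ₀ ^ i).injective ?_⟩
    rw [← AlgEquiv.mul_apply, ← pow_add, Nat.add_sub_cancel' hlt.le]
    exact he.symm
  choose d hd0 hd using hper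
  set i := ∏ a ∈ s, d a with hi
  have hi0 : 0 < i := Finset.prod_pos fun a _ => hd0 a
  refine ⟨σ₀ ^ (i * m₀), i, hi0, fun a ha => ?_, fun x => ?_, fun x hx => ?_⟩
  · obtain ⟨u, hu⟩ : d a ∣ i * m₀ := dvd_mul_of_dvd_left (Finset.dvd_prod_of_mem _ ha) _
    rw [hu]
    exact MulAction.mem_stabilizer_iff.1 ((pow_mul σ₀ _ _).symm ▸
      pow_mem (MulAction.mem_stabilizer_iff.2 (hd a) : σ₀ ^ d a ∈ MulAction.stabilizer GQ a) u)
  · have hstab : σ₀ ^ (i * m₀) • A = A := pow_mem hσ₀.mem_decompositionSubgroup (i * m₀)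
    conv_lhs => rw [← hstab]
    exact ValuationSubring.smul_mem_pointwise_smul_iff
  · have hres : ∀ e : ℕ, ∀ z : Res A,
        ((⟨σ₀, hσ₀.mem_decompositionSubgroup⟩ : A.decompositionSubgroup ℚ) ^ e) • z = z ^ p ^ e := by
      intro e
      induction e with
      | zero => intro z; rw [pow_zero, one_smul, pow_zero, pow_one]
      | succ e ih =>
        intro z
        rw [pow_succ', mul_smul, ih, hσ₀.smul_residue_eq, ← pow_mul, pow_succ]
    have h := hres (i * m₀) (IsLocalRing.residue A ⟨x, hx⟩)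
    rw [← IsLocalRing.ResidueField.residue_smul] at h
    have hmem : (σ₀ ^ (i * m₀)) x ∈ A := by
      have hstab : σ₀ ^ (i * m₀) • A = A := pow_mem hσ₀.mem_decompositionSubgroup (i * m₀)
      rw [← hstab]
      exact ValuationSubring.smul_mem_pointwise_smul_iff.2 hx
    rw [resOf, resOf, dif_pos hx, dif_pos hmem, ← h]
    exact congrArg _ (Subtype.ext rfl)

/-- A change of variables with fixed coefficients commutes with powers of Frobenius. -/
theorem vcEquiv_qEnd {k : Type*} [Field k] [DecidableEq k] [CharP k p] {V V' : WeierstrassCurve k}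
    [V.IsElliptic] [V'.IsElliptic] {C : VariableChange k} (hC : C • V = V') {n : ℕ}
    (hV : V.map (iterateFrobenius k p n) = V) (hV' : V'.map (iterateFrobenius k p n) = V')
    (hu : iterateFrobenius k p n C.u = C.u) (hr : iterateFrobenius k p n C.r = C.r)
    (hs : iterateFrobenius k p n C.s = C.s) (ht : iterateFrobenius k p n C.t = C.t)
    (P : V'.toAffine.Point) :
    vcEquiv C hC (qEnd V' hV' P) = qEnd V hV (vcEquiv C hC P) := by
  rcases P with _ | ⟨x, y, h⟩
  · exact ((congrArg (vcEquiv C hC) (map_zero _)).trans (map_zero _)).trans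
      ((congrArg (qEnd V hV) (map_zero _)).trans (map_zero _)).symm
  · simp only [qEnd, mapHom_some, vcEquiv_some, vcX, vcY, map_add, map_mul, map_pow, hu, hr, hs,
      ht]

/-- The multiplier on the points of `l`-power order of the reduced curve, commuting with a power of
Frobenius. -/
theorem exists_primary_multiplier (hA : A.LiesOverPrime p) [CharP (Res A) p] [IsAlgClosed (Res A)]
    {t θ : Qb} [(shortLegendre t).IsElliptic] (hI : IntCoeff A.valuation (shortLegendre t).toAffine)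
    (hΔ : A.valuation (shortLegendre t).toAffine.Δ = 1)
    [(redCurve A (shortLegendre t).toAffine hI).IsElliptic]
    {W₀ : WeierstrassCurve (Res A)} [W₀.IsElliptic] [DecidableEq (FF W₀)]
    (C : VariableChange (Res A)) (hC : C • W₀ = redCurve A (shortLegendre t).toAffine hI)
    {N : ℕ} (hWN : W₀.map (iterateFrobenius (Res A) p N) = W₀)
    (hredN : (redCurve A (shortLegendre t).toAffine hI).map (iterateFrobenius (Res A) p N) =
      redCurve A (shortLegendre t).toAffine hI)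
    (huN : iterateFrobenius (Res A) p N C.u = C.u) (hrN : iterateFrobenius (Res A) p N C.r = C.r)
    (hsN : iterateFrobenius (Res A) p N C.s = C.s) (htN : iterateFrobenius (Res A) p N C.t = C.t)
    (σ : GQ) (hσs : ∀ a ∈ fixing (shortLegendre t) θ, σ a = a) (hσA : ∀ x, σ x ∈ A ↔ x ∈ A)
    (hσres : ∀ x, x ∈ A → resOf A (σ x) = resOf A x ^ p ^ N)
    {τ : ℍ} {a b c : ℤ} (hroot : FA.ThirteenOrders.IsRootOf τ a b c)
    (ι : Qb →+* ℂ) (hj : ι (shortLegendre t).j = jfun τ)
    (hθ : ι θ = (a : ℂ) * τ) {l : ℕ} [Fact l.Prime] (hlp : l ≠ p) :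
    ∃ M : primary W₀ l →+ primary W₀ l, (∀ P, M (M P) + b • M P + (a * c) • P = 0) ∧
      (∀ k : ℤ, ∃ P : primary W₀ l, l • P = 0 ∧ M P ≠ k • P) ∧
      ∀ P Q : primary W₀ l, qEnd W₀ hWN P.1 = Q.1 → qEnd W₀ hWN (M P).1 = (M Q).1 := by
  set W := shortLegendre t with hWdef
  have hlprime := (Fact.out : l.Prime)
  obtain ⟨M, hMM, hcomm, hns⟩ := exists_multiplier_of l ι (shortLegendre t) rfl (τ := τ) hroot
    hj hθ
  have hpl : ¬ p ∣ l := fun h => hlp ((Nat.prime_dvd_prime_iff_eq hp.out hlprime).1 h).symm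
  have hlv : A.valuation (l : Qb) = 1 := FA.ModField.valuation_natCast_eq_one hA hpl
  -- reduction is a bijection of the points of `l`-power order
  let red : W.toAffine.Point →+ W₀.toAffine.Point :=
    (vcEquiv C hC).toAddMonoidHom.comp (redHom hI hΔ)
  have hinj : ∀ (n : ℕ) (R : W.toAffine.Point), l ^ n • R = 0 → red R = 0 → R = 0 := by
    intro n
    induction n with
    | zero => exact fun R hR _ => by rwa [pow_zero, one_smul] at hR
    | succ n ih =>
      intro R hR hr0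
      have h1 : l • R = 0 := ih (l • R) (by rwa [smul_smul, ← pow_succ])
        (by rw [map_nsmul, hr0, nsmul_zero])
      exact redHom_injOn hI hΔ hlprime hlv h1
        ((vcEquiv C hC).injective (hr0.trans (map_zero _).symm))
  let Φ₀ : primary W l →+ primary W₀ l := (red.comp (primary W l).subtype).codRestrict _
    fun P => by
      obtain ⟨n, hn⟩ := P.2
      exact ⟨n, by
        show l ^ n • red P.1 = 0
        rw [← map_nsmul, hn, map_zero]⟩
  have hbij : Function.Bijective Φ₀ := by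
    refine ⟨(injective_iff_map_eq_zero Φ₀).2 fun P hP => ?_, fun Q => ?_⟩
    · obtain ⟨n, hn⟩ := P.2
      exact Subtype.ext (hinj n P.1 hn (congrArg Subtype.val hP))
    obtain ⟨n, hn⟩ := Q.2
    have hc : Nat.card {R : W.toAffine.Point // l ^ n • R = 0} = (l ^ n) ^ 2 :=
      natCard_nsmul_eq_zero W (Nat.cast_ne_zero.2 (pow_ne_zero _ hlprime.ne_zero))
    have hc₀ : Nat.card {R : W₀.toAffine.Point // l ^ n • R = 0} = (l ^ n) ^ 2 :=
      natCard_nsmul_eq_zero W₀ fun h => hpl (hp.out.dvd_of_dvd_pow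
        ((CharP.cast_eq_zero_iff (Res A) p _).1 h))
    have h0 := pow_ne_zero 2 (pow_ne_zero n hlprime.ne_zero)
    haveI : Finite {R : W.toAffine.Point // l ^ n • R = 0} :=
      Nat.finite_of_card_ne_zero (hc.trans_ne h0)
    haveI : Finite {R : W₀.toAffine.Point // l ^ n • R = 0} :=
      Nat.finite_of_card_ne_zero (hc₀.trans_ne h0)
    let F : {R : W.toAffine.Point // l ^ n • R = 0} → {R : W₀.toAffine.Point // l ^ n • R = 0} :=
      fun R => ⟨red R.1, by rw [← map_nsmul, R.2, map_zero]⟩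
    have hF : Function.Injective F := fun R S h => Subtype.ext (sub_eq_zero.1 (hinj n _
      (by rw [nsmul_sub, R.2, S.2, sub_zero])
      (by rw [map_sub, show red R.1 = red S.1 from congrArg Subtype.val h, sub_self])))
    obtain ⟨R, hR⟩ := ((Nat.bijective_iff_injective_and_card F).2 ⟨hF, hc.trans hc₀.symm⟩).2
      ⟨Q.1, hn⟩
    exact ⟨⟨R.1, n, R.2⟩, Subtype.ext (congrArg Subtype.val hR :)⟩
  let Φ := AddEquiv.ofBijective Φ₀ hbij
  let M₀ : primary W₀ l →+ primary W₀ l :=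
    Φ.toAddMonoidHom.comp (M.comp Φ.symm.toAddMonoidHom)
  have hM₀ : ∀ R, M₀ (Φ R) = Φ (M R) := fun R => by
    show Φ (M (Φ.symm (Φ R))) = _
    rw [AddEquiv.symm_apply_apply]
  refine ⟨M₀, fun P => ?_, fun k => ?_, fun P Q hPQ => ?_⟩
  · obtain ⟨R, rfl⟩ := Φ.surjective P
    rw [hM₀, hM₀, ← map_zsmul Φ, ← map_zsmul Φ, ← map_add, ← map_add, hMM, map_zero]
  · obtain ⟨R, hR, hRk⟩ := hns k
    refine ⟨Φ R, by rw [← map_nsmul, hR, map_zero], fun h => hRk (Φ.injective ?_)⟩
    rwa [map_zsmul, ← hM₀]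
  obtain ⟨R, rfl⟩ := Φ.surjective P
  have hσW := map_eq_of_fixing W rfl σ hσs
  have hsig : ∀ R : W.toAffine.Point, red (mapPt (σ : Qb →+* Qb) hσW R) =
      qEnd W₀ hWN (red R) := by
    intro R
    show vcEquiv C hC (redHom hI hΔ _) = qEnd W₀ hWN (vcEquiv C hC (redHom hI hΔ R))
    rw [← vcEquiv_qEnd hC hWN hredN huN hrN hsN htN]
    congr 1
    rcases R with _ | ⟨x, y, h⟩
    · exact ((congrArg (redHom hI hΔ) (map_zero _)).trans (map_zero _)).trans
        ((congrArg (qEnd _ hredN) (map_zero _)).trans (map_zero _)).symm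
    have h' : W.toAffine.Nonsingular (σ x) (σ y) := by
      have e := (W.toAffine.map_nonsingular (σ : Qb →+* Qb).injective x y).2 h
      exact hσW ▸ e
    show redFun hI (Affine.Point.some (σ x) (σ y) h') = qEnd _ hredN (redFun hI (.some x y h))
    by_cases hx : x ∈ A
    · have hy := y_mem hI h.1 hx
      obtain ⟨k₁, e₁⟩ := redFun_of_mem hI h hx
      obtain ⟨k₂, e₂⟩ := redFun_of_mem hI h' ((hσA x).mpr hx)
      rw [e₁, e₂, qEnd, mapHom_some]
      simp only [Affine.Point.some.injEq, iterateFrobenius_def]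
      exact ⟨hσres x hx, hσres y hy⟩
    · rw [redFun, redFun, dif_neg hx, dif_neg (fun h => hx ((hσA x).mp h)), map_zero]
  let R' : primary W l := ⟨mapPt (σ : Qb →+* Qb) hσW R.1, by
    obtain ⟨m, hm⟩ := R.2
    exact ⟨m, by rw [← map_nsmul, hm, map_zero]⟩⟩
  obtain rfl : Φ R' = Q := Subtype.ext ((hsig R.1).trans hPQ)
  rw [hM₀, hM₀]
  show qEnd W₀ hWN (red (M R).1) = red (M R').1
  rw [← hsig, hcomm σ hσs R R' rfl]

/-- The square root of the discriminant on the points killed by an odd prime `l`. -/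
theorem exists_sqrt_disc {k : Type*} [Field k] [CharP k p] {W₀ : WeierstrassCurve k}
    {N : ℕ} (hWN : W₀.map (iterateFrobenius k p N) = W₀) {l : ℕ} [Fact l.Prime] (hl2 : l ≠ 2)
    {a b c D : ℤ} (hDe : b ^ 2 - 4 * a * c = D) {M : primary W₀ l →+ primary W₀ l}
    (hMM : ∀ P, M (M P) + b • M P + (a * c) • P = 0)
    (hns : ∀ k : ℤ, ∃ P : primary W₀ l, l • P = 0 ∧ M P ≠ k • P)
    (hcomm : ∀ P Q : primary W₀ l, qEnd W₀ hWN P.1 = Q.1 → qEnd W₀ hWN (M P).1 = (M Q).1) :
    ∃ e : killed W₀ l →+ killed W₀ l, (∀ P, e (e P) = D • P) ∧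
      (∀ k : ℤ, ∃ P, e P ≠ k • P) ∧
      ∀ P, e (qKilled W₀ hWN l P) = qKilled W₀ hWN l (e P) := by
  have hlprime := (Fact.out : l.Prime)
  let incl : killed W₀ l →+ primary W₀ l := (killed W₀ l).subtype.codRestrict (primary W₀ l)
    fun P =>
    ⟨1, by rw [pow_one]; exact P.2⟩
  let S : primary W₀ l →+ primary W₀ l := (2 : ℤ) • M + b • AddMonoidHom.id _
  have hS : ∀ P, S P = (2 : ℤ) • M P + b • P := fun P => rfl
  let e : killed W₀ l →+ killed W₀ l := ((primary W₀ l).subtype.comp (S.comp incl)).codRestrict _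
    fun P => by
      show l • (S (incl P)).1 = 0
      rw [← AddSubmonoidClass.coe_nsmul, ← map_nsmul, show l • incl P = 0 from Subtype.ext P.2,
        map_zero]
      rfl
  have he : ∀ P, incl (e P) = S (incl P) := fun P => rfl
  refine ⟨e, fun P => Subtype.ext ?_, fun k => ?_, fun P => Subtype.ext ?_⟩
  · show (S (S (incl P))).1 = (D • incl P).1
    refine congrArg Subtype.val ?_
    rw [hS, hS, map_add, map_zsmul, map_zsmul, ← hDe]
    linear_combination (norm := module) (4 : ℤ) • hMM (incl P)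
  · obtain ⟨u, hu2⟩ : ∃ u : ℤ, (l : ℤ) ∣ 2 * u - 1 := by
      obtain ⟨m, hm⟩ := hlprime.odd_of_ne_two hl2
      exact ⟨m + 1, ⟨1, by rw [hm]; push_cast; ring⟩⟩
    obtain ⟨P, hP, hPk⟩ := hns (u * (k - b))
    let P' : killed W₀ l := ⟨P.1, congrArg Subtype.val hP⟩
    refine ⟨P', fun h => hPk ?_⟩
    have h' : S P = k • P := Subtype.ext (congrArg Subtype.val h :)
    have h1 : (2 : ℤ) • M P = (k - b) • P := by
      rw [sub_smul, ← h', hS, add_sub_cancel_right]
    obtain ⟨w, hw⟩ := hu2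
    have h2 : (l : ℤ) • M P = 0 := by rw [← map_zsmul, natCast_zsmul, hP, map_zero]
    calc M P = (1 : ℤ) • M P := (one_zsmul _).symm
      _ = (2 * u - (l : ℤ) * w) • M P := by rw [← hw]; ring_nf
      _ = (u * (k - b)) • P := by
        rw [sub_smul, mul_comm 2 u, mul_smul, h1, mul_comm (l : ℤ) w, mul_smul w, h2, zsmul_zero,
          sub_zero, mul_smul]
  · show (S (incl (qKilled W₀ hWN l P))).1 = qEnd W₀ hWN (S (incl P)).1
    rw [hS, hS, AddSubgroup.coe_add, AddSubgroup.coe_add, AddSubgroup.coe_zsmul,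
      AddSubgroup.coe_zsmul, AddSubgroup.coe_zsmul, AddSubgroup.coe_zsmul, map_add, map_zsmul,
      map_zsmul, hcomm (incl P) (incl (qKilled W₀ hWN l P)) rfl]
    rfl

/-- Above a root of a class polynomial some power of Frobenius commutes with multipliers on all
points of prime-to-`p` primary order. -/
theorem exists_cm_action (hp5 : 5 ≤ p) (hA : A.LiesOverPrime p) [CharP (Res A) p]
    [IsAlgClosed (Res A)] {D : ℤ} {H : ℤ[X]} (hH : H.Monic)
    (hroots : ∀ z : ℂ, aeval z H = 0 → ∃ (a b c : ℤ) (τ : ℍ), 0 < a ∧ b ^ 2 - 4 * a * c = D ∧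
      Int.gcd (Int.gcd a b) c = 1 ∧ (a : ℂ) * (τ : ℂ) ^ 2 + b * (τ : ℂ) + c = 0 ∧ jfun τ = z)
    (W₀ : WeierstrassCurve (Res A)) [W₀.IsElliptic] [DecidableEq (FF W₀)]
    (hr : (H.map (Int.castRingHom (Res A))).IsRoot W₀.j) {n : ℕ} (hn : n ≠ 0)
    (hW₀ : W₀.map (iterateFrobenius (Res A) p n) = W₀) :
    ∃ (a b c : ℤ) (N : ℕ) (hWN : W₀.map (iterateFrobenius (Res A) p N) = W₀),
      b ^ 2 - 4 * a * c = D ∧ N ≠ 0 ∧ ∀ (l : ℕ) [Fact l.Prime], l ≠ p →
        ∃ M : primary W₀ l →+ primary W₀ l, (∀ P, M (M P) + b • M P + (a * c) • P = 0) ∧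
          (∀ k : ℤ, ∃ P : primary W₀ l, l • P = 0 ∧ M P ≠ k • P) ∧
          ∀ P Q : primary W₀ l, qEnd W₀ hWN P.1 = Q.1 → qEnd W₀ hWN (M P).1 = (M Q).1 := by
  obtain ⟨z, hzr, hz⟩ := exists_root_lift (A := A) hH (r := W₀.j) hr
  obtain ⟨t, hE, hjz, hI, hΔ⟩ := exists_model hp5 hA z
  haveI := hE
  haveI := redCurve_isElliptic hI hΔ
  let ι : Qb →+* ℂ := (IsAlgClosed.lift : Qb →ₐ[ℚ] ℂ).toRingHom
  obtain ⟨a, b, c, τ, ha, hDe, hg, hτ, hjf⟩ := hroots (ι z) (by
    rw [aeval_def, ← RingHom.ext_int (ι.comp (algebraMap ℤ Qb)) (algebraMap ℤ ℂ), ← hom_eval₂,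
      ← aeval_def, hz, map_zero])
  have hroot : FA.ThirteenOrders.IsRootOf τ a b c := ⟨ha, hg, hτ⟩
  obtain ⟨θ, hθ⟩ := exists_theta ι hroot
  set W := shortLegendre t with hWdef
  haveI : (intModel A W.toAffine hI).IsElliptic := ⟨by
    rw [← valuation_eq_one_iff]
    show A.valuation (A.subtype (intModel A W.toAffine hI).Δ) = 1
    rw [← WeierstrassCurve.map_Δ, intModel_map]
    exact hΔ⟩
  have hjred : (redCurve A W.toAffine hI).j = W₀.j := by
    have hj₁ : (intModel A W.toAffine hI).j = z := by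
      refine Subtype.ext ?_
      show A.subtype (intModel A W.toAffine hI).j = (z : Qb)
      rw [← WeierstrassCurve.map_j, ← hjz]
      exact congrArg _ rfl
    rw [← hzr, ← hj₁]
    exact WeierstrassCurve.map_j _ (IsLocalRing.residue A)
  obtain ⟨C, hC⟩ := exists_variableChange_of_j_eq (E := W₀)
    (E' := redCurve A W.toAffine hI) hjred.symm
  obtain ⟨ru, hru, hu⟩ := exists_iterate_fixed (p := p) (C.u : Res A)
  obtain ⟨rr, hrr, hr'⟩ := exists_iterate_fixed (p := p) C.r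
  obtain ⟨rs, hrs, hs'⟩ := exists_iterate_fixed (p := p) C.s
  obtain ⟨rt, hrt, ht'⟩ := exists_iterate_fixed (p := p) C.t
  obtain ⟨σ, i, hi, hσs, hσA, hσres⟩ := exists_frobenius_pow hA (fixing W θ)
    (n * (ru * rr * rs * rt))
  set N := i * (n * (ru * rr * rs * rt)) with hNdef
  have hN : N ≠ 0 := by positivity
  have hWN : W₀.map (iterateFrobenius (Res A) p N) = W₀ := by
    have hpow : ∀ (e : ℕ) (x : Res A), iterateFrobenius (Res A) p n x = x →
        iterateFrobenius (Res A) p (e * n) x = x := by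
      intro e x hx
      induction e with
      | zero => rw [zero_mul, iterateFrobenius_zero_apply]
      | succ e ih => rw [add_mul, one_mul, iterateFrobenius_add_apply, hx, ih]
    have hco := fun x hx => hpow (i * (ru * rr * rs * rt)) x hx
    rw [show i * (ru * rr * rs * rt) * n = N by rw [hNdef]; ring] at hco
    ext
    · exact hco _ (congrArg WeierstrassCurve.a₁ hW₀)
    · exact hco _ (congrArg WeierstrassCurve.a₂ hW₀)
    · exact hco _ (congrArg WeierstrassCurve.a₃ hW₀)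
    · exact hco _ (congrArg WeierstrassCurve.a₄ hW₀)
    · exact hco _ (congrArg WeierstrassCurve.a₆ hW₀)
  have huN : iterateFrobenius (Res A) p N C.u = C.u := by
    have := hu (i * (n * (rr * rs * rt))); rwa [show i * (n * (rr * rs * rt)) * ru = N by
      rw [hNdef]; ring] at this
  have hrN : iterateFrobenius (Res A) p N C.r = C.r := by
    have := hr' (i * (n * (ru * rs * rt))); rwa [show i * (n * (ru * rs * rt)) * rr = N by
      rw [hNdef]; ring] at this
  have hsN : iterateFrobenius (Res A) p N C.s = C.s := by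
    have := hs' (i * (n * (ru * rr * rt))); rwa [show i * (n * (ru * rr * rt)) * rs = N by
      rw [hNdef]; ring] at this
  have htN : iterateFrobenius (Res A) p N C.t = C.t := by
    have := ht' (i * (n * (ru * rr * rs))); rwa [show i * (n * (ru * rr * rs)) * rt = N by
      rw [hNdef]; ring] at this
  have hredN : (redCurve A W.toAffine hI).map (iterateFrobenius (Res A) p N) =
      redCurve A W.toAffine hI := by
    have hfix : C.map (iterateFrobenius (Res A) p N) = C := by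
      ext
      · exact huN
      · exact hrN
      · exact hsN
      · exact htN
    rw [← hC, ← WeierstrassCurve.map_variableChange, hfix, hWN]
  exact ⟨a, b, c, N, hWN, hDe, hN, fun l _ hlp => exists_primary_multiplier hA hI hΔ C hC hWN
    hredN huN hrN hsN htN σ hσs hσA hσres hroot ι (by rw [hjz, hjf]) hθ hlp⟩

set_option maxHeartbeats 800000 in
/-- **Deuring's reduction field**, over a residue field. -/
theorem isSquare_disc_residue (hp5 : 5 ≤ p) (hA : A.LiesOverPrime p) [CharP (Res A) p]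
    [IsAlgClosed (Res A)] {D : ℤ} (hD : IsSquare ((D : ℤ) : ℚ_[p])) (hD0 : D ≠ 0) {H : ℤ[X]}
    (hH : H.Monic)
    (hroots : ∀ z : ℂ, aeval z H = 0 → ∃ (a b c : ℤ) (τ : ℍ), 0 < a ∧ b ^ 2 - 4 * a * c = D ∧
      Int.gcd (Int.gcd a b) c = 1 ∧ (a : ℂ) * (τ : ℂ) ^ 2 + b * (τ : ℂ) + c = 0 ∧ jfun τ = z)
    (W₀ : WeierstrassCurve (Res A)) [W₀.IsElliptic] [DecidableEq (FF W₀)]
    (hr : (H.map (Int.castRingHom (Res A))).IsRoot W₀.j) {n : ℕ} (hn : n ≠ 0)
    (hW₀ : W₀.map (iterateFrobenius (Res A) p n) = W₀) :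
    IsSquare (D * (trQ W₀ hW₀ ^ 2 - 4 * (p : ℤ) ^ n)) := by
  letI : Algebra (ZMod p) (Res A) := ZMod.algebra _ p
  haveI : IsAlgClosure (ZMod p) (Res A) := ⟨inferInstance, ⟨fun x => by
    obtain ⟨r, hr0, hx⟩ := exists_iterate_fixed (p := p) x
    have h1 := hx 1
    rw [one_mul, iterateFrobenius_def] at h1
    refine ⟨X ^ p ^ r - X, FiniteField.X_pow_card_pow_sub_X_ne_zero _ hr0.ne' hp.out.one_lt, ?_⟩
    simp [h1]⟩⟩
  obtain ⟨P₀, hP₀0, hP₀⟩ := FA.CMReduction.exists_pTorsion hp5 hD hH hroots W₀ hr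
  obtain ⟨a, b, c, N, hWN, hDe, hN, hM⟩ := exists_cm_action hp5 hA hH hroots W₀ hr hn hW₀
  set dn := trQ W₀ hW₀ ^ 2 - 4 * (p : ℤ) ^ n with hdn
  set dN := trQ W₀ hWN ^ 2 - 4 * (p : ℤ) ^ N with hdN
  have hdn0 : dn ≠ 0 := disc_ne_zero W₀ hW₀ hn hP₀0 hP₀
  have hdN0 : dN ≠ 0 := disc_ne_zero W₀ hWN hN hP₀0 hP₀
  -- almost every prime
  refine FA.CMField.isSquare_of_isSquare_mod (mul_ne_zero hD0 hdn0)
    (p + D.natAbs + dn.natAbs + dN.natAbs + 2) fun l _ hl => ?_
  have hlp : l ≠ p := by omega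
  have hl2 : l ≠ 2 := by omega
  have hlprime := (Fact.out : l.Prime)
  have hnd : ∀ x : ℤ, x ≠ 0 → x.natAbs < l → ¬ (l : ℤ) ∣ x := fun x hx0 hxl h =>
    absurd (Nat.le_of_dvd (Int.natAbs_pos.2 hx0) (Int.natCast_dvd.1 h)) (by omega)
  have hlD := hnd D hD0 (by omega)
  have hln := hnd dn hdn0 (by omega)
  have hlN := hnd dN hdN0 (by omega)
  obtain ⟨M, hMM, hMns, hMcomm⟩ := hM l hlp
  obtain ⟨e, hee, hns', hcommN⟩ := exists_sqrt_disc hWN hl2 hDe hMM hMns hMcomm
  have hT : Nat.card (killed W₀ l) = l ^ 2 := natCard_killed W₀ hlprime hlp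
  have hTl : ∀ P : killed W₀ l, l • P = 0 := fun P => Subtype.ext P.2
  have hcommn := qKilled_comm W₀ hW₀ hWN l
  have hNns := qKilled_ne_smul W₀ hWN hN hlprime hlp hlN
  have hnns := qKilled_ne_smul W₀ hW₀ hn hlprime hlp hln
  have hiff : IsSquare ((D : ℤ) : ZMod l) ↔ IsSquare (dn : ZMod l) := by
    rw [hdn, ← hasEigen_qKilled_iff W₀ hW₀ hn hlp hl2]
    refine ⟨fun h => ?_, fun h => isSquare_of_hasEigen hlprime hTl hee ?_⟩
    · exact ((hasEigen_of_isSquare hTl hee hns' h).of_commute hlprime hT hTl hcommN hns').of_commute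
        hlprime hT hTl (fun P => (hcommn P).symm) hNns
    · exact (h.of_commute hlprime hT hTl hcommn hnns).of_commute hlprime hT hTl
        (fun P => (hcommN P).symm) hNns
  have hD' : (D : ZMod l) ≠ 0 := by rwa [Ne, ZMod.intCast_zmod_eq_zero_iff_dvd]
  have hn' : (dn : ZMod l) ≠ 0 := by rwa [Ne, ZMod.intCast_zmod_eq_zero_iff_dvd]
  rw [Int.cast_mul]
  rcases em (IsSquare (D : ZMod l)) with h | h
  · exact h.mul (hiff.1 h)
  · have h1 := (quadraticChar_neg_one_iff_not_isSquare (F := ZMod l)).2 h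
    have h2 := (quadraticChar_neg_one_iff_not_isSquare (F := ZMod l)).2 (fun h' => h (hiff.2 h'))
    rw [← quadraticChar_one_iff_isSquare (mul_ne_zero hD' hn'), map_mul, h1, h2]
    norm_num

end reduced

/-! ### Finite fields -/

section finite

/-- A unit which is a square modulo an odd prime is one in the `p`-adic field. -/
theorem isSquare_padic_of_zmod {p : ℕ} [hp : Fact p.Prime] (hp2 : p ≠ 2) {D : ℤ}
    (hD : ¬ (p : ℤ) ∣ D) (h : IsSquare (D : ZMod p)) : IsSquare (D : ℚ_[p]) := by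
  obtain ⟨r, hr⟩ := h
  have hlt : ‖(((r.val : ℤ) ^ 2 - D : ℤ) : ℤ_[p])‖ < 1 := by
    rw [PadicInt.norm_int_lt_one_iff_dvd, ← ZMod.intCast_zmod_eq_zero_iff_dvd]
    push_cast
    rw [ZMod.natCast_zmod_val, hr, sq, sub_self]
  have hu : ‖((2 * r.val : ℤ) : ℤ_[p])‖ = 1 := by
    refine le_antisymm (PadicInt.norm_le_one _) (le_of_not_gt fun h => ?_)
    rw [PadicInt.norm_int_lt_one_iff_dvd] at h
    rcases (Nat.prime_iff_prime_int.1 hp.out).dvd_mul.1 h with h | h
    · exact hp2 ((Nat.prime_dvd_prime_iff_eq hp.out Nat.prime_two).1 (by exact_mod_cast h))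
    · refine hD ?_
      rw [← ZMod.intCast_zmod_eq_zero_iff_dvd] at h ⊢
      rw [Int.cast_natCast, ZMod.natCast_zmod_val] at h
      rw [hr, h, mul_zero]
  set F : Polynomial ℤ_[p] := X ^ 2 - C (D : ℤ_[p]) with hF
  have hFa : F.aeval (((r.val : ℤ)) : ℤ_[p]) = (((r.val : ℤ) ^ 2 - D : ℤ) : ℤ_[p]) := by
    simp [hF]
  have hF'a : F.derivative.aeval (((r.val : ℤ)) : ℤ_[p]) = ((2 * r.val : ℤ) : ℤ_[p]) := by
    simp [hF, one_add_one_eq_two]
  obtain ⟨z, hz, -⟩ := hensels_lemma (F := F) (a := (((r.val : ℤ)) : ℤ_[p]))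
    (by rw [hFa, hF'a, hu, one_pow]; exact hlt)
  refine ⟨(z : ℚ_[p]), ?_⟩
  simp only [hF, map_sub, map_pow, aeval_X, aeval_C, sub_eq_zero, Algebra.algebraMap_self,
    RingHom.id_apply] at hz
  rw [← PadicInt.coe_intCast, ← hz, sq, PadicInt.coe_mul]

/-- **Deuring's reduction field**: at a split prime the reduction of a singular modulus of
discriminant `D` has Frobenius field `ℚ(√D)`. -/
theorem isSquare_disc {p : ℕ} [hp : Fact p.Prime] (hp5 : 5 ≤ p) {F : Type*} [Field F] [Fintype F]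
    [CharP F p] {D : ℤ} (hD : IsSquare ((D : ℤ) : ℚ_[p])) (hD0 : D ≠ 0) {H : ℤ[X]} (hH : H.Monic)
    (hroots : ∀ z : ℂ, aeval z H = 0 → ∃ (a b c : ℤ) (τ : ℍ), 0 < a ∧ b ^ 2 - 4 * a * c = D ∧
      Int.gcd (Int.gcd a b) c = 1 ∧ (a : ℂ) * (τ : ℂ) ^ 2 + b * (τ : ℂ) + c = 0 ∧ jfun τ = z)
    (W : WeierstrassCurve F) [W.IsElliptic] (hr : (H.map (Int.castRingHom F)).IsRoot W.j) :
    ((Fintype.card F : ℤ) + 1 - Nat.card W.toAffine.Point) ^ 2 - 4 * (Fintype.card F : ℤ) ≠ 0 ∧
      IsSquare (D * (((Fintype.card F : ℤ) + 1 - Nat.card W.toAffine.Point) ^ 2 -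
        4 * (Fintype.card F : ℤ))) := by
  obtain ⟨n, -, hcard⟩ := FiniteField.card F p
  obtain ⟨A, hA⟩ := FA.Deform.exists_liesOverPrime hp.out
  haveI := residueField_charP A hp.out hA
  haveI : IsAlgClosed (Res A) := residueField_isAlgClosed A
  letI : Algebra (ZMod p) (Res A) := ZMod.algebra _ p
  letI : Algebra (ZMod p) F := ZMod.algebra _ p
  haveI : FiniteDimensional (ZMod p) F := Module.Finite.of_finite
  let φ : F →+* Res A := (IsAlgClosed.lift : F →ₐ[ZMod p] Res A).toRingHom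
  have hW : (W.map φ).map (iterateFrobenius (Res A) p n) = W.map φ := by
    rw [WeierstrassCurve.map_map]
    congr 1
    exact RingHom.ext fun a => by
      rw [RingHom.comp_apply, iterateFrobenius_def, ← map_pow, ← hcard, FiniteField.pow_card]
  have hr' : (H.map (Int.castRingHom (Res A))).IsRoot (W.map φ).j := by
    rw [WeierstrassCurve.map_j, show Int.castRingHom (Res A) = φ.comp (Int.castRingHom F) from
      RingHom.ext_int _ _, ← Polynomial.map_map]
    exact hr.map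
  have hker := natCard_ker_qEnd (W.map φ) hW n.ne_zero (c := 1) fun h =>
    hp.out.not_dvd_one (by exact_mod_cast h)
  rw [← natCard_point_eq_ker W φ rfl (qEnd (W.map φ) hW) fun x y hxy => by
    have h' := nonsingular_mapHom _ hW hxy
    simp only [iterateFrobenius_def, ← hcard] at h'
    exact ⟨h', by simp [qEnd, mapHom_some, iterateFrobenius_def, ← hcard]⟩] at hker
  have htr : (Fintype.card F : ℤ) + 1 - Nat.card W.toAffine.Point = trQ (W.map φ) hW := by
    rw [hker, hcard]; push_cast; ring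
  rw [htr, hcard, Nat.cast_pow]
  haveI : IsAlgClosure (ZMod p) (Res A) := ⟨inferInstance, ⟨fun x => by
    obtain ⟨r, hr0, hx⟩ := exists_iterate_fixed (p := p) x
    have h1 := hx 1
    rw [one_mul, iterateFrobenius_def] at h1
    refine ⟨X ^ p ^ r - X, FiniteField.X_pow_card_pow_sub_X_ne_zero _ hr0.ne' hp.out.one_lt, ?_⟩
    simp [h1]⟩⟩
  obtain ⟨P, hP0, hP⟩ := FA.CMReduction.exists_pTorsion hp5 hD hH hroots (W.map φ) hr'
  exact ⟨disc_ne_zero _ hW n.ne_zero hP0 hP,
    isSquare_disc_residue hp5 hA hD hD0 hH hroots (W.map φ) hr' n.ne_zero hW⟩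

end finite

end FA.CMField

end
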