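import Fermat.Agent.Supersingular.CMKernel
import Fermat.Agent.Mazur.InertiaValue
import Fermat.Agent.ClassNumberOne.Transport
import Mathlib.NumberTheory.Padics.ProperSpace
import Mathlib.NumberTheory.Padics.RingHoms

/-!
# A multiplier commuting with inertia forbids points of order `p` modulo `p`

Let `M` act on the `p`-power torsion of a curve with good reduction at a place above `p`, commute
with the inertia elements fixing finitely many numbers and satisfy `M² + B M + N = 0`, with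
`B² - 4 N` no square in `ℚ_p`. If the reduced curve had a point of order `p`, the displacement of
such an element would have image in a locally cyclic group stable under `M`, hence vanish; so the
kernel of reduction would be fixed, which its growing abscissae forbid.
-/

set_option autoImplicit false
set_option linter.style.haveILetI false

noncomputable section

open WeierstrassCurve
open scoped Classical

namespace FA.CMReduction

open FA.Frob FA.Local FA.EC FA.ClassNumberOne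

local notation "Qb" => AlgebraicClosure ℚ
local notation "GQ" => AlgebraicClosure ℚ ≃ₐ[ℚ] AlgebraicClosure ℚ

/-- The points of `p`-power order. -/
def primary {F : Type*} [Field F] (W : WeierstrassCurve F) (p : ℕ) :
    AddSubgroup W.toAffine.Point where
  carrier := {P | ∃ n : ℕ, p ^ n • P = 0}
  zero_mem' := ⟨0, nsmul_zero _⟩
  add_mem' := by
    rintro P Q ⟨a, ha⟩ ⟨b, hb⟩
    refine ⟨a + b, ?_⟩
    have ha' : p ^ (a + b) • P = 0 := by rw [pow_add, mul_comm, mul_smul, ha, nsmul_zero]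
    have hb' : p ^ (a + b) • Q = 0 := by rw [pow_add, mul_smul, hb, nsmul_zero]
    rw [nsmul_add, ha', hb', add_zero]
  neg_mem' := by
    rintro P ⟨a, ha⟩
    exact ⟨a, by rw [smul_neg, ha, neg_zero]⟩

/-- An integer with square roots modulo every power of `p` is a square in `ℚ_p`. -/
theorem isSquare_of_forall_dvd {p : ℕ} [hp : Fact p.Prime] {B N : ℤ}
    (h : ∀ n : ℕ, ∃ k : ℤ, (p : ℤ) ^ n ∣ k ^ 2 + B * k + N) :
    IsSquare ((B ^ 2 - 4 * N : ℤ) : ℚ_[p]) := by
  choose k hk using h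
  have hcl : IsClosed (Set.range fun z : ℤ_[p] => z ^ 2) :=
    (isCompact_range (continuous_pow 2)).isClosed
  have hlim : Filter.Tendsto (fun n => ((2 * k n + B : ℤ) : ℤ_[p]) ^ 2) Filter.atTop
      (nhds ((B ^ 2 - 4 * N : ℤ) : ℤ_[p])) := by
    rw [tendsto_iff_norm_sub_tendsto_zero]
    have hp1 : 1 < (p : ℝ) := by exact_mod_cast hp.out.one_lt
    refine squeeze_zero (fun _ => norm_nonneg _) (fun n => ?_)
      (tendsto_pow_atTop_nhds_zero_of_lt_one (inv_nonneg.2 (Nat.cast_nonneg p))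
        (inv_lt_one_of_one_lt₀ hp1))
    have hd : (p : ℤ) ^ n ∣ (2 * k n + B) ^ 2 - (B ^ 2 - 4 * N) := by
      rw [show (2 * k n + B) ^ 2 - (B ^ 2 - 4 * N) = 4 * (k n ^ 2 + B * k n + N) by ring]
      exact dvd_mul_of_dvd_right (hk n) 4
    rw [← Int.cast_pow, ← Int.cast_sub, inv_pow, ← zpow_natCast, ← zpow_neg]
    exact PadicInt.norm_int_le_pow_iff_dvd.2 hd
  obtain ⟨z, hz⟩ := hcl.mem_of_tendsto hlim (Filter.Eventually.of_forall fun n => ⟨_, rfl⟩)
  refine ⟨(z : ℚ_[p]), ?_⟩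
  rw [← PadicInt.coe_intCast, ← hz]
  push_cast
  ring

variable {p : ℕ} [hp : Fact p.Prime] {A : ValuationSubring Qb}

/-- A number with few images under the inertia fixing a finite set has a value with a small
denominator. -/
theorem exists_pow_eq_zpow_orbit (hA : A.LiesOverPrime p) (s : Finset Qb) :
    ∃ R : ℕ, 0 < R ∧ ∀ x : Qb, x ≠ 0 → ∀ T : Finset Qb,
      (∀ σ ∈ A.inertiaSubgroupIn ℚ, (∀ a ∈ s, σ a = a) → σ x ∈ T) →
      ∃ (k : ℕ) (j : ℤ), 0 < k ∧ k ≤ R * T.card ∧
        A.valuation x ^ k = A.valuation (p : Qb) ^ j := by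
  set I := A.inertiaSubgroupIn ℚ with hIdef
  haveI : Algebra.IsAlgebraic ℚ Qb := AlgebraicClosure.isAlgebraic ℚ
  let res : I → (s → Qb) := fun σ a => (σ : GQ) a.1
  have hR : (Set.range res).Finite := by
    refine (Set.Finite.pi fun a : s => (minpoly ℚ a.1).rootSet_finite Qb).subset ?_
    rintro _ ⟨σ, rfl⟩ a -
    rw [Polynomial.mem_rootSet]
    refine ⟨minpoly.ne_zero (Algebra.IsAlgebraic.isAlgebraic a.1).isIntegral, ?_⟩
    show Polynomial.aeval ((σ : GQ).toAlgHom a.1) _ = 0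
    rw [Polynomial.aeval_algHom_apply, minpoly.aeval, map_zero]
  have hRne : (Set.range res).Nonempty := ⟨_, ⟨⟨1, one_mem I⟩, rfl⟩⟩
  refine ⟨(Set.range res).ncard, (Set.ncard_pos hR).2 hRne, fun x hx0 T hx => ?_⟩
  set F : Finset ((s → Qb) × Qb) := hR.toFinset ×ˢ T with hF
  set f : (s → Qb) × Qb → Qb := fun c =>
    if h : c.1 ∈ Set.range res then ((h.choose : GQ) c.2) else 0
  have hsub : Set.range (fun σ : I => (σ : GQ) x) ⊆ (F.image f : Set Qb) := by
    rintro _ ⟨σ, rfl⟩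
    have hm : res σ ∈ Set.range res := ⟨σ, rfl⟩
    set τ := hm.choose with hτ
    have hτs : res τ = res σ := hm.choose_spec
    have hy := hx _ (mul_mem (inv_mem τ.2) σ.2) fun a ha => by
      rw [AlgEquiv.mul_apply, show (σ : GQ) a = (τ : GQ) a from (congrFun hτs ⟨a, ha⟩).symm]
      exact (τ : GQ).symm_apply_apply a
    refine Finset.mem_coe.2 (Finset.mem_image.2 ⟨(res σ, _),
      Finset.mem_product.2 ⟨hR.mem_toFinset.2 hm, hy⟩, ?_⟩)
    simp only [f, dif_pos hm, AlgEquiv.mul_apply]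
    exact (τ : GQ).apply_symm_apply _
  set O : Finset Qb := ((Finset.finite_toSet _).subset hsub).toFinset with hO
  have hmem : ∀ y, y ∈ O ↔ ∃ σ : I, (σ : GQ) x = y := fun y => by simp [hO]
  have hcard : O.card ≤ (Set.range res).ncard * T.card := by
    refine (Finset.card_le_card (t := F.image f) fun y hy => ?_).trans
      (Finset.card_image_le.trans_eq ?_)
    · exact Finset.mem_coe.1 (hsub ((Set.Finite.mem_toFinset _).1 hy))
    · rw [hF, Finset.card_product, Set.ncard_eq_toFinset_card _ hR]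
  have hxO : x ∈ O := (hmem x).2 ⟨⟨1, one_mem I⟩, rfl⟩
  have hfix : ∀ σ ∈ I, σ (∏ y ∈ O, y) = ∏ y ∈ O, y := fun σ hσ => by
    rw [map_prod]
    refine Finset.prod_nbij' (fun y => σ y) (fun y => σ⁻¹ y) ?_ ?_ ?_ ?_ (fun _ _ => rfl)
    · intro y hy
      obtain ⟨τ, rfl⟩ := (hmem y).1 hy
      exact (hmem _).2 ⟨⟨σ, hσ⟩ * τ, rfl⟩
    · intro y hy
      obtain ⟨τ, rfl⟩ := (hmem y).1 hy
      exact (hmem _).2 ⟨⟨σ⁻¹, inv_mem hσ⟩ * τ, rfl⟩
    · exact fun y _ => σ.symm_apply_apply y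
    · exact fun y _ => σ.apply_symm_apply y
  have hne : ∏ y ∈ O, y ≠ 0 := Finset.prod_ne_zero_iff.2 fun y hy => by
    obtain ⟨τ, rfl⟩ := (hmem y).1 hy
    simpa using hx0
  obtain ⟨j, hj⟩ := FA.Mazur.exists_zpow_of_fixed hp.out hA hne hfix
  refine ⟨O.card, j, Finset.card_pos.2 ⟨x, hxO⟩, hcard, ?_⟩
  rw [← hj, map_prod, Finset.prod_eq_pow_card fun y hy => by
    obtain ⟨τ, rfl⟩ := (hmem y).1 hy
    exact (inert_of_mem_inertiaSubgroupIn A τ.2).map_eq x]

/-- What is fixed by the inertia fixing a finite set has bounded denominators in its value. -/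
theorem exists_pow_eq_zpow (hA : A.LiesOverPrime p) (s : Finset Qb) :
    ∃ M : ℕ, 0 < M ∧ ∀ x : Qb, x ≠ 0 →
      (∀ σ ∈ A.inertiaSubgroupIn ℚ, (∀ a ∈ s, σ a = a) → σ x = x) →
      ∃ j : ℤ, A.valuation x ^ M = A.valuation (p : Qb) ^ j := by
  obtain ⟨R, hR, h⟩ := exists_pow_eq_zpow_orbit hA s
  refine ⟨R.factorial, R.factorial_pos, fun x hx0 hx => ?_⟩
  obtain ⟨k, j, hk, hkR, hj⟩ := h x hx0 {x} fun σ hσ hs => Finset.mem_singleton.2 (hx σ hσ hs)
  rw [Finset.card_singleton, mul_one] at hkR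
  obtain ⟨t, ht⟩ := Nat.dvd_factorial hk hkR
  exact ⟨j * t, by rw [ht, pow_mul, hj, zpow_mul, zpow_natCast]⟩

variable {W : WeierstrassCurve Qb} (hI : IntCoeff A.valuation W.toAffine)
  (hΔ : A.valuation W.toAffine.Δ = 1) [(redCurve A W.toAffine hI).IsElliptic]

/-- Inertia does not move reductions. -/
theorem red_mapPt {σ : GQ} (hσ : σ ∈ A.inertiaSubgroupIn ℚ) (h : W.map (σ : Qb →+* Qb) = W)
    (P : W.toAffine.Point) :
    redHom hI hΔ (mapPt (σ : Qb →+* Qb) h P) = redHom hI hΔ P := by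
  haveI : Algebra.IsAlgebraic ℚ Qb := AlgebraicClosure.isAlgebraic ℚ
  have hin := inert_of_mem_inertiaSubgroupIn A hσ
  rcases P with _ | ⟨x, y, hxy⟩
  · rfl
  have hxy' : W.toAffine.Nonsingular (σ x) (σ y) := by
    have e := (W.toAffine.map_nonsingular (σ : Qb →+* Qb).injective x y).2 hxy
    exact h ▸ e
  show redFun hI (Affine.Point.some (σ x) (σ y) hxy') = redFun hI (.some x y hxy)
  have hmem : ∀ z, σ z ∈ A ↔ z ∈ A := fun z => by
    rw [← A.valuation_le_one_iff, ← A.valuation_le_one_iff, hin.map_eq]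
  by_cases hx : x ∈ A
  · obtain ⟨h₁, e₁⟩ := redFun_of_mem hI hxy hx
    obtain ⟨h₂, e₂⟩ := redFun_of_mem hI hxy' ((hmem x).2 hx)
    have hy := y_mem hI hxy.1 hx
    rw [e₁, e₂]
    simp only [Affine.Point.some.injEq]
    exact ⟨(resOf_eq_iff A ((hmem x).2 hx) hx).2 (hin.sub_lt x ((A.valuation_le_one_iff x).2 hx)),
      (resOf_eq_iff A ((hmem y).2 hy) hy).2 (hin.sub_lt y ((A.valuation_le_one_iff y).2 hy))⟩
  · rw [redFun, redFun, dif_neg hx, dif_neg fun e => hx ((hmem x).1 e)]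

include hΔ in
/-- **No point of order `p` on the reduced curve.** -/
theorem pTorsion_residue_eq_zero [W.IsElliptic] (hodd : Odd p) (hA : A.LiesOverPrime p)
    (s : Finset Qb)
    (hfix : ∀ σ ∈ A.inertiaSubgroupIn ℚ, (∀ a ∈ s, σ a = a) → W.map (σ : Qb →+* Qb) = W)
    (M : primary W p →+ primary W p) {B N : ℤ} (hMM : ∀ P, M (M P) + B • M P + N • P = 0)
    (hcomm : ∀ (σ : GQ) (hσ : σ ∈ A.inertiaSubgroupIn ℚ) (hs : ∀ a ∈ s, σ a = a)
      (P Q : primary W p), mapPt (σ : Qb →+* Qb) (hfix σ hσ hs) P.1 = Q.1 →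
        mapPt (σ : Qb →+* Qb) (hfix σ hσ hs) (M P).1 = (M Q).1)
    (hD : ¬ IsSquare ((B ^ 2 - 4 * N : ℤ) : ℚ_[p]))
    (R₀ : (redCurve A W.toAffine hI).toAffine.Point) (hR : p • R₀ = 0) : R₀ = 0 := by
  by_contra hR0
  have hpA : A.valuation (p : Qb) < 1 := A.mem_nonunits_iff.mp hA
  have hpL : (p : Qb) ≠ 0 := Nat.cast_ne_zero.2 hp.out.ne_zero
  obtain ⟨n₀, hn₀⟩ : ∃ n : ℕ, ∀ k : ℤ, ¬ (p : ℤ) ^ n ∣ k ^ 2 + B * k + N := by
    by_contra hc
    push Not at hc
    exact hD (isSquare_of_forall_dvd hc)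
  obtain ⟨n₁, rfl⟩ : ∃ n₁, n₀ = n₁ + 1 :=
    Nat.exists_eq_succ_of_ne_zero fun e => hn₀ 0 (by rw [e, pow_zero]; exact one_dvd _)
  -- inertia fixes the `p`-power torsion
  have hfixall : ∀ σ (hσ : σ ∈ A.inertiaSubgroupIn ℚ) (hs : ∀ a ∈ s, σ a = a) (P : W.toAffine.Point),
      P ∈ primary W p → mapPt (σ : Qb →+* Qb) (hfix σ hσ hs) P = P := by
    intro σ hσ hs
    set T := mapPt (σ : Qb →+* Qb) (hfix σ hσ hs) with hT
    have hTmem : ∀ P ∈ primary W p, T P ∈ primary W p := fun P ⟨a, ha⟩ =>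
      ⟨a, by rw [← map_nsmul, ha, map_zero]⟩
    let D : primary W p → primary W p := fun P => ⟨T P.1, hTmem _ P.2⟩ - P
    have hDval : ∀ P, (D P).1 = T P.1 - P.1 := fun P => rfl
    have hDsmul : ∀ (a : ℕ) P, D (a • P) = a • D P := fun a P => Subtype.ext (by
      rw [AddSubgroup.coe_nsmul, hDval, hDval, AddSubgroup.coe_nsmul, map_nsmul, smul_sub])
    have hDM : ∀ P, M (D P) = D (M P) := fun P => Subtype.ext (by
      rw [hDval, map_sub, AddSubgroup.coe_sub,
        ← hcomm σ hσ hs P ⟨T P.1, hTmem _ P.2⟩ rfl])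
    have hDred : ∀ P, redHom hI hΔ (D P).1 = 0 := fun P => by
      rw [hDval, map_sub, red_mapPt hI hΔ hσ, sub_self]
    have hkill : ∀ R : primary W p, p ^ (n₁ + 1) • D R = 0 := by
      intro R
      by_contra hne
      obtain ⟨a, ha⟩ := (D R).2
      have hex : ∃ m, p ^ m • D R = 0 := ⟨a, Subtype.ext (by rw [AddSubgroup.coe_nsmul]; exact ha)⟩
      set m := Nat.find hex with hm
      have hle : n₁ + 1 < m := by
        by_contra hc
        obtain ⟨c, hc'⟩ := Nat.exists_eq_add_of_le (not_lt.1 hc)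
        exact hne (by rw [hc', pow_add, mul_comm, mul_smul, Nat.find_spec hex, nsmul_zero])
      set R' := p ^ (m - (n₁ + 1)) • R
      set Y := D R'
      have hY : ∀ l, p ^ l • Y = p ^ (l + (m - (n₁ + 1))) • D R := fun l => by
        rw [show Y = p ^ (m - (n₁ + 1)) • D R from hDsmul _ _, ← mul_smul, ← pow_add]
      have hY1 : p ^ (n₁ + 1) • Y = 0 := by
        rw [hY, show n₁ + 1 + (m - (n₁ + 1)) = m by omega]; exact Nat.find_spec hex
      have hY0 : p ^ n₁ • Y ≠ 0 := by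
        rw [hY]; exact Nat.find_min hex (by omega)
      obtain ⟨k, hk⟩ := AddSubgroup.mem_zmultiples_iff.1 (kernel_cyclic hI hΔ hodd hpA hpL hR hR0 n₁
        (Q := Y.1) (S := (M Y).1) (by rw [← AddSubgroup.coe_nsmul, hY1]; rfl) (hDred R')
        (fun e => hY0 (Subtype.ext (by rw [AddSubgroup.coe_nsmul]; exact e)))
        (by rw [← AddSubgroup.coe_nsmul, ← map_nsmul, hY1, map_zero]; rfl)
        (by rw [hDM]; exact hDred _))
      have hk' : M Y = k • Y := Subtype.ext (by rw [AddSubgroup.coe_zsmul]; exact hk.symm)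
      have hq : (k ^ 2 + B * k + N) • Y = 0 := by
        have := hMM Y
        rw [hk', map_zsmul, hk'] at this
        rw [← this]
        module
      haveI := hp
      have hord : addOrderOf Y = p ^ (n₁ + 1) := addOrderOf_eq_prime_pow hY0 hY1
      refine hn₀ k ?_
      have := addOrderOf_dvd_iff_zsmul_eq_zero.2 hq
      rw [hord] at this
      exact_mod_cast this
    intro P hP
    obtain ⟨R, hR'⟩ : ∃ R, p ^ (n₁ + 1) • R = P := by
      have : ∀ l, ∃ R, p ^ l • R = P := by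
        intro l
        induction l with
        | zero => exact ⟨P, by rw [pow_zero, one_smul]⟩
        | succ l ih =>
          obtain ⟨R, hR⟩ := ih
          obtain ⟨S, hS⟩ := exists_nsmul_eq (p := p) R
          exact ⟨S, by rw [pow_succ, mul_smul, hS, hR]⟩
      exact this _
    obtain ⟨a, ha⟩ := hP
    have hRp : R ∈ primary W p := ⟨a + (n₁ + 1), by rw [pow_add, mul_smul, hR', ha]⟩
    have := congrArg Subtype.val (hkill ⟨R, hRp⟩)
    rw [AddSubgroup.coe_nsmul, hDval, smul_sub, ← map_nsmul, hR', AddSubgroup.coe_zero,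
      sub_eq_zero] at this
    exact this
  -- the growth of the abscissae
  obtain ⟨Q, hQ0, hQp, hQr, hQs⟩ := exists_chain hI hΔ hodd hpA hpL hR hR0
  have hQne : ∀ n, Q n ≠ 0 := fun n => by
    induction n with
    | zero => exact hQ0
    | succ n ih => exact fun e => ih (by rw [← hQs n, e, nsmul_zero])
  have hQmem : ∀ n, p ^ (n + 1) • Q n = 0 := fun n => by
    induction n with
    | zero => rw [zero_add, pow_one]; exact hQp
    | succ n ih => rw [pow_succ, mul_smul, hQs, ih]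
  have hgrow : ∀ n, 1 < A.valuation (xc (Q (n + 1))) ∧
      A.valuation (xc (Q (n + 1))) < A.valuation (xc (Q n)) := fun n => by
    have h := valuation_lt_of_kernel hI hΔ hodd hpA hpL (hQr (n + 1))
      (by rw [hQs]; exact hQne n)
    rwa [hQs] at h
  obtain ⟨m, hm, hj⟩ := exists_pow_eq_zpow hA s
  have hval : ∀ n, ∃ j : ℤ, A.valuation (xc (Q (n + 1))) ^ m = A.valuation (p : Qb) ^ j := fun n => by
    refine hj _ (fun e => ?_) fun σ hσ hs => ?_
    · have := (hgrow n).1
      rw [e, map_zero] at this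
      exact not_lt.2 zero_le this
    · have h := hfixall σ hσ hs (Q (n + 1)) ⟨_, hQmem (n + 1)⟩
      obtain ⟨x, y, hxy, he⟩ := exists_some_of_ne_zero (hQne (n + 1))
      rw [he] at h ⊢
      rw [xc_some]
      exact (Affine.Point.some.injEq ..).mp h |>.1
  choose j hj' using hval
  have hv0 : 0 < A.valuation (p : Qb) := A.valuation.pos_iff.2 hpL
  have hlt : ∀ n, j n < j (n + 1) := fun n => by
    have h := pow_lt_pow_left₀ (hgrow (n + 1)).2 zero_le hm.ne'
    rw [hj', hj'] at h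
    by_contra hc
    exact absurd h (not_lt.2 (zpow_right_anti₀ hv0 hpA.le (not_lt.1 hc)))
  have hneg : ∀ n, j n < 0 := fun n => by
    have h := one_lt_pow₀ (hgrow n).1 hm.ne'
    rw [hj'] at h
    by_contra hc
    exact absurd h (not_lt.2 (zpow_le_one₀ hv0 hpA.le (not_lt.1 hc)))
  have hge : ∀ n : ℕ, j 0 + n ≤ j n := fun n => by
    induction n with
    | zero => simp
    | succ n ih => have := hlt n; push_cast; omega
  have := hge (-j 0).toNat
  have := hneg (-j 0).toNat
  omega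

end FA.CMReduction

end
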