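import Fermat.Agent.EC.MulFormula
import Fermat.Agent.Frob.VarChange
import Mathlib.AlgebraicGeometry.EllipticCurve.NormalForms
import Mathlib.AlgebraicGeometry.EllipticCurve.ModelsWithJ
import Mathlib.AlgebraicGeometry.EllipticCurve.IsomOfJ
import Mathlib.AlgebraicGeometry.EllipticCurve.DivisionPolynomial.Degree
import Mathlib.FieldTheory.IsAlgClosed.Basic
import Mathlib.Algebra.CharP.Lemmas

/-!
# Supersingular invariants lie in the field with `q²` elements

If a curve over an algebraically closed field of characteristic `q ≥ 5` has no point of order `q`,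
then `ΨSq_q` is a constant `C` and every fibre of `Φ_q` is a single point, so
`x (q P) = (x (P) ^ q² - s) / C`. On the points of order two this gives `e ^ q² = C e`, hence
`j ^ q² = j`.
-/

set_option autoImplicit false
set_option linter.style.haveILetI false

noncomputable section

open Polynomial WeierstrassCurve
open scoped Classical

namespace FA.SupersingularField

open FA.EC

variable {k : Type*} [Field k] {q : ℕ} [hq : Fact q.Prime] [CharP k q] [IsAlgClosed k]
  {W : WeierstrassCurve k} [W.IsElliptic]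

omit hq [CharP k q] in
theorem exists_point (h2 : (2 : k) ≠ 0) (x : k) : ∃ y, W.toAffine.Nonsingular x y := by
  obtain ⟨z, hz⟩ : ∃ z : k, z ^ 2 = ((W.a₁ * x + W.a₃) / 2) ^ 2 +
      (x ^ 3 + W.a₂ * x ^ 2 + W.a₄ * x + W.a₆) := IsAlgClosed.exists_pow_nat_eq _ two_pos
  refine ⟨z - (W.a₁ * x + W.a₃) / 2, Affine.equation_iff_nonsingular.1 ?_⟩
  rw [Affine.equation_iff]
  field_simp at hz ⊢
  linear_combination hz

omit hq in
/-- `ΨSq_q` is a nonzero constant. -/
theorem exists_psiSq_eq_C (h5 : 5 ≤ q) (hss : ∀ P : W.toAffine.Point, q • P = 0 → P = 0) :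
    ∃ C : k, C ≠ 0 ∧ W.ΨSq q = Polynomial.C C := by
  have h2 : (2 : k) ≠ 0 := Ring.two_ne_zero (by rw [ringChar.eq k q]; omega)
  have hno : ∀ x, (W.ΨSq q).eval x ≠ 0 := fun x hx => by
    obtain ⟨y, hy⟩ := exists_point (W := W) h2 x
    exact Affine.Point.some_ne_zero hy (hss _ ((nsmul_eq_zero_iff hy q).2 hx))
  have hd : (W.ΨSq q).natDegree = 0 := by
    by_contra hd
    obtain ⟨x, hx⟩ := IsAlgClosed.exists_root _
      (fun e => hd (natDegree_eq_zero_iff_degree_le_zero.2 e.le) : (W.ΨSq q).degree ≠ 0)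
    exact hno x hx
  refine ⟨(W.ΨSq q).coeff 0, fun e => hno 0 ?_, eq_C_of_natDegree_eq_zero hd⟩
  rw [eq_C_of_natDegree_eq_zero hd, e, map_zero, eval_zero]

/-- **Multiplication by `q` is purely inseparable.** -/
theorem exists_phi_eq (h5 : 5 ≤ q) (hss : ∀ P : W.toAffine.Point, q • P = 0 → P = 0) :
    ∃ s : k, W.Φ q = X ^ q ^ 2 - Polynomial.C s := by
  have h2 : (2 : k) ≠ 0 := Ring.two_ne_zero (by rw [ringChar.eq k q]; omega)
  obtain ⟨C, hC0, hC⟩ := exists_psiSq_eq_C h5 hss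
  have hdeg : (W.Φ q).natDegree = q ^ 2 := by rw [natDegree_Φ, Int.natAbs_natCast]
  have hne : W.Φ q ≠ 0 := Φ_ne_zero W _
  have huniq : ∀ x x', x ∈ (W.Φ q).roots → x' ∈ (W.Φ q).roots → x = x' := by
    intro x x' hx hx'
    rw [mem_roots hne, IsRoot] at hx hx'
    obtain ⟨y, hy⟩ := exists_point (W := W) h2 x
    obtain ⟨y', hy'⟩ := exists_point (W := W) h2 x'
    set P : W.toAffine.Point := .some x y hy
    set P' : W.toAffine.Point := .some x' y' hy'
    have hP : q • P ≠ 0 := fun e => Affine.Point.some_ne_zero hy (hss _ e)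
    have hP' : q • P' ≠ 0 := fun e => Affine.Point.some_ne_zero hy' (hss _ e)
    have e : xc (q • P) = xc (q • P') := by
      rw [← natCast_zsmul, ← natCast_zsmul, xc_zsmul hy _ (by rwa [natCast_zsmul]),
        xc_zsmul hy' _ (by rwa [natCast_zsmul]), hx, hx', hC]
      simp
    rcases eq_or_eq_neg_of_xc_eq hP hP' e with e' | e'
    · have := sub_eq_zero.1 (hss (P - P') (by rw [nsmul_sub, e', sub_self]))
      rw [Affine.Point.some.injEq] at this
      exact this.1
    · have := eq_neg_of_add_eq_zero_left (hss (P + P') (by rw [nsmul_add, e', neg_add_cancel]))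
      rw [Affine.Point.neg_some, Affine.Point.some.injEq] at this
      exact this.1
  obtain ⟨r, hr⟩ := IsAlgClosed.exists_root (W.Φ q) (fun e => by
    rw [natDegree_eq_zero_iff_degree_le_zero.2 e.le] at hdeg
    exact absurd hdeg.symm (pow_ne_zero 2 hq.out.ne_zero))
  have hrep : (W.Φ q).roots = Multiset.replicate (q ^ 2) r := by
    refine Multiset.eq_replicate.2 ⟨?_, fun x hx => huniq x r hx ((mem_roots hne).2 hr)⟩
    rw [IsAlgClosed.card_roots_eq_natDegree, hdeg]
  refine ⟨r ^ q ^ 2, ?_⟩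
  rw [← prod_multiset_X_sub_C_of_monic_of_roots_card_eq (show (W.Φ q).Monic from leadingCoeff_Φ W _)
    (IsAlgClosed.card_roots_eq_natDegree), hrep, Multiset.map_replicate, Multiset.prod_replicate,
    sub_pow_char_pow, ← Polynomial.C_pow]

/-- `x (q P)` on a curve without points of order `q`. -/
theorem exists_xc_nsmul (h5 : 5 ≤ q) (hss : ∀ P : W.toAffine.Point, q • P = 0 → P = 0) :
    ∃ C s : k, C ≠ 0 ∧ ∀ P : W.toAffine.Point, P ≠ 0 →
      xc (q • P) = (xc P ^ q ^ 2 - s) / C := by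
  obtain ⟨C, hC0, hC⟩ := exists_psiSq_eq_C h5 hss
  obtain ⟨s, hs⟩ := exists_phi_eq h5 hss
  refine ⟨C, s, hC0, fun P hP => ?_⟩
  obtain ⟨x, y, hxy, rfl⟩ := exists_some_of_ne_zero hP
  rw [← natCast_zsmul, xc_zsmul hxy _ (by rw [natCast_zsmul]; exact fun e => hP (hss _ e)), hs, hC]
  simp [xc_some]

/-- The short case. -/
theorem pow_sq_short (h5 : 5 ≤ q) (h1 : W.a₁ = 0) (h2' : W.a₂ = 0) (h3' : W.a₃ = 0)
    (hss : ∀ P : W.toAffine.Point, q • P = 0 → P = 0) : W.j ^ q ^ 2 = W.j := by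
  have h2 : (2 : k) ≠ 0 := Ring.two_ne_zero (by rw [ringChar.eq k q]; omega)
  have h3 : (3 : k) ≠ 0 := fun e => by
    have := Nat.le_of_dvd three_pos ((CharP.cast_eq_zero_iff k q 3).mp (by exact_mod_cast e))
    omega
  set a := W.a₄
  set b := W.a₆
  have hΔ : W.Δ = -16 * (4 * a ^ 3 + 27 * b ^ 2) := by
    simp only [WeierstrassCurve.Δ, WeierstrassCurve.b₂, WeierstrassCurve.b₄, WeierstrassCurve.b₆,
      WeierstrassCurve.b₈, h1, h2', h3', a, b]
    ring
  have hD : 4 * a ^ 3 + 27 * b ^ 2 ≠ 0 := fun e =>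
    W.isUnit_Δ.ne_zero (by rw [hΔ, e, mul_zero])
  obtain ⟨C, s, hC0, hx⟩ := exists_xc_nsmul h5 hss
  set σ : k →+* k := iterateFrobenius k q 2
  have hσ : ∀ x, σ x = x ^ q ^ 2 := fun x => by simp [σ, iterateFrobenius_def]
  -- the points of order two
  have hroot : ∀ e : k, e ^ 3 + a * e + b = 0 → σ e = C * e + s := fun e he => by
    have hns : W.toAffine.Nonsingular e 0 := Affine.equation_iff_nonsingular.1 (by
      rw [Affine.equation_iff, h1, h2', h3']
      linear_combination -he)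
    set T : W.toAffine.Point := .some e 0 hns
    have h2T : 2 • T = 0 := by
      rw [two_nsmul]
      exact Affine.Point.add_self_of_Y_eq (by simp [Affine.negY, h1, h3'])
    have hqT : q • T = T := by
      obtain ⟨m, hm⟩ := hq.out.odd_of_ne_two (by omega)
      rw [hm, add_nsmul, one_nsmul, mul_nsmul, h2T, nsmul_zero, zero_add]
    have := hx T (Affine.Point.some_ne_zero hns)
    rw [hqT, xc_some, eq_div_iff hC0] at this
    rw [hσ]
    linear_combination -this
  -- three roots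
  obtain ⟨e₁, he₁⟩ : ∃ e, (X ^ 3 + Polynomial.C a * X + Polynomial.C b).IsRoot e :=
    IsAlgClosed.exists_root _ (by
      rw [degree_eq_natDegree (fun h => by simpa using congrArg (fun p => p.coeff 3) h)]
      have : (X ^ 3 + Polynomial.C a * X + Polynomial.C b).natDegree = 3 := by compute_degree!
      rw [this]; simp)
  simp only [IsRoot, eval_add, eval_pow, eval_X, eval_mul, eval_C] at he₁
  obtain ⟨z, hz⟩ : ∃ z : k, z ^ 2 = -4 * a - 3 * e₁ ^ 2 := IsAlgClosed.exists_pow_nat_eq _ two_pos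
  obtain ⟨e₂, he₂⟩ : ∃ e₂ : k, 2 * e₂ = z - e₁ := ⟨(z - e₁) / 2, mul_div_cancel₀ _ h2⟩
  have hq2 : e₂ ^ 2 + e₁ * e₂ + (a + e₁ ^ 2) = 0 :=
    mul_left_cancel₀ (pow_ne_zero 2 h2) (by
      linear_combination (2 * e₂ + e₁ + z) * he₂ + hz)
  have r₂ : e₂ ^ 3 + a * e₂ + b = 0 := by linear_combination (e₂ - e₁) * hq2 + he₁
  have r₃ : (-e₁ - e₂) ^ 3 + a * (-e₁ - e₂) + b = 0 := by
    linear_combination (-2 * e₁ - e₂) * hq2 + he₁
  have hne : e₁ ≠ e₂ := fun e => hD (by
    subst e
    have ha : a = -3 * e₁ ^ 2 := by linear_combination hq2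
    have hb : b = 2 * e₁ ^ 3 := by linear_combination he₁ - e₁ * hq2
    rw [ha, hb]; ring)
  have s₁ := hroot e₁ he₁
  have s₂ := hroot e₂ r₂
  have s₃ := hroot _ r₃
  rw [map_sub, map_neg] at s₃
  obtain rfl : s = 0 := (mul_eq_zero.1
    (show (3 : k) * s = 0 by linear_combination -s₁ - s₂ - s₃)).resolve_left h3
  rw [add_zero] at s₁ s₂
  -- the coefficients
  have key : ∀ e : k, e ^ 3 + a * e + b = 0 → σ e = C * e →
      (σ a * C - C ^ 3 * a) * e + (σ b - C ^ 3 * b) = 0 := fun e he hse => by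
    have h := congrArg σ he
    rw [map_add, map_add, map_mul, map_pow, map_zero, hse] at h
    linear_combination h - C ^ 3 * he
  have k₁ := key e₁ he₁ s₁
  have k₂ := key e₂ r₂ s₂
  have hσa : σ a * C - C ^ 3 * a = 0 := (mul_eq_zero.1
    (show (σ a * C - C ^ 3 * a) * (e₁ - e₂) = 0 by linear_combination k₁ - k₂)).resolve_right
      (sub_ne_zero.2 hne)
  have hA : σ a = C ^ 2 * a := mul_left_cancel₀ hC0 (by linear_combination hσa)
  have hB : σ b = C ^ 3 * b := by linear_combination k₁ - e₁ * hσa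
  have hc4 : W.c₄ = -48 * a := by
    simp only [WeierstrassCurve.c₄, WeierstrassCurve.b₂, WeierstrassCurve.b₄, h1, h2', h3', a]
    ring
  have hj : W.j = W.c₄ ^ 3 / W.Δ := by
    rw [j, Units.val_inv_eq_inv_val, coe_Δ', inv_mul_eq_div]
  rw [← hσ, hj, map_div₀, map_pow, hc4, hΔ]
  simp only [map_mul, map_add, map_pow, map_neg, map_ofNat, hA, hB]
  rw [show (-48 * (C ^ 2 * a)) ^ 3 = C ^ 6 * (-48 * a) ^ 3 by ring,
    show -16 * (4 * (C ^ 2 * a) ^ 3 + 27 * (C ^ 3 * b) ^ 2) =
      C ^ 6 * (-16 * (4 * a ^ 3 + 27 * b ^ 2)) by ring, mul_div_mul_left _ _ (pow_ne_zero 6 hC0)]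

/-- **Supersingular invariants are in `𝔽_(q²)`.** -/
theorem j_pow_sq (h5 : 5 ≤ q) (hss : ∀ P : W.toAffine.Point, q • P = 0 → P = 0) :
    W.j ^ q ^ 2 = W.j := by
  have h2 : (2 : k) ≠ 0 := Ring.two_ne_zero (by rw [ringChar.eq k q]; omega)
  have h3 : (3 : k) ≠ 0 := fun e => by
    have := Nat.le_of_dvd three_pos ((CharP.cast_eq_zero_iff k q 3).mp (by exact_mod_cast e))
    omega
  haveI := invertibleOfNonzero h2
  haveI := invertibleOfNonzero h3
  obtain ⟨C, hC⟩ := W.exists_variableChange_isShortNF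
  rw [← variableChange_j W C]
  refine pow_sq_short h5 (a₁_of_isShortNF _) (a₂_of_isShortNF _) (a₃_of_isShortNF _) fun P hP => ?_
  have h := hss (FA.Frob.vcEquiv C rfl P) (by rw [← map_nsmul, hP, map_zero])
  exact (map_eq_zero_iff _ (FA.Frob.vcEquiv C rfl).injective).1 h

/-- **Supersingular curves have a model over `𝔽_(q²)`.** -/
theorem exists_model (h5 : 5 ≤ q) (hss : ∀ P : W.toAffine.Point, q • P = 0 → P = 0) :
    ∃ C : VariableChange k, (C • W).map (iterateFrobenius k q 2) = C • W := by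
  have hj : iterateFrobenius k q 2 W.j = W.j := by
    rw [iterateFrobenius_def]; exact j_pow_sq h5 hss
  obtain ⟨C, hC⟩ := exists_variableChange_of_j_eq W (ofJ W.j) (ofJ_j W.j).symm
  refine ⟨C, ?_⟩
  rw [hC]
  unfold ofJ
  split_ifs <;> ext <;>
    simp [ofJ0, ofJ1728, ofJNe0Or1728, WeierstrassCurve.map, hj, map_ofNat]

end FA.SupersingularField

end
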