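import Fermat.Agent.Supersingular.CMReduction
import Fermat.Agent.Supersingular.QuadraticField

/-!
# Deuring: singular moduli reduce to ordinary invariants at split primes

If `B² - 4 N` is a square in `ℚ_p`, the roots of `X² + B X + N` modulo `pⁿ` cut out of the
`pⁿ`-torsion a cyclic group stable under the inertia fixing the multiplier, so its abscissae take
few values under inertia and their valuations have denominators `O (pⁿ)`. Above a supersingular
place they would need denominators growing as `p ^ (2 n)`: so the reduced curve is ordinary.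
-/

set_option autoImplicit false
set_option linter.style.haveILetI false

noncomputable section

open WeierstrassCurve Polynomial
open scoped Classical UpperHalfPlane

namespace FA.CMReduction

open FA.Frob FA.Local FA.EC FA.ClassNumberOne FA.Mazur.Wp
open FA.ModField (jfun)

local notation "Qb" => AlgebraicClosure ℚ
local notation "GQ" => AlgebraicClosure ℚ ≃ₐ[ℚ] AlgebraicClosure ℚ

/-- The roots of a quadratic with square discriminant modulo a power of an odd prime. -/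
theorem exists_roots_mod {p : ℕ} [hp : Fact p.Prime] (hodd : Odd p) {B N : ℤ}
    (hD : IsSquare ((B ^ 2 - 4 * N : ℤ) : ℚ_[p])) (n : ℕ) :
    ∃ k k' : ℤ, (p : ℤ) ^ n ∣ k + k' + B ∧ (p : ℤ) ^ n ∣ k * k' - N := by
  obtain ⟨r, hr⟩ := hD
  have hr1 : ‖r‖ ≤ 1 := by
    have h : ‖r‖ * ‖r‖ ≤ 1 := by rw [← norm_mul, ← hr]; exact Padic.norm_int_le_one _
    nlinarith [norm_nonneg r]
  set ρ : ℤ_[p] := ⟨r, hr1⟩
  have h2 : IsUnit (2 : ℤ_[p]) := by
    rw [PadicInt.isUnit_iff, PadicInt.norm_def]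
    have : ((2 : ℤ_[p]) : ℚ_[p]) = ((2 : ℕ) : ℚ_[p]) := by simp; rfl
    rw [this]
    exact Padic.norm_natCast_eq_one_iff.2 ((Nat.coprime_primes hp.out Nat.prime_two).2 fun e => by
      subst e; exact absurd hodd (by decide))
  obtain ⟨u, hu⟩ := h2.exists_left_inv
  have hρ : ρ * ρ = ((B ^ 2 - 4 * N : ℤ) : ℤ_[p]) :=
    Subtype.ext (show r * r = _ by rw [PadicInt.coe_intCast, hr])
  push_cast at hρ
  set z := u * (-B + ρ)
  set z' := u * (-B - ρ)
  have hsum : z + z' + B = 0 := by linear_combination (-(B : ℤ_[p])) * hu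
  have hprod : z * z' - N = 0 := by
    linear_combination -(u ^ 2) * hρ + (N : ℤ_[p]) * (u * 2 + 1) * hu
  haveI : NeZero (p ^ n) := ⟨pow_ne_zero _ hp.out.ne_zero⟩
  refine ⟨(PadicInt.toZModPow n z).val, (PadicInt.toZModPow n z').val, ?_, ?_⟩
  · rw [← Nat.cast_pow, ← ZMod.intCast_zmod_eq_zero_iff_dvd]
    push_cast
    rw [ZMod.natCast_zmod_val, ZMod.natCast_zmod_val]
    simpa using congrArg (PadicInt.toZModPow n) hsum
  · rw [← Nat.cast_pow, ← ZMod.intCast_zmod_eq_zero_iff_dvd]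
    push_cast
    rw [ZMod.natCast_zmod_val, ZMod.natCast_zmod_val]
    simpa using congrArg (PadicInt.toZModPow n) hprod

/-- A kernel with fewer than `p ^ 2` elements killed by `p` is locally cyclic. -/
theorem ker_cyclic {G : Type*} [AddCommGroup G] {p : ℕ} (hp : p.Prime) (f : G →+ G)
    [Finite ((nsmulAddMonoidHom p : G →+ G).ker ⊓ f.ker : AddSubgroup G)]
    (hcard : Nat.card ((nsmulAddMonoidHom p : G →+ G).ker ⊓ f.ker : AddSubgroup G) < p ^ 2) :
    ∀ (n : ℕ) {Q S : G}, p ^ (n + 1) • Q = 0 → p ^ n • Q ≠ 0 → f Q = 0 →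
      p ^ (n + 1) • S = 0 → f S = 0 → S ∈ AddSubgroup.zmultiples Q := by
  intro n
  induction n with
  | zero =>
    intro Q S hQ hQ0 hfQ hS hfS
    simp only [zero_add, pow_one, pow_zero, one_smul] at hQ hQ0 hS
    exact mem_zmultiples_of_card_lt hp _ (fun x hx => (AddSubgroup.mem_inf.1 hx).1) hcard ⟨hQ, hfQ⟩ hQ0 ⟨hS, hfS⟩
  | succ n ih =>
    intro Q S hQ hQ0 hfQ hS hfS
    have key : ∀ {X : G} (j : ℕ), p ^ j • (p • X) = p ^ (j + 1) • X := fun j => by
      rw [← mul_smul, ← pow_succ]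
    obtain ⟨i, hi⟩ := AddSubgroup.mem_zmultiples_iff.1 (ih (Q := p • Q) (S := p • S)
      (by rw [key]; exact hQ) (by rw [key]; exact hQ0) (by rw [map_nsmul, hfQ, nsmul_zero])
      (by rw [key]; exact hS) (by rw [map_nsmul, hfS, nsmul_zero]))
    obtain ⟨l, hl⟩ := AddSubgroup.mem_zmultiples_iff.1 (mem_zmultiples_of_card_lt hp
      ((nsmulAddMonoidHom p : G →+ G).ker ⊓ f.ker) (fun x hx => hx.1) hcard
      (Q := p ^ (n + 1) • Q) (S := S - i • Q)
      ⟨show p • p ^ (n + 1) • Q = 0 by rw [← mul_smul, ← pow_succ']; exact hQ,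
        show f _ = 0 by rw [map_nsmul, hfQ, nsmul_zero]⟩ hQ0
      ⟨show p • (S - i • Q) = 0 by rw [smul_sub, smul_comm, hi, sub_self],
        show f _ = 0 by rw [map_sub, map_zsmul, hfS, hfQ, zsmul_zero, sub_zero]⟩)
    refine AddSubgroup.mem_zmultiples_iff.2 ⟨i + l * (p ^ (n + 1) : ℕ), ?_⟩
    rw [add_smul, mul_smul, natCast_zsmul, hl, add_sub_cancel]

variable {p : ℕ} [hp : Fact p.Prime] {A : ValuationSubring Qb}

/-- Nonzero algebraic numbers have values commensurable with that of `p`. -/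
theorem exists_pow_eq_zpow_any (hA : A.LiesOverPrime p) {x : Qb} (hx : x ≠ 0) :
    ∃ (k : ℕ) (j : ℤ), 0 < k ∧ A.valuation x ^ k = A.valuation (p : Qb) ^ j := by
  haveI : Algebra.IsAlgebraic ℚ Qb := AlgebraicClosure.isAlgebraic ℚ
  obtain ⟨R, -, h⟩ := exists_pow_eq_zpow_orbit hA ∅
  obtain ⟨k, j, hk, -, hj⟩ := h x hx ((minpoly ℚ x).rootSet Qb).toFinset fun σ _ _ => by
    rw [Set.mem_toFinset, Polynomial.mem_rootSet]
    refine ⟨minpoly.ne_zero (Algebra.IsAlgebraic.isAlgebraic x).isIntegral, ?_⟩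
    show Polynomial.aeval (σ.toAlgHom x) _ = 0
    rw [Polynomial.aeval_algHom_apply, minpoly.aeval, map_zero]
  exact ⟨k, j, hk, hj⟩

/-- Values are bounded by powers of that of `p`. -/
theorem exists_le_inv_pow (hA : A.LiesOverPrime p) (x : Qb) :
    ∃ m : ℕ, A.valuation x ≤ (A.valuation (p : Qb))⁻¹ ^ m := by
  have hpA : A.valuation (p : Qb) < 1 := A.mem_nonunits_iff.mp hA
  have hv0 : 0 < A.valuation (p : Qb) :=
    A.valuation.pos_iff.2 (Nat.cast_ne_zero.2 hp.out.ne_zero)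
  rcases le_or_gt (A.valuation x) 1 with h | h
  · exact ⟨0, by rwa [pow_zero]⟩
  obtain ⟨k, j, hk, hj⟩ := exists_pow_eq_zpow_any hA (x := x) fun e => by
    rw [e, map_zero] at h; exact not_lt.2 zero_le h
  refine ⟨(-j).toNat, (le_self_pow h.le hk.ne').trans ?_⟩
  rw [hj, inv_pow, ← zpow_natCast, ← zpow_neg]
  exact zpow_right_anti₀ hv0 hpA.le (by omega)

/-- Powers of a value below `1` become as small as any power of that of `p`. -/
theorem exists_pow_le_pow (hA : A.LiesOverPrime p) {x : Qb} (hx : A.valuation x < 1) (m : ℕ) :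
    ∃ n : ℕ, A.valuation x ^ n ≤ A.valuation (p : Qb) ^ m := by
  have hpA : A.valuation (p : Qb) < 1 := A.mem_nonunits_iff.mp hA
  have hv0 : 0 < A.valuation (p : Qb) :=
    A.valuation.pos_iff.2 (Nat.cast_ne_zero.2 hp.out.ne_zero)
  by_cases hx0 : x = 0
  · exact ⟨1, by rw [hx0, map_zero, pow_one]; exact zero_le⟩
  obtain ⟨k, j, hk, hj⟩ := exists_pow_eq_zpow_any hA hx0
  have hj1 : 1 ≤ j := by
    by_contra hc
    have h := pow_lt_one₀ zero_le hx hk.ne'
    rw [hj] at h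
    exact absurd h (not_lt.2 (one_le_zpow_of_nonpos₀ hv0 hpA.le (by omega)))
  refine ⟨k * m, ?_⟩
  rw [pow_mul, hj]
  refine pow_le_pow_left₀ zero_le ?_ m
  conv_rhs => rw [← zpow_one (A.valuation (p : Qb))]
  exact zpow_right_anti₀ hv0 hpA.le hj1

/-- A sequence each step of which takes a `q`-th root or a factor `μ` decreases quickly. -/
theorem exists_pow_le {Γ : Type*} [LinearOrderedCommGroupWithZero Γ] {μ Z : Γ} (hμ : μ ≤ 1)
    {q : ℕ} (hq : 0 < q) (b : ℕ → Γ) (h0 : b 0 ≤ Z) {L : ℕ}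
    (hstep : ∀ l < L, b (l + 1) ^ q ≤ b l ∨ b (l + 1) ≤ μ * b l) :
    ∀ l ≤ L, ∃ e f : ℕ, e + f = l ∧ b l ^ q ^ e ≤ μ ^ f * Z := by
  intro l
  induction l with
  | zero => exact fun _ => ⟨0, 0, rfl, by simpa using h0⟩
  | succ l ih =>
    intro hl
    obtain ⟨e, f, hef, hb⟩ := ih (by omega)
    rcases hstep l (by omega) with h | h
    · refine ⟨e + 1, f, by omega, ?_⟩
      rw [pow_succ', pow_mul]
      exact (pow_le_pow_left₀ zero_le h _).trans hb
    · refine ⟨e, f + 1, by omega, ?_⟩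
      calc b (l + 1) ^ q ^ e ≤ (μ * b l) ^ q ^ e := pow_le_pow_left₀ zero_le h _
        _ = μ ^ q ^ e * b l ^ q ^ e := mul_pow ..
        _ ≤ μ * (μ ^ f * Z) := mul_le_mul' (pow_le_of_le_one zero_le hμ (pow_ne_zero _ hq.ne')) hb
        _ = μ ^ (f + 1) * Z := by rw [pow_succ' μ, mul_assoc]

variable {W : WeierstrassCurve Qb} (hI : IntCoeff A.valuation W.toAffine)
  (hΔ : A.valuation W.toAffine.Δ = 1) [(redCurve A W.toAffine hI).IsElliptic]

omit hp in
include hΔ in
/-- Above a supersingular place all points of `p`-power order reduce to zero. -/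
theorem red_primary_eq_zero
    (hss : ∀ R : (redCurve A W.toAffine hI).toAffine.Point, p • R = 0 → R = 0)
    {P : W.toAffine.Point} (hP : P ∈ primary W p) : redHom hI hΔ P = 0 := by
  obtain ⟨n, hn⟩ := hP
  induction n generalizing P with
  | zero => rw [pow_zero, one_smul] at hn; rw [hn, map_zero]
  | succ n ih =>
    rw [pow_succ, mul_smul] at hn
    exact hss _ (by rw [← map_nsmul]; exact ih hn)

/-- Above a supersingular place multiplication by `p` raises large abscissae to the power `p ^ 2` or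
divides their value by `μ < 1`. -/
theorem exists_kernel_step [W.IsElliptic] (hp5 : 5 ≤ p) (hA : A.LiesOverPrime p)
    (hss : ∀ R : (redCurve A W.toAffine hI).toAffine.Point, p • R = 0 → R = 0) :
    ∃ c : Qb, A.valuation c < 1 ∧ ∀ P : W.toAffine.Point, 1 < A.valuation (xc P) → p • P ≠ 0 →
      A.valuation (xc P) ^ (p ^ 2) ≤ A.valuation (xc (p • P)) ∨
        A.valuation (xc P) ≤ A.valuation c * A.valuation (xc (p • P)) := by
  haveI := residueField_charP A hp.out hA
  haveI : IsAlgClosed (Res A) := residueField_isAlgClosed A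
  obtain ⟨C₀, -, hC⟩ := FA.SupersingularField.exists_psiSq_eq_C
    (W := redCurve A W.toAffine hI) hp5 hss
  set W₁ := intModel A W.toAffine hI
  have hmap : W₁.map A.subtype = W := intModel_map A W.toAffine hI
  set G := W₁.ΨSq (p : ℤ) with hG
  have hGr : G.map (IsLocalRing.residue A) = Polynomial.C C₀ := by
    rw [hG, ← map_ΨSq]; exact hC
  have hsmall : ∀ i, 1 ≤ i → A.valuation ((G.coeff i : A) : Qb) < 1 := fun i hi => by
    have h := congrArg (Polynomial.coeff · i) hGr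
    simp only [coeff_map, coeff_C, if_neg (show i ≠ 0 by omega)] at h
    rw [← A.mem_nonunits_iff, A.coe_mem_nonunits_iff]
    exact (IsLocalRing.residue_eq_zero_iff _).1 h
  obtain ⟨i₀, hi₀, hmax⟩ := (Finset.Icc 1 (p ^ 2)).exists_max_image
    (fun i => A.valuation ((G.coeff i : A) : Qb)) ⟨1, Finset.mem_Icc.2 ⟨le_rfl, Nat.one_le_pow _ _
      hp.out.pos⟩⟩
  refine ⟨G.coeff i₀, hsmall i₀ (Finset.mem_Icc.1 hi₀).1, fun P hx hP => ?_⟩
  set v := A.valuation
  obtain ⟨x, y, h, rfl⟩ := exists_some_of_ne_zero (P := P) fun e => hP (by rw [e, nsmul_zero])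
  rw [xc_some] at hx ⊢
  have hx0 : (0 : _) < v x := zero_lt_one.trans hx
  have hΦ : v ((W.Φ (p : ℤ)).eval x) = v x ^ (p ^ 2) := by
    have hd : (W.Φ (p : ℤ)).natDegree = p ^ 2 := by simp
    rw [eval_eq_sum_range, Finset.sum_range_succ, hd, v.map_add_eq_of_lt_right]
    · rw [← hd, coeff_natDegree, leadingCoeff_Φ, one_mul, map_pow]
    · rw [show (W.Φ (p : ℤ)).coeff (p ^ 2) = 1 by rw [← hd, coeff_natDegree, leadingCoeff_Φ],
        one_mul, map_pow]
      refine v.map_sum_lt (pow_ne_zero _ hx0.ne') fun i hi => ?_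
      rw [map_mul, map_pow]
      refine (mul_le_of_le_one_left' ?_).trans_lt
        (pow_lt_pow_right₀ hx (Finset.mem_range.1 hi))
      rw [← hmap, map_Φ, coeff_map]
      exact (A.valuation_le_one_iff _).2 ((W₁.Φ (p : ℤ)).coeff i).2
  set μ := v ((G.coeff i₀ : A) : Qb)
  have hd : (W.ΨSq (p : ℤ)).natDegree ≤ p ^ 2 - 1 := by simpa using W.natDegree_ΨSq_le (p : ℤ)
  have hΨ : v ((W.ΨSq (p : ℤ)).eval x) ≤ max 1 (μ * v x ^ (p ^ 2 - 1)) := by
    rw [eval_eq_sum_range' (Nat.lt_succ_iff.2 hd)]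
    refine v.map_sum_le fun i hi => ?_
    rw [map_mul, map_pow, ← hmap, map_ΨSq, coeff_map]
    rcases Nat.eq_zero_or_pos i with rfl | hi0
    · rw [pow_zero, mul_one]
      exact le_max_of_le_left ((A.valuation_le_one_iff _).2 (G.coeff 0).2)
    · have hi' : i ≤ p ^ 2 - 1 := Nat.lt_succ_iff.1 (Finset.mem_range.1 hi)
      exact le_max_of_le_right (mul_le_mul' (hmax i (Finset.mem_Icc.2 ⟨hi0, by omega⟩))
        (pow_le_pow_right₀ hx.le hi'))
  have hne : (W.ΨSq (p : ℤ)).eval x ≠ 0 := fun e => hP ((nsmul_eq_zero_iff h p).2 e)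
  have hxc : v (xc (p • (Affine.Point.some x y h : W.toAffine.Point))) *
      v ((W.ΨSq (p : ℤ)).eval x) = v x ^ (p ^ 2) := by
    rw [← hΦ, ← map_mul, ← natCast_zsmul, xc_zsmul h _ (by rwa [natCast_zsmul]),
      div_mul_cancel₀ _ hne]
  rcases le_total (μ * v x ^ (p ^ 2 - 1)) 1 with hc | hc
  · left
    calc v x ^ (p ^ 2) = _ := hxc.symm
      _ ≤ v (xc (p • (Affine.Point.some x y h : W.toAffine.Point))) * 1 :=
        mul_le_mul' le_rfl (hΨ.trans (max_le le_rfl hc))
      _ = _ := mul_one _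
  · right
    refine le_of_mul_le_mul_right ?_ (pow_pos hx0 (p ^ 2 - 1))
    calc v x * v x ^ (p ^ 2 - 1) = v x ^ (p ^ 2) := by
          rw [← pow_succ', Nat.sub_add_cancel (Nat.one_le_pow _ _ hp.out.pos)]
      _ ≤ v (xc (p • (Affine.Point.some x y h : W.toAffine.Point))) * (μ * v x ^ (p ^ 2 - 1)) := by
          rw [← hxc]; exact mul_le_mul' le_rfl (hΨ.trans (max_le hc le_rfl))
      _ = _ := by rw [← mul_assoc, mul_comm _ μ]

include hΔ in
/-- **The reduced curve is not supersingular.** -/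
theorem pTorsion_residue_ne_zero [W.IsElliptic] (hp5 : 5 ≤ p) (hA : A.LiesOverPrime p)
    (s : Finset Qb)
    (hfix : ∀ σ ∈ A.inertiaSubgroupIn ℚ, (∀ a ∈ s, σ a = a) → W.map (σ : Qb →+* Qb) = W)
    (M : primary W p →+ primary W p) {B N : ℤ} (hMM : ∀ P, M (M P) + B • M P + N • P = 0)
    (hcomm : ∀ (σ : GQ) (hσ : σ ∈ A.inertiaSubgroupIn ℚ) (hs : ∀ a ∈ s, σ a = a)
      (P Q : primary W p), mapPt (σ : Qb →+* Qb) (hfix σ hσ hs) P.1 = Q.1 →
        mapPt (σ : Qb →+* Qb) (hfix σ hσ hs) (M P).1 = (M Q).1)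
    (hns : ∀ k : ℤ, ∃ P : primary W p, p • P = 0 ∧ M P ≠ k • P)
    (hD : IsSquare ((B ^ 2 - 4 * N : ℤ) : ℚ_[p])) :
    ∃ R : (redCurve A W.toAffine hI).toAffine.Point, R ≠ 0 ∧ p • R = 0 := by
  by_contra hc
  have hss : ∀ R : (redCurve A W.toAffine hI).toAffine.Point, p • R = 0 → R = 0 :=
    fun R hR => by_contra fun h0 => hc ⟨R, h0, hR⟩
  have hodd : Odd p := hp.out.odd_of_ne_two (by omega)
  have hpA : A.valuation (p : Qb) < 1 := A.mem_nonunits_iff.mp hA
  have hpL : (p : Qb) ≠ 0 := Nat.cast_ne_zero.2 hp.out.ne_zero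
  have hv0 : 0 < A.valuation (p : Qb) := A.valuation.pos_iff.2 hpL
  have hbig : ∀ P ∈ primary W p, P ≠ 0 → 1 < A.valuation (xc P) := fun P hP hP0 => by
    have h := red_primary_eq_zero hI hΔ hss hP
    obtain ⟨x, y, hxy, rfl⟩ := exists_some_of_ne_zero hP0
    rw [redHom_apply, redFun_eq_zero_iff, e1_some] at h
    rwa [xc_some]
  -- the points of order `p`
  let K : Set (primary W p) := {P | p • P = 0}
  have hKcard : Nat.card K = p ^ 2 := by
    rw [← natCard_nsmul_eq_zero W hpL]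
    exact Nat.card_congr
      { toFun := fun P => ⟨P.1.1, by
          have h : p • P.1 = 0 := P.2
          rw [← AddSubgroup.coe_nsmul, h]; rfl⟩
        invFun := fun P => ⟨⟨P.1, 1, by rw [pow_one]; exact P.2⟩, Subtype.ext P.2⟩
        left_inv := fun P => rfl
        right_inv := fun P => rfl }
  haveI : Finite K := Nat.finite_of_card_ne_zero (hKcard.trans_ne (pow_ne_zero _ hp.out.ne_zero))
  have hKfin : K.Finite := Set.toFinite _
  obtain ⟨Pz, -, hZ⟩ := hKfin.toFinset.exists_max_image (fun P => A.valuation (xc P.1))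
    ⟨0, hKfin.mem_toFinset.2 (nsmul_zero _)⟩
  obtain ⟨m, hm⟩ := exists_le_inv_pow hA (xc Pz.1)
  obtain ⟨c, hc1, hstep⟩ := exists_kernel_step hI hp5 hA hss
  obtain ⟨n₀, hn₀⟩ := exists_pow_le_pow hA hc1 m
  obtain ⟨R, hR, horb⟩ := exists_pow_eq_zpow_orbit hA s
  obtain ⟨t, ht⟩ : ∃ t, R * m < p ^ t := ⟨R * m, Nat.lt_pow_self hp.out.one_lt⟩
  set L := 2 * n₀ + t + 1 with hL
  -- a point of order `p ^ (L + 1)` killed by `M - k`
  obtain ⟨k, k', hs1, hs2⟩ := exists_roots_mod hodd hD (L + 1)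
  obtain ⟨P₁, hP₁, hP₁k⟩ := hns k'
  obtain ⟨S, hS⟩ : ∃ S, p ^ L • S = P₁.1 := by
    have : ∀ l, ∃ S, p ^ l • S = P₁.1 := by
      intro l
      induction l with
      | zero => exact ⟨P₁.1, by rw [pow_zero, one_smul]⟩
      | succ l ih =>
        obtain ⟨S, hS⟩ := ih
        obtain ⟨T, hT⟩ := exists_nsmul_eq (p := p) S
        exact ⟨T, by rw [pow_succ, mul_smul, hT, hS]⟩
    exact this L
  have hS1 : p ^ (L + 1) • S = 0 := by
    rw [pow_succ', mul_smul, hS, ← AddSubgroup.coe_nsmul, hP₁]; rfl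
  set P : primary W p := ⟨S, L + 1, hS1⟩
  have hPL : p ^ L • P = P₁ := Subtype.ext (by rw [AddSubgroup.coe_nsmul]; exact hS)
  have hP0 : p ^ (L + 1) • P = 0 := by rw [pow_succ', mul_smul, hPL, hP₁]
  set f : primary W p →+ primary W p := M - k • AddMonoidHom.id (primary W p) with hf
  have hfa : ∀ X, f X = M X - k • X := fun X => rfl
  set Q : primary W p := M P - k' • P
  have hQ1 : p ^ (L + 1) • Q = 0 := by
    rw [smul_sub, ← map_nsmul, smul_comm, hP0, map_zero, zsmul_zero, sub_zero]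
  have hQ0 : p ^ L • Q ≠ 0 := by
    rw [smul_sub, ← map_nsmul, smul_comm, hPL, sub_ne_zero]; exact hP₁k
  have hkill : ∀ (a : ℤ) (X : primary W p), p ^ (L + 1) • X = 0 → (p : ℤ) ^ (L + 1) ∣ a →
      a • X = 0 := fun a X hX ha => by
    obtain ⟨b, rfl⟩ := ha
    rw [mul_comm, mul_smul, ← Nat.cast_pow, natCast_zsmul, hX, zsmul_zero]
  have hfQ : f Q = 0 := by
    have h1 := hkill _ (M P) (by rw [← map_nsmul, hP0, map_zero]) hs1
    have h2 := hkill _ P hP0 hs2
    have h3 := hMM P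
    rw [hfa, map_sub, map_zsmul]
    calc M (M P) - k' • M P - k • (M P - k' • P)
        = (M (M P) + B • M P + N • P) - (k + k' + B) • M P + (k * k' - N) • P := by module
      _ = 0 := by rw [h1, h2, h3]; simp
  haveI : Finite ((nsmulAddMonoidHom p : primary W p →+ primary W p).ker ⊓ f.ker :
      AddSubgroup (primary W p)) := (hKfin.subset fun X hX => hX.1).to_subtype
  have hcard : Nat.card ((nsmulAddMonoidHom p : primary W p →+ primary W p).ker ⊓ f.ker :
      AddSubgroup (primary W p)) < p ^ 2 := by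
    obtain ⟨X, hX, hXk⟩ := hns k
    rw [← hKcard]
    calc Nat.card ((nsmulAddMonoidHom p : primary W p →+ primary W p).ker ⊓ f.ker :
          AddSubgroup (primary W p))
        = (((nsmulAddMonoidHom p : primary W p →+ primary W p).ker ⊓ f.ker :
          AddSubgroup (primary W p)) : Set (primary W p)).ncard := Nat.card_coe_set_eq _
      _ < K.ncard := Set.ncard_lt_ncard ⟨fun Y hY => hY.1,
          fun h => hXk (sub_eq_zero.1 ((hfa X).symm.trans (h hX).2))⟩ hKfin
      _ = Nat.card K := (Nat.card_coe_set_eq _).symm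
  -- its abscissa has few images
  have hne : ∀ i, i ≤ L → p ^ i • Q ≠ 0 := fun i hi e => by
    obtain ⟨d, hd⟩ := Nat.exists_eq_add_of_le hi
    exact hQ0 (by rw [hd, pow_add, mul_comm, mul_smul, e, nsmul_zero])
  have hQne : Q ≠ 0 := fun e => hQ0 (by rw [e, nsmul_zero])
  have hQ1' : Q.1 ≠ 0 := fun e => hQne (Subtype.ext e)
  have hx0 : xc Q.1 ≠ 0 := fun e => by
    have := hbig _ Q.2 hQ1'
    rw [e, map_zero] at this
    exact not_lt.2 zero_le this
  obtain ⟨e, j, he, heR, hej⟩ := horb (xc Q.1) hx0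
    ((Finset.range (p ^ (L + 1))).image fun i => xc (i • Q).1) fun σ hσ hs' => by
    set T := mapPt (σ : Qb →+* Qb) (hfix σ hσ hs') with hT
    have hTQ : T Q.1 ∈ primary W p := ⟨L + 1, by
      rw [← map_nsmul, ← AddSubgroup.coe_nsmul, hQ1]; exact map_zero T⟩
    set Q' : primary W p := ⟨T Q.1, hTQ⟩
    have hQ'1 : p ^ (L + 1) • Q' = 0 := Subtype.ext (by
      show p ^ (L + 1) • T Q.1 = 0
      rw [← map_nsmul, ← AddSubgroup.coe_nsmul, hQ1]; exact map_zero T)
    have hQ'f : f Q' = 0 := by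
      rw [hfa, sub_eq_zero]
      refine Subtype.ext ?_
      rw [hfa, sub_eq_zero] at hfQ
      rw [← hcomm σ hσ hs' Q Q' rfl, hfQ, AddSubgroup.coe_zsmul, map_zsmul, AddSubgroup.coe_zsmul]
    obtain ⟨l, hl⟩ := AddSubgroup.mem_zmultiples_iff.1
      (ker_cyclic hp.out f hcard L hQ1 hQ0 hfQ hQ'1 hQ'f)
    have hpL1 : (0 : ℤ) < (p ^ (L + 1) : ℕ) := by exact_mod_cast pow_pos hp.out.pos _
    refine Finset.mem_image.2 ⟨(l % (p ^ (L + 1) : ℕ)).toNat, Finset.mem_range.2 ?_, ?_⟩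
    · have := Int.emod_lt_of_pos l hpL1
      have := Int.emod_nonneg l hpL1.ne'
      omega
    · have hlQ : (l % (p ^ (L + 1) : ℕ)).toNat • Q = Q' := by
        rw [← natCast_zsmul, Int.toNat_of_nonneg (Int.emod_nonneg l hpL1.ne'), Int.emod_def,
          sub_smul, mul_comm, mul_smul, natCast_zsmul, hQ1, zsmul_zero, sub_zero, hl]
      rw [hlQ]
      show xc (T Q.1) = _
      obtain ⟨x, y, hxy, hQe⟩ := exists_some_of_ne_zero hQ1'
      rw [hQe, xc_some]
      rfl
  -- against the growth of the values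
  set Z := A.valuation (xc Pz.1)
  set v := A.valuation
  let b : ℕ → _ := fun l => v (xc (p ^ (L - l) • Q).1)
  have hb1 : ∀ l, 1 < b l := fun l => hbig _ (p ^ (L - l) • Q).2
    fun e' => hne (L - l) (Nat.sub_le _ _) (Subtype.ext e')
  have hb0 : b 0 ≤ Z := hZ _ (hKfin.mem_toFinset.2 (by
    show p • p ^ (L - 0) • Q = 0
    rw [Nat.sub_zero, ← mul_smul, ← pow_succ', hQ1]))
  obtain ⟨e', f', hef, hbe⟩ := exists_pow_le hc1.le (pow_pos hp.out.pos 2) b hb0 (L := L)
    (fun l hl => by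
      have he1 : p ^ (L - l) • Q = p • p ^ (L - (l + 1)) • Q := by
        rw [← mul_smul, ← pow_succ', show L - (l + 1) + 1 = L - l by omega]
      have hh := hstep (p ^ (L - (l + 1)) • Q).1 (hb1 (l + 1)) (fun e2 => hne (L - l) (by omega)
        (by rw [he1]; exact Subtype.ext e2))
      have e3 : b l = v (xc (p • (p ^ (L - (l + 1)) • Q).1)) := by
        show v (xc (p ^ (L - l) • Q).1) = _
        rw [he1, AddSubgroup.coe_nsmul]
      rw [e3]; exact hh) L le_rfl
  set a := v (xc Q.1) with ha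
  have hbL : b L = a := by
    show v (xc (p ^ (L - L) • Q).1) = a
    rw [Nat.sub_self, pow_zero, one_smul]
  rw [hbL] at hbe
  have ha1 : 1 < a := hbig _ Q.2 hQ1'
  have hf' : f' < n₀ := by
    by_contra hlt
    refine absurd (hbe.trans ?_) (not_le.2 (one_lt_pow₀ ha1 (pow_ne_zero _ (pow_ne_zero _
      hp.out.ne_zero))))
    calc v c ^ f' * Z ≤ v (p : Qb) ^ m * (v (p : Qb))⁻¹ ^ m :=
          mul_le_mul' ((pow_le_pow_of_le_one zero_le hc1.le (not_lt.1 hlt)).trans hn₀) hm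
      _ = 1 := by rw [← mul_pow, mul_inv_cancel₀ hv0.ne', one_pow]
  have hje : (v (p : Qb))⁻¹ ≤ a ^ e := by
    rw [hej, ← zpow_neg_one]
    refine zpow_right_anti₀ hv0 hpA.le ?_
    by_contra hj
    have h := one_lt_pow₀ ha1 he.ne'
    rw [hej] at h
    exact absurd h (not_lt.2 (zpow_le_one₀ hv0 hpA.le (by omega)))
  have hle : a ^ (p ^ 2) ^ e' ≤ a ^ (e * m) :=
    calc a ^ (p ^ 2) ^ e' ≤ v c ^ f' * Z := hbe
      _ ≤ Z := mul_le_of_le_one_left' (pow_le_one₀ zero_le hc1.le)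
      _ ≤ (v (p : Qb))⁻¹ ^ m := hm
      _ ≤ (a ^ e) ^ m := pow_le_pow_left₀ zero_le hje m
      _ = a ^ (e * m) := (pow_mul _ _ _).symm
  have hnat := (pow_le_pow_iff_right₀ ha1).1 hle
  have hcT := (heR.trans (Nat.mul_le_mul le_rfl (Finset.card_image_le.trans_eq
    (Finset.card_range _))))
  have : (p ^ 2) ^ e' < p ^ (L + 1 + t) := by
    calc (p ^ 2) ^ e' ≤ e * m := hnat
      _ ≤ R * p ^ (L + 1) * m := Nat.mul_le_mul hcT le_rfl
      _ = p ^ (L + 1) * (R * m) := by ring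
      _ < p ^ (L + 1) * p ^ t := Nat.mul_lt_mul_of_pos_left ht (pow_pos hp.out.pos _)
      _ = p ^ (L + 1 + t) := (pow_add _ _ _).symm
  rw [← pow_mul] at this
  have := (Nat.pow_lt_pow_iff_right hp.out.one_lt).1 this
  omega

variable {k : Type*} [Field k] [Algebra (ZMod p) k] [IsAlgClosure (ZMod p) k]

/-- **The reduction of a singular modulus at a split prime has a point of order `p`.** -/
theorem exists_pTorsion (hp5 : 5 ≤ p) {D : ℤ} (hs : IsSquare ((D : ℤ) : ℚ_[p])) {H : ℤ[X]}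
    (hH : H.Monic)
    (hroots : ∀ z : ℂ, aeval z H = 0 → ∃ (a b c : ℤ) (τ : ℍ), 0 < a ∧ b ^ 2 - 4 * a * c = D ∧
      Int.gcd (Int.gcd a b) c = 1 ∧ (a : ℂ) * (τ : ℂ) ^ 2 + b * (τ : ℂ) + c = 0 ∧ jfun τ = z)
    (W₀ : WeierstrassCurve k) [W₀.IsElliptic]
    (hr : (H.map (Int.castRingHom k)).IsRoot W₀.j) :
    ∃ P : W₀.toAffine.Point, P ≠ 0 ∧ p • P = 0 := by
  by_contra hcon
  have hss₀ : ∀ P : W₀.toAffine.Point, p • P = 0 → P = 0 :=
    fun P hP => by_contra fun h => hcon ⟨P, h, hP⟩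
  obtain ⟨A, hA⟩ := FA.Deform.exists_liesOverPrime hp.out
  haveI := residueField_charP A hp.out hA
  haveI : IsAlgClosed (Res A) := residueField_isAlgClosed A
  letI : Algebra (ZMod p) (Res A) := ZMod.algebra _ p
  haveI : Algebra.IsAlgebraic (ZMod p) k := IsAlgClosure.isAlgebraic
  haveI : IsAlgClosed k := IsAlgClosure.isAlgClosed (ZMod p)
  haveI : CharP k p := charP_of_injective_algebraMap (algebraMap (ZMod p) k).injective p
  let φ : k →+* Res A := (IsAlgClosed.lift : k →ₐ[ZMod p] Res A).toRingHom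
  obtain ⟨z, hzr, hz⟩ := exists_root_lift (A := A) hH (r := φ W₀.j) (by
    rw [show Int.castRingHom (Res A) = φ.comp (Int.castRingHom k) from RingHom.ext_int _ _,
      ← Polynomial.map_map]
    exact hr.map)
  obtain ⟨t, hE, hjz, hI, hΔ⟩ := exists_model hp5 hA z
  haveI := hE
  haveI := redCurve_isElliptic hI hΔ
  let ι : Qb →+* ℂ := (IsAlgClosed.lift : Qb →ₐ[ℚ] ℂ).toRingHom
  obtain ⟨a, b, c, τ, ha, hD, hg, hτ, hjf⟩ := hroots (ι z) (by
    rw [aeval_def, ← RingHom.ext_int (ι.comp (algebraMap ℤ Qb)) (algebraMap ℤ ℂ), ← hom_eval₂,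
      ← aeval_def, hz, map_zero])
  obtain ⟨s, hs', M, hMM, hcomm, hns⟩ := exists_multiplier p ι (shortLegendre t) rfl
    (τ := τ) (A₀ := a) (B := b) (C₀ := c) ⟨ha, hg, hτ⟩ (by rw [hjz, hjf])
  obtain ⟨R, hR0, hR⟩ := pTorsion_residue_ne_zero (W := shortLegendre t) hI hΔ hp5 hA s
    (fun σ _ h => hs' σ h) M hMM (fun σ _ h => hcomm σ h) hns (by rwa [← mul_assoc, hD])
  -- the same invariant over the residue field
  haveI : (intModel A (shortLegendre t).toAffine hI).IsElliptic := ⟨by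
    rw [← valuation_eq_one_iff]
    show A.valuation (A.subtype (intModel A (shortLegendre t).toAffine hI).Δ) = 1
    rw [← WeierstrassCurve.map_Δ, intModel_map]
    exact hΔ⟩
  set W₁ := intModel A (shortLegendre t).toAffine hI with hW₁
  have hj₁ : W₁.j = z := by
    refine Subtype.ext ?_
    show A.subtype W₁.j = (z : Qb)
    rw [← WeierstrassCurve.map_j, ← hjz]
    exact congrArg _ rfl
  have hjred : (redCurve A (shortLegendre t).toAffine hI).j = (W₀.map φ).j := by
    rw [WeierstrassCurve.map_j, ← hzr, ← hj₁]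
    exact WeierstrassCurve.map_j W₁ (IsLocalRing.residue A)
  obtain ⟨C, hC⟩ := exists_variableChange_of_j_eq (E := W₀.map φ)
    (E' := redCurve A (shortLegendre t).toAffine hI) hjred.symm
  obtain ⟨c₀, hc₀, hΨ⟩ := FA.SupersingularField.exists_psiSq_eq_C (W := W₀) hp5 hss₀
  refine hR0 ((vcEquiv C hC).injective ?_)
  rw [map_zero]
  by_contra h0
  obtain ⟨x, y, hxy, he⟩ := exists_some_of_ne_zero h0
  have h1 : p • (Affine.Point.some x y hxy : (W₀.map φ).toAffine.Point) = 0 := by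
    rw [← he, ← map_nsmul, hR, map_zero]
  rw [FA.EC.nsmul_eq_zero_iff, map_ΨSq, hΨ, Polynomial.map_C, eval_C] at h1
  exact hc₀ (φ.injective (h1.trans (map_zero φ).symm))

end FA.CMReduction

end
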