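import Fermat.Agent.Tau.HurwitzRelation
import Fermat.Agent.Tau.ModularSymmetry

/-!
# The roots of `Φ_p(X, X)` modulo `p`

By Kronecker's congruence `Φ_p(X, X) ≡ -(X ^ p - X) ^ 2`. Hence the invariants of the forms of the
discriminants `t² - 4 p` reduce into `𝔽_p`, and over each `r` their weights add up to `2`.
-/

set_option autoImplicit false
set_option linter.style.haveILetI false
set_option linter.unusedSectionVars false

noncomputable section

open UpperHalfPlane hiding I
open Polynomial
open scoped Classical

namespace FA.ClassTrace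

open FA.ModField FA.ModPoly FA.ClassRelation FA.Kronecker FA.Singular

variable (p : ℕ) [hp : Fact p.Prime]

/-- `Φ_p(X, X)` over the prime field. -/
theorem diag_mod_p [NeZero p] [Fintype (FA.Dim.Cos p)] :
    ((phi p).eval Polynomial.X).map (Int.castRingHom (ZMod p)) =
      -((X : (ZMod p)[X]) ^ p - X) ^ 2 := by
  have h := congrArg (Polynomial.eval (X : (ZMod p)[X])) (phi_mod_p p)
  rw [Polynomial.eval_map, ← Polynomial.coe_mapRingHom] at *
  rw [← Polynomial.eval₂_at_apply, Polynomial.coe_mapRingHom, map_X]
  rw [h]
  simp only [eval_mul, eval_sub, eval_X, eval_C, eval_pow]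
  ring

variable [Fintype (FA.Dim.Cos p)]

theorem isIntegral_of_root {x : ℂ} (hx : x ∈ (diagC p).roots) : IsIntegral ℤ x := by
  obtain ⟨⟨a, b, c⟩, τ, hf, hr, rfl⟩ := exists_red_of_root p (Multiset.mem_toFinset.2 hx)
  exact FA.SingularIntegral.isIntegral_jfun (disc_neg_of_isRoot (f := (a, b, c)) hf.2.2.1.ne' hr) hr

/-- **Reduction of the trace forms**: every form gets an invariant in `𝔽_p`, satisfying the
equations of the singular modulus, and over each invariant the weights add up to `2`. -/
theorem exists_reduction :
    ∃ red : (Σ _ : ℤ, ℤ × ℤ × ℤ) → ZMod p,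
      (∀ r, ∑ q ∈ (traceForms p).filter (fun q => red q = r), weight q.2 = 2) ∧
      (∀ q ∈ traceForms p, ∀ q' ∈ traceForms p, q.2 = q'.2 → red q = red q') ∧
      ∀ q ∈ traceForms p, ∀ P : ℤ[X], aeval (jfun (rootOf q.2)) P = 0 →
        (P.map (Int.castRingHom (ZMod p))).IsRoot (red q) := by
  haveI : NeZero p := ⟨hp.out.ne_zero⟩
  obtain ⟨m, hm, hpm⟩ := FA.Singular.exists_maximal_over hp.out
  let := Ideal.Quotient.field m
  set π := Ideal.Quotient.mk m with hπ
  haveI : CharP (AlgInt ⧸ m) p := by
    refine (CharP.charP_iff_prime_eq_zero hp.out).mpr ?_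
    rw [← map_natCast π, hπ, Ideal.Quotient.eq_zero_iff_mem]
    simpa using hpm
  set φ := ZMod.castHom (dvd_refl p) (AlgInt ⧸ m)
  let ρ : ℂ → AlgInt ⧸ m := fun x => if h : IsIntegral ℤ x then π ⟨x, h⟩ else 0
  -- the roots modulo the maximal ideal
  set P := (phi p).eval (X : ℤ[X]) with hP
  set R : Multiset AlgInt := (diagC p).roots.attach.map fun x => ⟨x.1, isIntegral_of_root p x.2⟩
    with hR
  have hRincl : R.map incl = (diagC p).roots := by
    rw [hR, Multiset.map_map]
    exact Multiset.attach_map_val _
  have hfac : P.map (Int.castRingHom AlgInt) =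
      C (P.leadingCoeff : AlgInt) * (R.map fun x => X - C x).prod := by
    refine Polynomial.map_injective incl Subtype.val_injective ?_
    rw [Polynomial.map_map, show incl.comp (Int.castRingHom AlgInt) = Int.castRingHom ℂ from
      Subsingleton.elim _ _, Polynomial.map_mul, Polynomial.map_C, map_intCast,
      Polynomial.map_multiset_prod, Multiset.map_map]
    conv_lhs => rw [show P.map (Int.castRingHom ℂ) = diagC p from rfl,
      (IsAlgClosed.splits (diagC p)).eq_prod_roots]
    congr 2
    · exact leadingCoeff_map_of_injective (f := Int.castRingHom ℂ) Int.cast_injective P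
    · rw [← hRincl, Multiset.map_map]
      exact Multiset.map_congr rfl fun x _ => by simp
  have hsplit : (X : (ZMod p)[X]) ^ p - X = ∏ a : ZMod p, (X - C a) := by
    have hroots := FiniteField.roots_X_pow_card_sub_X (ZMod p)
    rw [ZMod.card] at hroots
    have hd : ((X : (ZMod p)[X]) ^ p - X).natDegree = p :=
      FiniteField.X_pow_card_sub_X_natDegree_eq _ hp.out.one_lt
    conv_lhs => rw [← prod_multiset_X_sub_C_of_monic_of_roots_card_eq
      (monic_X_pow_sub (by rw [degree_X]; exact_mod_cast hp.out.one_lt))
      (by rw [hroots, hd]; simp)]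
    rw [hroots]
    rfl
  have hroots : R.map π = (Finset.univ.val.map φ) + (Finset.univ.val.map φ) := by
    have h1 : P.map (Int.castRingHom (AlgInt ⧸ m)) =
        C ((P.leadingCoeff : ℤ) : AlgInt ⧸ m) * ((R.map π).map fun x => X - C x).prod := by
      have h := congrArg (Polynomial.map π) hfac
      rw [Polynomial.map_map, show π.comp (Int.castRingHom AlgInt) = Int.castRingHom _ from
        Subsingleton.elim _ _, Polynomial.map_mul, Polynomial.map_C, map_intCast,
        Polynomial.map_multiset_prod, Multiset.map_map] at h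
      rw [h]
      congr 2
      simp only [hR, Multiset.map_map]
      exact Multiset.map_congr rfl fun x _ => by simp
    have h2 : P.map (Int.castRingHom (AlgInt ⧸ m)) =
        C (-1 : AlgInt ⧸ m) *
          (((Finset.univ.val.map φ) + (Finset.univ.val.map φ)).map fun x => X - C x).prod := by
      rw [show Int.castRingHom (AlgInt ⧸ m) = φ.comp (Int.castRingHom (ZMod p)) from
        Subsingleton.elim _ _, ← Polynomial.map_map, diag_mod_p, hsplit, Polynomial.map_neg,
        Polynomial.map_pow, Polynomial.map_prod, sq, Multiset.map_add, Multiset.prod_add,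
        Multiset.map_map, map_neg, map_one, neg_one_mul]
      simp only [Polynomial.map_sub, Polynomial.map_X, Polynomial.map_C]
      rfl
    have hc : ((P.leadingCoeff : ℤ) : AlgInt ⧸ m) ≠ 0 := fun h0 => by
      rw [h0, C_0, zero_mul] at h1
      rw [h1] at h2
      exact (mul_ne_zero (C_ne_zero.2 (neg_ne_zero.2 one_ne_zero))
        (monic_multiset_prod_of_monic _ _ fun x _ => monic_X_sub_C x).ne_zero) h2.symm
    have e := congrArg Polynomial.roots (h1.symm.trans h2)
    rwa [roots_C_mul _ hc, roots_C_mul _ (neg_ne_zero.2 one_ne_zero),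
      roots_multiset_prod_X_sub_C, roots_multiset_prod_X_sub_C] at e
  have hρ : (diagC p).roots.map ρ = (Finset.univ.val.map φ) + (Finset.univ.val.map φ) := by
    rw [← hroots, ← hRincl, Multiset.map_map]
    exact Multiset.map_congr rfl fun x _ => dif_pos x.2
  have hex : ∀ q ∈ traceForms p, ∃ r, φ r = ρ (jfun (rootOf q.2)) := fun q hq => by
    have h := Multiset.mem_map_of_mem ρ (Multiset.mem_toFinset.1 (val_mem_roots p q hq))
    rw [hρ, Multiset.mem_add, or_self, Multiset.mem_map] at h
    exact ⟨_, h.choose_spec.2⟩
  let red : (Σ _ : ℤ, ℤ × ℤ × ℤ) → ZMod p := fun q =>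
    if h : q ∈ traceForms p then (hex q h).choose else 0
  have hred : ∀ q ∈ traceForms p, φ (red q) = ρ (jfun (rootOf q.2)) := fun q hq => by
    simp only [red, dif_pos hq]
    exact (hex q hq).choose_spec
  refine ⟨red, fun r => ?_, fun q hq q' hq' e => φ.injective (by rw [hred q hq, hred q' hq', e]),
    fun q hq F hF => ?_⟩
  · set S := (diagC p).roots.toFinset.filter fun x => ρ x = φ r with hS
    have hfil : (traceForms p).filter (fun q => red q = r) =
        (traceForms p).filter (fun q => jfun (rootOf q.2) ∈ S) :=
      Finset.filter_congr fun q hq => by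
        rw [hS, Finset.mem_filter, ← hred q hq, φ.injective.eq_iff,
          and_iff_right (val_mem_roots p q hq)]
    rw [hfil, ← Finset.sum_fiberwise_of_maps_to
      (g := fun q : (Σ _ : ℤ, ℤ × ℤ × ℤ) => jfun (rootOf q.2)) (t := S)
      fun q hq => (Finset.mem_filter.1 hq).2]
    have hfib : ∀ x ∈ S, ∑ q ∈ ((traceForms p).filter fun q => jfun (rootOf q.2) ∈ S).filter
        (fun q => jfun (rootOf q.2) = x), weight q.2 = ((diagC p).rootMultiplicity x : ℚ) :=
      fun x hx => by
        rw [← sum_fibre p (Finset.mem_filter.1 hx).1, Finset.filter_filter]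
        exact Finset.sum_congr (Finset.filter_congr fun q _ =>
          ⟨fun h => h.2, fun h => ⟨h ▸ hx, h⟩⟩) fun q _ => rfl
    rw [Finset.sum_congr rfl hfib, ← Nat.cast_sum]
    have hcount : ∑ x ∈ S, (diagC p).rootMultiplicity x =
        Multiset.countP (fun x => ρ x = φ r) (diagC p).roots := by
      rw [Multiset.countP_eq_card_filter, ← Multiset.toFinset_sum_count_eq,
        Multiset.toFinset_filter]
      refine Finset.sum_congr rfl fun x hx => ?_
      rw [Multiset.count_filter_of_pos (p := fun x => ρ x = φ r) (Finset.mem_filter.1 hx).2,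
        count_roots]
    have h2 : Multiset.countP (fun x => ρ x = φ r) (diagC p).roots = 2 := by
      have h := congrArg (Multiset.count (φ r)) hρ
      rw [Multiset.count_add, Multiset.count_map_eq_count' _ _ φ.injective, Multiset.count_map,
        Multiset.count_univ] at h
      rw [Multiset.countP_eq_card_filter]
      simp only [eq_comm (a := φ r)] at h
      exact h
    rw [hcount, h2, Nat.cast_ofNat]
  · have hint := isIntegral_of_root p (Multiset.mem_toFinset.1 (val_mem_roots p q hq))
    refine Polynomial.IsRoot.of_map (f := φ) ?_ φ.injective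
    rw [Polynomial.map_map, RingHom.ext_int (φ.comp (Int.castRingHom (ZMod p)))
      (π.comp (Int.castRingHom AlgInt)), IsRoot.def, eval_map, hred q hq,
      show ρ (jfun (rootOf q.2)) = π ⟨_, hint⟩ from dif_pos hint, ← hom_eval₂]
    refine (congrArg π (Subtype.ext ?_)).trans (map_zero π)
    show incl (eval₂ (Int.castRingHom AlgInt) _ F) = 0
    rw [hom_eval₂, show incl.comp (Int.castRingHom AlgInt) = algebraMap ℤ ℂ
      from RingHom.ext_int _ _, ← aeval_def]
    exact hF

end FA.ClassTrace

end
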