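import Fermat.Agent.Supersingular.RueckAction
import Fermat.Agent.Root.SummarySupersingularGroups
import Fermat.Agent.ReducedGroups.SplitLevel

/-!
# Rück: the groups of points over prime fields

For `d ∣ e` with `d ∣ p - 1` and `a = p + 1 - d e` in Hasse's interval the discriminant
`D = (a² - 4 p) / d²` has a class polynomial with a root in `𝔽_p`. The curve with that invariant and
trace `a` has group `ℤ/d × ℤ/e`; where the twists do not reach trace `a` the discriminant is `-4` or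
`-3`.
-/

set_option autoImplicit false
set_option linter.style.haveILetI false
set_option linter.unusedSectionVars false

noncomputable section

open WeierstrassCurve Polynomial
open scoped Classical UpperHalfPlane

namespace FA.Rueck

open FA.BirchMoment FA.DeuringExistence

variable {p : ℕ} [hp : Fact p.Prime]

/-- The levels of full rational torsion determine the group. -/
theorem equiv_of_levels (h5 : 5 ≤ p) (V : WeierstrassCurve (ZMod p)) [V.IsElliptic] {d e : ℕ}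
    (hpd : ¬ p ∣ d) (hN : Nat.card V.toAffine.Point = d * e)
    (h : ∀ l : ℕ, l.Prime → l ≠ p → ∀ j : ℕ,
      (Nat.card {P : V.toAffine.Point // l ^ j • P = 0} = (l ^ j) ^ 2 ↔ l ^ j ∣ d)) :
    Nonempty (V.toAffine.Point ≃+ ZMod d × ZMod e) := by
  obtain ⟨d', hde, hcard, h1, -, ⟨φ⟩⟩ := FA.ReducedGroups.exists_equiv_zmod (by omega) V
  set e' := AddMonoid.exponent V.toAffine.Point
  haveI : NeZero e' := ⟨AddMonoid.exponent_ne_zero_of_finite⟩
  have hpd' : ¬ p ∣ d' := fun h' => by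
    have := Nat.le_of_dvd (by omega) (h'.trans h1)
    omega
  haveI : NeZero d' := ⟨fun e0 => hpd' (e0 ▸ dvd_zero p)⟩
  have key : ∀ l j : ℕ, l.Prime → (l ^ j ∣ d ↔ l ^ j ∣ d') := fun l j hl => by
    rcases Nat.eq_zero_or_pos j with rfl | hj
    · simp
    rcases eq_or_ne l p with rfl | hlp
    · exact iff_of_false (fun h' => hpd (dvd_trans (dvd_pow_self _ hj.ne') h'))
        fun h' => hpd' (dvd_trans (dvd_pow_self _ hj.ne') h')
    rw [← h l hl hlp j, FA.ReducedGroups.natCard_nsmul_eq_sq_iff φ hde (pow_pos hl.pos j)]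
  obtain rfl : d' = d := Nat.dvd_antisymm
    ((Nat.dvd_iff_prime_pow_dvd_dvd _ _).2 fun l j hl => (key l j hl).2)
    ((Nat.dvd_iff_prime_pow_dvd_dvd _ _).2 fun l j hl => (key l j hl).1)
  rw [hN] at hcard
  rw [← Nat.eq_of_mul_eq_mul_left (Nat.pos_of_ne_zero (NeZero.ne d')) hcard]
  exact ⟨φ⟩

/-! ### The exceptional discriminants -/

/-- A square dividing `4 p` is that of a divisor of `2`. -/
theorem dvd_two_of_sq_dvd (h5 : 5 ≤ p) {g : ℤ} (h : g ^ 2 ∣ 4 * (p : ℤ)) : g ∣ 2 := by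
  have hpz : Prime (p : ℤ) := Nat.prime_iff_prime_int.1 hp.out
  have hco : IsCoprime g (p : ℤ) := by
    refine (hpz.coprime_iff_not_dvd.2 fun hg => ?_).symm
    obtain ⟨c, rfl⟩ := hg
    obtain ⟨u, hu⟩ := h
    have h4 : (p : ℤ) ∣ 4 := ⟨c ^ 2 * u, mul_left_cancel₀ hpz.ne_zero (by linear_combination hu)⟩
    have := Int.le_of_dvd (by norm_num) h4
    omega
  have h4 : g ^ 2 ∣ (2 : ℤ) ^ 2 := by
    rw [show (2 : ℤ) ^ 2 = 4 by norm_num]
    exact hco.pow_left.dvd_of_dvd_mul_right h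
  exact (Int.pow_dvd_pow_iff two_ne_zero).1 h4

/-- If a square discriminant class is met with the other trace it is that of `-4`. -/
theorem disc_eq_neg_four (h5 : 5 ≤ p) {a d t D f : ℤ} (hd0 : d ≠ 0)
    (hd : a ^ 2 - 4 * p = d ^ 2 * D) (hpar : 4 ∣ D - t ^ 2) (hf : 4 * (p : ℤ) - a ^ 2 = f * f)
    (hdvd : D ∣ f ^ 2 - 4 * p) : D = -4 := by
  obtain ⟨s, rfl⟩ : d ∣ f := (Int.pow_dvd_pow_iff two_ne_zero).1
    ⟨-D, by linear_combination -hf - hd⟩
  have hDs : D = -(s ^ 2) := mul_left_cancel₀ (pow_ne_zero 2 hd0) (by linear_combination -hd - hf)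
  have hsa : s ^ 2 ∣ a ^ 2 := by
    rw [hDs, neg_dvd, show (d * s) ^ 2 - 4 * (p : ℤ) = -a ^ 2 by linear_combination -hf,
      dvd_neg] at hdvd
    exact hdvd
  have hs2 : s ∣ 2 := dvd_two_of_sq_dvd h5 (by
    rw [show 4 * (p : ℤ) = a ^ 2 + d ^ 2 * s ^ 2 by linear_combination hf]
    exact dvd_add hsa (dvd_mul_left _ _))
  have h1 := Int.le_of_dvd two_pos hs2
  have h2 := Int.le_of_dvd two_pos (neg_dvd.2 hs2)
  obtain ⟨w, hw⟩ := hpar
  obtain ⟨u, hu⟩ := Int.even_or_odd' t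
  have h0 : s ≠ 0 := fun e => by simp [e] at hs2
  rcases (show s = -2 ∨ s = -1 ∨ s = 1 ∨ s = 2 by omega) with rfl | rfl | rfl | rfl <;>
    norm_num at hDs <;> subst hDs
  · rfl
  · rcases hu with rfl | rfl <;> ring_nf at hw <;> omega
  · rcases hu with rfl | rfl <;> ring_nf at hw <;> omega
  · rfl

/-- If three times a square class is met with a sixth trace it is that of `-3`. -/
theorem disc_eq_neg_three (h5 : 5 ≤ p) {a a' d D f : ℤ} (hd0 : d ≠ 0)
    (hd : a ^ 2 - 4 * p = d ^ 2 * D) (hf : 4 * (p : ℤ) - a ^ 2 = 3 * (f * f))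
    (ha' : 4 * a' ^ 2 = (a + 3 * f) ^ 2) (hdvd : D ∣ a' ^ 2 - 4 * p) : D = -3 := by
  have hdf : d ^ 2 ∣ 3 * f ^ 2 := ⟨-D, by linear_combination -hf - hd⟩
  obtain ⟨g, rfl⟩ : d ∣ f := by
    obtain ⟨w, d', f', hw, hco, rfl, rfl⟩ := Int.exists_gcd_one'
      (Int.gcd_pos_of_ne_zero_left f hd0)
    rw [mul_pow, mul_pow, ← mul_assoc, mul_dvd_mul_iff_right
      (pow_ne_zero 2 (Nat.cast_ne_zero.2 hw.ne'))] at hdf
    have h3 := (Int.isCoprime_iff_gcd_eq_one.mpr hco).pow.dvd_of_dvd_mul_right hdf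
    have h4 := Int.le_of_dvd three_pos h3
    have h0 : d' ≠ 0 := left_ne_zero_of_mul hd0
    rcases (show d' = -1 ∨ d' = 1 by
      have : -2 < d' := by nlinarith
      have : d' < 2 := by nlinarith
      omega) with rfl | rfl <;> simp
  have hDg : D = -3 * g ^ 2 :=
    mul_left_cancel₀ (pow_ne_zero 2 hd0) (by linear_combination -hd - hf)
  obtain ⟨v, hv⟩ := hdvd
  obtain ⟨c, hc⟩ : 2 * g ∣ a - d * g := (Int.pow_dvd_pow_iff two_ne_zero).1 ⟨v, by
    refine mul_left_cancel₀ (three_ne_zero (α := ℤ)) ?_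
    linear_combination (-4) * hv + ha' - 4 * hf - 4 * v * hDg⟩
  have hga : g ∣ a := ⟨2 * c + d, by linear_combination hc⟩
  have hg2 : g ∣ 2 := dvd_two_of_sq_dvd h5 (by
    rw [show 4 * (p : ℤ) = a ^ 2 + 3 * d ^ 2 * g ^ 2 by linear_combination hf]
    exact dvd_add (pow_dvd_pow_of_dvd hga 2) (dvd_mul_left _ _))
  have h1 := Int.le_of_dvd two_pos hg2
  have h2 := Int.le_of_dvd two_pos (neg_dvd.2 hg2)
  have h0 : g ≠ 0 := fun e => by simp [e] at hg2
  have hpodd : ¬ (2 : ℤ) ∣ p := fun h => by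
    have := (Nat.prime_dvd_prime_iff_eq Nat.prime_two hp.out).1 (by exact_mod_cast h)
    omega
  rcases (show g = -2 ∨ g = -1 ∨ g = 1 ∨ g = 2 by omega) with rfl | rfl | rfl | rfl
  · refine absurd ⟨2 * c ^ 2 + 2 * c * d + 2 * d ^ 2, ?_⟩ hpodd
    have ha : a = -4 * c - 2 * d := by linear_combination hc
    subst ha
    linarith [hf]
  · simpa using hDg
  · simpa using hDg
  · refine absurd ⟨2 * c ^ 2 + 2 * c * d + 2 * d ^ 2, ?_⟩ hpodd
    have ha : a = 4 * c + 2 * d := by linear_combination hc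
    subst ha
    linarith [hf]

/-- **The curve of trace `a` with multipliers of discriminant `(a² - 4 p) / d²`.** -/
theorem exists_root_trace (h5 : 5 ≤ p) {a d t n : ℤ} (hlt : a ^ 2 < 4 * p) (ha : ¬ (p : ℤ) ∣ a)
    (ht : a - 2 = d * t) (hn : (p : ℤ) + 1 - a = d ^ 2 * n) :
    ∃ (D : ℤ) (H : ℤ[X]) (A B r : ZMod p), D ≠ 0 ∧ a ^ 2 - 4 * (p : ℤ) = d ^ 2 * D ∧
      4 ∣ D - t ^ 2 ∧ H.Monic ∧
      (∀ z : ℂ, aeval z H = 0 → ∃ (a b c : ℤ) (τ : ℍ), 0 < a ∧ b ^ 2 - 4 * a * c = D ∧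
        Int.gcd (Int.gcd a b) c = 1 ∧ (a : ℂ) * (τ : ℂ) ^ 2 + b * (τ : ℂ) + c = 0 ∧
          FA.ModField.jfun τ = z) ∧
      4 * A ^ 3 + 27 * B ^ 2 ≠ 0 ∧ 1728 * (4 * A ^ 3) = r * (4 * A ^ 3 + 27 * B ^ 2) ∧
      (H.map (Int.castRingHom (ZMod p))).IsRoot r ∧ (shortMod A B).traceOfFrobenius = a := by
  have hpz : Prime (p : ℤ) := Nat.prime_iff_prime_int.1 hp.out
  set D : ℤ := t ^ 2 - 4 * n with hD
  have hd : a ^ 2 - 4 * (p : ℤ) = d ^ 2 * D := by
    rw [hD]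
    linear_combination (a - 2 + d * t) * ht - 4 * hn
  have hpar : 4 ∣ D - t ^ 2 := ⟨-n, by rw [hD]; ring⟩
  have hne : a ^ 2 - 4 * (p : ℤ) ≠ 0 := by omega
  have hd0 : d ≠ 0 := fun e => hne (by rw [hd, e]; ring)
  have hD0 : D ≠ 0 := fun e => hne (by rw [hd, e]; ring)
  have hpN : ¬ (p : ℤ) ∣ a ^ 2 - 4 * p := fun h => ha (hpz.dvd_of_dvd_pow (n := 2)
    (by simpa using dvd_add h (dvd_mul_left (p : ℤ) 4)))
  have hpD : ¬ (p : ℤ) ∣ D := fun h => hpN (hd ▸ dvd_mul_of_dvd_right h _)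
  have hpd : ¬ (p : ℤ) ∣ d := fun h => hpN (hd ▸ dvd_mul_of_dvd_left (dvd_pow h two_ne_zero) _)
  have hs : IsSquare (D : ℚ_[p]) := FA.CMField.isSquare_padic_of_zmod (by omega) hpD (by
    have hdz : (d : ZMod p) ≠ 0 := by rwa [Ne, ZMod.intCast_zmod_eq_zero_iff_dvd]
    refine ⟨(a : ZMod p) / d, ?_⟩
    have := congrArg (fun i : ℤ => (i : ZMod p)) hd
    push_cast at this
    rw [ZMod.natCast_self, mul_zero, sub_zero] at this
    field_simp
    linear_combination -this)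
  obtain ⟨H, hH, hroots, r, hroot⟩ := exists_root_of_represented (p := p) (D := D) (B := t) (C := n)
    (x := 1) (y := d) (by nlinarith [sq_nonneg d, sq_pos_of_ne_zero hd0]) hD.symm
    (by linear_combination ht + hn)
  obtain ⟨A, B, hAB, hr⟩ := exists_short_j h5 r
  haveI : (shortMod A B).IsElliptic := ⟨(shortMod_Δ_ne_zero h5 hAB).isUnit⟩
  obtain ⟨hlt', hsq⟩ := trace_rel h5 hs hD0 hH hroots hAB hr hroot
  set a' := (shortMod A B).traceOfFrobenius with ha'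
  have ha0 : a' ≠ 0 := fun e => by
    obtain ⟨z, hz⟩ := hsq
    rw [e] at hz
    obtain ⟨c, rfl⟩ : (p : ℤ) ∣ z := hpz.dvd_of_dvd_pow (n := 2) ⟨-4 * D, by linear_combination -hz⟩
    have h4 : (p : ℤ) ∣ 4 * D := ⟨-c ^ 2, mul_left_cancel₀ hpz.ne_zero (by linear_combination -hz)⟩
    refine ((hpz.dvd_or_dvd h4).resolve_right hpD |> fun h => ?_)
    have := Int.le_of_dvd (by norm_num) h
    omega
  have hdvd := disc_dvd h5 hH hroots (shortMod A B) (by rwa [shortMod_j h5 hAB hr])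
    (by rw [← ha']; exact not_dvd_of_sq_lt h5 hlt' ha0) hpD
  rw [← ha'] at hdvd
  have hsq' : IsSquare ((a ^ 2 - 4 * p) * (a' ^ 2 - 4 * (p : ℤ))) := by
    rw [hd, mul_assoc]
    exact (IsSquare.sq d).mul hsq
  rcases trace_cases h5 hlt hsq' with h | h | ⟨s, hs₀, h⟩
  · obtain ⟨A', B', hAB', hr', htr⟩ := exists_signed h5 hAB hr h
    exact ⟨D, H, A', B', r, hD0, hd, hpar, hH, hroots, hAB', hr', hroot, htr⟩
  · have hMf : 4 * (p : ℤ) - a ^ 2 = a' * a' := by rw [← sq, h]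
    have e := disc_eq_neg_four h5 hd0 hd hpar hMf hdvd
    obtain ⟨A', B', hAB', hr', htr⟩ := exists_quartic h5 hlt ha hMf
    exact ⟨D, X - C 1728, A', B', 1728, hD0, hd, hpar, monic_X_sub_C _,
      e ▸ FA.Summary.classPolynomial_three_four.2, hAB', hr', by simp, htr⟩
  · obtain ⟨f, rfl⟩ : (3 : ℤ) ∣ s := Int.prime_three.dvd_of_dvd_pow (n := 2) ⟨_, hs₀⟩
    have hf : 4 * (p : ℤ) - a ^ 2 = 3 * (f * f) :=
      mul_left_cancel₀ (three_ne_zero (α := ℤ)) (by linear_combination -hs₀)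
    have e : D = -3 := by
      rcases h with h | h
      · exact disc_eq_neg_three h5 hd0 hd hf h hdvd
      · exact disc_eq_neg_three (f := -f) h5 hd0 hd (by rw [neg_mul_neg, hf])
          (by rw [h, mul_neg, sub_eq_add_neg]) hdvd
    obtain ⟨A', B', hAB', hr', htr⟩ := exists_sextic h5 hlt ha hs₀
    exact ⟨D, X, A', B', 0, hD0, hd, hpar, monic_X,
      e ▸ FA.Summary.classPolynomial_three_four.1, hAB', hr', by simp, htr⟩

/-! ### The theorem -/

/-- A cyclic group as `ℤ/1 × ℤ/n`. -/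
theorem equiv_of_cyclic {G : Type*} [AddGroup G] (h : IsAddCyclic G) {n : ℕ}
    (hn : Nat.card G = n) : Nonempty (G ≃+ ZMod 1 × ZMod n) := by
  subst hn
  haveI : Unique (ZMod 1) := uniqueOfSubsingleton 0
  exact ⟨(zmodAddCyclicAddEquiv h).symm.trans AddEquiv.uniqueProd.symm⟩

theorem trace_eq_sub_card (V : WeierstrassCurve (ZMod p)) :
    V.traceOfFrobenius = (p : ℤ) + 1 - Nat.card V.toAffine.Point := by
  rw [WeierstrassCurve.traceOfFrobenius, WeierstrassCurve.card, Nat.card_zmod]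

/-- The groups of the supersingular curves. -/
theorem exists_group_zero (h5 : 5 ≤ p) {d e : ℕ} (hde : d ∣ e) (hd : d ∣ p - 1)
    (hN : d * e = p + 1) : ∃ A B : ZMod p, 4 * A ^ 3 + 27 * B ^ 2 ≠ 0 ∧
      Nonempty ((shortMod A B).toAffine.Point ≃+ ZMod d × ZMod e) := by
  have hd2 : d ∣ 2 := by
    have := Nat.dvd_sub (Dvd.intro e hN : d ∣ p + 1) hd
    rwa [show p + 1 - (p - 1) = 2 by omega] at this
  have hne : ∀ k : ZMod p, k ≠ 0 → 4 * k ^ 3 + 27 * (0 : ZMod p) ^ 2 ≠ 0 := fun k hk => by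
    rw [zero_pow two_ne_zero, mul_zero, add_zero]
    refine mul_ne_zero ?_ (pow_ne_zero _ hk)
    exact_mod_cast natCast_ne_zero_of_five (q := p) h5 (k := 4) (by norm_num) (by norm_num)
  rcases (Nat.dvd_prime Nat.prime_two).1 hd2 with rfl | rfl
  · rw [one_mul] at hN
    rcases eq_or_ne (p % 4) 3 with h4 | h4
    · obtain ⟨hc, hiff, -⟩ := FA.Summary.supersingular_quartic_structure h5 h4
        (one_ne_zero (α := ZMod p))
      exact ⟨1, 0, hne 1 one_ne_zero, equiv_of_cyclic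
        (hiff.2 fun h => ZMod.exists_sq_eq_neg_one_iff.1 h h4) (hc.trans hN.symm)⟩
    · obtain ⟨A, B, hAB, ht⟩ := exists_trace_eq h5 (a := 0) (by positivity)
      haveI : (shortMod A B).IsElliptic := ⟨(shortMod_Δ_ne_zero h5 hAB).isUnit⟩
      rcases FA.Summary.group_structure_trace_zero (shortMod A B) (by omega) ht with hc | ⟨hc, -⟩
      · refine ⟨A, B, hAB, equiv_of_cyclic hc ?_⟩
        rw [trace_eq_sub_card] at ht
        omega
      · exact absurd hc h4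
  · obtain ⟨c, rfl⟩ := hde
    have h4 : p % 4 = 3 := by omega
    obtain ⟨-, -, hsplit⟩ := FA.Summary.supersingular_quartic_structure h5 h4
      (neg_ne_zero.2 (one_ne_zero (α := ZMod p)))
    rw [show 2 * c = (p + 1) / 2 by omega]
    exact ⟨-1, 0, hne _ (neg_ne_zero.2 one_ne_zero), hsplit (by rw [neg_neg]; exact IsSquare.one)⟩

/-- **Rück's existence theorem.** -/
theorem exists_group (h5 : 5 ≤ p) {d e : ℕ} (hde : d ∣ e) (hd : d ∣ p - 1)
    (hH : ((p : ℤ) + 1 - (d * e : ℕ)) ^ 2 ≤ 4 * p) :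
    ∃ A B : ZMod p, 4 * A ^ 3 + 27 * B ^ 2 ≠ 0 ∧
      Nonempty ((shortMod A B).toAffine.Point ≃+ ZMod d × ZMod e) := by
  set a : ℤ := (p : ℤ) + 1 - (d * e : ℕ) with ha
  rcases eq_or_ne a 0 with ha0 | ha0
  · exact exists_group_zero h5 hde hd (by omega)
  have hlt : a ^ 2 < 4 * (p : ℤ) := lt_of_le_of_ne hH fun e0 => by
    have hpz : Prime (p : ℤ) := Nat.prime_iff_prime_int.1 hp.out
    obtain ⟨c, hc⟩ : (p : ℤ) ∣ a := hpz.dvd_of_dvd_pow (n := 2) ⟨4, by rw [e0]; ring⟩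
    have h4 : (p : ℤ) ∣ 4 := ⟨c ^ 2, mul_left_cancel₀ hpz.ne_zero (by
      rw [hc] at e0; linear_combination -e0)⟩
    have := Int.le_of_dvd (by norm_num) h4
    omega
  have hpa := not_dvd_of_sq_lt h5 hlt ha0
  obtain ⟨n, rfl⟩ := hde
  obtain ⟨s, hs⟩ := hd
  obtain ⟨D, H, A, B, r, hD0, hdisc, hpar, hmonic, hroots, hAB, hr, hroot, htr⟩ :=
    exists_root_trace h5 (d := (d : ℤ)) (t := (s : ℤ) - d * n) (n := (n : ℤ)) hlt hpa
      (by
        have hs' : (p : ℤ) - 1 = (d : ℤ) * s := by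
          rw [← Nat.cast_mul, ← hs, Nat.cast_sub hp.out.one_le]
          norm_num
        rw [ha]
        push_cast
        linear_combination hs')
      (by rw [ha]; push_cast; ring)
  haveI : (shortMod A B).IsElliptic := ⟨(shortMod_Δ_ne_zero h5 hAB).isUnit⟩
  refine ⟨A, B, hAB, equiv_of_levels h5 _ (fun h => ?_) ?_ fun l hl hlp j => ?_⟩
  · have hd0 : d ≠ 0 := by
      rintro rfl
      rw [zero_mul] at hs
      omega
    have := Nat.le_of_dvd (Nat.pos_of_ne_zero (by omega : p - 1 ≠ 0)) (h.trans ⟨s, hs⟩)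
    omega
  · rw [trace_eq_sub_card] at htr
    omega
  · haveI := Fact.mk hl
    rw [natCard_torsion_iff h5 hmonic hroots _ (by rwa [shortMod_j h5 hAB hr])
      (by rwa [htr]) (d := (d : ℤ)) hD0 (by rw [htr]; exact hdisc) hlp j fun h => ⟨?_, ?_⟩]
    · exact_mod_cast Iff.rfl
    · refine h.trans ⟨(s : ℤ) - d * n, ?_⟩
      rw [htr, ha]
      have hs' : (p : ℤ) - 1 = (d : ℤ) * s := by
        rw [← Nat.cast_mul, ← hs, Nat.cast_sub hp.out.one_le]
        norm_num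
      push_cast
      linear_combination hs'
    · rw [pow_mul', htr]
      refine dvd_trans (pow_dvd_pow_of_dvd h 2) ⟨n, ?_⟩
      rw [ha]
      push_cast
      ring

/-- **The necessary conditions.** -/
theorem conditions_of_equiv (h5 : 5 ≤ p) (V : WeierstrassCurve (ZMod p)) [V.IsElliptic] {d e : ℕ}
    (hde : d ∣ e) (φ : V.toAffine.Point ≃+ ZMod d × ZMod e) :
    d ∣ p - 1 ∧ ((p : ℤ) + 1 - (d * e : ℕ)) ^ 2 ≤ 4 * p := by
  have hN : Nat.card V.toAffine.Point = d * e := by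
    rw [Nat.card_congr φ.toEquiv, Nat.card_prod, Nat.card_zmod, Nat.card_zmod]
  have hpos : 0 < d * e := hN ▸ Nat.card_pos
  haveI : NeZero d := ⟨fun h => by simp [h] at hpos⟩
  haveI : NeZero e := ⟨fun h => by simp [h] at hpos⟩
  refine ⟨?_, ?_⟩
  · obtain ⟨d', e', hde', h1, -, ⟨φ'⟩⟩ := FA.Summary.group_structure V (by omega)
    haveI : Finite (ZMod d' × ZMod e') := Finite.of_equiv _ φ'.toEquiv
    haveI : NeZero d' := ⟨fun h => by rw [h, zero_dvd_iff] at h1; omega⟩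
    haveI : NeZero e' := ⟨fun h => by
      subst h
      exact not_finite (ZMod d' × ZMod 0)⟩
    exact dvd_trans ((FA.ReducedGroups.natCard_nsmul_eq_sq_iff φ' hde'
      (Nat.pos_of_ne_zero (NeZero.ne d))).1 ((FA.ReducedGroups.natCard_nsmul_eq_sq_iff φ hde
        (Nat.pos_of_ne_zero (NeZero.ne d))).2 dvd_rfl)) h1
  · rw [← hN, ← trace_eq_sub_card]
    exact FA.HasseBound.traceOfFrobenius_sq_le V

end FA.Rueck

end
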