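import Fermat.Agent.Supersingular.DeuringClassFibre
import Fermat.Agent.Supersingular.Rueck
import Fermat.Agent.Root.SummaryTwistClasses

/-!
# Deuring: the number of equations with a given trace

For each `r` in `𝔽_p` the weighted forms over `r` (total `2`) and the `p - 1` equations with
invariant `r` are distributed alike over the traces: both sit at `0` at a supersingular invariant,
and at an ordinary one evenly on two traces, four at `1728` and six at `0`. Summing over `r` gives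
`2 #{trace t} = (p - 1) H(4 p - t²)`.
-/

set_option autoImplicit false
set_option linter.style.haveILetI false
set_option linter.unusedSectionVars false

noncomputable section

open Polynomial
open scoped Classical UpperHalfPlane

namespace FA.ClassTrace

open FA.BirchMoment FA.DeuringExistence FA.ClassRelation FA.ModField FA.Singular
open FA.ReducedGroups (jFibre mem_jFibre)

variable {p : ℕ} [hp : Fact p.Prime]

/-- The trace of `y² = x³ + A x + B`. -/
def tr (ab : ZMod p × ZMod p) : ℤ := (shortMod ab.1 ab.2).traceOfFrobenius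

/-- Membership in the fibre, with the relation of the existence theorem. -/
theorem mem_jFibre_iff {r A B : ZMod p} : (A, B) ∈ jFibre r ↔ 4 * A ^ 3 + 27 * B ^ 2 ≠ 0 ∧
    1728 * (4 * A ^ 3) = r * (4 * A ^ 3 + 27 * B ^ 2) := by
  rw [mem_jFibre, show (1728 : ZMod p) * (4 * A ^ 3) = 6912 * A ^ 3 by ring]

theorem natCast_two_three (h5 : 5 ≤ p) : (2 : ZMod p) ≠ 0 ∧ (3 : ZMod p) ≠ 0 :=
  ⟨by exact_mod_cast natCast_ne_zero_of_five (q := p) h5 two_pos (by norm_num : 2 < 5),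
    by exact_mod_cast natCast_ne_zero_of_five (q := p) h5 three_pos (by norm_num : 3 < 5)⟩

theorem const_ne_zero (h5 : 5 ≤ p) : (1728 : ZMod p) ≠ 0 := by
  obtain ⟨h2, h3⟩ := natCast_two_three h5
  rw [show (1728 : ZMod p) = 2 ^ 6 * 3 ^ 3 by norm_num]
  exact mul_ne_zero (pow_ne_zero _ h2) (pow_ne_zero _ h3)

theorem exists_mem_jFibre (h5 : 5 ≤ p) (r : ZMod p) : ∃ A B, (A, B) ∈ jFibre r := by
  obtain ⟨A, B, h, hr⟩ := exists_short_j h5 r
  exact ⟨A, B, mem_jFibre_iff.2 ⟨h, hr⟩⟩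

/-- Scaling by a fourth and a sixth power keeps the fibre and the trace. -/
theorem scale_mem (h5 : 5 ≤ p) {r A B : ZMod p} (h : (A, B) ∈ jFibre r) (u : (ZMod p)ˣ) :
    (A * (u : ZMod p) ^ 4, B * (u : ZMod p) ^ 6) ∈ jFibre r ∧
      tr (A * (u : ZMod p) ^ 4, B * (u : ZMod p) ^ 6) = tr (A, B) := by
  obtain ⟨hAB, hr⟩ := mem_jFibre_iff.1 h
  have h' : 4 * (A * (u : ZMod p) ^ 4) ^ 3 + 27 * (B * (u : ZMod p) ^ 6) ^ 2 ≠ 0 := by
    rw [show 4 * (A * (u : ZMod p) ^ 4) ^ 3 + 27 * (B * (u : ZMod p) ^ 6) ^ 2 =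
      (u : ZMod p) ^ 12 * (4 * A ^ 3 + 27 * B ^ 2) by ring]
    exact mul_ne_zero (pow_ne_zero _ u.ne_zero) hAB
  refine ⟨mem_jFibre_iff.2 ⟨h', by linear_combination (u : ZMod p) ^ 12 * hr⟩, ?_⟩
  rw [tr, tr, traceOfFrobenius_eq h5 h', traceOfFrobenius_eq h5 hAB,
    show A * (u : ZMod p) ^ 4 = A * ((u : ZMod p) ^ 2) ^ 2 by ring,
    show B * (u : ZMod p) ^ 6 = B * ((u : ZMod p) ^ 2) ^ 3 by ring,
    charSum_scale (pow_ne_zero _ u.ne_zero), quadraticChar_sq_one' u.ne_zero, one_mul]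

/-- A twist with at most `n` automorphisms stands for `(p - 1) / n` equations. -/
theorem sub_one_le_card (h5 : 5 ≤ p) {r A B : ZMod p} {t : ℤ} (h : (A, B) ∈ jFibre r)
    (ht : tr (A, B) = t) {n : ℕ} (hn : 0 < n)
    (hfix : ∀ u : (ZMod p)ˣ, A * (u : ZMod p) ^ 4 = A → B * (u : ZMod p) ^ 6 = B → u ^ n = 1) :
    p - 1 ≤ n * ((jFibre r).filter fun ab => tr ab = t).card := by
  let f : (ZMod p)ˣ → ZMod p × ZMod p := fun u => (A * (u : ZMod p) ^ 4, B * (u : ZMod p) ^ 6)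
  calc p - 1 = (Finset.univ : Finset (ZMod p)ˣ).card := by rw [Finset.card_univ, ZMod.card_units]
    _ ≤ n * (Finset.univ.image f).card := by
      refine Finset.card_le_mul_card_image _ n fun b hb => ?_
      obtain ⟨u₀, -, rfl⟩ := Finset.mem_image.1 hb
      refine le_trans (Finset.card_le_card_of_injOn (fun u => u * u₀⁻¹) (fun u hu => ?_)
        fun u _ v _ e => mul_right_cancel e) (IsCyclic.card_pow_eq_one_le hn)
      simp only [Finset.mem_coe, Finset.mem_filter, f, Prod.mk.injEq] at hu ⊢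
      refine ⟨Finset.mem_univ _, hfix _ ?_ ?_⟩
      · rw [Units.val_mul, mul_pow, ← mul_assoc, hu.2.1, mul_assoc, ← mul_pow, ← Units.val_mul,
          mul_inv_cancel, Units.val_one, one_pow, mul_one]
      · rw [Units.val_mul, mul_pow, ← mul_assoc, hu.2.2, mul_assoc, ← mul_pow, ← Units.val_mul,
          mul_inv_cancel, Units.val_one, one_pow, mul_one]
    _ ≤ n * ((jFibre r).filter fun ab => tr ab = t).card := by
      refine Nat.mul_le_mul_left n (Finset.card_le_card fun b hb => ?_)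
      obtain ⟨u, -, rfl⟩ := Finset.mem_image.1 hb
      exact Finset.mem_filter.2 ⟨(scale_mem h5 h u).1, (scale_mem h5 h u).2.trans ht⟩

/-! ### One form over `r` -/

/-- A form over `r`: the primitive form, its discriminant and its class polynomial. -/
theorem exists_disc {red : (Σ _ : ℤ, ℤ × ℤ × ℤ) → ZMod p}
    (hroot : ∀ q ∈ traceForms p, ∀ P : ℤ[X], aeval (jfun (rootOf q.2)) P = 0 →
      (P.map (Int.castRingHom (ZMod p))).IsRoot (red q))
    {q : Σ _ : ℤ, ℤ × ℤ × ℤ} (hq : q ∈ traceForms p) :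
    ∃ (D k b : ℤ) (f₁ : ℤ × ℤ × ℤ), 0 < k ∧ q.2 = smulForm k f₁ ∧ disc f₁ = D ∧
      f₁ ∈ Red D ∧ FA.Singular.IsRoot f₁ (rootOf q.2) ∧ D < 0 ∧ q.1 ^ 2 - 4 * (p : ℤ) = k ^ 2 * D ∧
      4 ∣ D - b ^ 2 ∧ ∃ H : ℤ[X], H.Monic ∧
        (∀ z : ℂ, aeval z H = 0 → ∃ (a b c : ℤ) (τ : ℍ), 0 < a ∧ b ^ 2 - 4 * a * c = D ∧
          Int.gcd (Int.gcd a b) c = 1 ∧ (a : ℂ) * (τ : ℂ) ^ 2 + b * (τ : ℂ) + c = 0 ∧
            jfun τ = z) ∧
        (H.map (Int.castRingHom (ZMod p))).IsRoot (red q) := by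
  obtain ⟨ht, hd, ha', hb', hc', hbd'⟩ := (mem_traceForms p).1 hq
  obtain ⟨k, ⟨a, b, c⟩, hk, hqf, ha, hprim⟩ := exists_content q.2 ha'
  have hdq : disc q.2 < 0 := by rw [hd]; linarith
  have hrq := isRoot_rootOf ha' hdq
  have hr₁ : FA.Singular.IsRoot (a, b, c) (rootOf q.2) := by
    set ρ := rootOf q.2
    rw [hqf] at hrq
    simp only [FA.Singular.IsRoot, smulForm] at hrq ⊢
    push_cast at hrq
    refine mul_left_cancel₀ (show (k : ℂ) ≠ 0 by exact_mod_cast hk.ne') ?_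
    linear_combination hrq
  have hD := disc_neg_of_isRoot (f := (a, b, c)) ha.ne' hr₁
  rw [hqf] at hb' hc' hbd' hd
  simp only [smulForm] at hb' hc' hbd'
  rw [disc_smulForm] at hd
  have hred : (a, b, c) ∈ Red (disc (a, b, c)) := by
    refine ⟨rfl, hprim, ha, ?_, le_of_mul_le_mul_left hc' hk, fun h => ?_⟩
    · rw [abs_mul, abs_of_pos hk] at hb'
      exact le_of_mul_le_mul_left hb' hk
    · refine nonneg_of_mul_nonneg_right (hbd' ?_) hk
      rw [abs_mul, abs_of_pos hk]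
      exact h.imp (congrArg (k * ·)) (congrArg (k * ·))
  obtain ⟨H, hH, -, -, hroots⟩ := FA.Summary.classPolynomial (D := disc (a, b, c)) hD
    ⟨a, b, c, ha, rfl, hprim⟩
  refine ⟨_, k, b, (a, b, c), hk, hqf, rfl, hred, hr₁, hD, hd.symm, ?_, H, hH,
    fun z hz => (hroots z).1 hz, hroot q hq H ((hroots _).2 ⟨a, b, c, rootOf q.2, ha, rfl, hprim,
      by simpa [FA.Singular.IsRoot] using hr₁, rfl⟩)⟩
  exact ⟨-(a * c), by simp only [disc]; ring⟩

section fibre

variable (h5 : 5 ≤ p) {t : ℤ} (hlt : t ^ 2 < 4 * (p : ℤ)) {D k : ℤ} (hD : D < 0)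
  (hd : t ^ 2 - 4 * (p : ℤ) = k ^ 2 * D) {H : ℤ[X]} (hH : H.Monic)
  (hroots : ∀ z : ℂ, aeval z H = 0 → ∃ (a b c : ℤ) (τ : ℍ), 0 < a ∧ b ^ 2 - 4 * a * c = D ∧
    Int.gcd (Int.gcd a b) c = 1 ∧ (a : ℂ) * (τ : ℂ) ^ 2 + b * (τ : ℂ) + c = 0 ∧ jfun τ = z)
  {r : ZMod p} (hr : (H.map (Int.castRingHom (ZMod p))).IsRoot r)
  {A B : ZMod p} (hAB : (A, B) ∈ jFibre r)

include h5 hd hH hroots hr hAB in
/-- Over a form with `t = 0` the traces vanish. -/
theorem tr_eq_zero (ht : t = 0) : tr (A, B) = 0 := by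
  obtain ⟨hne, hrel⟩ := mem_jFibre_iff.1 hAB
  refine trace_zero_of_root h5 (fun hsq => ?_) hH hroots hne hrel hr
  refine not_isSquare_neg_four_mul (p := p) h5 ?_
  rw [show ((0 : ℤ) ^ 2 - 4 * p : ℤ) = k ^ 2 * D by rw [← hd, ht]]
  push_cast
  exact (IsSquare.sq _).mul hsq

include h5 hlt hD hd hH hroots hr hAB in
/-- Over a form with `t ≠ 0` the curves are ordinary, of the same square class, and `D` divides
their discriminant. -/
theorem ordinary_facts (ht : t ≠ 0) :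
    tr (A, B) ≠ 0 ∧ tr (A, B) ^ 2 < 4 * (p : ℤ) ∧
      IsSquare ((t ^ 2 - 4 * (p : ℤ)) * (tr (A, B) ^ 2 - 4 * (p : ℤ))) ∧
      D ∣ tr (A, B) ^ 2 - 4 * (p : ℤ) := by
  have hpt := not_dvd_of_sq_lt h5 hlt ht
  have hpz : Prime (p : ℤ) := Nat.prime_iff_prime_int.1 hp.out
  obtain ⟨hne, hrel⟩ := mem_jFibre_iff.1 hAB
  have hpN : ¬ (p : ℤ) ∣ t ^ 2 - 4 * p := fun h => hpt (hpz.dvd_of_dvd_pow (n := 2)
    (by simpa using dvd_add h (dvd_mul_left (p : ℤ) 4)))
  have hpD : ¬ (p : ℤ) ∣ D := fun h => hpN (hd ▸ dvd_mul_of_dvd_right h _)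
  have hpk : ¬ (p : ℤ) ∣ k := fun h => hpN (hd ▸ dvd_mul_of_dvd_left (dvd_pow h two_ne_zero) _)
  have hs : IsSquare (D : ℚ_[p]) := FA.CMField.isSquare_padic_of_zmod (by omega) hpD (by
    have hdz : (k : ZMod p) ≠ 0 := by rwa [Ne, ZMod.intCast_zmod_eq_zero_iff_dvd]
    refine ⟨(t : ZMod p) / k, ?_⟩
    have := congrArg (fun i : ℤ => (i : ZMod p)) hd
    push_cast at this
    rw [ZMod.natCast_self, mul_zero, sub_zero] at this
    field_simp
    linear_combination -this)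
  obtain ⟨hlt', hsq⟩ := trace_rel h5 hs hD.ne hH hroots hne hrel hr
  have ha0 : tr (A, B) ≠ 0 := fun e => by
    obtain ⟨z, hz⟩ := hsq
    rw [show (shortMod A B).traceOfFrobenius = 0 from e] at hz
    obtain ⟨c, rfl⟩ : (p : ℤ) ∣ z := hpz.dvd_of_dvd_pow (n := 2)
      ⟨-4 * D, by linear_combination -hz⟩
    have h4 : (p : ℤ) ∣ 4 * D := ⟨-c ^ 2, mul_left_cancel₀ hpz.ne_zero (by linear_combination -hz)⟩
    have h := (hpz.dvd_or_dvd h4).resolve_right hpD
    have := Int.le_of_dvd (by norm_num) h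
    omega
  haveI : (shortMod A B).IsElliptic := ⟨(shortMod_Δ_ne_zero h5 hne).isUnit⟩
  exact ⟨ha0, hlt', by rw [hd, mul_assoc]; exact (IsSquare.sq k).mul hsq,
    FA.Rueck.disc_dvd h5 hH hroots (shortMod A B) (by rwa [shortMod_j h5 hne hrel])
      (not_dvd_of_sq_lt h5 hlt' ha0) hpD⟩

end fibre

/-! ### The two special forms -/

theorem eq_of_red_four {f : ℤ × ℤ × ℤ} (h : f ∈ Red (-4)) : f = (1, 0, 1) := by
  obtain ⟨a, b, c⟩ := f
  obtain ⟨hd, -, ha, hb, hc, hbd⟩ := h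
  simp only at hd ha hb hc hbd
  have hb' := abs_le.1 hb
  have h1 : a = 1 := by nlinarith [mul_le_mul_of_nonneg_left hc ha.le]
  subst h1
  rcases (show b = -1 ∨ b = 0 ∨ b = 1 by omega) with rfl | rfl | rfl
  · omega
  · rw [show c = 1 by linarith]
  · omega

theorem eq_of_red_three {f : ℤ × ℤ × ℤ} (h : f ∈ Red (-3)) : f = (1, 1, 1) := by
  obtain ⟨a, b, c⟩ := f
  obtain ⟨hd, -, ha, hb, hc, hbd⟩ := h
  simp only at hd ha hb hc hbd
  have hb' := abs_le.1 hb
  have h1 : a = 1 := by nlinarith [mul_le_mul_of_nonneg_left hc ha.le]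
  subst h1
  rcases (show b = -1 ∨ b = 0 ∨ b = 1 by omega) with rfl | rfl | rfl
  · have := hbd (Or.inl rfl); omega
  · omega
  · rw [show c = 1 by linarith]

theorem isRoot_I : FA.Singular.IsRoot (1, 0, 1) UpperHalfPlane.I := by
  simp [FA.Singular.IsRoot]

theorem isRoot_rho : FA.Singular.IsRoot (1, 1, 1) rho := by
  have h3 : (Real.sqrt 3 : ℂ) ^ 2 = 3 := by
    rw [← Complex.ofReal_pow, Real.sq_sqrt (by norm_num)]; norm_num
  have hρ : ((rho : ℍ) : ℂ) = -1 / 2 + (Real.sqrt 3 : ℂ) / 2 * Complex.I := by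
    apply Complex.ext <;> simp [rho]
  simp only [FA.Singular.IsRoot]
  rw [hρ]
  push_cast
  linear_combination (Complex.I ^ 2 / 4) * h3 + (3 / 4 : ℂ) * Complex.I_sq

section special

variable {red : (Σ _ : ℤ, ℤ × ℤ × ℤ) → ZMod p}
  (hroot : ∀ q ∈ traceForms p, ∀ P : ℤ[X], aeval (jfun (rootOf q.2)) P = 0 →
    (P.map (Int.castRingHom (ZMod p))).IsRoot (red q))
  {q : Σ _ : ℤ, ℤ × ℤ × ℤ} (hq : q ∈ traceForms p)

include hroot hq in
theorem red_eq_of_root_I (h : FA.Singular.IsRoot (1, 0, 1) (rootOf q.2)) : red q = 1728 := by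
  have e : rootOf q.2 = UpperHalfPlane.I :=
    root_unique (t := (1, 0, 1)) (one_ne_zero (α := ℤ)) h isRoot_I
  have h0 := hroot q hq (X - C 1728) (by
    simp only [map_sub, aeval_X, aeval_C, e, FA.ModField.jfun_I]
    simp)
  simpa [sub_eq_zero] using h0

include hroot hq in
theorem red_eq_of_root_rho (h : FA.Singular.IsRoot (1, 1, 1) (rootOf q.2)) : red q = 0 := by
  have e : rootOf q.2 = rho := root_unique (t := (1, 1, 1)) (one_ne_zero (α := ℤ)) h isRoot_rho
  have h0 := hroot q hq X (by rw [aeval_X, e, FA.ModField.jfun_rho])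
  simpa using h0

end special

/-- A trace on another square class forces the discriminant `-4` or `-3`. -/
theorem trace_eq_or_disc (h5 : 5 ≤ p) {t a D k b : ℤ} (hlt : t ^ 2 < 4 * (p : ℤ)) (hk : k ≠ 0)
    (hd : t ^ 2 - 4 * (p : ℤ) = k ^ 2 * D) (hpar : 4 ∣ D - b ^ 2)
    (hsq : IsSquare ((t ^ 2 - 4 * (p : ℤ)) * (a ^ 2 - 4 * (p : ℤ))))
    (hdvd : D ∣ a ^ 2 - 4 * (p : ℤ)) : a ^ 2 = t ^ 2 ∨ D = -4 ∨ D = -3 := by
  rcases trace_cases h5 hlt hsq with h | h | ⟨s, hs₀, h⟩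
  · exact Or.inl h
  · exact Or.inr (Or.inl (FA.Rueck.disc_eq_neg_four h5 hk hd hpar
      (show 4 * (p : ℤ) - t ^ 2 = a * a by rw [← sq, h]) hdvd))
  · obtain ⟨f, rfl⟩ : (3 : ℤ) ∣ s := Int.prime_three.dvd_of_dvd_pow (n := 2) ⟨_, hs₀⟩
    have hf : 4 * (p : ℤ) - t ^ 2 = 3 * (f * f) :=
      mul_left_cancel₀ (three_ne_zero (α := ℤ)) (by linear_combination -hs₀)
    refine Or.inr (Or.inr ?_)
    rcases h with h | h
    · exact FA.Rueck.disc_eq_neg_three h5 hk hd hf h hdvd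
    · exact FA.Rueck.disc_eq_neg_three (f := -f) h5 hk hd (by rw [neg_mul_neg, hf])
        (by rw [h, mul_neg, sub_eq_add_neg]) hdvd

/-- At `1728` every ordinary trace has `4 p - a²` square, at `0` three times a square. -/
theorem square_class_special (h5 : 5 ≤ p) {A B : ZMod p} :
    ((A, B) ∈ jFibre (1728 : ZMod p) → tr (A, B) ≠ 0 →
      ∃ w, 4 * (p : ℤ) - tr (A, B) ^ 2 = w * w) ∧
    ((A, B) ∈ jFibre (0 : ZMod p) → tr (A, B) ≠ 0 →
      ∃ g, 4 * (p : ℤ) - tr (A, B) ^ 2 = 3 * (g * g)) := by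
  constructor <;> intro hAB ha <;> obtain ⟨hne, hrel⟩ := mem_jFibre_iff.1 hAB
  · by_cases hs : IsSquare (((-4 : ℤ)) : ℚ_[p])
    · obtain ⟨-, z, hz⟩ := trace_rel h5 hs (by norm_num) (monic_X_sub_C _)
        FA.Summary.classPolynomial_three_four.2 hne hrel (by simp)
      obtain ⟨w, rfl⟩ : (2 : ℤ) ∣ z := Int.prime_two.dvd_of_dvd_pow (n := 2)
        ⟨-2 * ((shortMod A B).traceOfFrobenius ^ 2 - 4 * (p : ℤ)), by rw [sq, ← hz]; ring⟩
      exact ⟨w, by unfold tr; linarith⟩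
    · exact absurd (trace_zero_of_root h5 hs (monic_X_sub_C _)
        FA.Summary.classPolynomial_three_four.2 hne hrel (by simp)) ha
  · by_cases hs : IsSquare (((-3 : ℤ)) : ℚ_[p])
    · obtain ⟨-, z, hz⟩ := trace_rel h5 hs (by norm_num) monic_X
        FA.Summary.classPolynomial_three_four.1 hne hrel (by simp)
      obtain ⟨w, rfl⟩ : (3 : ℤ) ∣ z := Int.prime_three.dvd_of_dvd_pow (n := 2)
        ⟨-((shortMod A B).traceOfFrobenius ^ 2 - 4 * (p : ℤ)), by rw [sq, ← hz]; ring⟩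
      exact ⟨w, by unfold tr; linarith⟩
    · exact absurd (trace_zero_of_root h5 hs monic_X
        FA.Summary.classPolynomial_three_four.1 hne hrel (by simp)) ha

/-- The forms with `t ≠ 0` over `1728` are the multiples of `x² + y²`. -/
theorem form_over_1728 (h5 : 5 ≤ p) {red : (Σ _ : ℤ, ℤ × ℤ × ℤ) → ZMod p}
    (hroot : ∀ q ∈ traceForms p, ∀ P : ℤ[X], aeval (jfun (rootOf q.2)) P = 0 →
      (P.map (Int.castRingHom (ZMod p))).IsRoot (red q))
    {q : Σ _ : ℤ, ℤ × ℤ × ℤ} (hq : q ∈ traceForms p) (hqr : red q = 1728) (hq0 : q.1 ≠ 0) :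
    ∃ k, 0 < k ∧ q.2 = smulForm k (1, 0, 1) := by
  obtain ⟨D, k, b, f₁, hk, hqf, -, hf₁, hτ, hD, hd, hpar, H, hH, hroots, hHr⟩ :=
    exists_disc hroot hq
  rw [hqr] at hHr
  have hlt := ((mem_traceForms p).1 hq).1
  have hD4 : D = -4 → ∃ k, 0 < k ∧ q.2 = smulForm k (1, 0, 1) := fun e => by
    subst e
    refine ⟨k, hk, ?_⟩
    rw [hqf, eq_of_red_four hf₁]
  obtain ⟨A, B, hAB⟩ := exists_mem_jFibre h5 (1728 : ZMod p)
  obtain ⟨ha0, -, hsq, hdvd⟩ := ordinary_facts h5 hlt hD hd hH hroots hHr hAB hq0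
  rcases trace_eq_or_disc h5 hlt hk.ne' hd hpar hsq hdvd with h | h | h
  · obtain ⟨w, hw⟩ := (square_class_special h5).1 hAB ha0
    rw [h] at hw
    have hw0 : w ≠ 0 := fun e => by rw [e] at hw; linarith
    have hwlt : w ^ 2 < 4 * (p : ℤ) := by nlinarith [pow_two_pos_of_ne_zero hq0]
    obtain ⟨A', B', hne', hrel', htr⟩ := exists_quartic h5 hwlt
      (not_dvd_of_sq_lt h5 hwlt hw0) (f := q.1) (by linarith)
    have hdvd' := (ordinary_facts h5 hlt hD hd hH hroots hHr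
      (mem_jFibre_iff.2 ⟨hne', hrel'⟩) hq0).2.2.2
    rw [show tr (A', B') = w from htr] at hdvd'
    exact hD4 (FA.Rueck.disc_eq_neg_four h5 hk.ne' hd hpar hw hdvd')
  · exact hD4 h
  · subst h
    refine absurd ?_ (const_ne_zero (p := p) h5)
    rw [← hqr]
    exact red_eq_of_root_rho hroot hq (eq_of_red_three hf₁ ▸ hτ)

/-- The forms with `t ≠ 0` over `0` are the multiples of `x² + x y + y²`. -/
theorem form_over_zero (h5 : 5 ≤ p) {red : (Σ _ : ℤ, ℤ × ℤ × ℤ) → ZMod p}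
    (hroot : ∀ q ∈ traceForms p, ∀ P : ℤ[X], aeval (jfun (rootOf q.2)) P = 0 →
      (P.map (Int.castRingHom (ZMod p))).IsRoot (red q))
    {q : Σ _ : ℤ, ℤ × ℤ × ℤ} (hq : q ∈ traceForms p) (hqr : red q = 0) (hq0 : q.1 ≠ 0) :
    ∃ k, 0 < k ∧ q.2 = smulForm k (1, 1, 1) := by
  obtain ⟨D, k, b, f₁, hk, hqf, -, hf₁, hτ, hD, hd, hpar, H, hH, hroots, hHr⟩ :=
    exists_disc hroot hq
  rw [hqr] at hHr
  have hlt := ((mem_traceForms p).1 hq).1
  have hD3 : D = -3 → ∃ k, 0 < k ∧ q.2 = smulForm k (1, 1, 1) := fun e => by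
    subst e
    refine ⟨k, hk, ?_⟩
    rw [hqf, eq_of_red_three hf₁]
  obtain ⟨A, B, hAB⟩ := exists_mem_jFibre h5 (0 : ZMod p)
  obtain ⟨ha0, -, hsq, hdvd⟩ := ordinary_facts h5 hlt hD hd hH hroots hHr hAB hq0
  rcases trace_eq_or_disc h5 hlt hk.ne' hd hpar hsq hdvd with h | h | h
  · obtain ⟨g, hg⟩ := (square_class_special h5).2 hAB ha0
    rw [h] at hg
    obtain ⟨v, hv⟩ : (2 : ℤ) ∣ q.1 - g := by
      have h2 : (2 : ℤ) ∣ (q.1 - g) * (q.1 + g) :=
        ⟨2 * p - 2 * g ^ 2, by linear_combination -hg⟩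
      rcases Int.prime_two.dvd_or_dvd h2 with h | ⟨v, hv⟩
      · exact h
      · exact ⟨v - g, by linear_combination hv⟩
    -- the twist of trace `(t + 3 g) / 2`
    have hs₀ : (3 * v) ^ 2 = 3 * (4 * (p : ℤ) - (v + 2 * g) ^ 2) := by
      linear_combination (-3 : ℤ) * hg - 3 * (q.1 + g + 2 * v) * hv
    have hv0 : v ≠ 0 := fun e => by
      rw [e] at hv
      have h4 : (p : ℤ) = g * g := by
        have : q.1 = g := by linarith
        rw [this] at hg; linarith
      exact (Nat.prime_iff_prime_int.1 hp.out).not_isSquare ⟨g, h4⟩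
    have ha'lt : (v + 2 * g) ^ 2 < 4 * (p : ℤ) := by nlinarith [pow_two_pos_of_ne_zero hv0]
    have ha'0 : v + 2 * g ≠ 0 := fun e => by
      have h4 : 4 * (p : ℤ) = 12 * (g * g) := by
        rw [show q.1 = -3 * g by linarith] at hg; linarith
      have h3 : (3 : ℤ) ∣ p := ⟨g * g, by linarith⟩
      have := (Nat.prime_dvd_prime_iff_eq Nat.prime_three hp.out).1 (by exact_mod_cast h3)
      omega
    obtain ⟨A', B', hne', hrel', htr⟩ := exists_sextic h5 ha'lt
      (not_dvd_of_sq_lt h5 ha'lt ha'0) hs₀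
    have hdvd' := (ordinary_facts h5 hlt hD hd hH hroots hHr
      (mem_jFibre_iff.2 ⟨hne', hrel'⟩) hq0).2.2.2
    rw [show tr (A', B') = v + 2 * g from htr] at hdvd'
    exact hD3 (FA.Rueck.disc_eq_neg_three h5 hk.ne' hd hg
      (by linear_combination -(2 * (v + 2 * g) + (q.1 + 3 * g)) * hv) hdvd')
  · subst h
    refine absurd ?_ (const_ne_zero (p := p) h5)
    exact (red_eq_of_root_I hroot hq (eq_of_red_four hf₁ ▸ hτ)).symm.trans hqr
  · exact hD3 h

/-! ### One invariant -/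

/-- The weight over `r` at the trace `t`. -/
def wt (red : (Σ _ : ℤ, ℤ × ℤ × ℤ) → ZMod p) (r : ZMod p) (t : ℤ) : ℚ :=
  ∑ q ∈ (traceForms p).filter (fun q => red q = r ∧ q.1 = t), weight q.2

/-- If weights and equations sit evenly on the same `n` traces they are proportional. -/
theorem distribute (h5 : 5 ≤ p) {red : (Σ _ : ℤ, ℤ × ℤ × ℤ) → ZMod p} {r : ZMod p}
    (hsum : ∑ q ∈ (traceForms p).filter (fun q => red q = r), weight q.2 = 2)
    (S : Finset ℤ) {n : ℕ} (hn : 0 < n)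
    (hqS : ∀ q ∈ traceForms p, red q = r → q.1 ∈ S) (hLS : ∀ t ∈ S, wt red r t = 2 / n)
    (hAS : ∀ ab ∈ jFibre r, tr ab ∈ S)
    (hN : ∀ t ∈ S, p - 1 ≤ n * ((jFibre r).filter fun ab => tr ab = t).card) (t : ℤ) :
    2 * (((jFibre r).filter fun ab => tr ab = t).card : ℚ) = ((p : ℚ) - 1) * wt red r t := by
  by_cases htS : t ∈ S
  swap
  · rw [wt, Finset.filter_eq_empty_iff.2 fun ab hab e => htS ((show tr ab = t from e) ▸ hAS ab hab),
      Finset.filter_eq_empty_iff.2 fun q hq (e : red q = r ∧ q.1 = t) => htS (e.2 ▸ hqS q hq e.1)]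
    simp
  have hSn : S.card = n := by
    rw [← Finset.sum_fiberwise_of_maps_to (g := fun q : (Σ _ : ℤ, ℤ × ℤ × ℤ) => q.1) (t := S)
      (fun q hq => hqS q (Finset.mem_filter.1 hq).1 (Finset.mem_filter.1 hq).2),
      Finset.sum_congr rfl fun t ht => (show _ = (2 / n : ℚ) by
        rw [← hLS t ht, wt, Finset.filter_filter])] at hsum
    rw [Finset.sum_const, nsmul_eq_mul] at hsum
    have hn' : (n : ℚ) ≠ 0 := by exact_mod_cast hn.ne'
    field_simp at hsum
    exact_mod_cast (show (S.card : ℚ) = n by linarith)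
  have htot : ∑ t ∈ S, n * ((jFibre r).filter fun ab => tr ab = t).card = S.card * (p - 1) := by
    rw [← Finset.mul_sum, ← Finset.card_eq_sum_card_fiberwise (fun ab hab => hAS ab hab),
      FA.ReducedGroups.card_jFibre h5, hSn]
  have heq := (Finset.sum_eq_sum_iff_of_le hN).1
    (by rw [htot, Finset.sum_const, smul_eq_mul]) t htS
  have hn' : (n : ℚ) ≠ 0 := by exact_mod_cast hn.ne'
  have heq' : ((p : ℚ) - 1) = n * (((jFibre r).filter fun ab => tr ab = t).card : ℚ) := by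
    rw [← Nat.cast_one, ← Nat.cast_sub hp.out.one_le, heq, Nat.cast_mul]
  rw [hLS t htS, heq']
  field_simp

/-- The weight of the single multiple `(t, k f)` over `r`. -/
theorem wt_eq_weight {red : (Σ _ : ℤ, ℤ × ℤ × ℤ) → ZMod p} {r : ZMod p} {t k : ℤ}
    {f : ℤ × ℤ × ℤ} (hk : 0 < k)
    (hmem : (⟨t, smulForm k f⟩ : Σ _ : ℤ, ℤ × ℤ × ℤ) ∈ traceForms p)
    (hr : red ⟨t, smulForm k f⟩ = r)
    (huniq : ∀ q ∈ traceForms p, red q = r → q.1 = t →
      ∃ k', 0 < k' ∧ q.2 = smulForm k' f) (hdisc : disc f ≠ 0) :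
    wt red r t = weight f := by
  rw [wt, show (traceForms p).filter (fun q => red q = r ∧ q.1 = t) = {⟨t, smulForm k f⟩} by
    ext q
    simp only [Finset.mem_filter, Finset.mem_singleton]
    constructor
    · rintro ⟨hq, hqr, hqt⟩
      obtain ⟨k', hk', e⟩ := huniq q hq hqr hqt
      obtain ⟨t', g⟩ := q
      simp only at hqt e
      subst hqt e
      have h1 := ((mem_traceForms p).1 hq).2.1
      have h2 := ((mem_traceForms p).1 hmem).2.1
      rw [disc_smulForm] at h1 h2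
      have h3 : k' ^ 2 = k ^ 2 := mul_right_cancel₀ hdisc (h1.trans h2.symm)
      rw [(pow_left_inj₀ hk'.le hk.le two_ne_zero).1 h3]
    · rintro rfl
      exact ⟨hmem, hr, rfl⟩,
    Finset.sum_singleton, weight_smulForm hk.ne']

/-- **The two distributions at one invariant.** -/
theorem fibre_eq (h5 : 5 ≤ p) {red : (Σ _ : ℤ, ℤ × ℤ × ℤ) → ZMod p}
    (hsum : ∀ r, ∑ q ∈ (traceForms p).filter (fun q => red q = r), weight q.2 = 2)
    (hsame : ∀ q ∈ traceForms p, ∀ q' ∈ traceForms p, q.2 = q'.2 → red q = red q')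
    (hroot : ∀ q ∈ traceForms p, ∀ P : ℤ[X], aeval (jfun (rootOf q.2)) P = 0 →
      (P.map (Int.castRingHom (ZMod p))).IsRoot (red q)) (r : ZMod p) (t : ℤ) :
    2 * (((jFibre r).filter fun ab => tr ab = t).card : ℚ) = ((p : ℚ) - 1) * wt red r t := by
  obtain ⟨A, B, hAB⟩ := exists_mem_jFibre h5 r
  obtain ⟨hne, hrel⟩ := mem_jFibre_iff.1 hAB
  by_cases hzero : ∃ q ∈ traceForms p, red q = r ∧ q.1 = 0
  · -- supersingular
    obtain ⟨q, hq, hqr, hq0⟩ := hzero
    obtain ⟨D, k, b, f₁, -, -, -, -, -, -, hd, -, H, hH, hroots, hHr⟩ := exists_disc hroot hq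
    rw [hqr] at hHr
    have hall : ∀ ab ∈ jFibre r, tr ab = 0 := fun ab hab =>
      tr_eq_zero h5 hd hH hroots hHr (A := ab.1) (B := ab.2) hab hq0
    have hq0' : ∀ q ∈ traceForms p, red q = r → q.1 = 0 := fun q' hq' hr' => by
      by_contra h0
      obtain ⟨D, k, b, f₁, -, -, -, -, -, hD, hd, -, H, hH, hroots, hHr⟩ := exists_disc hroot hq'
      rw [hr'] at hHr
      exact (ordinary_facts h5 ((mem_traceForms p).1 hq').1 hD hd hH hroots hHr hAB h0).1
        (hall _ hAB)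
    refine distribute h5 (hsum r) {0} one_pos (fun q' hq' hr' => by simp [hq0' q' hq' hr'])
      (fun t ht => ?_) (fun ab hab => by simp [hall ab hab]) (fun t ht => ?_) t <;>
      rw [Finset.mem_singleton] at ht <;> subst ht
    · rw [wt, Nat.cast_one, div_one, ← hsum r]
      exact Finset.sum_congr (Finset.filter_congr fun q' hq' =>
        ⟨fun h => h.1, fun h => ⟨h, hq0' q' hq' h⟩⟩) fun _ _ => rfl
    · rw [Finset.filter_true_of_mem hall, FA.ReducedGroups.card_jFibre h5, one_mul]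
  -- ordinary
  push Not at hzero
  obtain ⟨q₀, hq₀, hr₀⟩ : ∃ q ∈ traceForms p, red q = r := by
    by_contra! h
    have := hsum r
    rw [Finset.filter_eq_empty_iff.2 fun q hq => h q hq, Finset.sum_empty] at this
    norm_num at this
  obtain ⟨D₀, k₀, b₀, g₀, hk₀, -, -, hg₀, hτ₀, hD₀, hd₀, hpar₀, H₀, hH₀, hroots₀, hHr₀⟩ :=
    exists_disc hroot hq₀
  rw [hr₀] at hHr₀
  have hlt₀ := ((mem_traceForms p).1 hq₀).1
  have hfacts : ∀ ab ∈ jFibre r, _ := fun ab hab =>
    ordinary_facts h5 hlt₀ hD₀ hd₀ hH₀ hroots₀ hHr₀ (A := ab.1) (B := ab.2) hab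
      (hzero q₀ hq₀ hr₀)
  rcases eq_or_ne r 1728 with rfl | hr1
  · -- four traces
    set S := (FA.ClassRelation.traces p).filter fun t => t ≠ 0 ∧
      ∃ w, 4 * (p : ℤ) - t ^ 2 = w * w with hS
    have hmemS : ∀ t, t ∈ S ↔ t ^ 2 < 4 * (p : ℤ) ∧ t ≠ 0 ∧
        ∃ w, 4 * (p : ℤ) - t ^ 2 = w * w := fun t => by
      rw [hS, Finset.mem_filter, FA.ClassRelation.mem_traces]
    have hAS : ∀ ab ∈ jFibre (1728 : ZMod p), tr ab ∈ S := fun ab hab =>
      (hmemS _).2 ⟨(hfacts ab hab).2.1, (hfacts ab hab).1,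
        (square_class_special h5 (A := ab.1) (B := ab.2)).1 hab (hfacts ab hab).1⟩
    have hform : ∀ q ∈ traceForms p, red q = 1728 →
        q.1 ∈ S ∧ ∃ k, 0 < k ∧ q.2 = smulForm k (1, 0, 1) := fun q hq hqr => by
      obtain ⟨k, hk, e⟩ := form_over_1728 h5 hroot hq hqr (hzero q hq hqr)
      obtain ⟨hlt, hd, -⟩ := (mem_traceForms p).1 hq
      rw [e, disc_smulForm] at hd
      simp only [disc] at hd
      exact ⟨(hmemS _).2 ⟨hlt, hzero q hq hqr, 2 * k, by linear_combination hd⟩, k, hk, e⟩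
    refine distribute h5 (hsum _) S (n := 4) (by norm_num) (fun q hq hqr => (hform q hq hqr).1)
      (fun t ht => ?_) hAS (fun t ht => ?_) t <;> obtain ⟨hlt, ht0, w, hw⟩ := (hmemS t).1 ht
    · obtain ⟨v, rfl⟩ : (2 : ℤ) ∣ w := by
        obtain ⟨u, hu⟩ := Int.even_or_odd' t
        obtain ⟨v, hv⟩ := Int.even_or_odd' w
        rcases hv with rfl | rfl
        · exact ⟨v, rfl⟩
        · rcases hu with rfl | rfl <;> ring_nf at hw <;> omega
      have hv : v ≠ 0 := fun e => by rw [e] at hw; linarith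
      have hmem : (⟨t, smulForm |v| (1, 0, 1)⟩ : Σ _ : ℤ, ℤ × ℤ × ℤ) ∈ traceForms p := by
        refine (mem_traceForms p).2 ⟨hlt, ?_, ?_⟩
        · rw [disc_smulForm, sq_abs]
          simp only [disc]
          linear_combination hw
        · simp [smulForm, hv]
      rw [wt_eq_weight (abs_pos.2 hv) hmem (red_eq_of_root_I hroot hmem ?_)
        (fun q hq hqr _ => (hform q hq hqr).2) (by norm_num [disc])]
      · norm_num [weight]
      · have h2 := ((mem_traceForms p).1 hmem)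
        have hroot' := isRoot_rootOf h2.2.2.1 (by rw [h2.2.1]; linarith)
        rw [root_unique h2.2.2.1.ne' hroot' (isRoot_smulForm isRoot_I)]
        exact isRoot_I
    · obtain ⟨A', B', hne', hrel', htr⟩ := exists_quartic h5 hlt (not_dvd_of_sq_lt h5 hlt ht0)
        (f := w) hw
      refine sub_one_le_card h5 (mem_jFibre_iff.2 ⟨hne', hrel'⟩) htr (by norm_num)
        fun u h4 _ => Units.ext ?_
      have hA : A' ≠ 0 := fun e => by
        rw [e] at hrel' hne'
        exact mul_ne_zero (const_ne_zero (p := p) h5) hne'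
          (by linear_combination -hrel')
      rw [Units.val_pow_eq_pow_val, Units.val_one]
      exact mul_left_cancel₀ hA (by rw [h4, mul_one])
  rcases eq_or_ne r 0 with rfl | hr0
  · -- six traces
    set S := (FA.ClassRelation.traces p).filter fun t => t ≠ 0 ∧
      ∃ g, 4 * (p : ℤ) - t ^ 2 = 3 * (g * g) with hS
    have hmemS : ∀ t, t ∈ S ↔ t ^ 2 < 4 * (p : ℤ) ∧ t ≠ 0 ∧
        ∃ g, 4 * (p : ℤ) - t ^ 2 = 3 * (g * g) := fun t => by
      rw [hS, Finset.mem_filter, FA.ClassRelation.mem_traces]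
    have hAS : ∀ ab ∈ jFibre (0 : ZMod p), tr ab ∈ S := fun ab hab =>
      (hmemS _).2 ⟨(hfacts ab hab).2.1, (hfacts ab hab).1,
        (square_class_special h5 (A := ab.1) (B := ab.2)).2 hab (hfacts ab hab).1⟩
    have hform : ∀ q ∈ traceForms p, red q = 0 →
        q.1 ∈ S ∧ ∃ k, 0 < k ∧ q.2 = smulForm k (1, 1, 1) := fun q hq hqr => by
      obtain ⟨k, hk, e⟩ := form_over_zero h5 hroot hq hqr (hzero q hq hqr)
      obtain ⟨hlt, hd, -⟩ := (mem_traceForms p).1 hq
      rw [e, disc_smulForm] at hd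
      simp only [disc] at hd
      exact ⟨(hmemS _).2 ⟨hlt, hzero q hq hqr, k, by linear_combination hd⟩, k, hk, e⟩
    refine distribute h5 (hsum _) S (n := 6) (by norm_num) (fun q hq hqr => (hform q hq hqr).1)
      (fun t ht => ?_) hAS (fun t ht => ?_) t <;> obtain ⟨hlt, ht0, g, hg⟩ := (hmemS t).1 ht
    · have hg0 : g ≠ 0 := fun e => by rw [e] at hg; linarith
      have hmem : (⟨t, smulForm |g| (1, 1, 1)⟩ : Σ _ : ℤ, ℤ × ℤ × ℤ) ∈ traceForms p := by
        refine (mem_traceForms p).2 ⟨hlt, ?_, ?_⟩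
        · rw [disc_smulForm, sq_abs]
          simp only [disc]
          linear_combination hg
        · simp [smulForm, hg0]
      rw [wt_eq_weight (abs_pos.2 hg0) hmem (red_eq_of_root_rho hroot hmem ?_)
        (fun q hq hqr _ => (hform q hq hqr).2) (by norm_num [disc])]
      · norm_num [weight]
      · have h2 := ((mem_traceForms p).1 hmem)
        have hroot' := isRoot_rootOf h2.2.2.1 (by rw [h2.2.1]; linarith)
        rw [root_unique h2.2.2.1.ne' hroot' (isRoot_smulForm isRoot_rho)]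
        exact isRoot_rho
    · obtain ⟨A', B', hne', hrel', htr⟩ := exists_sextic h5 hlt (not_dvd_of_sq_lt h5 hlt ht0)
        (s₀ := 3 * g) (by linear_combination (-3 : ℤ) * hg)
      refine sub_one_le_card h5 (mem_jFibre_iff.2 ⟨hne', hrel'⟩) htr (by norm_num)
        fun u _ h6 => Units.ext ?_
      have hA : A' = 0 := by
        rw [zero_mul, mul_eq_zero, mul_eq_zero, pow_eq_zero_iff three_ne_zero] at hrel'
        rcases hrel' with h | h | h
        · exact absurd h (const_ne_zero (p := p) h5)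
        · rw [show (4 : ZMod p) = 2 ^ 2 by norm_num, pow_eq_zero_iff two_ne_zero] at h
          exact absurd h (natCast_two_three (p := p) h5).1
        · exact h
      have hB : B' ≠ 0 := fun e => hne' (by rw [hA, e]; ring)
      rw [Units.val_pow_eq_pow_val, Units.val_one]
      exact mul_left_cancel₀ hB (by rw [h6, mul_one])
  -- two traces
  set a := tr (A, B) with ha
  obtain ⟨ha0, -, -, -⟩ := hfacts _ hAB
  have hsame' : ∀ q ∈ traceForms p, red q = r → ∀ ab ∈ jFibre r, tr ab ^ 2 = q.1 ^ 2 :=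
    fun q hq hqr ab hab => by
      obtain ⟨D, k, b, f₁, hk, hqf, -, hf₁, hτ, hD, hd, hpar, H, hH, hroots, hHr⟩ :=
        exists_disc hroot hq
      rw [hqr] at hHr
      have hlt := ((mem_traceForms p).1 hq).1
      obtain ⟨-, -, hsq, hdvd⟩ := ordinary_facts h5 hlt hD hd hH hroots hHr
        (A := ab.1) (B := ab.2) hab (hzero q hq hqr)
      rcases trace_eq_or_disc h5 hlt hk.ne' hd hpar hsq hdvd with h | h | h
      · exact h
      · subst h
        exact absurd (hqr ▸ red_eq_of_root_I hroot hq (eq_of_red_four hf₁ ▸ hτ)) hr1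
      · subst h
        exact absurd (hqr ▸ red_eq_of_root_rho hroot hq (eq_of_red_three hf₁ ▸ hτ)) hr0
  have hor : ∀ x : ℤ, x ^ 2 = a ^ 2 → x ∈ ({a, -a} : Finset ℤ) := fun x hx => by
    simpa using sq_eq_sq_iff_eq_or_eq_neg.1 hx
  have hneg : wt red r (-a) = wt red r a := by
    refine Finset.sum_nbij' (fun q => ⟨-q.1, q.2⟩) (fun q => ⟨-q.1, q.2⟩) ?_ ?_ ?_ ?_ ?_
    all_goals intro q hq
    · obtain ⟨hq, hqr, hqa⟩ := Finset.mem_filter.1 hq
      have hq' : (⟨-q.1, q.2⟩ : Σ _ : ℤ, ℤ × ℤ × ℤ) ∈ traceForms p := by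
        have h := (mem_traceForms p).1 hq
        rw [← neg_sq] at h
        exact (mem_traceForms p).2 h
      exact Finset.mem_filter.2 ⟨hq', (hsame _ hq' _ hq rfl).trans hqr, by simp [hqa]⟩
    · obtain ⟨hq, hqr, hqa⟩ := Finset.mem_filter.1 hq
      have hq' : (⟨-q.1, q.2⟩ : Σ _ : ℤ, ℤ × ℤ × ℤ) ∈ traceForms p := by
        have h := (mem_traceForms p).1 hq
        rw [← neg_sq] at h
        exact (mem_traceForms p).2 h
      exact Finset.mem_filter.2 ⟨hq', (hsame _ hq' _ hq rfl).trans hqr, by simp [hqa]⟩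
    · simp
    · simp
    · rfl
  have haa : a ≠ -a := fun e => ha0 (show a = 0 by omega)
  refine distribute h5 (hsum r) {a, -a} (n := 2) two_pos
    (fun q hq hqr => hor _ (hsame' q hq hqr _ hAB).symm) (fun t ht => ?_)
    (fun ab hab => hor _ ((hsame' q₀ hq₀ hr₀ ab hab).trans (hsame' q₀ hq₀ hr₀ _ hAB).symm))
    (fun t ht => ?_) t
  · have h2 := hsum r
    rw [← Finset.sum_fiberwise_of_maps_to (g := fun q : (Σ _ : ℤ, ℤ × ℤ × ℤ) => q.1)
      (t := ({a, -a} : Finset ℤ)) (fun q hq => hor _ (hsame' q (Finset.mem_filter.1 hq).1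
        (Finset.mem_filter.1 hq).2 _ hAB).symm), Finset.sum_pair haa,
      Finset.filter_filter, Finset.filter_filter, ← wt, ← wt, hneg] at h2
    rcases Finset.mem_insert.1 ht with rfl | ht
    · norm_num; linarith
    · rw [Finset.mem_singleton] at ht
      rw [ht, hneg]; norm_num; linarith
  · have ht2 : a ^ 2 = t ^ 2 := by
      rcases Finset.mem_insert.1 ht with rfl | ht
      · rfl
      · rw [Finset.mem_singleton.1 ht, neg_sq]
    obtain ⟨A', B', hne', hrel', htr⟩ := exists_signed h5 hne hrel ht2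
    refine sub_one_le_card h5 (mem_jFibre_iff.2 ⟨hne', hrel'⟩) htr two_pos
      fun u h4 h6 => Units.ext ?_
    have hA : A' ≠ 0 := fun e => by
      rw [e] at hrel' hne'
      exact mul_ne_zero hr0 hne' (by linear_combination -hrel')
    have hB : B' ≠ 0 := fun e => by
      rw [e] at hrel' hne'
      refine mul_ne_zero (sub_ne_zero.2 hr1) hne' ?_
      linear_combination -hrel'
    have e4 : (u : ZMod p) ^ 4 = 1 := mul_left_cancel₀ hA (by rw [h4, mul_one])
    have e6 : (u : ZMod p) ^ 6 = 1 := mul_left_cancel₀ hB (by rw [h6, mul_one])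
    rw [Units.val_pow_eq_pow_val, Units.val_one]
    linear_combination e6 - (u : ZMod p) ^ 2 * e4

/-! ### All invariants -/

/-- A set of equations is sorted by invariants. -/
theorem card_filter_eq_sum (P : ZMod p × ZMod p → Prop) [DecidablePred P] :
    ((nonsingular p).filter P).card = ∑ r : ZMod p, ((jFibre r).filter P).card := by
  rw [Finset.card_eq_sum_card_fiberwise (t := Finset.univ)
    (f := fun ab : ZMod p × ZMod p => 6912 * ab.1 ^ 3 / (4 * ab.1 ^ 3 + 27 * ab.2 ^ 2))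
    fun ab _ => Finset.mem_univ _]
  refine Finset.sum_congr rfl fun r _ => congrArg Finset.card (Finset.ext fun ⟨A, B⟩ => ?_)
  simp only [Finset.mem_filter, mem_jFibre, nonsingular, Finset.mem_univ, true_and]
  constructor
  · rintro ⟨⟨hne, ht⟩, he⟩
    exact ⟨⟨hne, (div_eq_iff hne).1 he⟩, ht⟩
  · rintro ⟨⟨hne, he⟩, ht⟩
    exact ⟨⟨hne, ht⟩, (div_eq_iff hne).2 he⟩

/-- **Deuring's theorem.** -/
theorem two_mul_card_trace (h5 : 5 ≤ p) {t : ℤ} (ht : t ^ 2 < 4 * (p : ℤ)) :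
    2 * (((nonsingular p).filter fun ab => tr ab = t).card : ℚ) =
      ((p : ℚ) - 1) * classNumberH (4 * (p : ℤ) - t ^ 2).toNat := by
  haveI : NeZero p := ⟨hp.out.ne_zero⟩
  let _ := Fintype.ofFinite (FA.Dim.Cos p)
  obtain ⟨red, hsum, hsame, hroot⟩ := exists_reduction p
  rw [card_filter_eq_sum fun ab => tr ab = t, Nat.cast_sum, Finset.mul_sum,
    Finset.sum_congr rfl fun r _ => fibre_eq h5 hsum hsame hroot r t, ← Finset.mul_sum]
  refine congrArg _ ?_
  unfold wt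
  rw [← Finset.sum_congr rfl fun r _ => Finset.sum_congr
      (show ((traceForms p).filter fun q => q.1 = t).filter (fun q => red q = r) =
        (traceForms p).filter (fun q => red q = r ∧ q.1 = t) by
        rw [Finset.filter_filter]; exact Finset.filter_congr fun q _ => and_comm) fun _ _ => rfl,
    Finset.sum_fiberwise_of_maps_to fun q _ => Finset.mem_univ _, classNumberH]
  refine Finset.sum_nbij' (fun q => q.2) (fun f => ⟨t, f⟩) (fun q hq => ?_) (fun f hf => ?_)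
    (fun q hq => ?_) (fun f _ => rfl) fun q _ => rfl
  · obtain ⟨hq', rfl⟩ := Finset.mem_filter.1 hq
    rw [traceForms, Finset.mem_sigma] at hq'
    exact hq'.2
  · refine Finset.mem_filter.2 ⟨?_, rfl⟩
    rw [traceForms, Finset.mem_sigma]
    exact ⟨(FA.ClassRelation.mem_traces p).2 ht, hf⟩
  · obtain ⟨-, rfl⟩ := Finset.mem_filter.1 hq
    rfl

end FA.ClassTrace

end
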