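import Fermat.Agent.Carayol.Hasse.Main
import Fermat.Agent.Frob.VarChange
import Mathlib.AlgebraicGeometry.EllipticCurve.IsomOfJ

/-!
# The supersingular invariants in characteristic `q ≥ 5`

The roots of Deuring's polynomial `H` are the `c` for which the Legendre curve has no point of order
`q`; they are `(q - 1) / 2` simple ones and make up full fibres of `c ↦ j`, of size `6`, but `2`
over `0` and `3` over `1728`. Counting modulo `6` decides the two special invariants.
-/

set_option autoImplicit false
set_option linter.style.haveILetI false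

noncomputable section

open Polynomial WeierstrassCurve
open scoped Classical

namespace FA.SupersingularCount

open FA.Carayol FA.EC

variable (k : Type) [Field k] (q : ℕ)

/-- The invariants of the curves without a point of order `q`. -/
def ssInvariants : Set k :=
  {j | ∃ (W : WeierstrassCurve k) (_ : W.IsElliptic),
    W.j = j ∧ ∀ P : W.toAffine.Point, q • P = 0 → P = 0}

variable {k q} [hq : Fact q.Prime] [CharP k q] [IsAlgClosed k]

omit [IsAlgClosed k] in
theorem small_ne_zero (h5 : 5 ≤ q) :
    (2 : k) ≠ 0 ∧ (3 : k) ≠ 0 ∧ (256 : k) ≠ 0 ∧ (64 : k) ≠ 0 ∧ (1728 : k) ≠ 0 := by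
  have h2 : (2 : k) ≠ 0 := two_ne_zero_charP (q := q) (by omega)
  have h3 : (3 : k) ≠ 0 := fun e => by
    have := Nat.le_of_dvd three_pos ((CharP.cast_eq_zero_iff k q 3).mp (by exact_mod_cast e))
    omega
  refine ⟨h2, h3, ?_, ?_, ?_⟩
  · rw [show (256 : k) = 2 ^ 8 by norm_num]; exact pow_ne_zero _ h2
  · rw [show (64 : k) = 2 ^ 6 by norm_num]; exact pow_ne_zero _ h2
  · rw [show (1728 : k) = 2 ^ 6 * 3 ^ 3 by norm_num]
    exact mul_ne_zero (pow_ne_zero _ h2) (pow_ne_zero _ h3)

/-- `j` on the Legendre family. -/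
def jLegendre (c : k) : k := 256 * (c ^ 2 - c + 1) ^ 3 / (c ^ 2 * (c - 1) ^ 2)

omit [IsAlgClosed k] in
theorem j_legendre (h5 : 5 ≤ q) {c : k} [(legendre c).IsElliptic] :
    (legendre c).j = jLegendre c := by
  obtain ⟨h2, -, -, -, -⟩ := small_ne_zero (k := k) h5
  have hΔ : (legendre c).Δ = 16 * c ^ 2 * (c - 1) ^ 2 := Δ_legendre c
  have hne : (legendre c).Δ ≠ 0 := (legendre c).isUnit_Δ.ne_zero
  have h0 : c ^ 2 * (c - 1) ^ 2 ≠ 0 := fun e => hne (by rw [hΔ, mul_assoc, e, mul_zero])
  have hc4 : (legendre c).c₄ = 16 * (c ^ 2 - c + 1) := by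
    simp only [WeierstrassCurve.c₄, WeierstrassCurve.b₂, WeierstrassCurve.b₄, legendre]
    ring
  rw [j, jLegendre, Units.val_inv_eq_inv_val, coe_Δ', hc4, hΔ, inv_mul_eq_div,
    div_eq_div_iff (by rw [← hΔ]; exact hne) h0]
  ring

/-- **No point of order `q` on a Legendre curve iff Deuring's polynomial vanishes.** -/
theorem legendre_supersingular_iff (h5 : 5 ≤ q) {c : k}
    [(legendre c).IsElliptic] :
    (∀ P : (legendre c).toAffine.Point, q • P = 0 → P = 0) ↔
      (hPoly ((q - 1) / 2) k).eval c = 0 := by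
  have hq2 : q ≠ 2 := by omega
  have hqh : q = 2 * ((q - 1) / 2) + 1 := odd_half hq2
  obtain ⟨a, ha, heq⟩ := exists_hasse_eq (k := k) hq2
  have hΨ : ∀ z : k, ((legendre c).ΨSq q).eval z = (((legendre c).preΨ' q).eval z) ^ 2 := fun z => by
    rw [ΨSq_ofNat, if_neg (Nat.not_even_iff_odd.2 ⟨_, hqh⟩), mul_one, eval_pow]
  constructor
  · intro h
    by_contra hne
    have hH : (hasse q k).eval c ≠ 0 := by
      rw [heq, eval_mul, eval_C]; exact mul_ne_zero ha hne
    have hd : ((legendre c).preΨ' q).natDegree ≠ 0 := fun hd => hH (by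
      rw [hasse, eval_coeff_psiQ]
      exact coeff_eq_zero_of_natDegree_lt (by
        rw [hd]; exact Nat.mul_pos hq.out.pos (by omega)))
    obtain ⟨x, hx⟩ := IsAlgClosed.exists_root _
      (fun e => hd (natDegree_eq_of_degree_eq_some e) : ((legendre c).preΨ' q).degree ≠ 0)
    obtain ⟨y, hy⟩ := exists_nonsingular (legendre c) x
    exact Affine.Point.some_ne_zero hy (h _ ((nsmul_eq_zero_iff hy q).2 (by
      rw [hΨ, hx, zero_pow two_ne_zero])))
  · intro hc P hP
    by_contra hP0
    obtain ⟨x, y, hxy, rfl⟩ := exists_some_of_ne_zero hP0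
    have h1 := (nsmul_eq_zero_iff hxy q).1 hP
    rw [hΨ] at h1
    exact eval_hasse_ne_zero_of_root hq2 (eq_zero_of_pow_eq_zero h1)
      (by rw [heq, eval_mul, hc, mul_zero])

/-- The sextic of the fibre over `j`. -/
def fibrePoly (j : k) : k[X] := C 256 * (X ^ 2 - X + 1) ^ 3 - C j * (X ^ 2 * (X - 1) ^ 2)

/-- The fibre over `j`. -/
def fibre (j : k) : Finset k := (fibrePoly j).roots.toFinset

omit [IsAlgClosed k] in
theorem natDegree_fibrePoly (h5 : 5 ≤ q) (j : k) : (fibrePoly j).natDegree = 6 := by
  obtain ⟨-, -, h256, -, -⟩ := small_ne_zero (k := k) h5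
  refine natDegree_eq_of_le_of_coeff_ne_zero ?_ ?_
  · unfold fibrePoly; compute_degree
  · have e : fibrePoly j = C 256 * X ^ 6 + C (-768) * X ^ 5 + C (1536 - j) * X ^ 4 +
        C (2 * j - 1792) * X ^ 3 + C (1536 - j) * X ^ 2 + C (-768) * X + C 256 := by
      simp only [fibrePoly, map_sub, map_neg, map_mul, map_ofNat]; ring
    rw [e]
    simp only [coeff_add, coeff_C_mul, coeff_X, coeff_C]
    simpa using h256

omit [IsAlgClosed k] in
theorem mem_fibre (h5 : 5 ≤ q) {j c : k} :
    c ∈ fibre j ↔ c ≠ 0 ∧ c ≠ 1 ∧ jLegendre c = j := by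
  obtain ⟨-, -, h256, -, -⟩ := small_ne_zero (k := k) h5
  have h0 : fibrePoly j ≠ 0 := fun e => by
    have := natDegree_fibrePoly h5 j; rw [e, natDegree_zero] at this; omega
  rw [fibre, Multiset.mem_toFinset, mem_roots h0, IsRoot, fibrePoly]
  simp only [eval_sub, eval_mul, eval_C, eval_pow, eval_add, eval_X, eval_one]
  constructor
  · intro h
    have hc0 : c ≠ 0 := fun e => h256 (by subst e; linear_combination h)
    have hc1 : c ≠ 1 := fun e => h256 (by subst e; linear_combination h)
    refine ⟨hc0, hc1, ?_⟩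
    rw [jLegendre, div_eq_iff (mul_ne_zero (pow_ne_zero _ hc0) (pow_ne_zero _ (sub_ne_zero.2 hc1)))]
    linear_combination h
  · rintro ⟨hc0, hc1, h⟩
    rw [jLegendre, div_eq_iff (mul_ne_zero (pow_ne_zero _ hc0) (pow_ne_zero _ (sub_ne_zero.2 hc1)))]
      at h
    linear_combination h

theorem fibre_nonempty (h5 : 5 ≤ q) (j : k) : (fibre j).Nonempty := by
  have hd : (fibrePoly j).degree ≠ 0 := fun e => by
    have := natDegree_fibrePoly h5 j
    rw [natDegree_eq_zero_iff_degree_le_zero.2 e.le] at this
    omega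
  obtain ⟨c, hc⟩ := IsAlgClosed.exists_root _ hd
  have h0 : fibrePoly j ≠ 0 := fun e => by
    have := natDegree_fibrePoly h5 j; rw [e, natDegree_zero] at this; omega
  exact ⟨c, Multiset.mem_toFinset.2 ((mem_roots h0).2 hc)⟩

omit [CharP k q] [IsAlgClosed k] in
theorem jLegendre_one_sub (c : k) : jLegendre (1 - c) = jLegendre c := by
  simp only [jLegendre]; ring

omit [CharP k q] [IsAlgClosed k] in
theorem jLegendre_inv {c : k} (h0 : c ≠ 0) (h1 : c ≠ 1) : jLegendre (1 / c) = jLegendre c := by
  have hsub : c - 1 ≠ 0 := sub_ne_zero.2 h1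
  have hsub' : 1 - c ≠ 0 := sub_ne_zero.2 (Ne.symm h1)
  simp only [jLegendre]
  rw [show 1 / c - 1 = (1 - c) / c by field_simp, show (1 / c) ^ 2 - 1 / c + 1 = (c ^ 2 - c + 1) / c ^ 2 by
    field_simp; ring]
  field_simp
  ring

/-- **The fibres have `6` points, but `2` over `0` and `3` over `1728`.** -/
theorem card_fibre (h5 : 5 ≤ q) (j : k) :
    (fibre j).card = if j = 0 then 2 else if j = 1728 then 3 else 6 := by
  obtain ⟨h2, h3, h256, h64, h1728⟩ := small_ne_zero (k := k) h5
  split_ifs with e0 e1
  · subst e0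
    obtain ⟨w, hw⟩ : ∃ w : k, w ^ 2 = -3 := IsAlgClosed.exists_pow_nat_eq _ two_pos
    have hw0 : w ≠ 0 := fun e => h3 (by subst e; linear_combination hw)
    have hset : fibre (0 : k) = {(1 + w) / 2, (1 - w) / 2} := by
      ext c
      simp only [mem_fibre h5, Finset.mem_insert, Finset.mem_singleton, eq_div_iff h2]
      constructor
      · rintro ⟨hc0, hc1, h⟩
        rw [jLegendre, div_eq_zero_iff, or_iff_left
          (mul_ne_zero (pow_ne_zero _ hc0) (pow_ne_zero _ (sub_ne_zero.2 hc1))), mul_eq_zero,
          or_iff_right h256, pow_eq_zero_iff three_ne_zero] at h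
        have : (c * 2 - (1 + w)) * (c * 2 - (1 - w)) = 0 := by linear_combination 4 * h - hw
        exact (mul_eq_zero.1 this).imp sub_eq_zero.1 sub_eq_zero.1
      · intro h
        have h0 : c ^ 2 - c + 1 = 0 := mul_left_cancel₀ (pow_ne_zero 2 h2) (by
          rcases h with h | h
          · linear_combination (c * 2 - (1 - w)) * h + hw
          · linear_combination (c * 2 - (1 + w)) * h + hw)
        exact ⟨fun e => one_ne_zero (α := k) (by subst e; linear_combination h0),
          fun e => one_ne_zero (α := k) (by subst e; linear_combination h0),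
          by rw [jLegendre, h0]; simp⟩
    rw [hset, Finset.card_pair fun e => hw0 (mul_left_cancel₀ h2 (by
      field_simp at e; linear_combination e))]
  · subst e1
    have hset : fibre (1728 : k) = {-1, 2, 1 / 2} := by
      ext c
      simp only [mem_fibre h5, Finset.mem_insert, Finset.mem_singleton, eq_div_iff h2]
      constructor
      · rintro ⟨hc0, hc1, h⟩
        rw [jLegendre,
          div_eq_iff (mul_ne_zero (pow_ne_zero _ hc0) (pow_ne_zero _ (sub_ne_zero.2 hc1)))] at h
        have e : (64 : k) * ((c + 1) * (c - 2) * (2 * c - 1)) ^ 2 = 0 := by linear_combination h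
        rcases mul_eq_zero.1 ((pow_eq_zero_iff two_ne_zero).1
          ((mul_eq_zero.1 e).resolve_left h64)) with h' | h'
        · rcases mul_eq_zero.1 h' with h' | h'
          · exact Or.inl (by linear_combination h')
          · exact Or.inr (Or.inl (by linear_combination h'))
        · exact Or.inr (Or.inr (by linear_combination h'))
      · intro h
        have e : (c + 1) * (c - 2) * (2 * c - 1) = 0 := by
          rcases h with h | h | h
          · rw [h]; ring
          · rw [h]; ring
          · linear_combination (c + 1) * (c - 2) * h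
        have hc0 : c ≠ 0 := fun h0 => h2 (by subst h0; linear_combination e)
        have hc1 : c ≠ 1 := fun h0 => h2 (by subst h0; linear_combination -e)
        refine ⟨hc0, hc1, ?_⟩
        rw [jLegendre,
          div_eq_iff (mul_ne_zero (pow_ne_zero _ hc0) (pow_ne_zero _ (sub_ne_zero.2 hc1)))]
        linear_combination 64 * ((c + 1) * (c - 2) * (2 * c - 1)) * e
    rw [hset, Finset.card_insert_of_notMem, Finset.card_pair]
    · exact fun e => h3 (by field_simp at e; linear_combination e)
    · simp only [Finset.mem_insert, Finset.mem_singleton, not_or]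
      exact ⟨fun e => h3 (by linear_combination -e),
        fun e => h3 (by field_simp at e; linear_combination -e)⟩
  · refine le_antisymm ((Multiset.toFinset_card_le _).trans
      ((card_roots' _).trans (natDegree_fibrePoly h5 j).le)) ?_
    obtain ⟨c, hc⟩ := fibre_nonempty h5 j
    obtain ⟨hc0, hc1, hj⟩ := (mem_fibre h5).1 hc
    have hsub : c - 1 ≠ 0 := sub_ne_zero.2 hc1
    have hsub' : 1 - c ≠ 0 := sub_ne_zero.2 (Ne.symm hc1)
    have hA : c ^ 2 - c + 1 ≠ 0 := fun e => e0 (by rw [← hj, jLegendre, e]; simp)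
    have hB : (c + 1) * (c - 2) * (2 * c - 1) ≠ 0 := fun e => e1 (by
      rw [← hj, jLegendre, div_eq_iff (mul_ne_zero (pow_ne_zero _ hc0) (pow_ne_zero _ hsub))]
      linear_combination 64 * ((c + 1) * (c - 2) * (2 * c - 1)) * e)
    simp only [mul_ne_zero_iff] at hB
    obtain ⟨⟨hB1, hB2⟩, hB3⟩ := hB
    set s : Finset k := {c, 1 - c, 1 / c, 1 / (1 - c), (c - 1) / c, c / (c - 1)}
    have hs : s ⊆ fibre j := by
      intro x hx
      simp only [s, Finset.mem_insert, Finset.mem_singleton] at hx
      rw [mem_fibre h5, ← hj]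
      rcases hx with rfl | rfl | rfl | rfl | rfl | rfl
      · exact ⟨hc0, hc1, rfl⟩
      · refine ⟨hsub', fun e => hc0 (by linear_combination -e), ?_⟩
        simp only [jLegendre]; ring
      · exact ⟨one_div_ne_zero hc0, fun e => hc1 (by field_simp at e; linear_combination -e),
          jLegendre_inv hc0 hc1⟩
      · exact ⟨one_div_ne_zero hsub', fun e => hc0 (by field_simp at e; linear_combination e),
          (jLegendre_inv hsub' fun e => hc0 (by linear_combination -e)).trans (jLegendre_one_sub c)⟩
      · refine ⟨div_ne_zero hsub hc0, fun e => one_ne_zero (α := k)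
          (by field_simp at e; linear_combination -e), ?_⟩
        rw [show (c - 1) / c = 1 - 1 / c by field_simp, jLegendre_one_sub, jLegendre_inv hc0 hc1]
      · refine ⟨div_ne_zero hc0 hsub, fun e => one_ne_zero (α := k)
          (by field_simp at e; linear_combination e), ?_⟩
        rw [show c / (c - 1) = 1 / ((c - 1) / c) by rw [one_div_div], jLegendre_inv
          (div_ne_zero hsub hc0) fun e => one_ne_zero (α := k) (by
            field_simp at e; linear_combination -e),
          show (c - 1) / c = 1 - 1 / c by field_simp, jLegendre_one_sub, jLegendre_inv hc0 hc1]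
    refine le_trans (le_of_eq ?_) (Finset.card_le_card hs)
    simp only [s]
    rw [Finset.card_insert_of_notMem, Finset.card_insert_of_notMem, Finset.card_insert_of_notMem,
      Finset.card_insert_of_notMem, Finset.card_pair]
    all_goals simp only [Finset.mem_insert, Finset.mem_singleton, not_or, ne_eq]
    all_goals repeat' apply And.intro
    all_goals (intro e; field_simp at e)
    all_goals first
      | exact hB3 (by linear_combination e) | exact hB3 (by linear_combination -e)
      | exact hB2 (by linear_combination e) | exact hB2 (by linear_combination -e)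
      | exact hB1 (by linear_combination e) | exact hB1 (by linear_combination -e)
      | exact hA (by linear_combination e) | exact hA (by linear_combination -e)
      | exact mul_ne_zero hB1 hsub (by linear_combination e)
      | exact mul_ne_zero hB1 hsub (by linear_combination -e)
      | exact mul_ne_zero hc0 hB2 (by linear_combination e)

/-- Deuring's roots. -/
def ssRoots : Finset k := (hPoly ((q - 1) / 2) k).roots.toFinset

omit hq [CharP k q] [IsAlgClosed k] in
theorem hPoly_ne_zero' : hPoly ((q - 1) / 2) k ≠ 0 := fun e => by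
  have := congrArg (fun p : k[X] => p.eval 0) e
  simp only [eval_zero_hPoly, eval_zero] at this
  exact one_ne_zero this

/-- The invariants are those of the roots. -/
theorem ssInvariants_eq (h5 : 5 ≤ q) :
    ssInvariants k q = ↑((ssRoots (k := k) (q := q)).image jLegendre) := by
  obtain ⟨h2, -, -, -, -⟩ := small_ne_zero (k := k) h5
  have hqh : q = 2 * ((q - 1) / 2) + 1 := odd_half (by omega)
  ext j
  simp only [Finset.coe_image, Set.mem_image, Finset.mem_coe, ssRoots, Multiset.mem_toFinset,
    mem_roots hPoly_ne_zero', IsRoot, ssInvariants, Set.mem_ofPred_eq]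
  constructor
  · rintro ⟨W, _, rfl, hW⟩
    obtain ⟨c, hc⟩ := fibre_nonempty h5 W.j
    obtain ⟨hc0, hc1, hj⟩ := (mem_fibre h5).1 hc
    haveI := isElliptic_legendre h2 hc0 hc1
    obtain ⟨C, hC⟩ := exists_variableChange_of_j_eq W (legendre c)
      (((j_legendre h5).trans hj).symm)
    refine ⟨c, (legendre_supersingular_iff (c := c) h5).1 fun P hP => ?_, hj⟩
    have h := hW (FA.Frob.vcEquiv C hC P) (by rw [← map_nsmul, hP, map_zero])
    exact (map_eq_zero_iff _ (FA.Frob.vcEquiv C hC).injective).1 h
  · rintro ⟨c, hc, rfl⟩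
    have hc0 : c ≠ 0 := fun e => one_ne_zero (eval_zero_hPoly.symm.trans (e ▸ hc))
    have hc1 : c ≠ 1 := fun e => eval_one_hPoly_ne_zero hqh (e ▸ hc)
    haveI := isElliptic_legendre h2 hc0 hc1
    exact ⟨legendre c, inferInstance, j_legendre h5, (legendre_supersingular_iff (c := c) h5).2 hc⟩

/-- **The count, weighted by the fibres.** -/
theorem sum_card_fibre (h5 : 5 ≤ q) :
    ∑ j ∈ (ssRoots (k := k) (q := q)).image jLegendre, (fibre j).card = (q - 1) / 2 := by
  obtain ⟨h2, -, -, -, -⟩ := small_ne_zero (k := k) h5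
  have hqh : q = 2 * ((q - 1) / 2) + 1 := odd_half (by omega)
  conv_rhs => rw [← card_roots_hPoly (k := k) (h := (q - 1) / 2) hqh]
  rw [← ssRoots, Finset.card_eq_sum_card_image jLegendre (ssRoots (k := k) (q := q))]
  refine Finset.sum_congr rfl fun j hj => congrArg Finset.card ?_
  obtain ⟨W, hW1, hjW, hW⟩ := (ssInvariants_eq (k := k) h5).symm ▸ (Finset.mem_coe.2 hj)
  ext c
  simp only [Finset.mem_filter, ssRoots, Multiset.mem_toFinset, mem_roots hPoly_ne_zero', IsRoot,
    mem_fibre h5]
  constructor
  · rintro ⟨hc0, hc1, hjc⟩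
    haveI := isElliptic_legendre h2 hc0 hc1
    obtain ⟨C, hC⟩ := exists_variableChange_of_j_eq W (legendre c)
      (hjW.trans ((j_legendre h5).trans hjc).symm)
    refine ⟨(legendre_supersingular_iff (c := c) h5).1 fun P hP => ?_, hjc⟩
    have h := hW (FA.Frob.vcEquiv C hC P) (by rw [← map_nsmul, hP, map_zero])
    exact (map_eq_zero_iff _ (FA.Frob.vcEquiv C hC).injective).1 h
  · rintro ⟨hc, hjc⟩
    exact ⟨fun e => one_ne_zero (eval_zero_hPoly.symm.trans (e ▸ hc)),
      fun e => eval_one_hPoly_ne_zero hqh (e ▸ hc), hjc⟩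

/-- **Deuring and Igusa.** -/
theorem count (h5 : 5 ≤ q) :
    ((0 : k) ∈ ssInvariants k q ↔ q % 3 = 2) ∧ ((1728 : k) ∈ ssInvariants k q ↔ q % 4 = 3) ∧
      (ssInvariants k q).ncard =
        q / 12 + (if q % 3 = 2 then 1 else 0) + (if q % 4 = 3 then 1 else 0) ∧
      (ssInvariants k q).Finite := by
  obtain ⟨-, -, -, -, h1728⟩ := small_ne_zero (k := k) h5
  set J := (ssRoots (k := k) (q := q)).image jLegendre
  have hsum := sum_card_fibre (k := k) h5
  rw [Finset.sum_congr rfl fun j _ => card_fibre h5 j] at hsum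
  have key : (q - 1) / 2 + 4 * (if (0 : k) ∈ J then 1 else 0) +
      3 * (if (1728 : k) ∈ J then 1 else 0) = 6 * J.card := by
    rw [← hsum]
    have h : ∀ j : k, (if j = 0 then 2 else if j = 1728 then 3 else 6) +
        4 * (if j = 0 then 1 else 0) + 3 * (if j = 1728 then 1 else 0) = 6 := fun j => by
      split_ifs with a b <;> first | rfl | (exfalso; exact h1728 (b ▸ a))
    have := Finset.sum_congr (s₁ := J) rfl fun j _ => h j
    rw [Finset.sum_add_distrib, Finset.sum_add_distrib, ← Finset.mul_sum, ← Finset.mul_sum,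
      Finset.sum_ite_eq' J (0 : k), Finset.sum_ite_eq' J (1728 : k), Finset.sum_const,
      smul_eq_mul, mul_comm J.card] at this
    exact this
  have h12 : q % 12 = 1 ∨ q % 12 = 5 ∨ q % 12 = 7 ∨ q % 12 = 11 := by
    have h2 : q % 2 ≠ 0 := fun e => by
      have := (Nat.prime_dvd_prime_iff_eq Nat.prime_two hq.out).1 (Nat.dvd_of_mod_eq_zero e)
      omega
    have h3 : q % 3 ≠ 0 := fun e => by
      have := (Nat.prime_dvd_prime_iff_eq Nat.prime_three hq.out).1 (Nat.dvd_of_mod_eq_zero e)
      omega
    omega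
  rw [ssInvariants_eq h5, Set.ncard_coe_finset, Finset.mem_coe, Finset.mem_coe,
    show (ssRoots (k := k) (q := q)).image jLegendre = J from rfl]
  refine ⟨?_, ?_, ?_, Finset.finite_toSet _⟩ <;>
    by_cases a : (0 : k) ∈ J <;> by_cases b : (1728 : k) ∈ J <;>
    simp only [a, b, if_true, if_false, true_iff, false_iff] at key ⊢ <;>
    first | omega | (split_ifs <;> omega)

end FA.SupersingularCount

end
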