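import Fermat.Agent.Root.SummarySingularDifference
import Fermat.Agent.Root.SummaryBirchMoment
import Fermat.Agent.Root.SummarySupersingularPrimeField
import Fermat.Agent.Root.SummaryClassPolynomial
import Fermat.Agent.Tau.SplittingLaw

/-!
# Deuring: every trace in Hasse's interval

For `a² < 4 p` the form `(1, a, p)` of discriminant `a² - 4 p` represents `p`, so its class
polynomial has a root in `𝔽_p`. A curve with that invariant has trace `± a`, unless `4 p - a²` is a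
square or three times one; then the second moment over the quartic, resp. sextic, twists of
`y² = x³ + x`, resp. `y² = x³ + 1`, forces `a²` among their squares.
-/

set_option autoImplicit false
set_option linter.style.haveILetI false

noncomputable section

open WeierstrassCurve Polynomial
open scoped Classical UpperHalfPlane

namespace FA.DeuringExistence

open FA.BirchMoment

variable {p : ℕ} [hp : Fact p.Prime]

/-! ### Arithmetic -/

/-- Traces with discriminants of one square class. -/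
theorem trace_cases (h5 : 5 ≤ p) {a a' : ℤ} (ha : a ^ 2 < 4 * p)
    (h : IsSquare ((a ^ 2 - 4 * p) * (a' ^ 2 - 4 * p))) :
    a' ^ 2 = a ^ 2 ∨ a' ^ 2 = 4 * p - a ^ 2 ∨ ∃ s : ℤ, s ^ 2 = 3 * (4 * p - a ^ 2) ∧
      (4 * a' ^ 2 = (a + s) ^ 2 ∨ 4 * a' ^ 2 = (a - s) ^ 2) := by
  obtain ⟨x₀, hx₀⟩ := h
  have hpz : Prime (p : ℤ) := Nat.prime_iff_prime_int.1 hp.out
  have hp0 : (0 : ℤ) < p := by exact_mod_cast hp.out.pos
  obtain ⟨x, hx, hX⟩ : ∃ x : ℤ, x ^ 2 = (4 * p - a ^ 2) * (4 * p - a' ^ 2) ∧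
      (p : ℤ) ∣ a * a' + x := by
    have hd : (p : ℤ) ∣ (a * a' + x₀) * (a * a' - x₀) :=
      ⟨4 * (a ^ 2 + a' ^ 2 - 4 * p), by linear_combination hx₀⟩
    rcases hpz.dvd_or_dvd hd with h | h
    · exact ⟨x₀, by linear_combination -hx₀, h⟩
    · exact ⟨-x₀, by linear_combination -hx₀, by rwa [← sub_eq_add_neg]⟩
  have h2 : (2 : ℤ) ∣ a * a' + x := by
    have hd : (2 : ℤ) ∣ (x + a * a') * (x - a * a') :=
      ⟨2 * p * (4 * p - a ^ 2 - a' ^ 2), by linear_combination hx⟩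
    rcases Int.prime_two.dvd_or_dvd hd with h | h
    · rwa [add_comm]
    · obtain ⟨u, hu⟩ := h
      exact ⟨u + a * a', by linear_combination hu⟩
  have hco : IsCoprime (2 : ℤ) p := by
    rw [Int.isCoprime_iff_nat_coprime]
    exact (Nat.coprime_primes Nat.prime_two hp.out).2 (by omega)
  obtain ⟨j, hj⟩ := hco.mul_dvd h2 hX
  have hY : (a * x - a' * (4 * p - a ^ 2)) ^ 2 =
      4 * (p : ℤ) ^ 2 * (4 * p - a ^ 2) * (4 - j ^ 2) := by
    linear_combination (a ^ 2 + (4 * p - a ^ 2)) * hx -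
      (4 * p - a ^ 2) * (a * a' + x + 2 * p * j) * hj
  have hM : 0 < 4 * (p : ℤ) - a ^ 2 := by linarith
  have hj4 : j ^ 2 ≤ 4 := by
    by_contra hc
    nlinarith [sq_nonneg (a * x - a' * (4 * p - a ^ 2)), mul_pos (mul_pos
      (show (0 : ℤ) < 4 * p ^ 2 by positivity) hM) (show 0 < j ^ 2 - 4 by linarith)]
  have hpne : (4 * (p : ℤ)) ≠ 0 := by positivity
  have hb1 : -2 ≤ j := by nlinarith
  have hb2 : j ≤ 2 := by nlinarith
  rcases (show j = -2 ∨ j = -1 ∨ j = 0 ∨ j = 1 ∨ j = 2 by omega) with e | e | e | e | e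
  rotate_left 2
  · -- `X = 0`
    right; left
    rw [e, mul_zero] at hj
    refine mul_left_cancel₀ hpne ?_
    linear_combination hx - (x - a * a') * hj
  all_goals subst e
  · exact Or.inr (Or.inr ⟨2 * a' - a, mul_left_cancel₀ hpne (by
      linear_combination 4 * hx - (4 * (x - a * a' + 2 * p)) * hj), Or.inl (by ring)⟩)
  · -- `X = 4 p`
    left
    have h0 : a * x - a' * (4 * p - a ^ 2) = 0 := pow_eq_zero_iff two_ne_zero |>.1
      (by rw [hY]; ring)
    refine mul_left_cancel₀ (mul_ne_zero hpne hM.ne') ?_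
    linear_combination a ^ 2 * hx - (a * x + a' * (4 * p - a ^ 2)) * h0
  · left
    have h0 : a * x - a' * (4 * p - a ^ 2) = 0 := pow_eq_zero_iff two_ne_zero |>.1
      (by rw [hY]; ring)
    refine mul_left_cancel₀ (mul_ne_zero hpne hM.ne') ?_
    linear_combination a ^ 2 * hx - (a * x + a' * (4 * p - a ^ 2)) * h0
  · exact Or.inr (Or.inr ⟨2 * a' + a, mul_left_cancel₀ hpne (by
      linear_combination 4 * hx - (4 * (x - a * a' - 2 * p)) * hj), Or.inr (by ring)⟩)

/-- `M` and `3 M` are not both squares. -/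
theorem not_isSquare_three_mul {M : ℤ} (hM : M ≠ 0) {f s : ℤ} (hf : M = f * f)
    (hs : s ^ 2 = 3 * M) : False := by
  obtain ⟨w, rfl⟩ : f ∣ s := (Int.pow_dvd_pow_iff two_ne_zero).1 ⟨3, by rw [hs, hf]; ring⟩
  have hf0 : f ≠ 0 := fun e => hM (by rw [hf, e, mul_zero])
  have hw : w ^ 2 = 3 := mul_left_cancel₀ (pow_ne_zero 2 hf0)
    (by linear_combination hs + 3 * hf)
  have : -2 ≤ w := by nlinarith
  have : w ≤ 2 := by nlinarith
  interval_cases w <;> norm_num at hw

/-! ### Character sums -/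

/-- A shifted product of the quadratic character. -/
theorem sum_mul_shift (h5 : 5 ≤ p) (u v : ZMod p) :
    ∑ b : ZMod p, quadraticChar (ZMod p) (u + b) * quadraticChar (ZMod p) (v + b) =
      (p : ℤ) * (if u = v then 1 else 0) - 1 := by
  rw [← Fintype.sum_equiv (Equiv.addLeft (-u))
    (fun c => quadraticChar (ZMod p) c * quadraticChar (ZMod p) (c + (v - u))) _ (fun c => by
      simp only [Equiv.coe_addLeft]
      rw [show u + (-u + c) = c by ring, show v + (-u + c) = c + (v - u) by ring])]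
  set d := v - u with hd
  by_cases huv : u = v
  · rw [if_pos huv, mul_one, show d = 0 by rw [hd, huv, sub_self]]
    simp only [add_zero]
    rw [← Finset.add_sum_erase _ _ (Finset.mem_univ (0 : ZMod p)), quadraticChar_zero, mul_zero,
      zero_add, Finset.sum_congr rfl fun c hc => by
        rw [← sq, ← map_pow, quadraticChar_sq_one' (Finset.ne_of_mem_erase hc)],
      Finset.sum_const, Finset.card_erase_of_mem (Finset.mem_univ _), Finset.card_univ, ZMod.card,
      nsmul_eq_mul, mul_one, Nat.cast_sub hp.out.one_le, Nat.cast_one]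
  rw [if_neg huv, mul_zero, zero_sub]
  have hd0 : d ≠ 0 := sub_ne_zero.2 (Ne.symm huv)
  rw [← Finset.add_sum_erase _ _ (Finset.mem_univ (0 : ZMod p)), quadraticChar_zero, zero_mul,
    zero_add]
  calc ∑ c ∈ Finset.univ.erase (0 : ZMod p),
        quadraticChar (ZMod p) c * quadraticChar (ZMod p) (c + d)
      = ∑ e ∈ Finset.univ.erase (1 : ZMod p), quadraticChar (ZMod p) e := by
        refine Finset.sum_nbij' (fun c => 1 + d / c) (fun e => d / (e - 1)) ?_ ?_ ?_ ?_ ?_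
        · intro c hc
          have := Finset.ne_of_mem_erase hc
          exact Finset.mem_erase.2 ⟨by simp [hd0, this], Finset.mem_univ _⟩
        · intro e he
          have := Finset.ne_of_mem_erase he
          exact Finset.mem_erase.2 ⟨div_ne_zero hd0 (sub_ne_zero.2 this), Finset.mem_univ _⟩
        · intro c hc
          show d / (1 + d / c - 1) = c
          rw [add_sub_cancel_left, div_div_cancel₀ hd0]
        · intro e he
          have := sub_ne_zero.2 (Finset.ne_of_mem_erase he)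
          field_simp
          ring
        · intro c hc
          have hc0 := Finset.ne_of_mem_erase hc
          rw [← map_mul, show c * (c + d) = c ^ 2 * (1 + d / c) by field_simp, map_mul,
            quadraticChar_sq_one' hc0, one_mul]
    _ = -1 := by
        have h := quadraticChar_sum_zero (ringChar_ne_two (q := p) h5)
        rw [← Finset.add_sum_erase _ _ (Finset.mem_univ (1 : ZMod p)), map_one] at h
        linarith

theorem charSum_zero_zero (h5 : 5 ≤ p) : charSum (q := p) 0 0 = 0 := by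
  rw [charSum, ← quadraticChar_sum_zero (ringChar_ne_two (q := p) h5)]
  refine Finset.sum_congr rfl fun x _ => ?_
  rcases eq_or_ne x 0 with rfl | hx
  · simp
  · rw [zero_mul, add_zero, add_zero, show x ^ 3 = x ^ 2 * x by ring, map_mul,
      quadraticChar_sq_one' hx, one_mul]

/-- **The second moment of the quartic twists.** -/
theorem sum_quartic (h5 : 5 ≤ p) (hm1 : IsSquare (-1 : ZMod p)) :
    ∑ b ∈ Finset.univ.erase (0 : ZMod p), charSum b 0 ^ 2 = 2 * (p : ℤ) * ((p : ℤ) - 1) := by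
  set χ := quadraticChar (ZMod p)
  have h0 := Finset.add_sum_erase Finset.univ (fun b : ZMod p => charSum b 0 ^ 2)
    (Finset.mem_univ 0)
  rw [charSum_zero_zero h5, zero_pow two_ne_zero, zero_add] at h0
  rw [h0]
  have hχ1 : χ (-1) = 1 := (quadraticChar_one_iff_isSquare (by norm_num)).2 hm1
  have hinner : ∀ x : ZMod p,
      ∑ y : ZMod p, χ x * χ y * (if x ^ 2 = y ^ 2 then (1 : ℤ) else 0) =
        if x = 0 then 0 else 2 := fun x => by
    rcases eq_or_ne x 0 with rfl | hx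
    · simp [χ]
    rw [if_neg hx]
    have hne : x ≠ -x := fun e => hx (by
      have h2 : (2 : ZMod p) ≠ 0 := Ring.two_ne_zero (ringChar_ne_two h5)
      exact (mul_eq_zero.1 (show (2 : ZMod p) * x = 0 by linear_combination e)).resolve_left h2)
    calc ∑ y : ZMod p, χ x * χ y * (if x ^ 2 = y ^ 2 then (1 : ℤ) else 0)
        = ∑ y ∈ ({x, -x} : Finset (ZMod p)), χ x * χ y := by
          simp only [mul_ite, mul_one, mul_zero]
          rw [← Finset.sum_filter]
          congr 1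
          ext y
          simp only [Finset.mem_filter, Finset.mem_univ, true_and, Finset.mem_insert,
            Finset.mem_singleton, eq_comm (a := x ^ 2), sq_eq_sq_iff_eq_or_eq_neg]
      _ = 2 := by
          rw [Finset.sum_pair hne, show -x = -1 * x by ring, map_mul χ (-1), hχ1, one_mul, ← sq,
            ← map_pow, quadraticChar_sq_one' hx]
          norm_num
  calc ∑ b : ZMod p, charSum b 0 ^ 2
      = ∑ x : ZMod p, ∑ y : ZMod p, χ x * χ y * ∑ b : ZMod p, χ (x ^ 2 + b) * χ (y ^ 2 + b) := by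
        rw [Finset.sum_congr rfl fun b _ => show charSum b 0 ^ 2 = ∑ x : ZMod p, ∑ y : ZMod p,
          χ (x ^ 3 + b * x + 0) * χ (y ^ 3 + b * y + 0) by rw [charSum, sq, Finset.sum_mul_sum],
          Finset.sum_comm]
        refine Finset.sum_congr rfl fun x _ => ?_
        rw [Finset.sum_comm]
        refine Finset.sum_congr rfl fun y _ => ?_
        rw [Finset.mul_sum]
        refine Finset.sum_congr rfl fun b _ => ?_
        rw [show x ^ 3 + b * x + 0 = x * (x ^ 2 + b) by ring,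
          show y ^ 3 + b * y + 0 = y * (y ^ 2 + b) by ring, map_mul, map_mul]
        ring
    _ = (p : ℤ) * ∑ x : ZMod p, (if x = 0 then (0 : ℤ) else 2) -
        (∑ x : ZMod p, χ x) * ∑ y : ZMod p, χ y := by
        rw [Finset.mul_sum, Finset.sum_mul_sum, ← Finset.sum_sub_distrib]
        refine Finset.sum_congr rfl fun x _ => ?_
        rw [← hinner x, Finset.mul_sum, ← Finset.sum_sub_distrib]
        refine Finset.sum_congr rfl fun y _ => ?_
        rw [sum_mul_shift h5]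
        ring
    _ = 2 * (p : ℤ) * ((p : ℤ) - 1) := by
        rw [quadraticChar_sum_zero (ringChar_ne_two h5), zero_mul, sub_zero,
          ← Finset.add_sum_erase _ _ (Finset.mem_univ (0 : ZMod p)), if_pos rfl, zero_add,
          Finset.sum_congr rfl fun x hx => if_neg (Finset.ne_of_mem_erase hx), Finset.sum_const,
          Finset.card_erase_of_mem (Finset.mem_univ _), Finset.card_univ, ZMod.card, nsmul_eq_mul,
          Nat.cast_sub hp.out.one_le, Nat.cast_one]
        ring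

/-- **The second moment of the sextic twists.** -/
theorem sum_sextic (h5 : 5 ≤ p) {η : ZMod p} (hη : η ^ 2 = -3) :
    ∑ b ∈ Finset.univ.erase (0 : ZMod p), charSum 0 b ^ 2 = 2 * (p : ℤ) * ((p : ℤ) - 1) := by
  set χ := quadraticChar (ZMod p)
  have h0 := Finset.add_sum_erase Finset.univ (fun b : ZMod p => charSum 0 b ^ 2)
    (Finset.mem_univ 0)
  rw [charSum_zero_zero h5, zero_pow two_ne_zero, zero_add] at h0
  rw [h0]
  have h2 : (2 : ZMod p) ≠ 0 := Ring.two_ne_zero (ringChar_ne_two h5)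
  have h3 : (3 : ZMod p) ≠ 0 := by
    exact_mod_cast natCast_ne_zero_of_five (q := p) h5 three_pos (by norm_num : 3 < 5)
  obtain ⟨w, hw⟩ : ∃ w, 2 * w = η - 1 := ⟨(η - 1) / 2, mul_div_cancel₀ _ h2⟩
  have hw2 : w ^ 2 + w + 1 = 0 := mul_left_cancel₀ (pow_ne_zero 2 h2)
    (by linear_combination (2 * w + η + 1) * hw + hη)
  have hw1 : w ≠ 1 := fun e => h3 (by linear_combination hw2 - (w + 2) * e)
  have hinner : ∀ x : ZMod p, ∑ y : ZMod p, (if x ^ 3 = y ^ 3 then (1 : ℤ) else 0) =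
      if x = 0 then 1 else 3 := fun x => by
    rw [Finset.sum_boole]
    rcases eq_or_ne x 0 with rfl | hx
    · rw [if_pos rfl, show (Finset.univ.filter fun y : ZMod p => (0 : ZMod p) ^ 3 = y ^ 3) = {0} by
        ext y; simp [eq_comm (a := (0 : ZMod p))]]
      simp
    rw [if_neg hx, show (Finset.univ.filter fun y : ZMod p => x ^ 3 = y ^ 3) = {x, w * x, w ^ 2 * x}
      by
        ext y
        simp only [Finset.mem_filter, Finset.mem_univ, true_and, Finset.mem_insert,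
          Finset.mem_singleton]
        constructor
        · intro h
          have hf : (y - x) * ((y - w * x) * (y - w ^ 2 * x)) = 0 := by
            linear_combination -h + ((y - x) * (-(y * x) + (w - 1) * x ^ 2)) * hw2
          rcases mul_eq_zero.1 hf with h | h
          · exact Or.inl (sub_eq_zero.1 h)
          · rcases mul_eq_zero.1 h with h | h
            · exact Or.inr (Or.inl (sub_eq_zero.1 h))
            · exact Or.inr (Or.inr (sub_eq_zero.1 h))
        · rintro (rfl | rfl | rfl)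
          · rfl
          · linear_combination -((w - 1) * x ^ 3) * hw2
          · linear_combination -((w - 1) * (w ^ 3 + 1) * x ^ 3) * hw2]
    have hw0 : w ≠ 0 := fun e => one_ne_zero (α := ZMod p) (by linear_combination hw2 - (w + 1) * e)
    have hw21 : w ^ 2 ≠ 1 := fun e => h3 (by linear_combination e - (w - 2) * (hw2 - e))
    rw [Finset.card_insert_of_notMem (by
        simp only [Finset.mem_insert, Finset.mem_singleton, not_or]
        exact ⟨fun e => hw1 (mul_right_cancel₀ hx (e.symm.trans (one_mul x).symm)),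
          fun e => hw21 (mul_right_cancel₀ hx (e.symm.trans (one_mul x).symm))⟩),
      Finset.card_pair fun e => hw1 (by
        have := mul_right_cancel₀ hx e
        exact mul_left_cancel₀ hw0 (by linear_combination -this))]
    norm_num
  calc ∑ b : ZMod p, charSum 0 b ^ 2
      = ∑ x : ZMod p, ∑ y : ZMod p, ∑ b : ZMod p, χ (x ^ 3 + b) * χ (y ^ 3 + b) := by
        simp only [charSum, zero_mul, add_zero, sq (∑ _ : ZMod p, _), Finset.sum_mul_sum]
        rw [Finset.sum_comm]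
        exact Finset.sum_congr rfl fun x _ => Finset.sum_comm
    _ = (p : ℤ) * ∑ x : ZMod p, (if x = 0 then (1 : ℤ) else 3) - (p : ℤ) * p := by
        simp only [χ, sum_mul_shift h5, Finset.sum_sub_distrib, ← Finset.mul_sum, hinner,
          Finset.sum_const, Finset.card_univ, ZMod.card, nsmul_eq_mul, mul_one]
    _ = 2 * (p : ℤ) * ((p : ℤ) - 1) := by
        rw [← Finset.add_sum_erase _ _ (Finset.mem_univ (0 : ZMod p)), if_pos rfl,
          Finset.sum_congr rfl fun x hx => if_neg (Finset.ne_of_mem_erase hx), Finset.sum_const,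
          Finset.card_erase_of_mem (Finset.mem_univ _), Finset.card_univ, ZMod.card, nsmul_eq_mul,
          Nat.cast_sub hp.out.one_le, Nat.cast_one]
        ring

/-- Scaling twists a character sum. -/
theorem charSum_scale {d : ZMod p} (hd : d ≠ 0) (a b : ZMod p) :
    charSum (a * d ^ 2) (b * d ^ 3) = quadraticChar (ZMod p) d * charSum a b := by
  rw [charSum, charSum, Finset.mul_sum, ← Fintype.sum_equiv (Equiv.mulLeft₀ d hd)]
  intro x
  simp only [Equiv.mulLeft₀_apply]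
  rw [show (d * x) ^ 3 + a * d ^ 2 * (d * x) + b * d ^ 3 =
    d ^ 2 * (d * (x ^ 3 + a * x + b)) by ring, map_mul, quadraticChar_sq_one' hd, one_mul, map_mul]

/-- The square of the trace determines a twist with either sign, with the same invariant. -/
theorem exists_signed (h5 : 5 ≤ p) {a : ℤ} {A B r : ZMod p} (h : 4 * A ^ 3 + 27 * B ^ 2 ≠ 0)
    (hr : 1728 * (4 * A ^ 3) = r * (4 * A ^ 3 + 27 * B ^ 2))
    (ht : (shortMod A B).traceOfFrobenius ^ 2 = a ^ 2) :
    ∃ A B : ZMod p, 4 * A ^ 3 + 27 * B ^ 2 ≠ 0 ∧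
      1728 * (4 * A ^ 3) = r * (4 * A ^ 3 + 27 * B ^ 2) ∧ (shortMod A B).traceOfFrobenius = a := by
  rcases sq_eq_sq_iff_eq_or_eq_neg.1 ht with h' | h'
  · exact ⟨A, B, h, hr, h'⟩
  obtain ⟨d, hd⟩ := FiniteField.exists_nonsquare (ringChar_ne_two (q := p) h5)
  have hd0 : d ≠ 0 := fun e => hd (e ▸ IsSquare.zero)
  have h2 : 4 * (A * d ^ 2) ^ 3 + 27 * (B * d ^ 3) ^ 2 ≠ 0 := by
    rw [show 4 * (A * d ^ 2) ^ 3 + 27 * (B * d ^ 3) ^ 2 = d ^ 6 * (4 * A ^ 3 + 27 * B ^ 2) by ring]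
    exact mul_ne_zero (pow_ne_zero _ hd0) h
  refine ⟨_, _, h2, by linear_combination d ^ 6 * hr, ?_⟩
  rw [traceOfFrobenius_eq h5 h2, charSum_scale hd0, quadraticChar_neg_one_iff_not_isSquare.2 hd]
  rw [traceOfFrobenius_eq h5 h] at h'
  linarith

/-- A function of units invariant under cubes sums to a third of three of its values. -/
theorem three_mul_sum {G : Type*} [CommGroup G] [Fintype G] [IsCyclic G] (F : G → ℤ)
    (hF : ∀ b c : G, F (b * c ^ 3) = F b) :
    ∃ u v w : G, 3 * ∑ b, F b = (Fintype.card G : ℤ) * (F u + F v + F w) := by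
  obtain ⟨g, hg⟩ := IsCyclic.exists_generator (α := G)
  set S : G → ℤ := fun b => F b + F (b * g) + F (b * g ^ 2) with hS
  have hSg : ∀ b, S (b * g) = S b := fun b => by
    have e : F (b * g * g ^ 2) = F b := by rw [mul_assoc, ← pow_succ', hF]
    simp only [hS]
    rw [e, show b * g * g = b * g ^ 2 by rw [mul_assoc, sq]]
    ring
  have hSc : ∀ b, S b = S 1 := fun b => by
    obtain ⟨n, rfl⟩ := mem_powers_iff_mem_zpowers.2 (hg b)
    induction n with
    | zero => simp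
    | succ n ih =>
      show S (g ^ (n + 1)) = S 1
      rw [pow_succ, hSg]
      exact ih
  refine ⟨1, g, g ^ 2, ?_⟩
  have h1 : ∀ c : G, ∑ b, F (b * c) = ∑ b, F b := fun c =>
    Fintype.sum_equiv (Equiv.mulRight c) _ _ fun b => rfl
  calc 3 * ∑ b, F b = ∑ b, S b := by
        simp only [hS, Finset.sum_add_distrib, h1]
        ring
    _ = _ := by
        rw [Finset.sum_congr rfl fun b _ => hSc b, Finset.sum_const, Finset.card_univ, nsmul_eq_mul]
        simp only [hS, one_mul]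

/-! ### Curves -/

/-- A short equation with given invariant. -/
theorem exists_short_j (h5 : 5 ≤ p) (r : ZMod p) : ∃ A B : ZMod p, 4 * A ^ 3 + 27 * B ^ 2 ≠ 0 ∧
    1728 * (4 * A ^ 3) = r * (4 * A ^ 3 + 27 * B ^ 2) := by
  have h2 : (2 : ZMod p) ≠ 0 := Ring.two_ne_zero (ringChar_ne_two h5)
  have h3 : (3 : ZMod p) ≠ 0 := by
    exact_mod_cast natCast_ne_zero_of_five (q := p) h5 three_pos (by norm_num : 3 < 5)
  by_cases hr : r = 0
  · refine ⟨0, 1, ?_, by rw [hr]; ring⟩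
    rw [show 4 * (0 : ZMod p) ^ 3 + 27 * 1 ^ 2 = 3 ^ 3 by ring]
    exact pow_ne_zero _ h3
  by_cases hk : r = 1728
  · refine ⟨1, 0, ?_, by rw [hk]; ring⟩
    rw [show 4 * (1 : ZMod p) ^ 3 + 27 * 0 ^ 2 = 2 ^ 2 by ring]
    exact pow_ne_zero _ h2
  refine ⟨3 * r * (1728 - r), 2 * r * (1728 - r) ^ 2, ?_, by ring⟩
  rw [show 4 * (3 * r * (1728 - r)) ^ 3 + 27 * (2 * r * (1728 - r) ^ 2) ^ 2 =
    2 ^ 8 * 3 ^ 6 * r ^ 2 * (1728 - r) ^ 3 by ring]
  exact mul_ne_zero (mul_ne_zero (mul_ne_zero (pow_ne_zero _ h2) (pow_ne_zero _ h3))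
    (pow_ne_zero _ hr)) (pow_ne_zero _ (sub_ne_zero.2 (Ne.symm hk)))

theorem shortMod_j (h5 : 5 ≤ p) {A B r : ZMod p} (h : 4 * A ^ 3 + 27 * B ^ 2 ≠ 0)
    (hr : 1728 * (4 * A ^ 3) = r * (4 * A ^ 3 + 27 * B ^ 2)) [(shortMod A B).IsElliptic] :
    (shortMod A B).j = r := by
  rw [WeierstrassCurve.j, Units.val_inv_eq_inv_val, WeierstrassCurve.coe_Δ', inv_mul_eq_div,
    div_eq_iff (shortMod_Δ_ne_zero h5 h), shortMod_Δ]
  simp only [c₄, b₂, b₄]
  linear_combination (-16 : ZMod p) * hr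

/-- The invariant of the class polynomial of `(1, B, C)` modulo a represented prime. -/
theorem exists_root_of_represented {D B C x y : ℤ} (hD : D < 0) (hBC : B ^ 2 - 4 * C = D)
    (hrep : (p : ℤ) = x ^ 2 + B * x * y + C * y ^ 2) :
    ∃ H : ℤ[X], H.Monic ∧ (∀ z : ℂ, aeval z H = 0 → ∃ (a b c : ℤ) (τ : ℍ), 0 < a ∧
      b ^ 2 - 4 * a * c = D ∧ Int.gcd (Int.gcd a b) c = 1 ∧
      (a : ℂ) * (τ : ℂ) ^ 2 + b * (τ : ℂ) + c = 0 ∧ FA.ModField.jfun τ = z) ∧
      ∃ r : ZMod p, (H.map (Int.castRingHom (ZMod p))).IsRoot r := by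
  have hd : B ^ 2 - 4 * 1 * C = D := by rw [mul_one]; exact hBC
  have hg : Int.gcd (Int.gcd 1 B) C = 1 := by simp
  obtain ⟨H, hH, -, -, hroots⟩ := FA.Summary.classPolynomial hD ⟨1, B, C, one_pos, hd, hg⟩
  obtain ⟨τ, hτ⟩ := FA.Singular.exists_isRoot (t := (1, B, C)) one_pos (hd.trans_lt hD)
  have hu : FA.ModField.jfun τ ∈ FA.Singular.values D := by
    have := FA.Singular.jfun_mem_values (t := (1, B, C)) one_pos (hd.trans_lt hD) hg hτ
    rwa [show FA.Singular.disc (1, B, C) = D from hd] at this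
  have hHu : aeval (FA.ModField.jfun τ) H = 0 :=
    (hroots _).2 ⟨1, B, C, τ, one_pos, hd, hg, hτ, rfl⟩
  refine ⟨H, hH, fun z hz => (hroots z).1 hz, ?_⟩
  obtain ⟨m, hm, hpm⟩ := FA.Singular.exists_maximal_over hp.out
  let := Ideal.Quotient.field m
  set π := Ideal.Quotient.mk m with hπ
  haveI : CharP (FA.Kronecker.AlgInt ⧸ m) p := by
    refine CharP.congr (ringChar (FA.Kronecker.AlgInt ⧸ m)) (h := ?_)
    refine CharP.ringChar_of_prime_eq_zero hp.out ?_
    rw [← map_natCast π, hπ, Ideal.Quotient.eq_zero_iff_mem]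
    exact_mod_cast hpm
  set φ := ZMod.castHom (dvd_refl p) (FA.Kronecker.AlgInt ⧸ m)
  set v : FA.Singular.values D := ⟨_, hu⟩
  have hfix := FA.Singular.pow_eq_of_represented π hp.out hD hBC hrep v
  rw [← Subfield.mem_bot_iff_pow_eq_self (FA.Kronecker.AlgInt ⧸ m) p,
    ← ZMod.fieldRange_castHom_eq_bot p] at hfix
  obtain ⟨r, hr⟩ := hfix
  refine ⟨r, Polynomial.IsRoot.of_map (f := φ) ?_ φ.injective⟩
  rw [Polynomial.map_map, RingHom.ext_int (φ.comp (Int.castRingHom (ZMod p)))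
    (π.comp (Int.castRingHom FA.Kronecker.AlgInt)), IsRoot.def, eval_map,
    show φ r = π (FA.Singular.valInt hD v) from hr, ← hom_eval₂]
  refine (congrArg π (Subtype.ext ?_)).trans (map_zero π)
  show FA.Kronecker.incl (eval₂ (Int.castRingHom FA.Kronecker.AlgInt) _ H) = 0
  rw [hom_eval₂, show FA.Kronecker.incl.comp (Int.castRingHom FA.Kronecker.AlgInt) = algebraMap ℤ ℂ
    from RingHom.ext_int _ _, ← aeval_def]
  exact hHu

/-- The discriminants of the traces of the reductions of a singular modulus have one class. -/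
theorem trace_rel (h5 : 5 ≤ p) {D : ℤ} (hs : IsSquare (D : ℚ_[p])) (hD0 : D ≠ 0) {H : ℤ[X]}
    (hH : H.Monic)
    (hroots : ∀ z : ℂ, aeval z H = 0 → ∃ (a b c : ℤ) (τ : ℍ), 0 < a ∧
      b ^ 2 - 4 * a * c = D ∧ Int.gcd (Int.gcd a b) c = 1 ∧
      (a : ℂ) * (τ : ℂ) ^ 2 + b * (τ : ℂ) + c = 0 ∧ FA.ModField.jfun τ = z)
    {A B r : ZMod p} (h : 4 * A ^ 3 + 27 * B ^ 2 ≠ 0)
    (hr : 1728 * (4 * A ^ 3) = r * (4 * A ^ 3 + 27 * B ^ 2))
    (hroot : (H.map (Int.castRingHom (ZMod p))).IsRoot r) :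
    (shortMod A B).traceOfFrobenius ^ 2 < 4 * (p : ℤ) ∧
      IsSquare (D * ((shortMod A B).traceOfFrobenius ^ 2 - 4 * (p : ℤ))) := by
  haveI : (shortMod A B).IsElliptic := ⟨(shortMod_Δ_ne_zero h5 h).isUnit⟩
  rw [← shortMod_j h5 h hr] at hroot
  have h' := FA.Summary.deuring_reduction_field h5 hs hD0 hH hroots _ hroot
  have e : (shortMod A B).traceOfFrobenius =
      (p : ℤ) + 1 - Nat.card (shortMod A B).toAffine.Point := by
    rw [WeierstrassCurve.traceOfFrobenius, WeierstrassCurve.card, Nat.card_zmod]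
  rw [ZMod.card, ← e] at h'
  exact ⟨lt_of_le_of_ne (FA.HasseBound.traceOfFrobenius_sq_le _) fun e' => h'.1 (by rw [e', sub_self]),
    h'.2⟩

/-- A supersingular class polynomial root gives trace zero. -/
theorem trace_zero_of_root (h5 : 5 ≤ p) {D : ℤ} (hs : ¬ IsSquare (D : ℚ_[p])) {H : ℤ[X]}
    (hH : H.Monic)
    (hroots : ∀ z : ℂ, aeval z H = 0 → ∃ (a b c : ℤ) (τ : ℍ), 0 < a ∧
      b ^ 2 - 4 * a * c = D ∧ Int.gcd (Int.gcd a b) c = 1 ∧
      (a : ℂ) * (τ : ℂ) ^ 2 + b * (τ : ℂ) + c = 0 ∧ FA.ModField.jfun τ = z)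
    {A B r : ZMod p} (h : 4 * A ^ 3 + 27 * B ^ 2 ≠ 0)
    (hr : 1728 * (4 * A ^ 3) = r * (4 * A ^ 3 + 27 * B ^ 2))
    (hroot : (H.map (Int.castRingHom (ZMod p))).IsRoot r) :
    (shortMod A B).traceOfFrobenius = 0 := by
  haveI : (shortMod A B).IsElliptic := ⟨(shortMod_Δ_ne_zero h5 h).isUnit⟩
  rw [← shortMod_j h5 h hr] at hroot
  rw [FA.Summary.trace_eq_zero_iff_supersingular_j h5]
  refine ⟨(shortMod A B).map (algebraMap (ZMod p) (AlgebraicClosure (ZMod p))), inferInstance,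
    WeierstrassCurve.map_j _ _,
    (FA.Summary.singularModulus_supersingular h5 hs hH hroots _ ?_).1⟩
  rw [WeierstrassCurve.map_j, show Int.castRingHom (AlgebraicClosure (ZMod p)) =
    (algebraMap (ZMod p) (AlgebraicClosure (ZMod p))).comp (Int.castRingHom (ZMod p)) from
      RingHom.ext_int _ _, ← Polynomial.map_map]
  exact hroot.map

omit hp in
/-- A nonzero integer in Hasse's interval is prime to `p`. -/
theorem not_dvd_of_sq_lt (h5 : 5 ≤ p) {a : ℤ} (hlt : a ^ 2 < 4 * p) (ha0 : a ≠ 0) :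
    ¬ (p : ℤ) ∣ a := fun h => by
  have hp5 : (5 : ℤ) ≤ p := by exact_mod_cast h5
  obtain ⟨c, rfl⟩ := h
  have : c ≠ 0 := fun e => ha0 (by rw [e, mul_zero])
  have h1 : (1 : ℤ) ≤ c ^ 2 := one_le_sq_iff_one_le_abs c |>.2 (Int.one_le_abs this)
  nlinarith [mul_le_mul_of_nonneg_left h1 (sq_nonneg (p : ℤ))]

/-- **Quartic twists**: if `4 p - a²` is a square some `y² = x³ + b x` has trace `a`. -/
theorem exists_quartic (h5 : 5 ≤ p) {a : ℤ} (hlt : a ^ 2 < 4 * p) (hpa : ¬ (p : ℤ) ∣ a) {f : ℤ}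
    (hMf : 4 * (p : ℤ) - a ^ 2 = f * f) :
    ∃ A B : ZMod p, 4 * A ^ 3 + 27 * B ^ 2 ≠ 0 ∧
      1728 * (4 * A ^ 3) = 1728 * (4 * A ^ 3 + 27 * B ^ 2) ∧
      (shortMod A B).traceOfFrobenius = a := by
  have hpz : Prime (p : ℤ) := Nat.prime_iff_prime_int.1 hp.out
  have hp5 : (5 : ℤ) ≤ p := by exact_mod_cast h5
  set M : ℤ := 4 * p - a ^ 2 with hM
  have hM0 : M ≠ 0 := by omega
  have hane : (a : ZMod p) ≠ 0 := by rwa [Ne, ZMod.intCast_zmod_eq_zero_iff_dvd]
  have hm1 : IsSquare (-1 : ZMod p) := ⟨(f : ZMod p) / a, by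
    field_simp
    have := congrArg (fun i : ℤ => (i : ZMod p)) hMf
    simp only [hM] at this
    push_cast at this
    rw [ZMod.natCast_self, mul_zero, zero_sub] at this
    linear_combination this⟩
  have hs : IsSquare ((-4 : ℤ) : ℚ_[p]) := FA.CMField.isSquare_padic_of_zmod (by omega)
    (fun h => by have := Int.le_of_dvd (by norm_num) (Int.dvd_neg.1 h); omega) (by
      obtain ⟨i, hi⟩ := hm1
      exact ⟨2 * i, by push_cast; linear_combination 4 * hi⟩)
  have hb : ∀ b : ZMod p, b ≠ 0 → 4 * b ^ 3 + 27 * (0 : ZMod p) ^ 2 ≠ 0 := fun b hb => by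
    rw [zero_pow two_ne_zero, mul_zero, add_zero]
    have h4 : (4 : ZMod p) ≠ 0 := by
      exact_mod_cast natCast_ne_zero_of_five (q := p) h5 (k := 4) (by norm_num) (by norm_num)
    exact mul_ne_zero h4 (pow_ne_zero _ hb)
  by_contra hno
  have hall : ∀ b ∈ Finset.univ.erase (0 : ZMod p), charSum b 0 ^ 2 = M := fun b hbm => by
    have hb' := hb b (Finset.ne_of_mem_erase hbm)
    obtain ⟨hl, hq⟩ := trace_rel h5 hs (by norm_num) (monic_X_sub_C _)
      FA.Summary.classPolynomial_three_four.2 hb' (r := 1728) (by ring) (by simp)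
    rw [← neg_sq, ← traceOfFrobenius_eq h5 hb']
    have hsq' : IsSquare ((a ^ 2 - 4 * p) *
        ((shortMod b 0).traceOfFrobenius ^ 2 - 4 * (p : ℤ))) := by
      obtain ⟨z, hz⟩ := hq
      obtain ⟨w, rfl⟩ : (2 : ℤ) ∣ z := Int.prime_two.dvd_of_dvd_pow (n := 2)
        ⟨-2 * ((shortMod b 0).traceOfFrobenius ^ 2 - 4 * (p : ℤ)), by rw [sq, ← hz]; ring⟩
      have hT : (shortMod b 0).traceOfFrobenius ^ 2 - 4 * (p : ℤ) = -(w * w) := by linarith
      refine ⟨f * w, ?_⟩
      linear_combination -((shortMod b 0).traceOfFrobenius ^ 2 - 4 * (p : ℤ)) * hMf +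
        ((shortMod b 0).traceOfFrobenius ^ 2 - 4 * (p : ℤ)) * hM - (f * f) * hT
    rcases trace_cases h5 hlt hsq' with h | h | ⟨s, hs, -⟩
    · exact absurd (exists_signed h5 hb' (r := 1728) (by ring) h) hno
    · exact h
    · exact (not_isSquare_three_mul hM0 hMf hs).elim
  have hsum := sum_quartic h5 hm1
  rw [Finset.sum_congr rfl hall, Finset.sum_const, Finset.card_erase_of_mem (Finset.mem_univ _),
    Finset.card_univ, ZMod.card, nsmul_eq_mul, Nat.cast_sub hp.out.one_le, Nat.cast_one,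
    mul_comm] at hsum
  have h2p : M = 2 * p := mul_right_cancel₀ (show (p : ℤ) - 1 ≠ 0 by omega) hsum
  exact hpa (hpz.dvd_of_dvd_pow (n := 2) ⟨2, by linarith⟩)

/-- **Sextic twists**: if `3 (4 p - a²)` is a square some `y² = x³ + b` has trace `a`. -/
theorem exists_sextic (h5 : 5 ≤ p) {a : ℤ} (hlt : a ^ 2 < 4 * p) (hpa : ¬ (p : ℤ) ∣ a) {s₀ : ℤ}
    (hs₀ : s₀ ^ 2 = 3 * (4 * (p : ℤ) - a ^ 2)) :
    ∃ A B : ZMod p, 4 * A ^ 3 + 27 * B ^ 2 ≠ 0 ∧
      1728 * (4 * A ^ 3) = 0 * (4 * A ^ 3 + 27 * B ^ 2) ∧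
      (shortMod A B).traceOfFrobenius = a := by
  have hpz : Prime (p : ℤ) := Nat.prime_iff_prime_int.1 hp.out
  have hp5 : (5 : ℤ) ≤ p := by exact_mod_cast h5
  set M : ℤ := 4 * p - a ^ 2 with hM
  have hM0 : M ≠ 0 := by omega
  have hane : (a : ZMod p) ≠ 0 := by rwa [Ne, ZMod.intCast_zmod_eq_zero_iff_dvd]
  obtain ⟨η, hη⟩ : ∃ η : ZMod p, η ^ 2 = -3 := ⟨(s₀ : ZMod p) / a, by
    field_simp
    have := congrArg (fun i : ℤ => (i : ZMod p)) hs₀
    simp only [hM] at this
    push_cast at this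
    rw [ZMod.natCast_self, mul_zero, zero_sub] at this
    linear_combination this⟩
  have hs : IsSquare ((-3 : ℤ) : ℚ_[p]) := FA.CMField.isSquare_padic_of_zmod (by omega)
    (fun h => by have := Int.le_of_dvd (by norm_num) (Int.dvd_neg.1 h); omega)
    ⟨η, by push_cast; rw [← hη, sq]⟩
  have hb : ∀ b : ZMod p, b ≠ 0 → 4 * (0 : ZMod p) ^ 3 + 27 * b ^ 2 ≠ 0 := fun b hb => by
    rw [zero_pow three_ne_zero, mul_zero, zero_add, show (27 : ZMod p) = 3 ^ 3 by norm_num]
    exact mul_ne_zero (pow_ne_zero _ (by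
      exact_mod_cast natCast_ne_zero_of_five (q := p) h5 three_pos (by norm_num : 3 < 5)))
      (pow_ne_zero _ hb)
  by_contra hno
  have hall : ∀ b : (ZMod p)ˣ, charSum 0 (b : ZMod p) ^ 2 ≠ a ^ 2 ∧
      (4 * charSum 0 (b : ZMod p) ^ 2 = (a + s₀) ^ 2 ∨
        4 * charSum 0 (b : ZMod p) ^ 2 = (a - s₀) ^ 2) := fun b => by
    have hb' := hb b b.ne_zero
    obtain ⟨hl, hq⟩ := trace_rel h5 hs (by norm_num) monic_X
      FA.Summary.classPolynomial_three_four.1 hb' (r := 0) (by ring) (by simp)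
    rw [← neg_sq (charSum _ _), ← traceOfFrobenius_eq h5 hb']
    refine ⟨fun h => hno (exists_signed h5 hb' (r := 0) (by ring) h), ?_⟩
    set t := (shortMod 0 (b : ZMod p)).traceOfFrobenius
    have hsq' : IsSquare ((a ^ 2 - 4 * p) * (t ^ 2 - 4 * (p : ℤ))) := by
      obtain ⟨z, hz⟩ := hq
      obtain ⟨w, rfl⟩ : (3 : ℤ) ∣ z := (show Prime (3 : ℤ) from Int.prime_three).dvd_of_dvd_pow
        (n := 2) ⟨-(t ^ 2 - 4 * (p : ℤ)), by rw [sq, ← hz]; ring⟩
      have hT : t ^ 2 - 4 * (p : ℤ) = -(3 * (w * w)) := by linarith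
      refine ⟨s₀ * w, ?_⟩
      linear_combination -(4 * (p : ℤ) - a ^ 2) * hT - (w * w) * hs₀
    rcases trace_cases h5 hlt hsq' with h | h | ⟨s, hs, h'⟩
    · exact absurd (exists_signed h5 hb' (r := 0) (by ring) h) hno
    · exact (not_isSquare_three_mul hM0 (by rw [hM, ← sq, h]) hs₀).elim
    · rcases sq_eq_sq_iff_eq_or_eq_neg.1 (hs.trans hs₀.symm) with e | e <;> rw [e] at h'
      · exact h'
      · rw [← sub_eq_add_neg, sub_neg_eq_add] at h'; exact h'.symm
  have hinv : ∀ b c : (ZMod p)ˣ, charSum 0 ((b * c ^ 3 : (ZMod p)ˣ) : ZMod p) ^ 2 =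
      charSum 0 (b : ZMod p) ^ 2 := fun b c => by
    have h := charSum_scale c.ne_zero 0 (b : ZMod p)
    rw [zero_mul] at h
    rw [Units.val_mul, Units.val_pow_eq_pow_val, h, mul_pow, ← map_pow,
      quadraticChar_sq_one' c.ne_zero, one_mul]
  obtain ⟨u, v, w, huvw⟩ := three_mul_sum (G := (ZMod p)ˣ)
    (fun b => charSum 0 (b : ZMod p) ^ 2) hinv
  have hsum := sum_sextic h5 hη
  rw [show ∑ b ∈ Finset.univ.erase (0 : ZMod p), charSum 0 b ^ 2 =
      ∑ b : (ZMod p)ˣ, charSum 0 (b : ZMod p) ^ 2 from Finset.sum_bij'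
        (fun b hb => Units.mk0 b (Finset.ne_of_mem_erase hb)) (fun b _ => (b : ZMod p))
        (fun b _ => Finset.mem_univ _)
        (fun b _ => Finset.mem_erase.2 ⟨b.ne_zero, Finset.mem_univ _⟩) (fun b _ => rfl)
        (fun b _ => Units.ext rfl) (fun b _ => rfl)] at hsum
  rw [hsum, ZMod.card_units, Nat.cast_sub hp.out.one_le, Nat.cast_one] at huvw
  have h6 : charSum 0 (u : ZMod p) ^ 2 + charSum 0 (v : ZMod p) ^ 2 +
      charSum 0 (w : ZMod p) ^ 2 = 6 * p :=
    mul_left_cancel₀ (show (p : ℤ) - 1 ≠ 0 by omega) (by linear_combination -huvw)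
  obtain ⟨hu, hu'⟩ := hall u
  obtain ⟨hv, hv'⟩ := hall v
  obtain ⟨hw, hw'⟩ := hall w
  have h8 : ∀ c : ℤ, c ^ 2 ≠ 8 * p := fun c hc => by
    obtain ⟨d, rfl⟩ : (p : ℤ) ∣ c := hpz.dvd_of_dvd_pow (n := 2) ⟨8, by rw [hc]; ring⟩
    have h4 : (p : ℤ) ∣ 2 ^ 3 := ⟨d ^ 2, mul_left_cancel₀ hpz.ne_zero (by linear_combination -hc)⟩
    have := Int.le_of_dvd (by norm_num) (hpz.dvd_of_dvd_pow h4)
    omega
  have hs1 : (a + s₀) ^ 2 + (a - s₀) ^ 2 = 24 * p - 4 * a ^ 2 := by linear_combination 2 * hs₀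
  rcases hu' with e1 | e1 <;> rcases hv' with e2 | e2 <;> rcases hw' with e3 | e3
  · exact h8 (a + s₀) (by linarith)
  · exact hu (by linarith)
  · exact hu (by linarith)
  · exact hv (by linarith)
  · exact hv (by linarith)
  · exact hu (by linarith)
  · exact hu (by linarith)
  · exact h8 (a - s₀) (by linarith)

/-- `-4 p` is no square in the `p`-adic field. -/
theorem not_isSquare_neg_four_mul (h5 : 5 ≤ p) :
    ¬ IsSquare ((((0 : ℤ) ^ 2 - 4 * p : ℤ)) : ℚ_[p]) := by
  rintro ⟨s, hs⟩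
  have hn0 : (((0 : ℤ) ^ 2 - 4 * p : ℤ) : ℚ_[p]) ≠ 0 := by
    simp [hp.out.ne_zero]
  have hs0 : s ≠ 0 := fun e => hn0 (by rw [hs, e, mul_zero])
  have h1 := congrArg Padic.valuation hs
  rw [Padic.valuation_mul hs0 hs0, Padic.valuation_intCast, padicValInt,
    show Int.natAbs ((0 : ℤ) ^ 2 - 4 * (p : ℤ)) = 2 ^ 2 * p by simp [Int.natAbs_mul],
    padicValNat.mul (by norm_num) hp.out.ne_zero, padicValNat_self,
    padicValNat.eq_zero_of_not_dvd fun h => by
      have := (Nat.prime_dvd_prime_iff_eq hp.out Nat.prime_two).1 (hp.out.dvd_of_dvd_pow h)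
      omega] at h1
  omega

/-- **Deuring's existence theorem.** -/
theorem exists_trace_eq (h5 : 5 ≤ p) {a : ℤ} (ha : a ^ 2 ≤ 4 * p) :
    ∃ A B : ZMod p, 4 * A ^ 3 + 27 * B ^ 2 ≠ 0 ∧ (shortMod A B).traceOfFrobenius = a := by
  have hpz : Prime (p : ℤ) := Nat.prime_iff_prime_int.1 hp.out
  have hp5 : (5 : ℤ) ≤ p := by exact_mod_cast h5
  have hlt : a ^ 2 < 4 * p := lt_of_le_of_ne ha fun e => by
    obtain ⟨c, hc⟩ : (p : ℤ) ∣ a := hpz.dvd_of_dvd_pow (n := 2) ⟨4, by rw [e]; ring⟩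
    have h4 : (p : ℤ) ∣ 4 := ⟨c ^ 2, mul_left_cancel₀ hpz.ne_zero (by
      rw [hc] at e; linear_combination -e)⟩
    have := Int.le_of_dvd (by norm_num) h4
    omega
  set M : ℤ := 4 * p - a ^ 2 with hM
  have hM0 : M ≠ 0 := by omega
  obtain ⟨H, hH, hroots, r, hroot⟩ := exists_root_of_represented (p := p) (D := a ^ 2 - 4 * p)
    (B := a) (C := p) (x := 0) (y := 1) (by omega) rfl (by ring)
  obtain ⟨A, B, hAB, hr⟩ := exists_short_j h5 r
  rcases eq_or_ne a 0 with ha0 | ha0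
  · refine ⟨A, B, hAB, (trace_zero_of_root h5 ?_ hH hroots hAB hr hroot).trans ha0.symm⟩
    rw [ha0]
    exact not_isSquare_neg_four_mul h5
  have hpa : ¬ (p : ℤ) ∣ a := not_dvd_of_sq_lt h5 hlt ha0
  have hane : (a : ZMod p) ≠ 0 := by rwa [Ne, ZMod.intCast_zmod_eq_zero_iff_dvd]
  obtain ⟨hlt', hsq⟩ := trace_rel h5 (D := a ^ 2 - 4 * p)
    (FA.CMField.isSquare_padic_of_zmod (by omega) (fun h => hpa (hpz.dvd_of_dvd_pow (n := 2)
      (by simpa using dvd_add h (dvd_mul_left (p : ℤ) 4))))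
      ⟨(a : ZMod p), by push_cast; simp [sq]⟩) (by omega) hH hroots hAB hr hroot
  rcases trace_cases h5 hlt hsq with h | h | ⟨s₀, hs₀, -⟩
  · obtain ⟨A, B, hAB, -, h⟩ := exists_signed h5 hAB hr h
    exact ⟨A, B, hAB, h⟩
  · obtain ⟨A, B, hAB, -, h⟩ := exists_quartic h5 hlt hpa
      (f := (shortMod A B).traceOfFrobenius) (by rw [← sq, h])
    exact ⟨A, B, hAB, h⟩
  · obtain ⟨A, B, hAB, -, h⟩ := exists_sextic h5 hlt hpa hs₀
    exact ⟨A, B, hAB, h⟩

end FA.DeuringExistence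

end
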