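import Fermat.Agent.Supersingular.DeuringClassNumber

/-!
# Kronecker's factorisation of `Φ_p(X, X)`

For a prime `p` the class polynomial of `D` enters `Φ_p(X, X)` with the multiplicity
`#{(t, k) | k > 0, t² - D k² = 4 p}`, halved for `D = -4` and divided by three for `D = -3`;
there are no other roots, and the leading coefficient is `-1`.
-/

set_option autoImplicit false
set_option linter.style.haveILetI false

noncomputable section

open UpperHalfPlane hiding I
open Polynomial
open scoped Classical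

namespace FA.DiagFactor

open FA.ModField FA.ModPoly FA.SingularIntegral FA.ClassRelation FA.Singular FA.JInj

/-- The discriminants that can occur. -/
def discs (p : ℕ) : Finset ℤ :=
  (Finset.Icc (-(4 * (p : ℤ))) (-1)).filter fun D => D % 4 = 0 ∨ D % 4 = 1

/-- Half the number of units of the order of discriminant `D`. -/
def halfUnits (D : ℤ) : ℕ := if D = -4 then 2 else if D = -3 then 3 else 1

/-- The solutions of `t² - D k² = 4 p` with `k > 0`. -/
def posPairs (p : ℕ) (D : ℤ) : Finset (ℤ × ℤ) := (fixPairs D p).filter fun q => 0 < q.2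

/-- The multiplicity of the class polynomial of `D` in `Φ_p(X, X)`. -/
def mult (p : ℕ) (D : ℤ) : ℕ := (posPairs p D).card / halfUnits D

theorem halfUnits_pos (D : ℤ) : 0 < halfUnits D := by
  unfold halfUnits; split_ifs <;> norm_num

theorem posPairs_eq (p : ℕ) (D : ℤ) : posPairs p D =
    (Finset.Icc (-(4 * (p : ℤ))) (4 * p) ×ˢ Finset.Icc (1 : ℤ) (4 * p)).filter
      fun q => q.1 ^ 2 - D * q.2 ^ 2 = 4 * p := by
  ext q
  simp only [posPairs, fixPairs, Finset.mem_filter, Finset.mem_product, Finset.mem_Icc]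
  constructor
  · rintro ⟨⟨⟨h1, -, h2⟩, h3⟩, h4⟩; exact ⟨⟨h1, by omega, h2⟩, h3⟩
  · rintro ⟨⟨h1, h4, h2⟩, h3⟩; exact ⟨⟨⟨h1, by omega, h2⟩, h3⟩, by omega⟩

/-- The weight of a reduced form. -/
theorem weight_eq_inv {D : ℤ} {f : ℤ × ℤ × ℤ} (hf : f ∈ Red D) :
    weight f = 1 / (halfUnits D : ℚ) := by
  by_cases h4 : D = -4
  · subst h4
    rw [FA.ClassTrace.eq_of_red_four hf]
    norm_num [weight, halfUnits]
  by_cases h3 : D = -3
  · subst h3
    rw [FA.ClassTrace.eq_of_red_three hf]
    norm_num [weight, halfUnits]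
  obtain ⟨a, b, c⟩ := f
  obtain ⟨hd, hprim, ha, -, -, -⟩ := hf
  simp only at hd hprim ha
  rw [halfUnits, if_neg h4, if_neg h3, weight, if_neg, if_neg]
  · norm_num
  · rintro ⟨e1, e2⟩
    simp only at e1 e2
    subst e1 e2
    have h1 := Int.dvd_coe_gcd (Int.dvd_coe_gcd (dvd_refl a) (dvd_refl a)) (dvd_refl a)
    rw [hprim, Nat.cast_one] at h1
    obtain rfl : a = 1 := Int.eq_one_of_dvd_one ha.le h1
    exact h3 (by rw [← hd]; norm_num)
  · rintro ⟨e1, e2⟩
    simp only at e1 e2
    subst e1 e2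
    have h1 := Int.dvd_coe_gcd (Int.dvd_coe_gcd (dvd_refl a) (dvd_zero a)) (dvd_refl a)
    rw [hprim, Nat.cast_one] at h1
    obtain rfl : a = 1 := Int.eq_one_of_dvd_one ha.le h1
    exact h4 (by rw [← hd]; norm_num)

/-- Different discriminants have different singular moduli. -/
theorem values_disjoint {D D' : ℤ} (hD : D < 0) (hD' : D' < 0) {x : ℂ} (h : x ∈ values D)
    (h' : x ∈ values D') : D = D' := by
  obtain ⟨f, hf, τ, hr, hj⟩ := h
  obtain ⟨f', hf', τ', hr', hj'⟩ := h'
  obtain ⟨g, hg⟩ := (jfun_eq_iff τ τ').1 (hj.trans hj'.symm)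
  obtain ⟨u, hu⟩ := exists_disc_multiple hf.2.2.1.ne' hf.2.1 hr hr' hg
  obtain ⟨v, hv⟩ := exists_disc_multiple hf'.2.2.1.ne' hf'.2.1 hr' hr (g := g⁻¹)
    (by rw [← hg, inv_smul_smul])
  rw [show disc f = D from hf.1, show disc f' = D' from hf'.1] at hu hv
  have hu0 : u ≠ 0 := fun e => by rw [e] at hu; simp at hu; omega
  have hv0 : v ≠ 0 := fun e => by rw [e] at hv; simp at hv; omega
  have hu1 : 1 ≤ u ^ 2 := Int.add_one_le_iff.2 (sq_pos_iff.2 hu0)
  have hv1 : 1 ≤ v ^ 2 := Int.add_one_le_iff.2 (sq_pos_iff.2 hv0)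
  nlinarith

variable (p : ℕ) [Fact p.Prime] [Fintype (FA.Dim.Cos p)]

/-- **The multiplicity of a singular modulus of discriminant `D`.** -/
theorem rootMultiplicity_mul {D : ℤ} (hD : D < 0) {x : ℂ} (hx : x ∈ values D) :
    (diagC p).rootMultiplicity x * halfUnits D = (posPairs p D).card := by
  obtain ⟨⟨a, b, c⟩, hf, τ, hr, rfl⟩ := hx
  have hd : disc (a, b, c) = D := hf.1
  have ha : 0 < a := hf.2.2.1
  have hprim := hf.2.1
  rw [rootMultiplicity_diag]
  have h1 := card_fixMat p τ
  rw [fixPrim_eq (Fact.out : Squarefree p)] at h1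
  rw [card_fixMat_eq ha hprim hr (Fact.out : p.Prime).ne_zero,
    show (FixMat τ 1) = FixMat τ ((1 : ℕ) : ℤ) by simp,
    card_fixMat_eq ha hprim hr one_ne_zero, hd, card_fixPairs p hD] at h1
  have h3 := weight_mul_card (τ := τ) (show (a, b, c) ∈ Red (disc (a, b, c)) by rwa [hd]) hr
  rw [hd, weight_eq_inv hf] at h3
  have hu : (0 : ℚ) < halfUnits D := by exact_mod_cast halfUnits_pos D
  field_simp at h3
  have h3' : (fixPairs D 1).card = halfUnits D * 2 := by exact_mod_cast h3
  rw [h3'] at h1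
  rw [posPairs]
  linarith

theorem rootMultiplicity_eq {D : ℤ} (hD : D < 0) {x : ℂ} (hx : x ∈ values D) :
    (diagC p).rootMultiplicity x = mult p D := by
  rw [mult, ← rootMultiplicity_mul p hD hx, Nat.mul_div_cancel _ (halfUnits_pos D)]

/-- Every root is a singular modulus of one of the discriminants. -/
theorem exists_disc_of_root {x : ℂ} (hx : x ∈ (diagC p).roots) :
    ∃ D ∈ discs p, x ∈ values D := by
  obtain ⟨f, τ, hf, hr, rfl⟩ := exists_red_of_root p (Multiset.mem_toFinset.2 hx)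
  have hD := disc_neg_of_isRoot hf.2.2.1.ne' hr
  have hv : jfun τ ∈ values (disc f) := ⟨f, hf, τ, hr, rfl⟩
  refine ⟨disc f, Finset.mem_filter.2 ⟨Finset.mem_Icc.2 ⟨?_, by omega⟩, ?_⟩, hv⟩
  · have h := rootMultiplicity_mul p hD hv
    have hpos : 0 < (diagC p).rootMultiplicity (jfun τ) := by
      rw [← count_roots]; exact Multiset.count_pos.2 hx
    obtain ⟨q, hq⟩ := Finset.card_pos.1 (h ▸ mul_pos hpos (halfUnits_pos _))
    obtain ⟨hq, hq0⟩ := Finset.mem_filter.1 hq
    rw [mem_fixPairs hD] at hq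
    have hk : 1 ≤ q.2 ^ 2 := Int.add_one_le_iff.2 (pow_pos hq0 2)
    nlinarith [sq_nonneg q.1, mul_le_mul_of_nonneg_left hk (neg_pos.2 hD).le]
  · obtain ⟨a, b, c⟩ := f
    simp only [disc]
    rcases Int.even_or_odd b with ⟨k, rfl⟩ | ⟨k, rfl⟩
    · left; ring_nf; omega
    · right; ring_nf; omega

omit [Fintype (FA.Dim.Cos p)] in
/-- The series of a coset in `Φ_p(X, X)`. -/
theorem leadingCoeff_factor [NeZero p] (i : FA.Dim.Cos p) :
    (Jp p - ser p i).leadingCoeff = if i = QuotientGroup.mk 1 then -1 else 1 := by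
  have hp : (2 : ℤ) ≤ p := by exact_mod_cast (Fact.out : p.Prime).two_le
  obtain ⟨hJ1, hJ2, -⟩ := Jp_low p
  split_ifs with hi
  · haveI : NeZero (p * p) := ⟨mul_ne_zero (NeZero.ne p) (NeZero.ne p)⟩
    have h2 : HasExp (qp p) (cosVal p (fN p) i) (sj ℂ 1 (p * p)) := by
      have h3 := hasExp_jfun.comp (U := qp p) (scaleH p) (p * p) 1 (fun z => by
        rw [qp_scale, Units.val_one, one_mul, pow_mul, qp_pow_self])
      refine h3.congr (funext fun z => ?_)
      rw [hi, cosVal_mk (fN_mem p), inv_one, one_smul]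
      rfl
    rw [(hasExp_ser p i).unique (covers_qp p) h2]
    have hlt : -((p * p : ℕ) : ℤ) < -(p : ℤ) := by push_cast; nlinarith
    have hc : (Jp p - sj ℂ 1 (p * p)).coeff (-((p * p : ℕ) : ℤ)) = -1 := by
      rw [HahnSeries.coeff_sub, hJ1 _ hlt, sj_coeff, inv_one, Units.val_one, zero_sub]
    rw [HahnSeries.leadingCoeff_eq,
      order_eq_of (m := -((p * p : ℕ) : ℤ)) (fun n hn => ?_) (by rw [hc]; norm_num), hc]
    rw [HahnSeries.coeff_sub, hJ1 n (hn.trans hlt), sj_ordGE _ _ n hn, sub_zero]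
  · obtain ⟨e, he, c, -, hei, hS⟩ := exists_sj p i
    rw [coeffMap_sj] at hS
    obtain ⟨-, rfl⟩ := hei.resolve_left fun h => hi h.1
    have hc : (Jp p - ser p i).coeff (-(p : ℤ)) = 1 := by
      rw [hS, HahnSeries.coeff_sub, hJ2, sj_ordGE _ _ _ (by push_cast; linarith), sub_zero]
    rw [HahnSeries.leadingCoeff_eq,
      order_eq_of (m := -(p : ℤ)) (fun n hn => ?_) (by rw [hc]; norm_num), hc]
    rw [hS, HahnSeries.coeff_sub, hJ1 n hn, sj_ordGE _ _ n (by push_cast; linarith), sub_zero]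

/-- **The leading coefficient of `Φ_p(X, X)` is `-1`.** -/
theorem leadingCoeff_diag : (diagC p).leadingCoeff = -1 := by
  haveI : NeZero p := ⟨(Fact.out : p.Prime).ne_zero⟩
  obtain ⟨hJ1, hJ2, -⟩ := Jp_low p
  have hm : -(p : ℤ) < 0 := by have := (Fact.out : p.Prime).pos; omega
  obtain ⟨h1, h2⟩ := eval_top hm hJ1 hJ2 (le_refl (diagC p).natDegree)
  have h0 : (diagC p).leadingCoeff ≠ 0 := leadingCoeff_ne_zero.2 (diagC_ne_zero p)
  have hl : ((diagC p).eval₂ HahnSeries.C (Jp p)).leadingCoeff = (diagC p).leadingCoeff := by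
    rw [HahnSeries.leadingCoeff_eq, order_eq_of h1 (by rw [h2]; exact h0), h2]
    rfl
  have hprod : ∀ s : Finset (FA.Dim.Cos p), (∏ i ∈ s, (Jp p - ser p i)).leadingCoeff =
      ∏ i ∈ s, (Jp p - ser p i).leadingCoeff := fun s => by
    induction s using Finset.induction with
    | empty => simp
    | @insert a s ha ih =>
      rw [Finset.prod_insert ha, Finset.prod_insert ha, HahnSeries.leadingCoeff_mul, ih]
  rw [← hl, eval₂_diagC, hprod, Finset.prod_congr rfl fun i _ => leadingCoeff_factor p i,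
    Finset.prod_ite_eq' Finset.univ, if_pos (Finset.mem_univ _)]

variable {H : ℤ → ℤ[X]} (hH : ∀ D ∈ discs p, (H D).Monic ∧
  (H D).natDegree = (values D).ncard ∧ ∀ z ∈ values D, aeval z (H D) = 0)

omit [Fact p.Prime] [Fintype (FA.Dim.Cos p)] in
include hH in
/-- The roots of a class polynomial in `ℂ`. -/
theorem count_roots_class {D : ℤ} (hD : D ∈ discs p) (x : ℂ) :
    ((H D).map (Int.castRingHom ℂ)).roots.count x = if x ∈ values D then 1 else 0 := by
  obtain ⟨hmon, hdeg, hz⟩ := hH D hD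
  have hfin := (values_finite_card D).1
  have hS : ∀ z ∈ hfin.toFinset, ((H D).map (Int.castRingHom ℂ)).eval z = 0 := fun z hzS => by
    rw [eval_map, ← algebraMap_int_eq, ← aeval_def]
    exact hz z (hfin.mem_toFinset.1 hzS)
  have hcard : ((H D).map (Int.castRingHom ℂ)).natDegree ≤ hfin.toFinset.card := by
    rw [hmon.natDegree_map, hdeg, Set.ncard_eq_toFinset_card _ hfin]
  rw [roots_eq_of_natDegree_le_card_of_ne_zero hS hcard (hmon.map _).ne_zero,
    Multiset.count_eq_of_nodup hfin.toFinset.nodup]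
  simp

include hH in
/-- **Kronecker's factorisation.** -/
theorem eval_phi_eq [NeZero p] :
    (phi p).eval X = -∏ D ∈ discs p, H D ^ mult p D := by
  refine map_injective (Int.castRingHom ℂ) Int.cast_injective ?_
  show diagC p = _
  rw [Polynomial.map_neg, Polynomial.map_prod]
  simp only [Polynomial.map_pow]
  set Q := ∏ D ∈ discs p, (H D).map (Int.castRingHom ℂ) ^ mult p D with hQ
  have hQm : Q.Monic := monic_prod_of_monic _ _ fun D hD => ((hH D hD).1.map _).pow _
  have hroots : (diagC p).roots = Q.roots := by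
    rw [hQ, roots_prod _ _ hQm.ne_zero]
    simp only [roots_pow]
    ext x
    rw [count_roots, Multiset.count_bind, ← Finset.sum_eq_multiset_sum]
    simp only [Multiset.count_nsmul]
    rw [Finset.sum_congr rfl fun D hD => by rw [count_roots_class p hH hD x]]
    by_cases hx : x ∈ (diagC p).roots
    · obtain ⟨D₀, hD₀, hv⟩ := exists_disc_of_root p hx
      have hneg : ∀ D ∈ discs p, D < 0 := fun D hD => by
        have := Finset.mem_Icc.1 (Finset.mem_filter.1 hD).1; omega
      rw [Finset.sum_eq_single_of_mem D₀ hD₀ fun D hD hne => by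
        rw [if_neg fun h => hne (values_disjoint (hneg D hD) (hneg D₀ hD₀) h hv), mul_zero],
        if_pos hv, mul_one, rootMultiplicity_eq p (hneg D₀ hD₀) hv]
    · rw [← count_roots, Multiset.count_eq_zero.2 hx, eq_comm]
      refine Finset.sum_eq_zero fun D hD => ?_
      split_ifs with hv
      · have hD0 : D < 0 := by
          have := Finset.mem_Icc.1 (Finset.mem_filter.1 hD).1; omega
        rw [← rootMultiplicity_eq p hD0 hv, ← count_roots, Multiset.count_eq_zero.2 hx, zero_mul]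
      · rw [mul_zero]
  rw [(IsAlgClosed.splits (diagC p)).eq_prod_roots, leadingCoeff_diag p, hroots]
  conv_rhs => rw [(IsAlgClosed.splits Q).eq_prod_roots, hQm.leadingCoeff]
  simp

include hH in
/-- The factorisation modulo `p`. -/
theorem prod_mod_p [NeZero p] :
    (∏ D ∈ discs p, H D ^ mult p D).map (Int.castRingHom (ZMod p)) =
      ((X : (ZMod p)[X]) ^ p - X) ^ 2 := by
  have h := FA.ClassTrace.diag_mod_p p
  rw [eval_phi_eq p hH, Polynomial.map_neg, neg_inj] at h
  exact h

include hH in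
/-- Every residue is a root of one of the class polynomials. -/
theorem exists_disc_of_residue [NeZero p] (r : ZMod p) :
    ∃ D ∈ discs p, (posPairs p D).Nonempty ∧
      ∀ G : ℤ[X], (∀ z ∈ values D, aeval z G = 0) →
        (G.map (Int.castRingHom (ZMod p))).IsRoot r := by
  have h := congrArg (Polynomial.eval r) (prod_mod_p p hH)
  rw [Polynomial.map_prod, eval_prod] at h
  simp only [eval_pow, eval_sub, eval_X, ZMod.pow_card, sub_self, ne_eq, OfNat.ofNat_ne_zero,
    not_false_eq_true, zero_pow, Finset.prod_eq_zero_iff, Polynomial.map_pow] at h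
  obtain ⟨D, hD, h0⟩ := h
  obtain ⟨hr, hm⟩ := pow_eq_zero_iff'.1 h0
  refine ⟨D, hD, Finset.card_pos.1 (Nat.pos_of_ne_zero fun e => hm (by simp [mult, e])),
    fun G hG => IsRoot.dvd hr (Polynomial.map_dvd _ ?_)⟩
  obtain ⟨hmon, -⟩ := hH D hD
  rw [← map_dvd_map (Int.castRingHom ℂ) Int.cast_injective hmon]
  rcases eq_or_ne G 0 with rfl | hG0
  · simp
  rw [(IsAlgClosed.splits ((H D).map (Int.castRingHom ℂ))).eq_prod_roots,
    (hmon.map _).leadingCoeff, map_one, one_mul,
    Multiset.prod_X_sub_C_dvd_iff_le_roots ((Polynomial.map_ne_zero_iff Int.cast_injective).2 hG0)]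
  refine Multiset.le_iff_count.2 fun x => ?_
  rw [count_roots_class p hH hD x]
  split_ifs with hx
  · refine Multiset.one_le_count_iff_mem.2 ((mem_roots
      ((Polynomial.map_ne_zero_iff Int.cast_injective).2 hG0)).2 ?_)
    rw [IsRoot.def, eval_map, ← algebraMap_int_eq, ← aeval_def]
    exact hG x hx
  · exact Nat.zero_le _

end FA.DiagFactor

end
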