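import Fermat.Agent.Supersingular.ElkiesModuli
import Fermat.Agent.Tau.GaloisModuli
import Fermat.Agent.Tau.CMFields

/-!
# The two real singular moduli inside the ring class field of `ℤ[√-l]`

The field contains the values of discriminant `-l`, the Hauptmodul joining the two real values and
a square root of `4 j₁² (j₁ - 1728)`, which complex conjugation negates.
-/

set_option autoImplicit false
set_option linter.style.haveILetI false

noncomputable section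

open UpperHalfPlane hiding I
open Polynomial
open FA.ModField FA.CurveRed.Haupt
open FA.Singular hiding IsRoot
open scoped Real ComplexConjugate

namespace FA.Elkies

local notation "Qb" => AlgebraicClosure ℚ
local notation "GQ" => AlgebraicClosure ℚ ≃ₐ[ℚ] AlgebraicClosure ℚ

/-- A root in `ℂ` of a polynomial over `ℚ̄` comes from `ℚ̄`. -/
theorem exists_preimage (ι : Qb →ₐ[ℚ] ℂ) {P : Qb[X]} (hP : P ≠ 0) {x : ℂ}
    (h : (P.map ι.toRingHom).eval x = 0) : ∃ y, ι y = x := by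
  have hx : x ∈ (P.map ι.toRingHom).roots :=
    (mem_roots (Polynomial.map_ne_zero hP)).2 h
  rw [(IsAlgClosed.splits P).roots_map] at hx
  obtain ⟨y, -, hy⟩ := Multiset.mem_map.1 hx
  exact ⟨y, hy⟩

/-- Values lift to `ℚ̄`. -/
theorem exists_lift_value (ι : Qb →ₐ[ℚ] ℂ) {D : ℤ} (hD : D < 0) {v : ℂ} (hv : v ∈ values D) :
    ∃ y, ι y = v := by
  have hi := (isIntegral_values hD hv).tower_top (A := ℚ)
  refine exists_preimage ι (P := (minpoly ℚ v).map (algebraMap ℚ Qb))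
    (Polynomial.map_ne_zero (minpoly.ne_zero hi)) ?_
  rw [Polynomial.map_map, show ι.toRingHom.comp (algebraMap ℚ Qb) = algebraMap ℚ ℂ from
    Subsingleton.elim _ _, eval_map, ← aeval_def, minpoly.aeval]

/-- Conjugates of values are values. -/
theorem sigma_mem_values (ι : Qb →ₐ[ℚ] ℂ) {D : ℤ} (hD : D < 0) {y : Qb} (hy : ι y ∈ values D)
    (σ : GQ) : ι (σ y) ∈ values D := by
  refine root_mem_values hD hy ?_
  have hi := isIntegral_values hD hy
  rw [← aeval_map_algebraMap ℚ, ← minpoly.isIntegrallyClosed_eq_field_fractions' ℚ hi]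
  show aeval ((ι.comp σ.toAlgHom) y) _ = 0
  rw [aeval_algHom_apply, minpoly.algHom_eq ι ι.injective, minpoly.aeval, map_zero]

/-- All values are conjugates of one. -/
theorem exists_sigma_eq (ι : Qb →ₐ[ℚ] ℂ) {D : ℤ} (hD : D < 0) {y : Qb} (hy : ι y ∈ values D)
    {v : ℂ} (hv : v ∈ values D) : ∃ σ : GQ, ι (σ y) = v := by
  obtain ⟨w, rfl⟩ := exists_lift_value ι hD hv
  have h : minpoly ℚ (ι y) = minpoly ℚ (ι w) := by
    rw [minpoly.isIntegrallyClosed_eq_field_fractions' ℚ (isIntegral_values hD hy),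
      minpoly.isIntegrallyClosed_eq_field_fractions' ℚ (isIntegral_values hD hv),
      minpoly_eq_of_mem hD hy hv]
  rw [minpoly.algHom_eq ι ι.injective, minpoly.algHom_eq ι ι.injective] at h
  obtain ⟨σ, hσ⟩ := minpoly.exists_algEquiv_of_root'
    (Algebra.IsAlgebraic.isAlgebraic y) (x := w) (by rw [h, minpoly.aeval])
  exact ⟨σ, congrArg ι hσ⟩

/-- What the automorphisms fixing `L` fix lies in `L`. -/
theorem mem_of_fixed {L : IntermediateField ℚ Qb} {x : Qb}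
    (h : ∀ σ : GQ, (∀ w : L, σ (w : Qb) = w) → σ x = x) : x ∈ L := by
  rw [← InfiniteGalois.fixedField_fixingSubgroup L]
  exact fun σ => h σ.1 fun w => σ.2 w

/-- **The data in the ring class field of `ℤ[√-l]`.** -/
theorem exists_field {l : ℕ} (hl : l.Prime) (h7 : l % 8 = 7) (h23 : 23 ≤ l)
    (hpos : ∀ (y : ℝ) (hy : 0 < y), Real.sqrt (l : ℝ) / 2 ≤ y → 0 < (jfun (pt 0 y hy)).re)
    (hneg : (jfun (tau1 hl)).re < 0) :
    ∃ (L : IntermediateField ℚ Qb) (_ : FiniteDimensional ℚ L) (_ : IsGalois ℚ L)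
      (ι : Qb →ₐ[ℚ] ℂ) (d y₁ y₂ t z : L) (c : L ≃ₐ[ℚ] L),
      d ^ 2 = -(l : L) ∧ c d = -d ∧ c y₁ = y₁ ∧ c y₂ = y₂ ∧ c t = t ∧ c z = -z ∧
      (∀ g h : L ≃ₐ[ℚ] L, g d = d → h d = d → g * h = h * g) ∧
      Odd (Nat.card (MulAction.stabilizer (L ≃ₐ[ℚ] L) d)) ∧
      (∀ s : L ≃ₐ[ℚ] L, s d ≠ d → s * s = 1) ∧
      ι (y₁ : Qb) = jfun (tau1 hl) ∧ ι (y₂ : Qb) = jfun (tau2 hl) ∧
      y₁ * t = (t + 16) ^ 3 ∧ y₂ * t ^ 2 = (t + 256) ^ 3 ∧
      z ^ 2 = 4 * y₁ ^ 2 * (y₁ - 1728) ∧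
      (∀ v ∈ values (-(l : ℤ)), ∃ g : L ≃ₐ[ℚ] L, ι (g y₁ : L) = v) ∧
      (∀ v ∈ values (-4 * (l : ℤ)), ∃ g : L ≃ₐ[ℚ] L, ι (g y₂ : L) = v) ∧
      ∀ g : L ≃ₐ[ℚ] L, ι (g y₁ : L) ∈ values (-(l : ℤ)) ∧
        ι (g y₂ : L) ∈ values (-4 * (l : ℤ)) := by
  haveI : NeZero l := ⟨hl.ne_zero⟩
  have hD1 : -(l : ℤ) < 0 := by omega
  have hD2 : -4 * (l : ℤ) < 0 := by omega
  have hτ : (tau2 hl : ℂ) ^ 2 = -(l : ℂ) := by
    apply Complex.ext <;> simp [tau2, pt, pow_two, Real.mul_self_sqrt (Nat.cast_nonneg l)]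
  obtain ⟨L, hfin, hgal, ι, d, y₂, hd, hy₂, -, ⟨e⟩, -, hsq, -, hall, -, -⟩ :=
    FA.GaloisModuli.exists_galois_data l hτ
  have hnorm : Normal ℚ L := IsGalois.to_normal
  have h2m : ι (y₂ : Qb) ∈ values (-4 * (l : ℤ)) := hy₂ ▸ tau2_mem hl
  -- restriction to `L`
  have hres : ∀ (σ : GQ) (w : L), ι ((AlgEquiv.restrictNormalHom L σ w : L) : Qb) = ι (σ w) :=
    fun σ w => congrArg ι (AlgEquiv.restrictNormal_commutes σ L w)
  have hinj : Function.Injective ι := ι.toRingHom.injective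
  -- the value of discriminant `-l` and the Hauptmodul
  obtain ⟨Y₁, hY₁⟩ := exists_lift_value ι hD1 (tau1_mem hl h7)
  have h1m : ι Y₁ ∈ values (-(l : ℤ)) := hY₁ ▸ tau1_mem hl h7
  have hcub : ((X + C (16 : Qb)) ^ 3 - C Y₁ * X) ≠ 0 := fun e => by
    have := congrArg (fun P : Qb[X] => P.eval 0) e
    simp at this
  have hev : ∀ x : ℂ, jfun (tau1 hl) * x = (x + 16) ^ 3 →
      (((X + C (16 : Qb)) ^ 3 - C Y₁ * X).map ι.toRingHom).eval x = 0 := fun x hx => by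
    simp [hY₁, hx, map_ofNat]
  obtain ⟨T, hT⟩ := exists_preimage ι hcub (x := haupt2Fun (zC hl))
    (hev _ (by rw [← jfun_scale_zC hl, jfun_scale_mul_haupt]))
  have hT1 : Y₁ * T = (T + 16) ^ 3 := hinj (by
    rw [map_mul, map_pow, map_add, map_ofNat, hY₁, hT, ← jfun_scale_zC hl, jfun_scale_mul_haupt])
  have hT2 : (y₂ : Qb) * T ^ 2 = (T + 256) ^ 3 := hinj (by
    rw [map_mul, map_pow, map_pow, map_add, map_ofNat, hy₂, hT, ← jfun_zC hl, jfun_mul_haupt_sq])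
  have key : ∀ σ : GQ, σ (y₂ : Qb) = y₂ → σ Y₁ = Y₁ ∧ σ T = T := fun σ hσ => by
    obtain ⟨hv, ht⟩ := partner_unique hl h7 hpos hneg (t := ι (σ T))
      (sigma_mem_values ι hD1 h1m σ) (by
        have h := congrArg (fun x => ι (σ x)) hT2
        simpa [hσ, hy₂, map_ofNat] using h) (by
        have h := congrArg (fun x => ι (σ x)) hT1
        simpa [map_ofNat] using h)
    exact ⟨hinj (hv.trans hY₁.symm), hinj (ht.trans hT.symm)⟩
  have hY₁L : Y₁ ∈ L := mem_of_fixed fun σ hσ => (key σ (hσ y₂)).1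
  have hTL : T ∈ L := mem_of_fixed fun σ hσ => (key σ (hσ y₂)).2
  have hin1 : ∀ v ∈ values (-(l : ℤ)), ∃ w : L, ι (w : Qb) = v := fun v hv => by
    obtain ⟨σ, rfl⟩ := exists_sigma_eq ι hD1 h1m hv
    exact ⟨AlgEquiv.restrictNormalHom L σ ⟨Y₁, hY₁L⟩, hres σ ⟨Y₁, hY₁L⟩⟩
  -- the other two roots
  obtain ⟨z₁, z₂, hz₁, hz₂, hs₁, hs₂, h12, h13, h23'⟩ := exists_three hl h7 h23
  have hroot : ∀ w : ℍ, jfun (scaleH 2 w) = jfun (tau1 hl) →
      ∃ S : Qb, ι S = haupt2Fun w ∧ Y₁ * S = (S + 16) ^ 3 := fun w hw => by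
    obtain ⟨S, hS⟩ := exists_preimage ι hcub (x := haupt2Fun w)
      (hev _ (by rw [← hw, jfun_scale_mul_haupt]))
    exact ⟨S, hS, hinj (by
      rw [map_mul, map_pow, map_add, map_ofNat, hY₁, hS, ← hw, jfun_scale_mul_haupt])⟩
  obtain ⟨S₁, hS₁, hS₁'⟩ := hroot z₁ hs₁
  obtain ⟨S₂, hS₂, hS₂'⟩ := hroot z₂ hs₂
  have hfix : ∀ (w : ℍ), (w = z₁ ∨ w = z₂) → ∀ S : Qb, ι S = haupt2Fun w →
      Y₁ * S = (S + 16) ^ 3 → ∀ σ : GQ, (∀ u : L, σ (u : Qb) = u) → σ S = S := by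
    intro w hw S hS hS' σ hσ
    obtain ⟨v, hv⟩ := hin1 (jfun w) (by rcases hw with rfl | rfl <;> assumption)
    have h256 : (v : Qb) * S ^ 2 = (S + 256) ^ 3 := hinj (by
      rw [map_mul, map_pow, map_pow, map_add, map_ofNat, hv, hS, jfun_mul_haupt_sq])
    have hb : jfun w * ι (σ S) ^ 2 = (ι (σ S) + 256) ^ 3 := by
      have h := congrArg (fun x => ι (σ x)) h256
      simpa [hσ, hv, map_ofNat] using h
    have hr : jfun (tau1 hl) * ι (σ S) = (ι (σ S) + 16) ^ 3 := by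
      have h := congrArg (fun x => ι (σ x)) hS'
      simpa [hσ ⟨Y₁, hY₁L⟩, hY₁, map_ofNat] using h
    have hne : ι (σ S) ≠ 0 := fun e0 => by rw [e0] at hb; norm_num at hb
    have hj : ∀ u : ℍ, ι (σ S) = haupt2Fun u → jfun u = jfun w := fun u e => by
      refine mul_right_cancel₀ (pow_ne_zero 2 hne) ?_
      rw [hb, e, jfun_mul_haupt_sq]
    refine hinj ?_
    rw [hS]
    rcases mem_of_scale hs₁ hs₂ (jfun_scale_zC hl) h12 h13 h23' hr with e | e | e
    · rcases hw with rfl | rfl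
      · exact e
      · exact absurd (hj z₁ e) h12
    · rcases hw with rfl | rfl
      · exact absurd (hj z₂ e).symm h12
      · exact e
    · rcases hw with rfl | rfl
      · exact absurd (hj (zC hl) e).symm h13
      · exact absurd (hj (zC hl) e).symm h23'
  have hS₁L : S₁ ∈ L := mem_of_fixed fun σ hσ => hfix z₁ (Or.inl rfl) S₁ hS₁ hS₁' σ hσ
  have hS₂L : S₂ ∈ L := mem_of_fixed fun σ hσ => hfix z₂ (Or.inr rfl) S₂ hS₂ hS₂' σ hσ
  set y₁ : L := ⟨Y₁, hY₁L⟩
  set t : L := ⟨T, hTL⟩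
  set z : L := (⟨S₁, hS₁L⟩ - ⟨S₂, hS₂L⟩) * (⟨S₁, hS₁L⟩ - t) * (⟨S₂, hS₂L⟩ - t)
  have hne : ∀ {P Q : Qb} {u w : ℍ}, ι P = haupt2Fun u → ι Q = haupt2Fun w → jfun u ≠ jfun w →
      P ≠ Q := fun hP hQ h e => h (jfun_eq_of_haupt_eq (by rw [← hP, ← hQ, e])).1
  have hz : z ^ 2 = 4 * y₁ ^ 2 * (y₁ - 1728) := by
    refine cubic_disc (fun e => hne hS₁ hS₂ h12 (congrArg Subtype.val e))
      (fun e => hne hS₁ hT h13 (congrArg Subtype.val e))
      (fun e => hne hS₂ hT h23' (congrArg Subtype.val e)) (Subtype.ext ?_) (Subtype.ext ?_)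
      (Subtype.ext ?_) <;> push_cast <;> assumption
  -- complex conjugation
  letI : Algebra Qb ℂ := ι.toRingHom.toAlgebra
  haveI : IsScalarTower ℚ Qb ℂ := IsScalarTower.of_algebraMap_eq fun q => (ι.commutes q).symm
  haveI : Normal ℚ Qb := IsAlgClosure.normal ℚ Qb
  set κ : GQ := (Complex.conjAe.restrictScalars ℚ).restrictNormal Qb
  set c := AlgEquiv.restrictNormalHom L κ
  have hc : ∀ w : L, ι (c w : L) = conj (ι (w : Qb)) := fun w => by
    rw [hres]
    exact AlgEquiv.restrictNormal_commutes (Complex.conjAe.restrictScalars ℚ) Qb (w : Qb)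
  have hceq : ∀ w w' : L, conj (ι (w : Qb)) = ι (w' : Qb) → c w = w' := fun w w' h =>
    Subtype.ext (hinj ((hc w).trans h))
  have hy₁c : c y₁ = y₁ := hceq _ _ (by rw [show ι (y₁ : Qb) = _ from hY₁]; exact conj_tau1 hl)
  have hy₂c : c y₂ = y₂ := hceq _ _ (by rw [hy₂]; exact conj_tau2 hl)
  have himag : ∀ x : ℂ, (x ^ 2).im = 0 → (x ^ 2).re < 0 → conj x = -x := fun x h0 h1 => by
    simp [pow_two] at h0 h1
    have : x.re = 0 := by
      by_contra hx
      have : x.im = 0 := by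
        have h2 : x.re * x.im = 0 := by linarith
        exact (mul_eq_zero.1 h2).resolve_left hx
      rw [this] at h1
      nlinarith [mul_self_nonneg x.re]
    exact Complex.ext (by simp [this]) (by simp)
  have hcd : c d = -d := hceq _ _ (by
    have h := congrArg (ι.comp L.val) hd
    simp only [map_pow, map_neg, map_natCast] at h
    rw [show (ι.comp L.val) d = ι (d : Qb) from rfl] at h
    rw [IntermediateField.coe_neg, map_neg]
    refine himag _ (by rw [h]; simp) ?_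
    rw [h]
    simp [hl.pos])
  have hcz : c z = -z := hceq _ _ (by
    have h := congrArg (ι.comp L.val) hz
    simp only [map_pow, map_mul, map_sub, map_ofNat] at h
    rw [show (ι.comp L.val) y₁ = jfun (tau1 hl) from hY₁,
      show (ι.comp L.val) z = ι (z : Qb) from rfl] at h
    have him : (jfun (tau1 hl)).im = 0 := Complex.conj_eq_iff_im.1 (conj_tau1 hl)
    rw [IntermediateField.coe_neg, map_neg]
    refine himag _ (by rw [h]; simp [pow_two, him]) ?_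
    rw [h]
    simp only [pow_two, Complex.mul_re, Complex.mul_im, Complex.sub_re, Complex.sub_im,
      Complex.re_ofNat, Complex.im_ofNat, him, mul_zero, zero_mul, sub_zero, add_zero]
    nlinarith [mul_self_pos.2 hneg.ne, mul_pos (mul_self_pos.2 hneg.ne)
      (show 0 < 1728 - (jfun (tau1 hl)).re by linarith)])
  have hct : c t = t := Subtype.ext (by
    have h := (key κ ((AlgEquiv.restrictNormal_commutes κ L y₂).symm.trans
      (congrArg Subtype.val hy₂c))).2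
    exact (AlgEquiv.restrictNormal_commutes κ L t).trans h)
  refine ⟨L, hfin, hgal, ι, d, y₁, y₂, t, z, c, hd, hcd, hy₁c, hy₂c, hct, hcz,
    fun g h hg hh => ?_, ?_, hsq, hY₁, hy₂, Subtype.ext hT1, Subtype.ext hT2, hz,
    fun v hv => ?_, fun v hv => ?_, fun g => ?_⟩
  · let G : MulAction.stabilizer (L ≃ₐ[ℚ] L) d := ⟨g, MulAction.mem_stabilizer_iff.2 hg⟩
    let K : MulAction.stabilizer (L ≃ₐ[ℚ] L) d := ⟨h, MulAction.mem_stabilizer_iff.2 hh⟩
    exact congrArg Subtype.val (e.injective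
      (show e (G * K) = e (K * G) by rw [map_mul, map_mul]; exact mul_comm (e G) (e K)))
  · rw [Nat.card_congr e.toEquiv, FA.CMFields.odd_classNumber_iff]
    exact Or.inr (Or.inr (Or.inr ⟨l, 1, hl, by omega, odd_one, (pow_one l).symm⟩))
  · obtain ⟨σ, rfl⟩ := exists_sigma_eq ι hD1 h1m hv
    exact ⟨AlgEquiv.restrictNormalHom L σ, hres σ y₁⟩
  · obtain ⟨σ, rfl⟩ := exists_sigma_eq ι hD2 h2m hv
    exact ⟨AlgEquiv.restrictNormalHom L σ, hres σ y₂⟩
  · obtain ⟨σ, rfl⟩ := AlgEquiv.restrictNormalHom_surjective (E := Qb) (F := ℚ) (K₁ := L) g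
    rw [hres, hres]
    exact ⟨sigma_mem_values ι hD1 h1m σ, sigma_mem_values ι hD2 h2m σ⟩

end FA.Elkies

end
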