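import Fermat.Agent.Supersingular.ElkiesHauptmodul
import Fermat.Agent.Tau.RealModuli

/-!
# The two real singular moduli of discriminants `-l` and `-4 l`, joined by the Hauptmodul

For a prime `l ≡ 7 (mod 8)` the real values are `j((1 + √-l) / 2)` and `j(√-l)`; one value of the
Hauptmodul joins them, and the other two roots at `j((1 + √-l) / 2)` lie over values of
discriminant `-l` as well.
-/

set_option autoImplicit false
set_option linter.style.haveILetI false

noncomputable section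

open UpperHalfPlane hiding I
open Polynomial
open FA.ModField FA.CurveRed.Haupt FA.RealModuli
open FA.Singular hiding IsRoot
open scoped MatrixGroups Real ComplexConjugate

namespace FA.Elkies

/-- The point `x + i y`. -/
def pt (x y : ℝ) (hy : 0 < y) : ℍ := ⟨⟨x, y⟩, hy⟩

theorem T_smul_pt (x y : ℝ) (hy : 0 < y) :
    ModularGroup.T • pt x y hy = pt (x + 1) y hy := by
  refine UpperHalfPlane.ext ?_
  rw [modular_T_smul, coe_vadd]
  exact Complex.ext (by simp [pt, add_comm]) (by simp [pt])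

theorem scale_pt (x y : ℝ) (hy : 0 < y) :
    scaleH 2 (pt x y hy) = pt (2 * x) (2 * y) (by positivity) :=
  UpperHalfPlane.ext (Complex.ext (by simp [pt, coe_scaleH]) (by simp [pt, coe_scaleH]))

theorem jfun_pt_add (x y : ℝ) (hy : 0 < y) : jfun (pt (x + 1) y hy) = jfun (pt x y hy) := by
  rw [← T_smul_pt, jfun_smul]

theorem conj_pt (x y : ℝ) (hy : 0 < y) : conj (jfun (pt x y hy)) = jfun (pt (-x) y hy) := by
  rw [← jfun_mirror]
  exact congrArg jfun (UpperHalfPlane.ext (Complex.ext (by simp [coe_mirror, pt])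
    (by simp [coe_mirror, pt])))

theorem isRoot_pt {a b c : ℤ} {x y : ℝ} (hy : 0 < y) (h1 : 2 * (a : ℝ) * x = -b)
    (h2 : (a : ℝ) * (x ^ 2 - y ^ 2) + b * x + c = 0) :
    FA.Singular.IsRoot (a, b, c) (pt x y hy) := by
  refine Complex.ext ?_ ?_
  · simp [pt, pow_two]
    linear_combination h2
  · simp [pt, pow_two]
    linear_combination y * h1

theorem qp_pt_zero (y : ℝ) (hy : 0 < y) :
    (qp 1 (pt 0 y hy))⁻¹ = ((Real.exp (2 * π * y) : ℝ) : ℂ) := by
  rw [qp_eq, ← Complex.exp_neg, Complex.ofReal_exp]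
  congr 1
  apply Complex.ext <;> simp [pt]

theorem qp_pt_half (y : ℝ) (hy : 0 < y) :
    (qp 1 (pt (1 / 2) y hy))⁻¹ = -((Real.exp (2 * π * y) : ℝ) : ℂ) := by
  rw [qp_eq, ← Complex.exp_neg, Complex.ofReal_exp]
  have e : -(2 * (π : ℂ) * Complex.I * (pt (1 / 2) y hy : ℂ) / ((1 : ℕ) : ℂ)) =
      ((2 * π * y : ℝ) : ℂ) - (π : ℂ) * Complex.I := by
    apply Complex.ext <;> simp [pt] <;> ring
  rw [e, Complex.exp_sub, Complex.exp_pi_mul_I]
  ring

variable {l : ℕ}

/-- `√l`. -/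
local notation "r" => Real.sqrt (l : ℝ)

theorem sqrt_pos' (hl : l.Prime) : 0 < Real.sqrt (l : ℝ) :=
  Real.sqrt_pos.2 (by exact_mod_cast hl.pos)

/-- `√-l`. -/
def tau2 (hl : l.Prime) : ℍ := pt 0 r (sqrt_pos' hl)

/-- `(1 + √-l) / 2`. -/
def tau1 (hl : l.Prime) : ℍ := pt (1 / 2) (r / 2) (half_pos (sqrt_pos' hl))

/-- The point over both. -/
def zC (hl : l.Prime) : ℍ := ModularGroup.S • (ModularGroup.T • tau2 hl)

variable (hl : l.Prime)

theorem sq_sqrt_l : Real.sqrt (l : ℝ) ^ 2 = l := Real.sq_sqrt (Nat.cast_nonneg l)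

theorem jfun_zC : jfun (zC hl) = jfun (tau2 hl) := by rw [zC, jfun_smul, jfun_smul]

theorem scale_tau1 : scaleH 2 (tau1 hl) = ModularGroup.T • tau2 hl := by
  rw [tau1, tau2, scale_pt, T_smul_pt]
  congr 1 <;> ring

theorem jfun_scale_zC : jfun (scaleH 2 (zC hl)) = jfun (tau1 hl) := by
  rw [zC, ← scale_tau1, scale_S, jfun_smul]

theorem conj_tau1 : conj (jfun (tau1 hl)) = jfun (tau1 hl) := by
  rw [tau1, conj_pt, ← jfun_pt_add]
  norm_num

theorem conj_tau2 : conj (jfun (tau2 hl)) = jfun (tau2 hl) := by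
  rw [tau2, conj_pt]
  simp

variable (h7 : l % 8 = 7)

include h7 in
theorem exists_quarter : ∃ k : ℤ, (l : ℤ) + 1 = 8 * k := ⟨((l + 1) / 8 : ℕ), by omega⟩

include h7 in
theorem tau1_mem : jfun (tau1 hl) ∈ values (-(l : ℤ)) := by
  obtain ⟨k, hk⟩ := exists_quarter h7
  have hd : disc (1, -1, 2 * k) = -(l : ℤ) := by
    simp only [disc]
    linarith
  rw [← hd]
  refine jfun_mem_values one_pos (by rw [hd]; linarith [show (0 : ℤ) < l by exact_mod_cast hl.pos])
    (by simp) (isRoot_pt _ (by norm_num) ?_)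
  have h := sq_sqrt_l (l := l)
  have hk' : (l : ℝ) + 1 = 8 * k := by exact_mod_cast hk
  push_cast
  linear_combination (-1 / 4 : ℝ) * h - hk' / 4

theorem tau2_mem : jfun (tau2 hl) ∈ values (-4 * (l : ℤ)) := by
  have hd : disc (1, 0, (l : ℤ)) = -4 * (l : ℤ) := by simp [disc]
  rw [← hd]
  refine jfun_mem_values one_pos (by rw [hd]; linarith [show (0 : ℤ) < l by exact_mod_cast hl.pos])
    (by simp) (isRoot_pt _ (by norm_num) ?_)
  have h := sq_sqrt_l (l := l)
  push_cast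
  linear_combination -h

/-- Divisors of `l`. -/
theorem eq_one_or_self {a b : ℤ} (hl : l.Prime) (ha : 0 ≤ a) (h : a * b = l) :
    a = 1 ∨ a = l := by
  obtain ⟨a, rfl⟩ := Int.eq_ofNat_of_zero_le ha
  rcases (Nat.dvd_prime hl).1 (Int.natCast_dvd_natCast.1 ⟨b, h.symm⟩) with e | e <;> simp [e]

include h7 in
/-- **The real value of discriminant `-l` is unique.** -/
theorem eq_tau1_of_real {v : ℂ} (hv : v ∈ values (-(l : ℤ))) (him : v.im = 0) :
    v = jfun (tau1 hl) := by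
  have hl0 : (7 : ℤ) ≤ l := by omega
  obtain ⟨f, hf, τ, hτ, rfl⟩ := hv
  have hamb := (im_eq_zero_iff (by omega) hf hτ).1 him
  obtain ⟨a, b, c⟩ := f
  obtain ⟨hd, hg, ha, hb, hc, htie⟩ := hf
  simp only [Amb] at hd hg ha hb hc htie hamb
  obtain ⟨k, hk⟩ := exists_quarter h7
  have key : a = 1 ∧ b = 1 ∧ c = 2 * k := by
    rcases hamb with h | h | h
    · subst h
      have : (4 : ℤ) ∣ l := ⟨a * c, by linarith⟩
      omega
    · obtain rfl : b = a := (abs_of_nonneg (htie (Or.inl h))).symm.trans h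
      rcases eq_one_or_self hl ha.le (show b * (4 * c - b) = l by linear_combination -hd) with
        e | e
      · subst e
        exact ⟨rfl, rfl, by linarith⟩
      · subst e
        have : (l : ℤ) * (4 * c - l - 1) = 0 := by linear_combination -hd
        rcases mul_eq_zero.1 this with e' | e' <;> omega
    · subst h
      have hb0 := htie (Or.inr rfl)
      rw [abs_of_nonneg hb0] at hb
      rcases eq_one_or_self hl (by linarith)
        (show (2 * a - b) * (2 * a + b) = l by linear_combination -hd) with e | e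
      · have : a ≤ 1 := by omega
        have ha1 : a = 1 := by omega
        subst ha1
        have hb1 : b = 1 := by omega
        subst hb1
        omega
      · have h2 : 2 * a + b = 1 := mul_left_cancel₀ (show (l : ℤ) ≠ 0 by omega) (by
          nth_rw 1 [← e]; linear_combination -hd)
        omega
  obtain ⟨rfl, rfl, rfl⟩ := key
  have hr' : FA.Singular.IsRoot ((1 : ℤ), (1 : ℤ), 2 * k)
      (pt (-(1 / 2)) (r / 2) (half_pos (sqrt_pos' hl))) := by
    refine isRoot_pt _ (by norm_num) ?_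
    have h := sq_sqrt_l (l := l)
    have hk' : (l : ℝ) + 1 = 8 * k := by exact_mod_cast hk
    push_cast
    linear_combination (-1 / 4 : ℝ) * h - hk' / 4
  rw [root_unique (t := ((1 : ℤ), (1 : ℤ), 2 * k)) one_ne_zero hτ hr', tau1, ← jfun_pt_add]
  norm_num

include h7 in
/-- **The real value of discriminant `-4 l` is unique.** -/
theorem eq_tau2_of_real {v : ℂ} (hv : v ∈ values (-4 * (l : ℤ))) (him : v.im = 0) :
    v = jfun (tau2 hl) := by
  have hl0 : (7 : ℤ) ≤ l := by omega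
  obtain ⟨f, hf, τ, hτ, rfl⟩ := hv
  have hamb := (im_eq_zero_iff (by omega) hf hτ).1 him
  obtain ⟨a, b, c⟩ := f
  obtain ⟨hd, hg, ha, hb, hc, htie⟩ := hf
  simp only [Amb] at hd hg ha hb hc htie hamb
  obtain ⟨b', rfl⟩ : (2 : ℤ) ∣ b := by
    have : (2 : ℤ) ∣ b * b := ⟨2 * (a * c - l), by linear_combination hd⟩
    exact (Int.prime_two.dvd_or_dvd this).elim id id
  have key : a = 1 ∧ b' = 0 ∧ c = l := by
    rcases hamb with h | h | h
    · obtain rfl : b' = 0 := by omega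
      have hac : a * c = l := by linarith
      rcases eq_one_or_self hl ha.le hac with e | e
      · subst e; exact ⟨rfl, rfl, by linarith⟩
      · subst e
        have : c = 1 := mul_left_cancel₀ (show (l : ℤ) ≠ 0 by omega) (by rw [hac, mul_one])
        omega
    · obtain rfl : 2 * b' = a := (abs_of_nonneg (htie (Or.inl h))).symm.trans h
      rcases eq_one_or_self hl (by omega) (show b' * (2 * c - b') = l by linarith) with e | e
      · subst e
        exfalso
        obtain ⟨k, hk⟩ := exists_quarter h7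
        obtain rfl : c = 4 * k := by linarith
        have h2 : (2 : ℤ) ∣ (Int.gcd (Int.gcd (2 * 1) (2 * 1)) (4 * k) : ℤ) :=
          Int.dvd_coe_gcd (Int.dvd_coe_gcd ⟨1, rfl⟩ ⟨1, rfl⟩) ⟨2 * k, by ring⟩
        rw [hg] at h2
        norm_num at h2
      · subst e
        have : 2 * c - l = 1 := mul_left_cancel₀ (show (l : ℤ) ≠ 0 by omega) (by linarith)
        omega
    · subst h
      have hb0 := htie (Or.inr rfl)
      rw [abs_of_nonneg hb0] at hb
      rcases eq_one_or_self hl (by omega)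
        (show (a - b') * (a + b') = l by linarith) with e | e
      · have h2 : a + b' = l := by
          have e2 : (a - b') * (a + b') = l := by linarith
          rwa [e, one_mul] at e2
        omega
      · have h2 : a + b' = 1 := mul_left_cancel₀ (show (l : ℤ) ≠ 0 by omega) (by
          nth_rw 1 [← e]; linarith)
        omega
  obtain ⟨rfl, rfl, rfl⟩ := key
  have hr' : FA.Singular.IsRoot ((1 : ℤ), 2 * (0 : ℤ), (l : ℤ)) (tau2 hl) := by
    refine isRoot_pt _ (by norm_num) ?_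
    have h := sq_sqrt_l (l := l)
    push_cast
    linear_combination -h
  rw [root_unique (t := ((1 : ℤ), 2 * (0 : ℤ), (l : ℤ))) one_ne_zero hτ hr']

/-- The conjugate pair over `(1 + √-l) / 2`. -/
theorem quarter_mem (k : ℤ) (hk : (l : ℤ) + 1 = 8 * k) (h23 : 23 ≤ l) :
    jfun (pt (1 / 4) (r / 4) (by positivity [sqrt_pos' hl])) ∈ values (-(l : ℤ)) ∧
      (jfun (pt (1 / 4) (r / 4) (by positivity [sqrt_pos' hl]))).im ≠ 0 ∧
      jfun (pt (3 / 4) (r / 4) (by positivity [sqrt_pos' hl])) ∈ values (-(l : ℤ)) := by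
  have hpos : 0 < r / 4 := by have := sqrt_pos' hl; positivity
  have h := sq_sqrt_l (l := l)
  have hk' : (l : ℝ) + 1 = 8 * k := by exact_mod_cast hk
  have hred : ∀ b : ℤ, b = 1 ∨ b = -1 → (2, b, k) ∈ Red (-(l : ℤ)) := fun b hb => by
    refine ⟨?_, ?_, two_pos, ?_, by show (2 : ℤ) ≤ k; omega, ?_⟩ <;>
      rcases hb with rfl | rfl <;> first | (simp; done) | (intro h'; simp at h'; omega) |
        (show _ - _ = -(l : ℤ); linarith)
  have h1 : FA.Singular.IsRoot ((2 : ℤ), (-1 : ℤ), k) (pt (1 / 4) (r / 4) hpos) := by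
    refine isRoot_pt _ (by norm_num) ?_
    push_cast
    linear_combination (-1 / 8 : ℝ) * h - hk' / 8
  refine ⟨⟨_, hred _ (Or.inr rfl), _, h1, rfl⟩, ?_, ?_⟩
  · rw [Ne, im_eq_zero_iff (by omega) (hred _ (Or.inr rfl)) h1]
    simp [Amb]
    omega
  · refine ⟨_, hred _ (Or.inl rfl), pt (-(1 / 4)) (r / 4) hpos, ?_, ?_⟩
    · refine isRoot_pt _ (by norm_num) ?_
      push_cast
      linear_combination (-1 / 8 : ℝ) * h - hk' / 8
    · rw [← jfun_pt_add]; norm_num

/-- The size of the values. -/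
theorem re_bounds {B C : ℝ} (hC : ∀ z : ℍ, 1 ≤ z.im → ‖jfun z - (qp 1 z)⁻¹‖ ≤ C) (h4 : 4 ≤ r)
    (hB : B + C ≤ r) :
    (∀ (y : ℝ) (hy : 0 < y), r / 2 ≤ y → B < (jfun (pt 0 y hy)).re) ∧
      (jfun (tau1 hl)).re < -B := by
  have key : ∀ y : ℝ, r / 2 ≤ y → r < Real.exp (2 * π * y) := fun y hy => by
    nlinarith [Real.add_one_le_exp (2 * π * y), Real.pi_gt_three, mul_le_mul_of_nonneg_left hy
      (show (0 : ℝ) ≤ 2 * π by positivity)]
  refine ⟨fun y hy hy' => ?_, ?_⟩
  · have h := (Complex.abs_re_le_norm _).trans (hC (pt 0 y hy) (show 1 ≤ y by linarith))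
    rw [qp_pt_zero, Complex.sub_re, Complex.ofReal_re] at h
    linarith [abs_le.1 h, key y hy']
  · have h := (Complex.abs_re_le_norm _).trans (hC (tau1 hl) (show 1 ≤ r / 2 by linarith))
    rw [tau1, qp_pt_half, Complex.sub_re, Complex.neg_re, Complex.ofReal_re] at h
    rw [tau1]
    linarith [abs_le.1 h, key (r / 2) le_rfl]

/-- A root of `(t + 256)³ - x t²` with three points over `x`. -/
theorem mem_of_base {z₁ z₂ z₃ : ℍ} {x t : ℂ} (h₁ : jfun z₁ = x) (h₂ : jfun z₂ = x)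
    (h₃ : jfun z₃ = x) (h12 : jfun (scaleH 2 z₁) ≠ jfun (scaleH 2 z₂))
    (h13 : jfun (scaleH 2 z₁) ≠ jfun (scaleH 2 z₃)) (h23 : jfun (scaleH 2 z₂) ≠ jfun (scaleH 2 z₃))
    (ht : x * t ^ 2 = (t + 256) ^ 3) :
    t = haupt2Fun z₁ ∨ t = haupt2Fun z₂ ∨ t = haupt2Fun z₃ := by
  have hne : ∀ z w : ℍ, jfun (scaleH 2 z) ≠ jfun (scaleH 2 w) → haupt2Fun z ≠ haupt2Fun w :=
    fun z w h e => h (jfun_eq_of_haupt_eq e).2
  have hev : ∀ u : ℂ, ((X + C (256 : ℂ)) ^ 3 - C x * X ^ 2).eval u = 0 ↔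
      x * u ^ 2 = (u + 256) ^ 3 := fun u => by
    simp only [eval_sub, eval_pow, eval_add, eval_mul, eval_X, eval_C]
    rw [sub_eq_zero, eq_comm]
  refine mem_of_cubic (P := (X + C (256 : ℂ)) ^ 3 - C x * X ^ 2) ?_ (hne _ _ h12) (hne _ _ h13)
    (hne _ _ h23) ?_ ?_ ?_ ((hev t).2 ht)
  · compute_degree!
  · rw [hev, ← h₁, jfun_mul_haupt_sq]
  · rw [hev, ← h₂, jfun_mul_haupt_sq]
  · rw [hev, ← h₃, jfun_mul_haupt_sq]

/-- A root of `(t + 16)³ - x t` with three points over `x`. -/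
theorem mem_of_scale {z₁ z₂ z₃ : ℍ} {x t : ℂ} (h₁ : jfun (scaleH 2 z₁) = x)
    (h₂ : jfun (scaleH 2 z₂) = x) (h₃ : jfun (scaleH 2 z₃) = x) (h12 : jfun z₁ ≠ jfun z₂)
    (h13 : jfun z₁ ≠ jfun z₃) (h23 : jfun z₂ ≠ jfun z₃) (ht : x * t = (t + 16) ^ 3) :
    t = haupt2Fun z₁ ∨ t = haupt2Fun z₂ ∨ t = haupt2Fun z₃ := by
  have hne : ∀ z w : ℍ, jfun z ≠ jfun w → haupt2Fun z ≠ haupt2Fun w :=
    fun z w h e => h (jfun_eq_of_haupt_eq e).1
  have hev : ∀ u : ℂ, ((X + C (16 : ℂ)) ^ 3 - C x * X).eval u = 0 ↔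
      x * u = (u + 16) ^ 3 := fun u => by
    simp only [eval_sub, eval_pow, eval_add, eval_mul, eval_X, eval_C]
    rw [sub_eq_zero, eq_comm]
  refine mem_of_cubic (P := (X + C (16 : ℂ)) ^ 3 - C x * X) ?_ (hne _ _ h12) (hne _ _ h13)
    (hne _ _ h23) ?_ ?_ ?_ ((hev t).2 ht)
  · compute_degree!
  · rw [hev, ← h₁, jfun_scale_mul_haupt]
  · rw [hev, ← h₂, jfun_scale_mul_haupt]
  · rw [hev, ← h₃, jfun_scale_mul_haupt]

include h7 in
/-- **The Hauptmodul joining the two real values is determined by `j(√-l)`.** -/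
theorem partner_unique (hpos : ∀ (y : ℝ) (hy : 0 < y), r / 2 ≤ y → 0 < (jfun (pt 0 y hy)).re)
    (hneg : (jfun (tau1 hl)).re < 0) {t v : ℂ} (hv : v ∈ values (-(l : ℤ)))
    (ht : jfun (tau2 hl) * t ^ 2 = (t + 256) ^ 3) (hvt : v * t = (t + 16) ^ 3) :
    v = jfun (tau1 hl) ∧ t = haupt2Fun (zC hl) := by
  have hp : 0 < r := sqrt_pos' hl
  set B : ℍ := ModularGroup.S • tau2 hl
  have hA' : jfun (scaleH 2 (tau2 hl)) = jfun (pt 0 (2 * r) (by positivity)) := by
    rw [tau2, scale_pt, mul_zero]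
  have hB' : jfun (scaleH 2 B) = jfun (pt 0 (r / 2) (by positivity)) := by
    have e : tau2 hl = scaleH 2 (pt 0 (r / 2) (by positivity)) := by
      rw [tau2, scale_pt]; congr 1 <;> ring
    show jfun (scaleH 2 (ModularGroup.S • tau2 hl)) = _
    rw [e, scale_S, jfun_smul]
  have hAre := hpos (2 * r) (by positivity) (by linarith)
  have hBre := hpos (r / 2) (by positivity) le_rfl
  have hA0 : (jfun (pt 0 (2 * r) (by positivity))).im = 0 :=
    Complex.conj_eq_iff_im.1 (by rw [conj_pt]; simp)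
  have hB0 : (jfun (pt 0 (r / 2) (by positivity))).im = 0 :=
    Complex.conj_eq_iff_im.1 (by rw [conj_pt]; simp)
  have hAB : jfun (scaleH 2 (tau2 hl)) ≠ jfun (scaleH 2 B) := by
    rw [hA', hB']
    intro e
    obtain ⟨g, hg⟩ := (FA.JInj.jfun_eq_iff _ _).1 e
    have hl' : (7 : ℤ) ≤ l := by omega
    have h := sq_sqrt_l (l := l)
    have h2 : Odd l := by rw [Nat.odd_iff]; omega
    have hg4 : Int.gcd 4 (l : ℤ) = 1 := by
      rw [show (4 : ℤ) = ((4 : ℕ) : ℤ) from rfl, Int.gcd_natCast_natCast]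
      exact Nat.Coprime.pow_left 2 (Nat.coprime_two_left.2 h2)
    have := red_eq_of_smul (D := -16 * (l : ℤ)) (by omega) (f := (1, 0, 4 * (l : ℤ)))
      (f' := (4, 0, (l : ℤ)))
      ⟨by ring, by simp, one_pos, by simp, show (1 : ℤ) ≤ 4 * l by omega, fun _ => le_rfl⟩
      ⟨by ring, by simpa using hg4, by norm_num, by simp, show (4 : ℤ) ≤ l by omega, fun _ => le_rfl⟩
      (isRoot_pt _ (by simp) (by push_cast; linear_combination -4 * h))
      (isRoot_pt _ (by simp) (by push_cast; linear_combination -h)) hg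
    simp at this
  have hC1 : jfun (scaleH 2 (zC hl)) = jfun (tau1 hl) := jfun_scale_zC hl
  have hAC : jfun (scaleH 2 (tau2 hl)) ≠ jfun (scaleH 2 (zC hl)) := fun e => by
    rw [hA', hC1] at e; rw [e] at hAre; linarith
  have hBC : jfun (scaleH 2 B) ≠ jfun (scaleH 2 (zC hl)) := fun e => by
    rw [hB', hC1] at e; rw [e] at hBre; linarith
  have ht0 : t ≠ 0 := by rintro rfl; norm_num at ht
  have hval : ∀ z : ℍ, t = haupt2Fun z → v = jfun (scaleH 2 z) := fun z e => by
    refine mul_right_cancel₀ ht0 ?_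
    rw [hvt, e, jfun_scale_mul_haupt]
  rcases mem_of_base (z₁ := tau2 hl) (z₂ := B) (z₃ := zC hl) rfl (jfun_smul _ _) (jfun_zC hl)
    hAB hAC hBC ht with e | e | e
  · exfalso
    have hv' := (hval _ e).trans hA'
    rw [eq_tau1_of_real hl h7 hv (by rw [hv']; exact hA0)] at hv'
    rw [← hv'] at hAre; linarith
  · exfalso
    have hv' := (hval _ e).trans hB'
    rw [eq_tau1_of_real hl h7 hv (by rw [hv']; exact hB0)] at hv'
    rw [← hv'] at hBre; linarith
  · exact ⟨(hval _ e).trans hC1, e⟩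

include h7 in
/-- **Three values of the Hauptmodul over `j((1 + √-l) / 2)`**, told apart by their second value. -/
theorem exists_three (h23 : 23 ≤ l) :
    ∃ z₁ z₂ : ℍ, jfun z₁ ∈ values (-(l : ℤ)) ∧ jfun z₂ ∈ values (-(l : ℤ)) ∧
      jfun (scaleH 2 z₁) = jfun (tau1 hl) ∧ jfun (scaleH 2 z₂) = jfun (tau1 hl) ∧
      jfun z₁ ≠ jfun z₂ ∧ jfun z₁ ≠ jfun (zC hl) ∧ jfun z₂ ≠ jfun (zC hl) := by
  obtain ⟨k, hk⟩ := exists_quarter h7
  obtain ⟨h1, him, h2⟩ := quarter_mem hl k hk h23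
  have hp : 0 < r / 4 := by have := sqrt_pos' hl; positivity
  have h2eq : jfun (pt (3 / 4) (r / 4) hp) = conj (jfun (pt (1 / 4) (r / 4) hp)) := by
    rw [conj_pt, ← jfun_pt_add (-(1 / 4))]; norm_num
  have him2 : (jfun (pt (3 / 4) (r / 4) hp)).im ≠ 0 := by
    rw [h2eq, Complex.conj_im, neg_ne_zero]; exact him
  have hC : (jfun (zC hl)).im = 0 := by
    rw [jfun_zC]; exact Complex.conj_eq_iff_im.1 (conj_tau2 hl)
  refine ⟨_, _, h1, h2, ?_, ?_, fun e => him (Complex.conj_eq_iff_im.1 (h2eq.symm.trans e.symm)),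
    fun e => him (by rw [e]; exact hC), fun e => him2 (by rw [e]; exact hC)⟩
  · rw [scale_pt, tau1]; congr 2 <;> ring
  · rw [scale_pt, tau1, ← jfun_pt_add (1 / 2)]; congr 2 <;> ring

end FA.Elkies

end
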