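import Fermat.Agent.Supersingular.ElkiesPrimes
import Fermat.Agent.Mazur.UnitLift
import Mathlib.RingTheory.Polynomial.Resultant.Basic

/-!
# Elkies: supersingular reductions of algebraic numbers of odd degree

For `x` of odd degree the resultant of the polynomial of an integral multiple of `x` with the
homogenised product of the two class polynomials is not positive and a square modulo `l`, so a
prime non-split in `ℚ(√-l)` divides it: at a place above it `x` meets a singular modulus.
-/

set_option autoImplicit false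
set_option linter.style.haveILetI false

noncomputable section

open Polynomial
open scoped Classical ComplexConjugate UpperHalfPlane

namespace FA.Elkies

open FA.Frob FA.Local

local notation "Qb" => AlgebraicClosure ℚ

/-- The resultant is the product of the values at the roots, in any algebraically closed field. -/
theorem resultant_cast (k : Type*) [Field k] [IsAlgClosed k] {G S : ℤ[X]} (hG : G.Monic)
    (hS : S.Monic) :
    ((resultant G S : ℤ) : k) = ((G.map (Int.castRingHom k)).roots.map
      (fun r => (S.map (Int.castRingHom k)).eval r)).prod := by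
  show Int.castRingHom k (resultant G S G.natDegree S.natDegree) = _
  rw [← resultant_map_map]
  conv_lhs => arg 3; rw [← hG.natDegree_map (Int.castRingHom k)]
  rw [resultant_eq_prod_eval _ _ _ (hS.natDegree_map _).le (IsAlgClosed.splits _),
    (hG.map _).leadingCoeff, one_pow, one_mul]

/-- Over a finite set of complex numbers closed under conjugation, of odd size, the product of the
values of an equivariant function negative at real points is real and not positive. -/
theorem prod_nonpos {T : Finset ℂ} {f : ℂ → ℂ} (hT : ∀ z ∈ T, conj z ∈ T) (hodd : Odd T.card)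
    (hconj : ∀ z ∈ T, f (conj z) = conj (f z))
    (hreal : ∀ z ∈ T, z.im = 0 → ∃ a : ℝ, a < 0 ∧ f z = a) :
    ∃ a : ℝ, a ≤ 0 ∧ ∏ z ∈ T, f z = a := by
  set T₀ := T.filter (fun z => z.im = 0) with hT₀
  set T₁ := T.filter (fun z => 0 < z.im) with hT₁
  set T₂ := T.filter (fun z => z.im < 0) with hT₂
  have hd : Disjoint T₁ T₂ := Finset.disjoint_filter.2 fun z _ h => not_lt.2 h.le
  have hne : T.filter (fun z => ¬ z.im = 0) = T₁.disjUnion T₂ hd := by
    ext z
    simp only [Finset.mem_filter, Finset.mem_disjUnion, hT₁, hT₂]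
    refine ⟨fun ⟨h, h'⟩ => (lt_or_gt_of_ne h').symm.imp (⟨h, ·⟩) (⟨h, ·⟩), ?_⟩
    rintro (⟨h, h'⟩ | ⟨h, h'⟩)
    exacts [⟨h, h'.ne'⟩, ⟨h, h'.ne⟩]
  have hmem₂ : ∀ z ∈ T₁, conj z ∈ T₂ := fun z hz => by
    obtain ⟨h, h'⟩ := Finset.mem_filter.1 hz
    exact Finset.mem_filter.2 ⟨hT z h, by rw [Complex.conj_im]; linarith⟩
  have hmem₁ : ∀ z ∈ T₂, conj z ∈ T₁ := fun z hz => by
    obtain ⟨h, h'⟩ := Finset.mem_filter.1 hz
    exact Finset.mem_filter.2 ⟨hT z h, by rw [Complex.conj_im]; linarith⟩
  have h12 : ∏ z ∈ T₂, f z = conj (∏ z ∈ T₁, f z) := by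
    rw [map_prod]
    refine Finset.prod_nbij' (fun z => conj z) (fun z => conj z) hmem₁ hmem₂
      (fun z _ => Complex.conj_conj z) (fun z _ => Complex.conj_conj z) fun z hz => ?_
    rw [hconj z (Finset.mem_filter.1 hz).1, Complex.conj_conj]
  have hcard₂ : T₂.card = T₁.card := Finset.card_nbij' (fun z => conj z) (fun z => conj z)
    hmem₁ hmem₂ (fun z _ => Complex.conj_conj z) (fun z _ => Complex.conj_conj z)
  have hodd₀ : Odd T₀.card := by
    rw [← Finset.card_filter_add_card_filter_not (fun z : ℂ => z.im = 0) (s := T), hne,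
      Finset.card_disjUnion, hcard₂] at hodd
    rw [Nat.odd_iff] at hodd ⊢
    show (T.filter fun z => z.im = 0).card % 2 = 1
    omega
  have key : ∀ U : Finset ℂ, (∀ z ∈ U, ∃ a : ℝ, a < 0 ∧ f z = a) →
      ∃ a : ℝ, (Odd U.card → a ≤ 0) ∧ (Even U.card → 0 ≤ a) ∧ ∏ z ∈ U, f z = a := by
    intro U
    induction U using Finset.induction_on with
    | empty => exact fun _ => ⟨1, fun h => absurd h (by decide), fun _ => zero_le_one, by simp⟩
    | insert z U hz ih =>
      intro h
      obtain ⟨a, h1, h2, h3⟩ := ih fun w hw => h w (Finset.mem_insert_of_mem hw)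
      obtain ⟨b, hb, hbz⟩ := h z (Finset.mem_insert_self z U)
      refine ⟨b * a, fun ho => ?_, fun he => ?_,
        by rw [Finset.prod_insert hz, h3, hbz, Complex.ofReal_mul]⟩
      · rw [Finset.card_insert_of_notMem hz, Nat.odd_add_one, Nat.not_odd_iff_even] at ho
        exact mul_nonpos_of_nonpos_of_nonneg hb.le (h2 ho)
      · rw [Finset.card_insert_of_notMem hz, Nat.even_add_one, Nat.not_even_iff_odd] at he
        exact mul_nonneg_of_nonpos_of_nonpos hb.le (h1 he)
  obtain ⟨a, ha, -, hprod⟩ := key T₀ fun z hz =>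
    hreal z (Finset.mem_filter.1 hz).1 (Finset.mem_filter.1 hz).2
  refine ⟨a * Complex.normSq (∏ z ∈ T₁, f z),
    mul_nonpos_of_nonpos_of_nonneg (ha hodd₀) (Complex.normSq_nonneg _), ?_⟩
  rw [← Finset.prod_filter_mul_prod_filter_not T (fun z : ℂ => z.im = 0), hne,
    Finset.prod_disjUnion, hprod, h12, Complex.mul_conj, Complex.ofReal_mul]

/-- **The resultant modulo `l` is a square.** -/
theorem isSquare_resultant {l : ℕ} [hl : Fact l.Prime] (k : Type*) [Field k] [CharP k l]
    [IsAlgClosed k] {G P : ℤ[X]} {Q : k[X]} (hG : G.Monic) (hP : P.Monic)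
    (hPQ : P.map (Int.castRingHom k) = Q ^ 2) (hQ : Q.map (frobenius k l) = Q) (c : ℕ)
    (hc0 : (c : ZMod l) ≠ 0) (hc : IsSquare (c : ZMod l)) :
    IsSquare ((resultant G (P.scaleRoots (c : ℤ)) : ℤ) : ZMod l) := by
  set ψ := ZMod.castHom (dvd_refl l) k
  set φ := frobenius k l
  have hS : (P.scaleRoots (c : ℤ)).Monic := Polynomial.monic_scaleRoots_iff _ |>.2 hP
  have hck : (c : k) ≠ 0 := by
    rw [← map_natCast ψ]; exact (_root_.map_ne_zero _).2 hc0
  set Gk := G.map (Int.castRingHom k)
  have hval : ∀ r : k, ((P.scaleRoots (c : ℤ)).map (Int.castRingHom k)).eval r =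
      (c : k) ^ P.natDegree * Q.eval (r / c) ^ 2 := fun r => by
    have h := Polynomial.scaleRoots_eval₂_mul (Int.castRingHom k) (r / (c : k)) (c : ℤ) (p := P)
    rw [← eval_map, ← eval_map, hPQ, eq_intCast, Int.cast_natCast, mul_div_cancel₀ _ hck,
      eval_pow] at h
    exact h
  set y := (Gk.roots.map fun r => Q.eval (r / (c : k))).prod with hy
  have hyfix : y ^ l = y := by
    have hroots : Gk.roots.map φ = Gk.roots := by
      rw [← (IsAlgClosed.splits Gk).roots_map φ, Polynomial.map_map,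
        show φ.comp (Int.castRingHom k) = Int.castRingHom k from RingHom.ext_int _ _]
    rw [← frobenius_def, hy, map_multiset_prod, Multiset.map_map]
    conv_rhs => rw [← hroots, Multiset.map_map]
    refine congrArg Multiset.prod (Multiset.map_congr rfl fun r _ => ?_)
    show φ (Q.eval (r / (c : k))) = Q.eval (φ r / (c : k))
    rw [← eval_map_apply, hQ, map_div₀, map_natCast]
  obtain ⟨y', hy'⟩ : ∃ y', ψ y' = y := by
    have h' := (Subfield.mem_bot_iff_pow_eq_self k l).mpr hyfix
    rw [← ZMod.fieldRange_castHom_eq_bot l] at h'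
    exact h'
  have e : ((resultant G (P.scaleRoots (c : ℤ)) : ℤ) : ZMod l) =
      ((c : ZMod l) ^ P.natDegree) ^ Multiset.card Gk.roots * (y' * y') := by
    refine ψ.injective ?_
    rw [map_intCast, resultant_cast k hG hS, map_mul, map_mul, map_pow, map_pow, map_natCast, hy',
      Multiset.map_congr rfl fun r _ => hval r, Multiset.prod_map_mul, Multiset.map_const',
      Multiset.prod_replicate, Multiset.prod_map_pow, ← hy, pow_two]
  rw [e]
  exact ((hc.pow _).pow _).mul ⟨y', rfl⟩

/-- Residue fields at places over `p` are algebraic over the prime field. -/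
theorem isAlgClosure_res {p : ℕ} [Fact p.Prime] {A : ValuationSubring Qb}
    [CharP (Res A) p] : letI : Algebra (ZMod p) (Res A) := ZMod.algebra _ p
    IsAlgClosure (ZMod p) (Res A) := by
  letI : Algebra (ZMod p) (Res A) := ZMod.algebra _ p
  refine ⟨residueField_isAlgClosed A, ⟨fun r => ?_⟩⟩
  obtain ⟨a, rfl⟩ := IsLocalRing.residue_surjective r
  obtain ⟨P, hP, hPa⟩ := FA.Mazur.exists_poly_residue (q := p) a
  exact ⟨_, hP, by rw [aeval_def, eval₂_map, show (algebraMap (ZMod p) (Res A)).comp
    (Int.castRingHom (ZMod p)) = Int.castRingHom _ from RingHom.ext_int _ _, hPa]⟩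

/-- Values below `1` after pulling a place back. -/
theorem valuation_comap_lt_one (A : ValuationSubring Qb) (σ : Qb ≃ₐ[ℚ] Qb) (y : Qb) :
    (A.comap (σ : Qb →+* Qb)).valuation y < 1 ↔ A.valuation (σ y) < 1 := by
  have key : ∀ (B : ValuationSubring Qb) (z : Qb), B.valuation z < 1 ↔ z = 0 ∨ z⁻¹ ∉ B := by
    intro B z
    rcases eq_or_ne z 0 with rfl | hz
    · simp
    rw [← B.valuation_le_one_iff, map_inv₀, inv_le_one₀ (B.valuation.pos_iff.2 hz), not_le]
    simp [hz]
  rw [key, key, ← map_inv₀ σ, ValuationSubring.mem_comap, _root_.map_eq_zero]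
  rfl

/-- A positive integral multiple. -/
theorem exists_nat_multiple (y : Qb) : ∃ c : ℕ, c ≠ 0 ∧ IsIntegral ℤ ((c : Qb) * y) := by
  haveI : Algebra.IsAlgebraic ℚ Qb := AlgebraicClosure.isAlgebraic ℚ
  obtain ⟨z, hz, hzi⟩ := ((IsFractionRing.isAlgebraic_iff ℤ ℚ Qb).2
    (Algebra.IsAlgebraic.isAlgebraic y)).exists_integral_multiple
  rw [zsmul_eq_mul] at hzi
  refine ⟨z.natAbs, Int.natAbs_ne_zero.2 hz, ?_⟩
  rw [← Int.cast_natCast]
  rcases Int.natAbs_eq z with h | h
  · rwa [← h]
  · rw [show ((z.natAbs : ℕ) : ℤ) = -z by omega, Int.cast_neg, neg_mul]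
    exact hzi.neg

/-- **Elkies for odd degree: supersingular reduction at places beyond any bound.** -/
theorem exists_supersingular_place (x : Qb) (hodd : Odd (minpoly ℚ x).natDegree) (M : ℕ) :
    ∃ p : ℕ, ∃ _ : Fact p.Prime, M < p ∧
      ∃ (A : ValuationSubring Qb) (_ : A.LiesOverPrime p) (hx : x ∈ A),
        (∀ (W : WeierstrassCurve (Res A)) [W.IsElliptic],
          W.j = IsLocalRing.residue A ⟨x, hx⟩ → ∀ P : W.toAffine.Point, p • P = 0 → P = 0) ∧
        IsLocalRing.residue A ⟨x, hx⟩ ^ p ^ 2 = IsLocalRing.residue A ⟨x, hx⟩ := by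
  haveI : Algebra.IsAlgebraic ℚ Qb := AlgebraicClosure.isAlgebraic ℚ
  -- an integral multiple
  obtain ⟨c, hc, hci⟩ := exists_nat_multiple x
  have hcQ : (c : Qb) ≠ 0 := Nat.cast_ne_zero.2 hc
  set G := minpoly ℤ ((c : Qb) * x) with hG
  have hGm : G.Monic := minpoly.monic hci
  have hGQ : minpoly ℚ ((c : Qb) * x) = G.map (algebraMap ℤ ℚ) :=
    minpoly.isIntegrallyClosed_eq_field_fractions' ℚ hci
  have hdeg : Odd G.natDegree := by
    have hxi : IsIntegral ℚ x := (Algebra.IsAlgebraic.isAlgebraic x).isIntegral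
    have he : IntermediateField.adjoin ℚ {(c : Qb) * x} = IntermediateField.adjoin ℚ {x} := by
      refine le_antisymm (IntermediateField.adjoin_simple_le_iff.2 (mul_mem (natCast_mem _ c)
        (IntermediateField.mem_adjoin_simple_self ℚ x))) (IntermediateField.adjoin_simple_le_iff.2 ?_)
      have h := mul_mem (inv_mem (natCast_mem (IntermediateField.adjoin ℚ {(c : Qb) * x}) c))
        (IntermediateField.mem_adjoin_simple_self ℚ ((c : Qb) * x))
      rwa [inv_mul_cancel_left₀ hcQ] at h
    rw [← hGm.natDegree_map (algebraMap ℤ ℚ), ← hGQ,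
      ← IntermediateField.adjoin.finrank hci.tower_top, he, IntermediateField.adjoin.finrank hxi]
    exact hodd
  -- the auxiliary prime
  set R := (G.map (Int.castRingHom ℂ)).roots with hR
  set B : ℝ := (R.map fun r => ‖r / (c : ℂ)‖).sum with hB
  have hnn : ∀ a ∈ R.map fun r => ‖r / (c : ℂ)‖, 0 ≤ a := fun a ha => by
    obtain ⟨r, -, rfl⟩ := Multiset.mem_map.1 ha
    exact norm_nonneg _
  have hle : ∀ r ∈ R, ‖r / (c : ℂ)‖ ≤ B := fun r hr =>
    Multiset.single_le_sum hnn _ (Multiset.mem_map_of_mem _ hr)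
  set N := c * (M + 4).factorial with hN
  obtain ⟨l, H₁, H₂, hl, hl3, hlN, hsmall, hm₁, hm₂, hr₁, hr₂, hsign, A₀, hA₀, Q, hQ, hQfix⟩ :=
    exists_auxiliary N (mul_ne_zero hc (Nat.factorial_ne_zero _)) B (Multiset.sum_nonneg hnn)
  haveI := Fact.mk hl
  haveI := residueField_charP A₀ hl hA₀
  haveI := residueField_isAlgClosed A₀
  set P := H₁ * H₂
  have hPm : P.Monic := hm₁.mul hm₂
  set S := P.scaleRoots (c : ℤ) with hS
  have hSm : S.Monic := Polynomial.monic_scaleRoots_iff _ |>.2 hPm
  set n := resultant G S with hn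
  have hval : ∀ {F : Type} [Field F] (r : F), (c : F) ≠ 0 →
      (S.map (Int.castRingHom F)).eval r =
        (c : F) ^ P.natDegree * (P.map (Int.castRingHom F)).eval (r / (c : F)) := fun r hcF => by
    have h := Polynomial.scaleRoots_eval₂_mul (Int.castRingHom _) (r / (c : _)) (c : ℤ) (p := P)
    rw [← eval_map, ← eval_map, eq_intCast, Int.cast_natCast, mul_div_cancel₀ _ hcF] at h
    exact h
  -- the sign
  have hneg : n ≤ 0 := by
    have hnd : R.Nodup := by
      rw [hR, show G.map (Int.castRingHom ℂ) = (minpoly ℚ ((c : Qb) * x)).map (algebraMap ℚ ℂ) by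
        rw [hGQ, Polynomial.map_map]; exact congrArg G.map (RingHom.ext_int _ _)]
      exact nodup_roots (Irreducible.separable (minpoly.irreducible hci.tower_top)).map
    have hmem : ∀ z, z ∈ R ↔ G.eval₂ (Int.castRingHom ℂ) z = 0 := fun z => by
      rw [hR, mem_roots (hGm.map _).ne_zero]
      show eval z _ = 0 ↔ _
      rw [eval_map]
    have hcj : ∀ (F : ℤ[X]) (z : ℂ), F.eval₂ (Int.castRingHom ℂ) (conj z) =
        conj (F.eval₂ (Int.castRingHom ℂ) z) := fun F z => by
      rw [hom_eval₂]; exact congrArg (F.eval₂ · _) (RingHom.ext_int _ _)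
    have hcardR : R.toFinset.card = G.natDegree := by
      rw [Multiset.toFinset_card_of_nodup hnd, hR, ← (IsAlgClosed.splits _).natDegree_eq_card_roots,
        hGm.natDegree_map]
    obtain ⟨a, ha, hprod⟩ := prod_nonpos (T := R.toFinset)
      (f := fun r => (S.map (Int.castRingHom ℂ)).eval r) (fun z hz => by
        rw [Multiset.mem_toFinset, hmem] at hz ⊢
        rw [hcj, hz, map_zero]) (hcardR ▸ hdeg)
      (fun z _ => by rw [eval_map, eval_map, hcj]) (fun z hz him => by
        rw [Multiset.mem_toFinset] at hz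
        have hb := hle z hz
        obtain ⟨u, rfl⟩ : ∃ u : ℝ, z = (u : ℂ) := ⟨z.re, Complex.ext rfl him⟩
        rw [← Complex.ofReal_natCast, ← Complex.ofReal_div, Complex.norm_real,
          Real.norm_eq_abs] at hb
        obtain ⟨h1, h2⟩ := hsign _ hb
        refine ⟨(c : ℝ) ^ P.natDegree * (aeval (u / c) H₁ * aeval (u / c) H₂),
          mul_neg_of_pos_of_neg (pow_pos (Nat.cast_pos.2 (Nat.pos_of_ne_zero hc)) _)
            (mul_neg_of_pos_of_neg h1 h2), ?_⟩
        have e : Complex.ofRealHom (aeval (u / (c : ℝ)) P) =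
            (P.map (Int.castRingHom ℂ)).eval ((u : ℂ) / (c : ℂ)) := by
          rw [aeval_def, hom_eval₂, eval_map, map_div₀, map_natCast, Complex.ofRealHom_eq_coe]
          congr 1
        rw [hval _ (Nat.cast_ne_zero.2 hc), Complex.ofReal_mul, Complex.ofReal_pow,
          Complex.ofReal_natCast, ← map_mul]
        exact congrArg _ e.symm)
    have h : (n : ℂ) = a := by
      rw [hn, resultant_cast ℂ hGm hSm, ← hprod]
      show (R.map _).prod = _
      rw [Finset.prod, Multiset.toFinset_val, Multiset.dedup_eq_self.2 hnd]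
    have h' : (n : ℝ) = a := by exact_mod_cast h
    exact_mod_cast h' ▸ ha
  -- the prime
  have hcl : (c : ZMod l) ≠ 0 := fun e => by
    have := Nat.le_of_dvd (Nat.pos_of_ne_zero hc) ((ZMod.natCast_eq_zero_iff _ _).1 e)
    have : c ≤ N := Nat.le_mul_of_pos_right _ (Nat.factorial_pos _)
    omega
  have hsq : IsSquare (n : ZMod l) := isSquare_resultant (Res A₀) hGm hPm hQ
    (Polynomial.ext fun i => by rw [coeff_map, frobenius_def]; exact hQfix i) c hcl
    (isSquare_of_primes c hc fun r hr hrc => hsmall r hr (hrc.trans (dvd_mul_right _ _)))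
  obtain ⟨p, hp, hpn, hpl⟩ : ∃ p : ℕ, p.Prime ∧ p ∣ n.natAbs ∧
      (p = l ∨ ¬ IsSquare (p : ZMod l)) := by
    by_cases hln : l ∣ n.natAbs
    · exact ⟨l, hl, hln, Or.inl rfl⟩
    by_contra hne
    push Not at hne
    have hn0 : n ≠ 0 := fun e => hln (by simp [e])
    have h1 := isSquare_of_primes (l := l) n.natAbs (Int.natAbs_ne_zero.2 hn0)
      fun r hr hrn => (hne r hr hrn).2
    have h0 : (n : ZMod l) ≠ 0 := fun e =>
      hln (Int.natCast_dvd.1 ((ZMod.intCast_zmod_eq_zero_iff_dvd _ _).1 e))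
    have e : ((n.natAbs : ℕ) : ZMod l) = -(n : ZMod l) := by
      rw [← Int.cast_natCast (n := n.natAbs), Int.ofNat_natAbs_of_nonpos hneg, Int.cast_neg]
    have h2 := h1.div hsq
    rw [e, neg_div, div_self h0, ZMod.exists_sq_eq_neg_one_iff] at h2
    exact h2 hl3
  haveI := Fact.mk hp
  have hpN : ¬ p ∣ N := fun h => by
    rcases hpl with rfl | hns
    · exact absurd (Nat.le_of_dvd (Nat.pos_of_ne_zero (mul_ne_zero hc (Nat.factorial_ne_zero _))) h)
        (by omega)
    · exact hns (hsmall p hp h)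
  have hMp : M + 4 < p := by
    by_contra hlt
    exact hpN ((Nat.dvd_factorial hp.pos (not_lt.1 hlt)).trans (dvd_mul_left _ _))
  have hpc : ¬ p ∣ c := fun h => hpN (h.trans (dvd_mul_right _ _))
  obtain ⟨hns₁, hns₂⟩ := not_isSquare_padic (p := p) hl hl3 (by omega) hpl
  -- the place
  obtain ⟨A, hA⟩ := FA.Deform.exists_liesOverPrime hp
  have hnv : A.valuation (n : Qb) < 1 := by
    obtain ⟨k, hk⟩ := Int.natCast_dvd.2 hpn
    rw [hk, Int.cast_mul, Int.cast_natCast, map_mul]
    exact mul_lt_one_of_nonneg_of_lt_one_left zero_le (A.mem_nonunits_iff.mp hA)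
      ((A.valuation_le_one_iff _).2 (intCast_mem A k))
  rw [hn, resultant_cast Qb hGm hSm, map_multiset_prod, Multiset.map_map] at hnv
  obtain ⟨r, hr, hrv⟩ : ∃ r ∈ (G.map (Int.castRingHom Qb)).roots,
      A.valuation ((S.map (Int.castRingHom Qb)).eval r) < 1 := by
    by_contra hne
    push Not at hne
    exact absurd hnv (not_lt.2 (Multiset.one_le_prod_of_one_le fun a ha => by
      obtain ⟨r, hr, rfl⟩ := Multiset.mem_map.1 ha
      exact hne r hr))
  obtain ⟨σ, hσ⟩ := minpoly.exists_algEquiv_of_root'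
    (Algebra.IsAlgebraic.isAlgebraic ((c : Qb) * x)) (x := r) (by
      have h := (mem_roots (hGm.map _).ne_zero).1 hr
      change eval r _ = 0 at h
      rw [eval_map] at h
      rw [hGQ, aeval_map_algebraMap, aeval_def, ← h]
      exact congrArg (G.eval₂ · r) (RingHom.ext_int _ _))
  set A' := A.comap (σ : Qb →+* Qb) with hA'
  have hA'p : A'.LiesOverPrime p := by
    refine A'.mem_nonunits_iff.mpr ((valuation_comap_lt_one A σ _).2 ?_)
    rw [map_natCast]
    exact A.mem_nonunits_iff.mp hA
  haveI := residueField_charP A' hp hA'p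
  letI : Algebra (ZMod p) (Res A') := ZMod.algebra _ p
  haveI : IsAlgClosure (ZMod p) (Res A') := isAlgClosure_res
  haveI : IsAlgClosed (Res A') := residueField_isAlgClosed A'
  have hc1 : A'.valuation (c : Qb) = 1 := by
    have hle : A'.valuation (c : Qb) ≤ 1 := (A'.valuation_le_one_iff _).2 (natCast_mem A' c)
    refine hle.eq_or_lt.resolve_right fun h => hpc ((CharP.cast_eq_zero_iff (Res A') p c).1 ?_)
    rw [← map_natCast (IsLocalRing.residue A'), IsLocalRing.residue_eq_zero_iff,
      ← A'.coe_mem_nonunits_iff, A'.mem_nonunits_iff]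
    exact_mod_cast h
  have hxv : A'.valuation x ≤ 1 := by
    have h := valuation_le_of_root (A := A') hGm (minpoly.aeval ℤ ((c : Qb) * x))
    rwa [map_mul, hc1, one_mul] at h
  have hx : x ∈ A' := (A'.valuation_le_one_iff _).1 hxv
  set X₀ : A' := ⟨x, hx⟩
  have hPv : A'.valuation (A'.subtype ((P.map (Int.castRingHom A')).eval X₀)) < 1 := by
    have h1 : A'.valuation ((S.map (Int.castRingHom Qb)).eval ((c : Qb) * x)) < 1 := by
      rw [valuation_comap_lt_one, eval_map, ← RingHom.coe_coe σ, hom_eval₂,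
        show (σ : Qb →+* Qb).comp (Int.castRingHom Qb) = Int.castRingHom Qb from
          RingHom.ext_int _ _, RingHom.coe_coe, hσ, ← eval_map]
      exact hrv
    rw [hval _ hcQ, map_mul, map_pow, hc1, one_pow, one_mul, mul_div_cancel_left₀ _ hcQ] at h1
    rwa [eval_map, hom_eval₂, show A'.subtype.comp (Int.castRingHom A') = Int.castRingHom Qb from
      RingHom.ext_int _ _, ← eval_map]
  have h0 : (P.map (Int.castRingHom (Res A'))).IsRoot (IsLocalRing.residue A' X₀) := by
    show eval _ _ = 0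
    rw [show Int.castRingHom (Res A') = (IsLocalRing.residue A').comp (Int.castRingHom A') from
      RingHom.ext_int _ _, ← Polynomial.map_map, eval_map_apply, IsLocalRing.residue_eq_zero_iff,
      ← A'.coe_mem_nonunits_iff, A'.mem_nonunits_iff]
    exact hPv
  have hss : ∀ (W : WeierstrassCurve (Res A')) [W.IsElliptic],
      W.j = IsLocalRing.residue A' X₀ → ∀ T : W.toAffine.Point, p • T = 0 → T = 0 := by
    intro W _ hW
    rw [← hW, Polynomial.map_mul, root_mul] at h0
    rcases h0 with h | h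
    · exact FA.CMReduction.no_pTorsion (by omega) hns₁ hm₁ hr₁ W h
    · exact FA.CMReduction.no_pTorsion (by omega) hns₂ hm₂ hr₂ W h
  refine ⟨p, ⟨hp⟩, by omega, A', hA'p, hx, hss, ?_⟩
  exact FA.Summary.supersingular_j_pow_sq (Res A') p (by omega)
    ⟨WeierstrassCurve.ofJ (IsLocalRing.residue A' X₀), inferInstance, WeierstrassCurve.ofJ_j _,
      hss _ (WeierstrassCurve.ofJ_j _)⟩

/-- **Elkies for curves over fields of odd degree.** -/
theorem exists_supersingular_reduction (K : IntermediateField ℚ Qb) [FiniteDimensional ℚ K]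
    (hK : Odd (Module.finrank ℚ K)) (E : WeierstrassCurve K) [E.IsElliptic] (M : ℕ) :
    ∃ p : ℕ, ∃ _ : Fact p.Prime, M < p ∧
      ∃ (A : ValuationSubring Qb) (_ : A.LiesOverPrime p)
        (hI : IntCoeff A.valuation (E.map K.val.toRingHom).toAffine),
        A.valuation (E.map K.val.toRingHom).toAffine.Δ = 1 ∧
          ∀ P : (redCurve A (E.map K.val.toRingHom).toAffine hI).toAffine.Point,
            p • P = 0 → P = 0 := by
  haveI : Algebra.IsAlgebraic ℚ Qb := AlgebraicClosure.isAlgebraic ℚ
  set W := E.map K.val.toRingHom with hW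
  have hodd : Odd (minpoly ℚ W.j).natDegree := by
    rw [show W.j = K.val E.j from WeierstrassCurve.map_j E _,
      minpoly.algHom_eq K.val K.val.injective]
    have hi : IsIntegral ℚ E.j := Algebra.IsIntegral.isIntegral _
    refine hK.of_dvd_nat ?_
    exact ⟨_, (Module.finrank_mul_finrank ℚ (IntermediateField.adjoin ℚ {E.j}) K).symm.trans
      (congrArg (· * _) (IntermediateField.adjoin.finrank hi))⟩
  choose c hc hci using exists_nat_multiple
  obtain ⟨p, hpF, hMp, A, hA, hx, hss, -⟩ := exists_supersingular_place W.j hodd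
    (M + (c W.a₁ + c W.a₂ + c W.a₃ + c W.a₄ + c W.a₆ + c W.Δ + c W.Δ⁻¹))
  haveI := residueField_charP A hpF.out hA
  have hint : ∀ y : Qb, c y < p → A.valuation y ≤ 1 := fun y hy => by
    have h1 : A.valuation (c y : Qb) = 1 := by
      have hle : A.valuation (c y : Qb) ≤ 1 := (A.valuation_le_one_iff _).2 (natCast_mem A _)
      refine hle.eq_or_lt.resolve_right fun h => ?_
      have h0 : ((c y : ℕ) : Res A) = 0 := by
        rw [← map_natCast (IsLocalRing.residue A), IsLocalRing.residue_eq_zero_iff,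
          ← A.coe_mem_nonunits_iff, A.mem_nonunits_iff]
        exact_mod_cast h
      exact absurd (Nat.le_of_dvd (Nat.pos_of_ne_zero (hc y))
        ((CharP.cast_eq_zero_iff (Res A) p _).1 h0)) (not_le.2 hy)
    have h := valuation_le_of_root (A := A) (minpoly.monic (hci y))
      (minpoly.aeval ℤ ((c y : Qb) * y))
    rwa [map_mul, h1, one_mul] at h
  have hI : IntCoeff A.valuation W.toAffine := ⟨hint W.a₁ (by omega),
    hint W.a₂ (by omega), hint W.a₃ (by omega), hint W.a₄ (by omega), hint W.a₆ (by omega)⟩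
  have hΔ0 : W.Δ ≠ 0 := W.isUnit_Δ.ne_zero
  have hΔ : A.valuation W.toAffine.Δ = 1 := by
    refine le_antisymm (hint W.Δ (by omega)) ?_
    have h := hint W.Δ⁻¹ (by omega)
    rwa [map_inv₀, inv_le_one₀ (A.valuation.pos_iff.2 hΔ0)] at h
  refine ⟨p, hpF, by omega, A, hA, hI, hΔ, ?_⟩
  haveI := redCurve_isElliptic hI hΔ
  haveI : (intModel A W.toAffine hI).IsElliptic := ⟨by
    rw [← valuation_eq_one_iff]
    show A.valuation (A.subtype (intModel A W.toAffine hI).Δ) = 1
    rw [← WeierstrassCurve.map_Δ, intModel_map]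
    exact hΔ⟩
  refine hss (redCurve A W.toAffine hI) ?_
  refine (WeierstrassCurve.map_j (intModel A W.toAffine hI) (IsLocalRing.residue A)).trans
    (congrArg _ (Subtype.ext ?_))
  show A.subtype (intModel A W.toAffine hI).j = W.j
  rw [← WeierstrassCurve.map_j]
  exact congrArg _ rfl

end FA.Elkies

end
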