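import Fermat.Agent.Supersingular.ElkiesResidue
import Fermat.Agent.Root.SummaryCMReduction
import Fermat.Agent.Root.SummaryRealSingularModuli
import Fermat.Agent.Frob.Det
import Mathlib.NumberTheory.LSeries.PrimesInAP
import Mathlib.NumberTheory.LegendreSymbol.QuadraticReciprocity
import Mathlib.RingTheory.Polynomial.ScaleRoots

/-!
# Elkies: infinitely many supersingular primes

For a prime `l ≡ -1` modulo eight times a given number, the product of the values at `j` of the
class polynomials of `-l` and `-4 l` is negative and a square modulo `l`. As `-1` is none, `l` or a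
prime `q` with `(q / l) = -1` divides it; such a prime does not split in `ℚ(√-l)`.
-/

set_option autoImplicit false
set_option linter.style.haveILetI false

noncomputable section

open Polynomial
open scoped UpperHalfPlane

namespace FA.Elkies

open FA.ModField (jfun)
open FA.Singular (values)

/-- A monic real polynomial of odd degree with one root changes sign there. -/
theorem sign_of_unique_root {P : ℝ[X]} (hP : P.Monic) (hodd : Odd P.natDegree) {r x : ℝ}
    (h : ∀ c, P.eval c = 0 → c = r) : (r < x → 0 < P.eval x) ∧ (x < r → P.eval x < 0) := by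
  have key : ∀ {Q : ℝ[X]} {r' x' : ℝ}, Q.Monic → 0 < Q.natDegree →
      (∀ c, Q.eval c = 0 → c = r') → r' < x' → 0 < Q.eval x' := by
    intro Q r' x' hQ hd h' hx
    by_contra hn
    push Not at hn
    have ht := Q.tendsto_atTop_of_leadingCoeff_nonneg (natDegree_pos_iff_degree_pos.1 hd)
      (by rw [hQ.leadingCoeff]; exact zero_le_one)
    obtain ⟨y, hy, hy'⟩ := ((ht.eventually_ge_atTop 0).and (Filter.eventually_ge_atTop x')).exists
    obtain ⟨c, hc, hc'⟩ := intermediate_value_Icc hy' Q.continuous.continuousOn ⟨hn, hy⟩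
    have := h' c hc'
    linarith [hc.1]
  have hd : 0 < P.natDegree := hodd.pos
  refine ⟨key hP hd h, fun hx => ?_⟩
  have hdeg : (-(P.comp (-X))).natDegree = P.natDegree := by
    rw [natDegree_neg, natDegree_comp, natDegree_neg, natDegree_X, mul_one]
  have hQ : (-(P.comp (-X))).Monic := by
    rw [Monic, leadingCoeff_neg, leadingCoeff_comp (by simp), leadingCoeff_neg, leadingCoeff_X,
      hP.leadingCoeff, hodd.neg_one_pow]
    norm_num
  have := key (r' := -r) (x' := -x) hQ (by rw [hdeg]; exact hd)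
    (fun c hc => by
      rw [eval_neg, eval_comp, eval_neg, eval_X, neg_eq_zero] at hc
      linarith [h _ hc]) (by linarith)
  rw [eval_neg, eval_comp, eval_neg, eval_X, neg_neg] at this
  linarith

/-- The sign at a real number of a minimal polynomial with one real conjugate. -/
theorem sign_minpoly {D : ℤ} (hD : D < 0) {u : ℂ} (hu : u ∈ values D)
    (huniq : ∀ v ∈ values D, v.im = 0 → v = u) (hodd : Odd (minpoly ℤ u).natDegree) (x : ℝ) :
    (u.re < x → 0 < aeval x (minpoly ℤ u)) ∧ (x < u.re → aeval x (minpoly ℤ u) < 0) := by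
  have hmon := minpoly.monic (FA.Singular.isIntegral_values hD hu)
  set P := (minpoly ℤ u).map (algebraMap ℤ ℝ) with hP
  have h := sign_of_unique_root (P := P) (x := x) (r := u.re) (hmon.map _)
    (by rw [hP, hmon.natDegree_map]; exact hodd) (fun c hc => by
      have h0 : aeval (c : ℂ) (minpoly ℤ u) = 0 := by
        rw [hP, eval_map] at hc
        have := congrArg Complex.ofRealHom hc
        rw [hom_eval₂, map_zero] at this
        rw [aeval_def, ← this]
        congr 1
      have := huniq _ (FA.Singular.root_mem_values hD hu h0) (Complex.ofReal_im c)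
      rw [← this, Complex.ofReal_re])
  simp only [hP, eval_map, ← aeval_def] at h
  exact h

/-- A number composed of squares modulo `l` is a square modulo `l`. -/
theorem isSquare_of_primes {l : ℕ} (n : ℕ) (hn : n ≠ 0)
    (h : ∀ r : ℕ, r.Prime → r ∣ n → IsSquare (r : ZMod l)) : IsSquare (n : ZMod l) := by
  induction n using Nat.recOnMul with
  | zero => exact absurd rfl hn
  | one => exact ⟨1, by simp⟩
  | prime p hp => exact h p hp dvd_rfl
  | mul a b ha hb =>
    obtain ⟨ha0, hb0⟩ := mul_ne_zero_iff.1 hn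
    rw [Nat.cast_mul]
    exact (ha ha0 fun r hr hra => h r hr (dvd_mul_of_dvd_left hra b)).mul
      (hb hb0 fun r hr hrb => h r hr (dvd_mul_of_dvd_right hrb a))

/-- The primes of a number `N` with `l ≡ -1 (mod 8 N)` are squares modulo `l`. -/
theorem isSquare_of_dvd {l r N : ℕ} (hl : l.Prime) (hr : r.Prime) (hlN : N < l) (hN : N ≠ 0)
    (hmod : 8 * N ∣ l + 1) (hrN : r ∣ N) : IsSquare (r : ZMod l) := by
  haveI := Fact.mk hl
  haveI := Fact.mk hr
  have h8 : 8 ∣ l + 1 := dvd_trans (dvd_mul_right 8 N) hmod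
  have hl3 : l % 4 = 3 := by omega
  rcases hr.eq_two_or_odd with rfl | hodd
  · have : IsSquare (2 : ZMod l) := (ZMod.exists_sq_eq_two_iff (by omega)).2 (by omega)
    exact_mod_cast this
  have hne : l ≠ r := fun e => absurd (Nat.le_of_dvd (Nat.pos_of_ne_zero hN) hrN) (by omega)
  have hm1 : (l : ZMod r) = -1 := by
    have h := (ZMod.natCast_eq_zero_iff (l + 1) r).2 ((hrN.trans (dvd_mul_left N 8)).trans hmod)
    push_cast at h
    linear_combination h
  rcases (show r % 4 = 1 ∨ r % 4 = 3 by omega) with h1 | h3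
  · rw [← ZMod.exists_sq_eq_prime_iff_of_mod_four_eq_one h1 (by omega), hm1,
      ZMod.exists_sq_eq_neg_one_iff]
    omega
  · rw [ZMod.exists_sq_eq_prime_iff_of_mod_four_eq_three hl3 h3 hne, hm1,
      ZMod.exists_sq_eq_neg_one_iff]
    omega

/-- `-l` and `-4 l` are no squares in `ℚ_p` for `p = l` and for `(p / l) = -1`. -/
theorem not_isSquare_padic {l p : ℕ} (hl : l.Prime) (hl3 : l % 4 = 3) [hp : Fact p.Prime]
    (hp2 : p ≠ 2) (h : p = l ∨ ¬ IsSquare (p : ZMod l)) :
    ¬ IsSquare (((-(l : ℤ)) : ℤ) : ℚ_[p]) ∧ ¬ IsSquare (((-4 * (l : ℤ)) : ℤ) : ℚ_[p]) := by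
  haveI := Fact.mk hl
  have key : ¬ IsSquare (((-(l : ℤ)) : ℤ) : ℚ_[p]) := by
    rintro ⟨s, hs⟩
    have hl0 : ((-(l : ℤ) : ℤ) : ℚ_[p]) ≠ 0 :=
      Int.cast_ne_zero.2 (neg_ne_zero.2 (Int.natCast_ne_zero.2 hl.ne_zero))
    have hs0 : s ≠ 0 := fun e => hl0 (by rw [hs, e, mul_zero])
    rcases h with rfl | h
    · have h1 := congrArg Padic.valuation hs
      rw [Padic.valuation_mul hs0 hs0, Padic.valuation_intCast, padicValInt, Int.natAbs_neg,
        Int.natAbs_natCast, padicValNat_self] at h1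
      omega
    · have hne : p ≠ l := fun e => h (by rw [e, ZMod.natCast_self]; exact ⟨0, by simp⟩)
      have hn : ‖s‖ ≤ 1 := by
        by_contra hc
        push Not at hc
        have h1 := congrArg norm hs
        rw [norm_mul] at h1
        have := Padic.norm_int_le_one (p := p) (-(l : ℤ))
        nlinarith
      obtain ⟨z, hzs⟩ : ∃ z : ℤ_[p], (z : ℚ_[p]) = s := ⟨⟨s, hn⟩, rfl⟩
      have hzz : z * z = ((-(l : ℤ) : ℤ) : ℤ_[p]) := Subtype.ext (by
        rw [PadicInt.coe_mul, PadicInt.coe_intCast, hzs]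
        exact hs.symm)
      have hz := congrArg PadicInt.toZMod hzz
      rw [map_mul, map_intCast] at hz
      have hsq : IsSquare (-(l : ZMod p)) := ⟨_, by rw [hz]; push_cast; rfl⟩
      have hl0' : (l : ZMod p) ≠ 0 := fun e => hne
        ((Nat.prime_dvd_prime_iff_eq hp.out hl).1 ((ZMod.natCast_eq_zero_iff l p).1 e))
      have hp1 := hp.out.eq_two_or_odd.resolve_left hp2
      rcases (show p % 4 = 1 ∨ p % 4 = 3 by omega) with h1 | h3
      · refine h ((ZMod.exists_sq_eq_prime_iff_of_mod_four_eq_one h1 (by omega)).1 ?_)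
        have := ((ZMod.exists_sq_eq_neg_one_iff (p := p)).2 (by omega)).mul hsq
        rwa [neg_one_mul, neg_neg] at this
      · rw [ZMod.exists_sq_eq_prime_iff_of_mod_four_eq_three hl3 h3 (Ne.symm hne), not_not] at h
        have := hsq.div h
        rw [neg_div, div_self hl0'] at this
        exact ((ZMod.exists_sq_eq_neg_one_iff (p := p)).1 this) h3
  refine ⟨key, fun ⟨s, hs⟩ => key ⟨s / 2, ?_⟩⟩
  push_cast at hs ⊢
  linear_combination hs / 4

/-- The roots of `H` are singular moduli of discriminant `D`. -/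
def RootsAreModuli (D : ℤ) (H : ℤ[X]) : Prop :=
  ∀ z : ℂ, aeval z H = 0 → ∃ (a b c : ℤ) (τ : ℍ), 0 < a ∧ b ^ 2 - 4 * a * c = D ∧
    Int.gcd (Int.gcd a b) c = 1 ∧ (a : ℂ) * (τ : ℂ) ^ 2 + b * (τ : ℂ) + c = 0 ∧
    ModularForm.E₄ τ ^ 3 / ModularForm.discriminant τ = z

open FA.Frob FA.Local in
/-- **The auxiliary prime and its two class polynomials**, for given `N` and bound `B`. -/
theorem exists_auxiliary (N : ℕ) (hN : N ≠ 0) (B : ℝ) (hB : 0 ≤ B) :
    ∃ (l : ℕ) (H₁ H₂ : ℤ[X]), l.Prime ∧ l % 4 = 3 ∧ N < l ∧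
      (∀ r : ℕ, r.Prime → r ∣ N → IsSquare (r : ZMod l)) ∧ H₁.Monic ∧ H₂.Monic ∧
      RootsAreModuli (-(l : ℤ)) H₁ ∧ RootsAreModuli (-4 * (l : ℤ)) H₂ ∧
      (∀ x : ℝ, |x| ≤ B → 0 < aeval x H₁ ∧ aeval x H₂ < 0) ∧
      ∃ (A : ValuationSubring (AlgebraicClosure ℚ)) (_ : A.LiesOverPrime l) (Q : (Res A)[X]),
        (H₁ * H₂).map (Int.castRingHom (Res A)) = Q ^ 2 ∧ ∀ i, Q.coeff i ^ l = Q.coeff i := by
  obtain ⟨C, hC0, hC⟩ := exists_jfun_bound
  have h8 : (8 * N - 1).Coprime (8 * N) := by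
    have h := Nat.coprime_self_sub_left (m := 1) (n := 8 * N) (by omega)
    simpa using h
  obtain ⟨l, hlgt, hl, hmod⟩ := Nat.forall_exists_prime_gt_and_modEq
    (max (max N 23) ⌈(B + C) ^ 2⌉₊) (by omega) h8
  simp only [max_lt_iff, gt_iff_lt] at hlgt
  obtain ⟨⟨hlN, hl23⟩, hlB⟩ := hlgt
  have hdvd : 8 * N ∣ l + 1 := by
    have := hmod.add_right 1
    rw [show 8 * N - 1 + 1 = 8 * N by omega] at this
    exact Nat.modEq_zero_iff_dvd.1 (this.trans (Nat.modEq_zero_iff_dvd.2 dvd_rfl))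
  have h7 : l % 8 = 7 := by
    have := dvd_trans (dvd_mul_right 8 N) hdvd
    omega
  haveI := Fact.mk hl
  have hr4 : 4 ≤ Real.sqrt (l : ℝ) :=
    Real.le_sqrt_of_sq_le (by norm_num; exact_mod_cast (show 16 ≤ l by omega))
  have hBr : B + C ≤ Real.sqrt (l : ℝ) := Real.le_sqrt_of_sq_le
    ((Nat.le_ceil _).trans (by exact_mod_cast hlB.le))
  obtain ⟨hbig, hsmall⟩ := re_bounds hl hC hr4 hBr
  obtain ⟨hodd₁, hodd₂, hfac⟩ := classPolys_mod (l := l) h7 hl23.le
    (fun y hy hy' => hB.trans_lt (hbig y hy hy')) (by linarith)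
  have hD₁ : -(l : ℤ) < 0 := by omega
  have hD₂ : -4 * (l : ℤ) < 0 := by omega
  have hm₁ := tau1_mem hl h7
  have hm₂ := tau2_mem hl
  have hroots : ∀ {D : ℤ} (_ : D < 0) {u : ℂ} (_ : u ∈ values D),
      RootsAreModuli D (minpoly ℤ u) := fun hD u hu z hz =>
    (FA.RealModuli.values_eq hD z).1 (FA.Singular.root_mem_values hD hu hz)
  refine ⟨l, minpoly ℤ (jfun (tau1 hl)), minpoly ℤ (jfun (tau2 hl)), hl, by omega, hlN,
    fun r hr hrN => isSquare_of_dvd hl hr hlN hN hdvd hrN,
    minpoly.monic (FA.Singular.isIntegral_values hD₁ hm₁),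
    minpoly.monic (FA.Singular.isIntegral_values hD₂ hm₂), hroots hD₁ hm₁, hroots hD₂ hm₂,
    fun x hx => ⟨?_, ?_⟩, hfac⟩
  · exact (sign_minpoly hD₁ hm₁ (fun v hv him => eq_tau1_of_real hl h7 hv him) hodd₁ x).1
      (by linarith [(abs_le.1 hx).1])
  · have hB' := hbig (Real.sqrt (l : ℝ)) (sqrt_pos' hl) (by linarith)
    exact (sign_minpoly hD₂ hm₂ (fun v hv him => eq_tau2_of_real hl h7 hv him) hodd₂ x).2
      (by rw [tau2]; linarith [(abs_le.1 hx).2])

/-- **Elkies: supersingular primes beyond any bound.** -/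
theorem exists_supersingular_prime (E : WeierstrassCurve ℚ) [E.IsElliptic]
    (W : WeierstrassCurve ℤ) (hW : W.IsIntegralModelOf E) (hΔ : W.Δ ≠ 0) (M : ℕ) :
    ∃ p : ℕ, M < p ∧ p.Prime ∧ ¬ (p : ℤ) ∣ W.Δ ∧ E.LFunction p = 0 := by
  set j := E.j
  set N := W.Δ.natAbs * j.den * (M + 4).factorial with hNdef
  have hN : N ≠ 0 := mul_ne_zero (mul_ne_zero (Int.natAbs_ne_zero.2 hΔ) j.den_nz)
    (Nat.factorial_ne_zero _)
  obtain ⟨l, H₁, H₂, hl, hl3, hlN, hsmallprime, hmon₁, hmon₂, hroots₁, hroots₂, hsign,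
    A, hA, Q, hQ, hQfix⟩ := exists_auxiliary N hN |(j : ℝ)| (abs_nonneg _)
  haveI := Fact.mk hl
  haveI := FA.Frob.residueField_charP A hl hA
  have hsqv := isSquare_eval_of_square (l := l) _ hQ
    (Polynomial.ext fun i => by rw [coeff_map, frobenius_def]; exact hQfix i)
  have hneg : aeval j (H₁ * H₂) < 0 := by
    obtain ⟨h1, h2⟩ := hsign (j : ℝ) le_rfl
    rw [map_mul]
    rw [show (j : ℝ) = algebraMap ℚ ℝ j from rfl, aeval_algebraMap_apply, eq_ratCast] at h1 h2
    exact mul_neg_of_pos_of_neg (by exact_mod_cast h1) (by exact_mod_cast h2)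
  -- the homogenised value
  set P := H₁ * H₂
  set K := P.natDegree
  set n : ℤ := (P.scaleRoots (j.den : ℤ)).eval j.num with hn
  have hscale : ∀ {R : Type} [CommRing R] (φ : ℤ →+* R) (x : R), φ j.den * x = φ j.num →
      φ n = φ j.den ^ K * P.eval₂ φ x := fun φ x hx => by
    rw [hn, ← Polynomial.eval₂_at_apply, ← hx, Polynomial.scaleRoots_eval₂_mul]
  have hnQ : (n : ℚ) = (j.den : ℚ) ^ K * aeval j P := by
    have h := hscale (Int.castRingHom ℚ) j (by simp)
    simpa [aeval_def] using h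
  have hn0 : n < 0 := by
    have h : (n : ℚ) < 0 := by
      rw [hnQ]; exact mul_neg_of_pos_of_neg (pow_pos (by exact_mod_cast j.pos) _) hneg
    exact_mod_cast h
  have hden : (j.den : ZMod l) ≠ 0 := fun e => by
    have := Nat.le_of_dvd j.pos ((ZMod.natCast_eq_zero_iff _ _).1 e)
    have : j.den ≤ N := Nat.le_of_dvd (Nat.pos_of_ne_zero hN)
      ((dvd_mul_left j.den _).trans (dvd_mul_right _ _))
    omega
  have hnsq : IsSquare (n : ZMod l) := by
    have h := hscale (Int.castRingHom (ZMod l)) ((j.num : ZMod l) / (j.den : ZMod l))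
      (by simp only [eq_intCast, Int.cast_natCast]; exact mul_div_cancel₀ _ hden)
    rw [← eval_map] at h
    rw [eq_intCast, eq_intCast, Int.cast_natCast] at h
    rw [h]
    exact ((isSquare_of_primes _ j.den_nz fun r hr hrd => hsmallprime r hr
      (hrd.trans ((dvd_mul_left j.den _).trans (dvd_mul_right _ _)))).pow K).mul (hsqv _)
  -- the prime
  obtain ⟨p, hp, hpn, hpl⟩ : ∃ p : ℕ, p.Prime ∧ p ∣ n.natAbs ∧
      (p = l ∨ ¬ IsSquare (p : ZMod l)) := by
    by_cases hln : l ∣ n.natAbs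
    · exact ⟨l, hl, hln, Or.inl rfl⟩
    by_contra hc
    push Not at hc
    have h1 := isSquare_of_primes (l := l) n.natAbs (Int.natAbs_ne_zero.2 hn0.ne)
      fun r hr hrn => (hc r hr hrn).2
    have h0 : (n : ZMod l) ≠ 0 := fun e =>
      hln (Int.natCast_dvd.1 ((ZMod.intCast_zmod_eq_zero_iff_dvd _ _).1 e))
    have e : ((n.natAbs : ℕ) : ZMod l) = -(n : ZMod l) := by
      rw [← Int.cast_natCast (n := n.natAbs), Int.ofNat_natAbs_of_nonpos hn0.le, Int.cast_neg]
    have h2 := h1.div hnsq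
    rw [e, neg_div, div_self h0, ZMod.exists_sq_eq_neg_one_iff] at h2
    exact h2 hl3
  haveI := Fact.mk hp
  have hpN : ¬ p ∣ N := fun h => by
    rcases hpl with rfl | hns
    · exact absurd (Nat.le_of_dvd (Nat.pos_of_ne_zero hN) h) (by omega)
    · exact hns (hsmallprime p hp h)
  have hMp : M + 4 < p := by
    by_contra hc
    exact hpN ((Nat.dvd_factorial hp.pos (not_lt.1 hc)).trans (dvd_mul_left _ _))
  have hgood : ¬ (p : ℤ) ∣ W.Δ := fun h => hpN ((Int.natCast_dvd.1 h).trans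
    ((dvd_mul_right _ _).trans (dvd_mul_right _ _)))
  have hpden : ¬ p ∣ j.den := fun h => hpN (h.trans ((dvd_mul_left _ _).trans (dvd_mul_right _ _)))
  obtain ⟨hns₁, hns₂⟩ := not_isSquare_padic (p := p) hl hl3 (by omega) hpl
  have hdiv : p ∣ (aeval j H₁).num.natAbs ∨ p ∣ (aeval j H₂).num.natAbs := by
    set a := aeval j H₁
    set b := aeval j H₂
    have hZ : n * ((a.den : ℤ) * b.den) = (j.den : ℤ) ^ K * (a.num * b.num) := by
      have : ((n * ((a.den : ℤ) * b.den) : ℤ) : ℚ) =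
          (((j.den : ℤ) ^ K * (a.num * b.num) : ℤ) : ℚ) := by
        push_cast
        rw [hnQ, map_mul, show aeval j H₁ = a from rfl, show aeval j H₂ = b from rfl,
          ← Rat.mul_den_eq_num a, ← Rat.mul_den_eq_num b]
        ring
      exact_mod_cast this
    have h := congrArg Int.natAbs hZ
    simp only [Int.natAbs_mul, Int.natAbs_pow, Int.natAbs_natCast] at h
    have h2 : p ∣ j.den ^ K * (a.num.natAbs * b.num.natAbs) := h ▸ dvd_mul_of_dvd_left hpn _
    rcases (Nat.Prime.dvd_mul hp).1 h2 with h3 | h3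
    · exact absurd (hp.dvd_of_dvd_pow h3) hpden
    · exact (Nat.Prime.dvd_mul hp).1 h3
  refine ⟨p, by omega, hp, hgood, ?_⟩
  rcases hdiv with h | h
  · exact FA.Summary.supersingular_of_dvd_classPolynomial (by omega) hns₁ hmon₁
      hroots₁ E W hW hgood (Int.natCast_dvd.2 h)
  · exact FA.Summary.supersingular_of_dvd_classPolynomial (by omega) hns₂ hmon₂
      hroots₂ E W hW hgood (Int.natCast_dvd.2 h)

end FA.Elkies

end
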