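import Fermat.Agent.Supersingular.ElkiesField
import Fermat.Agent.Supersingular.CMReduction

/-!
# The class polynomials of discriminants `-l` and `-4 l` modulo `l`

An inertia element at `l` moving `√-l` is a reflection with one fixed value in each family; that
value reduces to `1728` and the other values have the reductions of their partners. So each
polynomial is `X - 1728` times a square, and their product takes square values modulo `l`.
-/

set_option autoImplicit false
set_option linter.style.haveILetI false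

noncomputable section

open Polynomial
open scoped Classical UpperHalfPlane

namespace FA.Elkies

open FA.Frob FA.Local
open FA.ModField (jfun)
open FA.Singular (values)

local notation "Qb" => AlgebraicClosure ℚ
local notation "GQ" => AlgebraicClosure ℚ ≃ₐ[ℚ] AlgebraicClosure ℚ

section Group

variable {L : IntermediateField ℚ Qb}

/-- A reflection inverts a rotation. -/
theorem refl_conj {d : L} (hd0 : d ≠ 0) (hsq : ∀ s : L ≃ₐ[ℚ] L, s d ≠ d → s * s = 1)
    {c g : L ≃ₐ[ℚ] L} (hc : c d = -d) (hg : g d = d) : c * g = g⁻¹ * c := by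
  have hne : (c : L ≃ₐ[ℚ] L) d ≠ d := fun e => hd0 (by
    rw [hc, neg_eq_iff_add_eq_zero, ← two_mul, mul_eq_zero] at e
    exact e.resolve_left two_ne_zero)
  have h1 := hsq c hne
  have h2 := hsq (g * c) (by
    rw [AlgEquiv.mul_apply, hc, map_neg, hg]
    exact fun e => hne (hc.trans e))
  rw [eq_inv_mul_iff_mul_eq]
  calc g * (c * g) = g * c * (g * c) * c⁻¹ := by group
    _ = c := by rw [h2, one_mul, inv_eq_of_mul_eq_one_right h1]

/-- The square root of a rotation of odd order. -/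
theorem exists_sqrt {d : L} {r : L ≃ₐ[ℚ] L} (hr : r d = d) (hodd : Odd (orderOf r)) :
    ∃ m : L ≃ₐ[ℚ] L, m d = d ∧ m * m = r ∧ ∀ x : L, r x = x → m x = x := by
  obtain ⟨k, hk⟩ := hodd
  have hmem : ∀ (x : L), r x = x → (r ^ (k + 1)) x = x := fun x hx =>
    MulAction.mem_stabilizer_iff.1 (pow_mem (MulAction.mem_stabilizer_iff.2 hx :
      r ∈ MulAction.stabilizer (L ≃ₐ[ℚ] L) x) (k + 1))
  refine ⟨r ^ (k + 1), hmem d hr, ?_, hmem⟩
  rw [← pow_add, show k + 1 + (k + 1) = orderOf r + 1 by omega, pow_succ, pow_orderOf_eq_one,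
    one_mul]

/-- **A reflection has one fixed point in each orbit of a point fixed by `c`.** -/
theorem exists_centre [FiniteDimensional ℚ L] {d : L} (hd0 : d ≠ 0)
    (hsq : ∀ s : L ≃ₐ[ℚ] L, s d ≠ d → s * s = 1)
    (hcomm : ∀ g h : L ≃ₐ[ℚ] L, g d = d → h d = d → g * h = h * g)
    (hodd : Odd (Nat.card (MulAction.stabilizer (L ≃ₐ[ℚ] L) d)))
    {c s : L ≃ₐ[ℚ] L} (hc : c d = -d) (hs : s d = -d) :
    ∃ g₀ : L ≃ₐ[ℚ] L, (∀ x, s (g₀ x) = g₀ (c x)) ∧
      ∀ x, c x = x → (∀ g : L ≃ₐ[ℚ] L, g d = d ∨ g d = -d) →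
        ∀ g : L ≃ₐ[ℚ] L, s (g x) = g x → g x = g₀ x := by
  have hne : ∀ {u : L ≃ₐ[ℚ] L}, u d = -d → u d ≠ d := fun hu e => hd0 (by
    rw [hu, neg_eq_iff_add_eq_zero, ← two_mul, mul_eq_zero] at e
    exact e.resolve_left two_ne_zero)
  have hoo : ∀ g : L ≃ₐ[ℚ] L, g d = d → Odd (orderOf g) := fun g hg =>
    hodd.of_dvd_nat (Subgroup.orderOf_dvd_natCard _ (MulAction.mem_stabilizer_iff.2 hg))
  have hc1 := hsq c (hne hc)
  have hr : (s * c) d = d := by rw [AlgEquiv.mul_apply, hc, map_neg, hs, neg_neg]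
  obtain ⟨g₀, hg₀, hg₀2, -⟩ := exists_sqrt hr (hoo _ hr)
  have hsr : s = g₀ * g₀ * c := by rw [hg₀2, mul_assoc, hc1, mul_one]
  have hconj : s * g₀ = g₀ * c := by
    rw [hsr, mul_assoc (g₀ * g₀), refl_conj hd0 hsq hc hg₀]
    group
  refine ⟨g₀, fun x => ?_, fun x hx hG g hg => ?_⟩
  · rw [← AlgEquiv.mul_apply, hconj, AlgEquiv.mul_apply]
  wlog hgd : g d = d generalizing g
  · have h := this (g * c) (by rw [AlgEquiv.mul_apply, hx, hg]) (by
      rw [AlgEquiv.mul_apply, hc, map_neg, (hG g).resolve_left hgd, neg_neg])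
    rwa [AlgEquiv.mul_apply, hx] at h
  have hgi : g⁻¹ d = d := by
    conv_lhs => rw [← hgd]
    exact g.symm_apply_apply d
  have hmd : (g⁻¹ * g₀) d = d := by rw [AlgEquiv.mul_apply, hg₀, hgi]
  set m := g⁻¹ * g₀ with hm
  have hmm : m * m * c = g⁻¹ * s * g := by
    have h2 : m * m = g⁻¹ * g⁻¹ * (g₀ * g₀) := by
      rw [hm, mul_assoc, ← mul_assoc g₀, hcomm g₀ g⁻¹ hg₀ hgi]
      group
    have h3 : g₀ * g₀ * g⁻¹ = g⁻¹ * (g₀ * g₀) :=
      hcomm _ _ (by rw [AlgEquiv.mul_apply, hg₀, hg₀]) hgi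
    rw [hsr, h2, mul_assoc g⁻¹ (g₀ * g₀ * c), mul_assoc (g₀ * g₀), refl_conj hd0 hsq hc hgd,
      ← mul_assoc (g₀ * g₀), h3]
    group
  have hfix : (m * m) x = x := by
    have h := congrArg (fun u : L ≃ₐ[ℚ] L => u x) hmm
    simp only [AlgEquiv.mul_apply, hx, hg] at h
    rw [AlgEquiv.mul_apply, h]
    exact g.symm_apply_apply x
  have hmd2 : (m * m) d = d := by rw [AlgEquiv.mul_apply, hmd, hmd]
  obtain ⟨n, hn, hn2, hnfix⟩ := exists_sqrt hmd2 (hoo _ hmd2)
  have hnm : n = m := by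
    have h1 : (n * m⁻¹) * (n * m⁻¹) = 1 := by
      have hmi : m⁻¹ d = d := by
        conv_lhs => rw [← hmd]
        exact m.symm_apply_apply d
      rw [mul_assoc, ← mul_assoc m⁻¹, hcomm m⁻¹ n hmi hn, ← mul_assoc, ← mul_assoc, hn2]
      group
    have hmem : (n * m⁻¹) d = d := by
      rw [AlgEquiv.mul_apply]
      conv_lhs => rw [← hmd, show (m⁻¹ : L ≃ₐ[ℚ] L) (m d) = d from m.symm_apply_apply d]
      exact hn
    have h2 : orderOf (n * m⁻¹) ∣ 2 := orderOf_dvd_of_pow_eq_one (by rw [pow_two, h1])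
    rcases (Nat.dvd_prime Nat.prime_two).1 h2 with h | h
    · exact mul_inv_eq_one.1 (orderOf_eq_one_iff.1 h)
    · have := hoo _ hmem
      rw [h] at this
      exact absurd this (by decide)
  have := hnfix x hfix
  rw [hnm, hm, AlgEquiv.mul_apply] at this
  have h := congrArg g this
  rw [show g (g⁻¹ (g₀ x)) = g₀ x from g.apply_symm_apply _] at h
  exact h.symm

end Group

/-- A product over a finite set with a fixed-point-free involution, invariant under it, is a
square. -/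
theorem exists_sq_of_pairing {α k : Type*} [Field k] (f : α → k[X]) (hf : ∀ a, (f a).Monic)
    (i : α → α) : ∀ T : Finset α, (∀ a ∈ T, i a ∈ T ∧ i (i a) = a ∧ i a ≠ a ∧ f (i a) = f a) →
      ∃ Q : k[X], Q.Monic ∧ ∏ a ∈ T, f a = Q ^ 2 := by
  intro T
  induction T using Finset.strongInduction with
  | _ T ih =>
    intro hT
    rcases T.eq_empty_or_nonempty with rfl | ⟨a, ha⟩
    · exact ⟨1, monic_one, by simp⟩
    obtain ⟨h1, h2, h3, h4⟩ := hT a ha
    have hb : i a ∈ T.erase a := Finset.mem_erase.2 ⟨h3, h1⟩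
    obtain ⟨Q, hQm, hQ⟩ := ih ((T.erase a).erase (i a))
      ((Finset.erase_subset _ _).trans_ssubset (Finset.erase_ssubset ha)) (fun b hb' => by
        simp only [Finset.mem_erase] at hb' ⊢
        obtain ⟨g1, g2, g3, g4⟩ := hT b hb'.2.2
        exact ⟨⟨fun e => hb'.2.1 (by rw [← g2, e, h2]), fun e => hb'.1 (by rw [← g2, e]), g1⟩,
          g2, g3, g4⟩)
    refine ⟨f a * Q, (hf a).mul hQm, ?_⟩
    rw [← Finset.mul_prod_erase T f ha, ← Finset.mul_prod_erase _ f hb, hQ, h4]
    ring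

variable {l : ℕ} {A : ValuationSubring Qb}

/-- Algebraic integers lie in every valuation ring. -/
theorem valuation_le_of_root {H : ℤ[X]} (hH : H.Monic) {x : Qb} (hx : aeval x H = 0) :
    A.valuation x ≤ 1 := by
  refine root_le_one (P := H.map (Int.castRingHom Qb)) (fun k => ?_)
    (by rw [(hH.map _).leadingCoeff, map_one]) ?_
  · rw [coeff_map]
    exact (A.valuation_le_one_iff _).2 (intCast_mem A _)
  · show eval x _ = 0
    rw [eval_map, ← hx, aeval_def]
    exact congrArg (fun φ : ℤ →+* Qb => H.eval₂ φ x) (RingHom.ext_int _ _)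

/-- **The class polynomial modulo `l`.** -/
theorem exists_square_factor {L : IntermediateField ℚ Qb} [FiniteDimensional ℚ L]
    (ι : Qb →ₐ[ℚ] ℂ) (s : L ≃ₐ[ℚ] L) (hs : s * s = 1)
    (hres : ∀ w : L, A.valuation (w : Qb) ≤ 1 → A.valuation ((s w : L) - w : Qb) < 1)
    {D : ℤ} (hD : D < 0) {x w₀ : L} (hmem : ∀ g : L ≃ₐ[ℚ] L, ι (g x : L) ∈ values D)
    (hall : ∀ v ∈ values D, ∃ g : L ≃ₐ[ℚ] L, ι (g x : L) = v)
    (hw₀ : ∃ g : L ≃ₐ[ℚ] L, g x = w₀) (hfix : s w₀ = w₀)
    (huniq : ∀ g : L ≃ₐ[ℚ] L, s (g x) = g x → g x = w₀)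
    (h1728 : A.valuation ((w₀ : Qb) - 1728) < 1) :
    ∃ Q : (Res A)[X], Q.Monic ∧ (minpoly ℤ (ι (x : Qb))).map (Int.castRingHom (Res A)) =
      (X - C 1728) * Q ^ 2 := by
  have hx : ι (x : Qb) ∈ values D := hmem 1
  set H := minpoly ℤ (ι (x : Qb)) with hH
  have hi := FA.Singular.isIntegral_values hD hx
  have hmon : H.Monic := minpoly.monic hi
  set T : Finset L := Finset.univ.image fun g : L ≃ₐ[ℚ] L => g x with hT
  have hTmem : ∀ w, w ∈ T ↔ ∃ g : L ≃ₐ[ℚ] L, g x = w := fun w => by simp [hT]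
  have hinjL : Function.Injective fun w : L => ι (w : Qb) :=
    ι.toRingHom.injective.comp Subtype.val_injective
  have hzero : ∀ w ∈ T, aeval (w : Qb) H = 0 := fun w hw => by
    obtain ⟨g, rfl⟩ := (hTmem w).1 hw
    refine ι.toRingHom.injective ?_
    rw [map_zero]
    show (ι.restrictScalars ℤ) _ = 0
    rw [← aeval_algHom_apply, hH, FA.Singular.minpoly_eq_of_mem hD hx (hmem g)]
    exact minpoly.aeval ℤ _
  have hcard : T.card = H.natDegree := by
    have h2 : H.natDegree = (FA.Singular.Red D).ncard := by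
      rw [← FA.Singular.natDegree_minpoly hD hx,
        minpoly.isIntegrallyClosed_eq_field_fractions' ℚ hi, (hmon).natDegree_map]
    rw [h2, ← FA.Singular.values_ncard hD, ← Set.ncard_coe_finset,
      ← Set.ncard_image_of_injective _ hinjL]
    congr 1
    ext v
    refine ⟨?_, fun hv => ?_⟩
    · rintro ⟨w, hw, rfl⟩
      obtain ⟨g, rfl⟩ := (hTmem w).1 hw
      exact hmem g
    · obtain ⟨g, hg⟩ := hall v hv
      exact ⟨g x, (hTmem _).2 ⟨g, rfl⟩, hg⟩
  have hle : ∀ w ∈ T, A.valuation (w : Qb) ≤ 1 := fun w hw => valuation_le_of_root hmon (hzero w hw)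
  let r : L → Res A := fun w => resOf A (w : Qb)
  have hmemA : ∀ w ∈ T, (w : Qb) ∈ A := fun w hw => (A.valuation_le_one_iff _).1 (hle w hw)
  let u : L → A := fun w => if h : (w : Qb) ∈ A then ⟨w, h⟩ else 0
  have hu : ∀ w ∈ T, A.subtype (u w) = w := fun w hw => by simp [u, hmemA w hw]
  have hm : ∀ w ∈ T, (X - C (u w)).map A.subtype = X - C (w : Qb) := fun w hw => by
    rw [Polynomial.map_sub, map_X, map_C, hu w hw]
  have hHA : H.map (Int.castRingHom A) = ∏ w ∈ T, (X - C (u w)) := by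
    refine map_injective A.subtype Subtype.coe_injective ?_
    rw [Polynomial.map_map, show A.subtype.comp (Int.castRingHom A) = Int.castRingHom Qb from
      RingHom.ext_int _ _, Polynomial.map_prod, Finset.prod_congr rfl hm]
    refine eq_of_monic_of_dvd_of_natDegree_le (monic_prod_X_sub_C (fun w : L => (w : Qb)) T) (hmon.map _) ?_ ?_
    · refine Finset.prod_dvd_of_coprime (fun a _ b _ hab =>
        isCoprime_X_sub_C_of_isUnit_sub (sub_ne_zero.2 fun e => hab (Subtype.ext e)).isUnit)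
        fun w hw => ?_
      rw [dvd_iff_isRoot]
      show eval (w : Qb) _ = 0
      rw [eval_map, ← hzero w hw, aeval_def]
      exact congrArg (fun φ : ℤ →+* Qb => H.eval₂ φ (w : Qb)) (RingHom.ext_int _ _)
    · rw [hmon.natDegree_map, natDegree_finsetProd_X_sub_C_eq_card, hcard]
  have hHr : H.map (Int.castRingHom (Res A)) = ∏ w ∈ T, (X - C (r w)) := by
    rw [show Int.castRingHom (Res A) = (IsLocalRing.residue A).comp (Int.castRingHom A) from
      RingHom.ext_int _ _, ← Polynomial.map_map, hHA, Polynomial.map_prod]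
    refine Finset.prod_congr rfl fun w hw => ?_
    rw [Polynomial.map_sub, map_X, map_C]
    show _ = X - C (resOf A (w : Qb))
    rw [show (w : Qb) = ((u w : A) : Qb) from (hu w hw).symm, resOf_coe]
  have hwT : w₀ ∈ T := (hTmem _).2 hw₀
  obtain ⟨Q, hQm, hQ⟩ := exists_sq_of_pairing (fun w => X - C (r w))
    (fun w => monic_X_sub_C _) (fun w => s w) (T.erase w₀) (fun w hw => by
      obtain ⟨hne, hw⟩ := Finset.mem_erase.1 hw
      obtain ⟨g, rfl⟩ := (hTmem w).1 hw
      have hss : s (s (g x)) = g x := by rw [← AlgEquiv.mul_apply, hs]; rfl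
      refine ⟨Finset.mem_erase.2 ⟨fun e => hne ?_, (hTmem _).2 ⟨s * g, rfl⟩⟩, hss,
        fun e => hne (huniq g e), ?_⟩
      · rw [← hss, e, hfix]
      · have h1 := hmemA _ hw
        have h2 := hmemA _ ((hTmem (s (g x))).2 ⟨s * g, rfl⟩)
        show X - C (r _) = X - C (r _)
        rw [show r (s (g x)) = r (g x) from (resOf_eq_iff A h2 h1).2 (hres _ (hle _ hw))])
  have hr0 : r w₀ = 1728 := by
    have h := (resOf_eq_iff A (hmemA _ hwT) (natCast_mem A 1728)).2 (by exact_mod_cast h1728)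
    refine h.trans ?_
    rw [show ((1728 : ℕ) : Qb) = (((1728 : ℕ) : A) : Qb) from (map_natCast A.subtype 1728).symm,
      resOf_coe, map_natCast, Nat.cast_ofNat]
  exact ⟨Q, hQm, by rw [hHr, ← Finset.mul_prod_erase T _ hwT, hQ, hr0]⟩

variable [hl : Fact l.Prime]

/-- The exponent bookkeeping at the fixed point. -/
theorem valuation_centre (hA : A.LiesOverPrime l) (h2 : l ≠ 2) {m : ℕ} (hm : Odd m)
    {T W₁ W₂ q : Qb}
    (hval : ∀ w : Qb, w ∈ ({W₁, W₁ - 1728, q, T + 64, T - 8} : Set Qb) → w ≠ 0 →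
      ∃ i : ℤ, A.valuation w ^ m = A.valuation (l : Qb) ^ i)
    (hW₁ : A.valuation W₁ ≤ 1) (h0 : W₁ ≠ 0) (h1 : W₁ ≠ 1728)
    (hq : 4 * W₁ ^ 2 * (W₁ - 1728) = -((l : Qb) * q ^ 2))
    (ht1 : W₁ * T = (T + 16) ^ 3) (ht2 : W₂ * T ^ 2 = (T + 256) ^ 3) :
    A.valuation (W₁ - 1728) < 1 ∧ A.valuation (W₂ - 1728) < 1 := by
  set v := A.valuation
  set V := v (l : Qb)
  have hV1 : V < 1 := A.mem_nonunits_iff.mp hA
  have hV0 : 0 < V := v.pos_iff.2 (Nat.cast_ne_zero.2 hl.out.ne_zero)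
  haveI := residueField_charP A hl.out hA
  have hnat : ∀ n : ℕ, ¬ l ∣ n → v (n : Qb) = 1 := fun n hn => by
    have hr : (n : Res A) ≠ 0 := fun h => hn ((CharP.cast_eq_zero_iff (Res A) l n).1 h)
    have hu : IsUnit (n : A) := IsLocalRing.notMem_maximalIdeal.1 fun h => hr (by
      rw [← map_natCast (IsLocalRing.residue A)]
      exact (IsLocalRing.residue_eq_zero_iff _).2 h)
    simpa using (valuation_eq_one_iff A _).2 hu
  have hpow2 : ∀ k, v ((2 : Qb) ^ k) = 1 := fun k => by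
    rw [map_pow, show v (2 : Qb) = 1 by
      exact_mod_cast hnat 2 (fun h => h2 ((Nat.prime_dvd_prime_iff_eq hl.out Nat.prime_two).1 h)),
      one_pow]
  have hint : ∀ n : ℕ, v (n : Qb) ≤ 1 := fun n => (A.valuation_le_one_iff _).2 (natCast_mem A n)
  -- `T` is a unit
  have hT0 : T ≠ 0 := by rintro rfl; norm_num at ht1
  have hT1 : v T = 1 := by
    have h16 : v (16 : Qb) = 1 := by rw [show (16 : Qb) = 2 ^ 4 by norm_num, hpow2]
    rcases lt_trichotomy (v T) 1 with h | h | h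
    · exfalso
      have e : v (T + 16) = 1 := by rw [v.map_add_eq_of_lt_right (by rwa [h16]), h16]
      have := congrArg v ht1
      rw [map_mul, map_pow, e, one_pow] at this
      exact absurd this (ne_of_lt (mul_lt_one_of_nonneg_of_lt_one_right hW₁ zero_le h))
    · exact h
    · exfalso
      have e : v (T + 16) = v T := v.map_add_eq_of_lt_left (by rwa [h16])
      have := congrArg v ht1
      rw [map_mul, map_pow, e] at this
      have hlt : v W₁ * v T < v T ^ 3 := by
        calc v W₁ * v T ≤ 1 * v T := mul_le_mul' hW₁ le_rfl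
          _ = v T ^ 1 := by rw [one_mul, pow_one]
          _ < v T ^ 3 := pow_lt_pow_right₀ h (by norm_num)
      exact absurd this hlt.ne
  have ha : W₁ - 1728 ≠ 0 := sub_ne_zero.2 h1
  have hfac : (W₁ - 1728) * T = (T + 64) * (T - 8) ^ 2 := by linear_combination ht1
  have hq0 : q ≠ 0 := fun e => by
    rw [e] at hq; simp [h0, ha] at hq
  have h64 : T + 64 ≠ 0 := fun e => mul_ne_zero ha hT0 (by rw [hfac, e, zero_mul])
  have h8 : T - 8 ≠ 0 := fun e => mul_ne_zero ha hT0 (by rw [hfac, e]; ring)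
  obtain ⟨a, hav⟩ := hval W₁ (by simp) h0
  obtain ⟨b, hbv⟩ := hval (W₁ - 1728) (by simp) ha
  obtain ⟨i, hiv⟩ := hval q (by simp) hq0
  obtain ⟨c, hcv⟩ := hval (T + 64) (by simp) h64
  obtain ⟨e, hev⟩ := hval (T - 8) (by simp) h8
  have hinj : Function.Injective fun n : ℤ => V ^ n := (zpow_right_strictAnti₀ hV0 hV1).injective
  have hb : b + 2 * a = 2 * i + m := hinj (by
    have h := congrArg (fun w => v w ^ m) hq
    simp only [map_mul, Valuation.map_neg, map_pow] at h
    rw [show v (4 : Qb) = 1 by rw [show (4 : Qb) = 2 ^ 2 by norm_num, hpow2], one_mul, mul_pow,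
      mul_pow, pow_right_comm, hav, hbv, pow_right_comm (v q), hiv, ← zpow_natCast V m] at h
    show V ^ (b + 2 * a) = V ^ (2 * i + (m : ℤ))
    rw [zpow_add₀ hV0.ne', zpow_add₀ hV0.ne', mul_comm (2 : ℤ), zpow_mul, zpow_ofNat,
      mul_comm (2 : ℤ), zpow_mul, zpow_ofNat, mul_comm (V ^ b), h, mul_comm])
  have hc : c + 2 * e = b := hinj (by
    have h := congrArg (fun w => v w ^ m) hfac
    simp only [map_mul, map_pow] at h
    rw [hT1, mul_one, mul_pow, pow_right_comm, hcv, hev, hbv] at h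
    show V ^ (c + 2 * e) = V ^ b
    rw [zpow_add₀ hV0.ne', mul_comm (2 : ℤ), zpow_mul, zpow_ofNat, h])
  have hcodd : c ≠ 0 := by
    obtain ⟨k, hk⟩ := hm
    omega
  have hT64 : v (T + 64) < 1 := by
    have hle : v (T + 64) ≤ 1 := v.map_add_le hT1.le (by exact_mod_cast hint 64)
    refine hle.lt_of_ne fun h => hcodd (hinj ?_)
    show V ^ c = V ^ (0 : ℤ)
    rw [← hcv, h, one_pow, zpow_zero]
  refine ⟨?_, ?_⟩
  · have h := congrArg v hfac
    rw [map_mul, map_mul, map_pow, hT1, mul_one] at h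
    rw [h]
    exact mul_lt_one_of_nonneg_of_lt_one_left zero_le hT64
      (pow_le_one₀ zero_le (v.map_sub_le hT1.le (by exact_mod_cast hint 8)))
  · have hfac2 : (W₂ - 1728) * T ^ 2 = (T + 64) * (T - 512) ^ 2 := by linear_combination ht2
    have h := congrArg v hfac2
    rw [map_mul, map_mul, map_pow, map_pow, hT1, one_pow, mul_one] at h
    rw [h]
    exact mul_lt_one_of_nonneg_of_lt_one_left zero_le hT64
      (pow_le_one₀ zero_le (v.map_sub_le hT1.le (by exact_mod_cast hint 512)))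

/-- The square root of a polynomial `(X - 1728)` times a square is fixed by Frobenius. -/
theorem frobenius_fixes_factor (hl2 : l ≠ 2) (k : Type*) [Field k] [CharP k l] {H : ℤ[X]} {Q : k[X]}
    (hQ : Q.Monic) (h₀ : H.map (Int.castRingHom k) = (X - C 1728) * Q ^ 2) :
    Q.map (frobenius k l) = Q := by
  set φ := frobenius k l
  obtain ⟨κ, hκ, hκφ⟩ : ∃ κ : k, κ = 1728 ∧ φ κ = κ := ⟨1728, rfl, map_ofNat φ 1728⟩
  rw [← hκ] at h₀
  have h := congrArg (Polynomial.map φ) h₀
  rw [Polynomial.map_map, show φ.comp (Int.castRingHom k) = Int.castRingHom k from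
    RingHom.ext_int _ _, h₀, Polynomial.map_mul, Polynomial.map_sub, map_X, map_C, hκφ,
    Polynomial.map_pow] at h
  have h0 : Q ^ 2 = Q.map φ ^ 2 := mul_left_cancel₀ (X_sub_C_ne_zero κ) h
  rcases sq_eq_sq_iff_eq_or_eq_neg.1 h0 with h' | h'
  · exact h'.symm
  · exfalso
    have h1 := congrArg Polynomial.leadingCoeff h'
    rw [hQ.leadingCoeff, leadingCoeff_neg, (hQ.map φ).leadingCoeff] at h1
    have h2 : ((2 : ℕ) : k) = 0 := by
      push_cast; linear_combination h1
    exact hl2 ((Nat.prime_dvd_prime_iff_eq hl.out Nat.prime_two).1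
      ((CharP.cast_eq_zero_iff k l 2).1 h2))

/-- A product equal to a square with Frobenius-fixed root over an extension: square values on
`𝔽_l`. -/
theorem isSquare_eval_of_square (k : Type*) [Field k] [CharP k l] {P : ℤ[X]} {Q : k[X]}
    (hP : P.map (Int.castRingHom k) = Q ^ 2) (hQ : Q.map (frobenius k l) = Q) (a : ZMod l) :
    IsSquare ((P.map (Int.castRingHom (ZMod l))).eval a) := by
  set ψ := ZMod.castHom (dvd_refl l) k
  have hfix : Q.eval (ψ a) ^ l = Q.eval (ψ a) := by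
    rw [← frobenius_def, ← eval_map_apply, hQ, frobenius_def, ← map_pow, ZMod.pow_card]
  obtain ⟨y, hy⟩ : ∃ y, ψ y = Q.eval (ψ a) := by
    have h' := (Subfield.mem_bot_iff_pow_eq_self k l).mpr hfix
    rw [← ZMod.fieldRange_castHom_eq_bot l] at h'
    exact h'
  refine ⟨y, ψ.injective ?_⟩
  rw [map_mul ψ, hy, ← eval_map_apply, Polynomial.map_map,
    show ψ.comp (Int.castRingHom (ZMod l)) = Int.castRingHom k from RingHom.ext_int _ _, hP,
    eval_pow, pow_two]

/-- **The class polynomials modulo `l`**: odd degrees, and a product equal modulo a place over `l`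
to a square with Frobenius-fixed root. -/
theorem classPolys_mod (h7 : l % 8 = 7) (h23 : 23 ≤ l)
    (hpos : ∀ (y : ℝ) (hy : 0 < y), Real.sqrt (l : ℝ) / 2 ≤ y → 0 < (jfun (pt 0 y hy)).re)
    (hneg : (jfun (tau1 hl.out)).re < 0) :
    Odd (minpoly ℤ (jfun (tau1 hl.out))).natDegree ∧
      Odd (minpoly ℤ (jfun (tau2 hl.out))).natDegree ∧
      ∃ (A : ValuationSubring Qb) (_ : A.LiesOverPrime l) (Q : (Res A)[X]),
        (minpoly ℤ (jfun (tau1 hl.out)) * minpoly ℤ (jfun (tau2 hl.out))).map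
          (Int.castRingHom (Res A)) = Q ^ 2 ∧ ∀ i, Q.coeff i ^ l = Q.coeff i := by
  haveI : NeZero l := ⟨hl.out.ne_zero⟩
  obtain ⟨L, hfin, hgal, ι, d, y₁, y₂, t, z, c, hd, hcd, hy₁c, hy₂c, htc, hzc, hcomm, hodd, hsq,
    hy₁, hy₂, ht1, ht2, hz, hall₁, hall₂, hmem⟩ := exists_field hl.out h7 h23 hpos hneg
  have hnorm : Normal ℚ L := IsGalois.to_normal
  haveI : Algebra.IsAlgebraic ℚ Qb := AlgebraicClosure.isAlgebraic ℚ
  obtain ⟨A, hA⟩ := FA.Deform.exists_liesOverPrime hl.out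
  set v := A.valuation
  have hl2 : l ≠ 2 := by omega
  have hd0 : d ≠ 0 := fun e => by
    rw [e, zero_pow two_ne_zero, zero_eq_neg] at hd
    exact hl.out.ne_zero (by exact_mod_cast hd)
  have hdQ : (d : Qb) ^ 2 = -(l : Qb) := by
    have h := congrArg L.val hd
    simpa using h
  have hV1 : v (l : Qb) < 1 := A.mem_nonunits_iff.mp hA
  have hV0 : 0 < v (l : Qb) := v.pos_iff.2 (Nat.cast_ne_zero.2 hl.out.ne_zero)
  have hG : ∀ g : L ≃ₐ[ℚ] L, g d = d ∨ g d = -d := fun g =>
    sq_eq_sq_iff_eq_or_eq_neg.1 (by rw [← map_pow, hd, map_neg, map_natCast])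
  set J := (A.inertiaSubgroupIn ℚ).map (AlgEquiv.restrictNormalHom L : GQ →* _) with hJ
  -- the reflection
  obtain ⟨s, hsJ, hsd⟩ : ∃ s ∈ J, s d = -d := by
    by_contra hc'
    push Not at hc'
    obtain ⟨j, hj⟩ := FA.Mazur.exists_zpow_of_fixed hl.out hA (x := (d : Qb))
      (fun e => hd0 (Subtype.ext e)) fun σ hσ => by
        have h := (hG _).resolve_right (hc' _ (Subgroup.mem_map_of_mem _ hσ))
        have := congrArg Subtype.val h
        rwa [show ((AlgEquiv.restrictNormalHom L σ d : L) : Qb) = σ d from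
          AlgEquiv.restrictNormal_commutes σ L d] at this
    have h := congrArg v hdQ
    rw [map_pow, hj, Valuation.map_neg, ← zpow_natCast, ← zpow_mul] at h
    have h2 : j * ((2 : ℕ) : ℤ) = 1 :=
      (zpow_right_strictAnti₀ hV0 hV1).injective (h.trans (zpow_one _).symm)
    omega
  have hne : ∀ {u : L ≃ₐ[ℚ] L}, u d = -d → u d ≠ d := fun hu e => hd0 (by
    rw [hu, neg_eq_iff_add_eq_zero, ← two_mul, mul_eq_zero] at e
    exact e.resolve_left two_ne_zero)
  have hinert : ∀ u ∈ J, (∀ w : L, v ((u w : L) : Qb) = v w) ∧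
      ∀ w : L, v (w : Qb) ≤ 1 → v ((u w : L) - w : Qb) < 1 := by
    rintro _ ⟨σ, hσ, rfl⟩
    have hin := inert_of_mem_inertiaSubgroupIn A hσ
    have e : ∀ w : L, ((AlgEquiv.restrictNormalHom L σ w : L) : Qb) = σ w := fun w =>
      AlgEquiv.restrictNormal_commutes σ L w
    exact ⟨fun w => by rw [e]; exact hin.map_eq _, fun w hw => by rw [e]; exact hin.sub_lt _ hw⟩
  obtain ⟨g₀, hg₀, huniq⟩ := exists_centre hd0 hsq hcomm hodd hcd hsd
  -- fixed elements have values of odd denominator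
  set K : Subgroup (L ≃ₐ[ℚ] L) := J ⊓ MulAction.stabilizer (L ≃ₐ[ℚ] L) d
  haveI : Fintype K := Fintype.ofFinite K
  have hKodd : Odd (Fintype.card K) := by
    rw [← Nat.card_eq_fintype_card]
    exact hodd.of_dvd_nat (Subgroup.card_dvd_of_le inf_le_right)
  have hval : ∀ w : L, w ≠ 0 → s w = w →
      ∃ i : ℤ, v (w : Qb) ^ Fintype.card K = v (l : Qb) ^ i := by
    intro w hw hsw
    set P : L := ∏ u : K, (u : L ≃ₐ[ℚ] L) w with hP
    have hK : ∀ u : K, (u : L ≃ₐ[ℚ] L) d = d := fun u => MulAction.mem_stabilizer_iff.1 u.2.2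
    have hsP : s P = P := by
      rw [hP, map_prod]
      refine Fintype.prod_equiv (Equiv.inv K) _ _ fun u => ?_
      show (s * (u : L ≃ₐ[ℚ] L)) w = ((u : L ≃ₐ[ℚ] L)⁻¹) w
      rw [refl_conj hd0 hsq hsd (hK u), AlgEquiv.mul_apply, hsw]
    have hKP : ∀ g ∈ J, g d = d → g P = P := fun g hg hgd => by
      rw [hP, map_prod]
      exact Fintype.prod_equiv
        (Equiv.mulLeft (⟨g, hg, MulAction.mem_stabilizer_iff.2 hgd⟩ : K)) _ _ fun u => rfl
    have hP0 : (P : Qb) ≠ 0 := fun e => by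
      have : P = 0 := Subtype.ext e
      rw [hP, Finset.prod_eq_zero_iff] at this
      obtain ⟨u, -, hu⟩ := this
      exact hw ((_root_.map_eq_zero _).1 hu)
    obtain ⟨i, hi⟩ := FA.Mazur.exists_zpow_of_fixed hl.out hA hP0 fun σ hσ => by
      set g := AlgEquiv.restrictNormalHom L σ
      have hgJ : g ∈ J := Subgroup.mem_map_of_mem _ hσ
      have h : g P = P := by
        rcases hG g with hgd | hgd
        · exact hKP g hgJ hgd
        · have h1 := hKP (g * s) (mul_mem hgJ hsJ) (by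
            rw [AlgEquiv.mul_apply, hsd, map_neg, hgd, neg_neg])
          rwa [AlgEquiv.mul_apply, hsP] at h1
      exact (AlgEquiv.restrictNormal_commutes σ L P).symm.trans (congrArg Subtype.val h)
    refine ⟨i, ?_⟩
    rw [← hi, hP, show ((∏ u : K, (u : L ≃ₐ[ℚ] L) w : L) : Qb) =
      ∏ u : K, (((u : L ≃ₐ[ℚ] L) w : L) : Qb) from map_prod L.val _ _, map_prod,
      Finset.prod_eq_pow_card fun u _ => (hinert _ u.2.1).1 w, Finset.card_univ]
  -- the fixed points
  have hfix : ∀ {w : L}, c w = w → s (g₀ w) = g₀ w := fun hw => by rw [hg₀, hw]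
  set q : L := g₀ z / d
  have hsq' : s q = q := by
    rw [map_div₀, hsd, hg₀, hzc, map_neg, neg_div_neg_eq]
  have hy0 : y₁ ≠ 0 := fun e => hneg.ne (by rw [← hy₁, e]; simp)
  have hy1728 : y₁ ≠ 1728 := fun e => by
    have h : (ι.comp L.val) y₁ = (1728 : ℂ) := by rw [e, map_ofNat]
    rw [show (ι.comp L.val) y₁ = jfun (tau1 hl.out) from hy₁] at h
    rw [h] at hneg
    norm_num at hneg
  have hW : v ((g₀ y₁ : L) : Qb) ≤ 1 := by
    have hi := FA.Singular.isIntegral_values (show -(l : ℤ) < 0 by omega) (hmem g₀).1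
    refine valuation_le_of_root (minpoly.monic hi) (ι.toRingHom.injective ?_)
    rw [map_zero]
    show (ι.restrictScalars ℤ) _ = 0
    rw [← aeval_algHom_apply]
    exact minpoly.aeval ℤ _
  obtain ⟨hres1, hres2⟩ := valuation_centre (A := A) hA hl2 hKodd
    (T := L.val (g₀ t)) (W₁ := L.val (g₀ y₁)) (W₂ := L.val (g₀ y₂)) (q := L.val q)
    (fun w hw hw0 => by
      have key : ∀ u : L, c u = u → w = L.val (g₀ u) →
          ∃ i : ℤ, v w ^ Fintype.card K = v (l : Qb) ^ i := fun u hu e => by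
        subst e
        exact hval _ (fun e => hw0 (by rw [e, map_zero])) (hfix hu)
      rcases hw with rfl | rfl | rfl | rfl | rfl
      · exact key y₁ hy₁c rfl
      · exact key (y₁ - 1728) (by rw [map_sub, hy₁c, map_ofNat])
          (by rw [map_sub, map_sub, map_ofNat, map_ofNat])
      · exact hval q (fun e => hw0 (by rw [e, map_zero])) hsq'
      · exact key (t + 64) (by rw [map_add, htc, map_ofNat])
          (by rw [map_add, map_add, map_ofNat, map_ofNat])
      · exact key (t - 8) (by rw [map_sub, htc, map_ofNat])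
          (by rw [map_sub, map_sub, map_ofNat, map_ofNat]))
    hW (fun e => hy0 ((_root_.map_eq_zero g₀).1 (Subtype.ext e)))
    (fun e => hy1728 (g₀.injective (L.val.toRingHom.injective (by
      rw [map_ofNat g₀, map_ofNat]; exact e))))
    (by
      have h := congrArg (fun u : L => g₀ u) hz
      simp only [map_pow, map_mul, map_sub, map_ofNat] at h
      have hq2 : g₀ z = q * d := by rw [div_mul_cancel₀ _ hd0]
      rw [hq2, mul_pow, hd] at h
      have h' := congrArg L.val h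
      simp only [map_pow, map_mul, map_sub, map_ofNat, map_neg, map_natCast] at h'
      linear_combination -h')
    (by
      have h := congrArg (fun u : L => L.val (g₀ u)) ht1
      simp only [map_mul, map_pow, map_add, map_ofNat] at h
      exact h)
    (by
      have h := congrArg (fun u : L => L.val (g₀ u)) ht2
      simp only [map_mul, map_pow, map_add, map_ofNat] at h
      exact h)
  have hss : s * s = 1 := hsq s (hne hsd)
  obtain ⟨Q₁, hQ₁m, hQ₁⟩ := exists_square_factor (A := A) ι s hss (hinert s hsJ).2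
    (show -(l : ℤ) < 0 by omega) (fun g => (hmem g).1) hall₁ ⟨g₀, rfl⟩ (hfix hy₁c)
    (fun g => huniq y₁ hy₁c hG g) hres1
  obtain ⟨Q₂, hQ₂m, hQ₂⟩ := exists_square_factor (A := A) ι s hss (hinert s hsJ).2
    (show -4 * (l : ℤ) < 0 by omega) (fun g => (hmem g).2) hall₂ ⟨g₀, rfl⟩ (hfix hy₂c)
    (fun g => huniq y₂ hy₂c hG g) hres2
  rw [hy₁] at hQ₁
  rw [hy₂] at hQ₂
  have hi₁ := FA.Singular.isIntegral_values (show -(l : ℤ) < 0 by omega) (tau1_mem hl.out h7)
  have hi₂ := FA.Singular.isIntegral_values (show -4 * (l : ℤ) < 0 by omega) (tau2_mem hl.out)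
  have hdeg : ∀ {H : ℤ[X]} {Q : (Res A)[X]}, H.Monic → Q.Monic →
      H.map (Int.castRingHom (Res A)) = (X - C 1728) * Q ^ 2 → Odd H.natDegree := by
    intro H Q hH hQ e
    rw [← hH.natDegree_map (Int.castRingHom (Res A)), e,
      (monic_X_sub_C _).natDegree_mul (hQ.pow 2), natDegree_X_sub_C, hQ.natDegree_pow]
    exact ⟨Q.natDegree, by ring⟩
  haveI := residueField_charP A hl.out hA
  refine ⟨hdeg (minpoly.monic hi₁) hQ₁m hQ₁, hdeg (minpoly.monic hi₂) hQ₂m hQ₂, A, hA,
    (X - C 1728) * (Q₁ * Q₂), by rw [Polynomial.map_mul, hQ₁, hQ₂]; ring, fun i => ?_⟩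
  have hfix : ((X - C 1728) * (Q₁ * Q₂)).map (frobenius (Res A) l) =
      (X - C 1728) * (Q₁ * Q₂) := by
    rw [Polynomial.map_mul, Polynomial.map_mul, frobenius_fixes_factor hl2 (Res A) hQ₁m hQ₁,
      frobenius_fixes_factor hl2 (Res A) hQ₂m hQ₂, Polynomial.map_sub, map_X, map_C, map_ofNat]
  conv_rhs => rw [← hfix]
  rw [coeff_map, frobenius_def]

end FA.Elkies

end
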