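import Fermat.Agent.Supersingular.DeuringCount
import Fermat.Agent.ReducedGroups.ThreeTorsion
import Fermat.Agent.Dim.Gamma0

/-!
# The supersingular invariants and the genus of `X₀(q)`

For a prime `q ≥ 5` the genus formula at level `q` has `ψ = q + 1`, two cusps and `0` or `2` elliptic
points of each order, so it is one less than the number of supersingular invariants.
-/

set_option autoImplicit false
set_option linter.style.haveILetI false

noncomputable section

open WeierstrassCurve
open scoped Classical MatrixGroups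

namespace FA.SupersingularGenus

variable {q : ℕ} [hq : Fact q.Prime]

/-- Square roots of a nonzero class. -/
theorem natCard_sqrts (hq2 : q ≠ 2) {d : ZMod q} (hd : d ≠ 0) :
    Nat.card {x : ZMod q // x ^ 2 = d} = if IsSquare d then 2 else 0 := by
  split_ifs with h
  · obtain ⟨r, hr⟩ := h
    have hne : r ≠ -r := fun e => hd (by
      have h2 : (2 : ZMod q) ≠ 0 := Ring.two_ne_zero (by rw [ZMod.ringChar_zmod_n]; exact hq2)
      have : r = 0 := (mul_eq_zero.1
        (show (2 : ZMod q) * r = 0 by linear_combination e)).resolve_left h2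
      rw [hr, this, mul_zero])
    refine (Nat.card_congr (Equiv.subtypeEquivRight (q := fun x => x ∈ ({r, -r} : Finset (ZMod q)))
      fun x => ?_)).trans ((Nat.card_eq_finsetCard _).trans (Finset.card_pair hne))
    rw [Finset.mem_insert, Finset.mem_singleton, hr, ← sq, sq_eq_sq_iff_eq_or_eq_neg]
  · rw [Nat.card_eq_zero]
    exact Or.inl ⟨fun x => h ⟨x.1, by rw [← sq, x.2]⟩⟩

theorem nuTwo_prime (h5 : 5 ≤ q) : ModularCurve.nuTwo q = if q % 4 = 1 then 2 else 0 := by
  rw [ModularCurve.nuTwo, Nat.card_congr (Equiv.subtypeEquivRight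
    (fun x : ZMod q => (add_eq_zero_iff_eq_neg (a := x ^ 2) (b := 1)))),
    natCard_sqrts (by omega) (neg_ne_zero.2 one_ne_zero)]
  refine if_congr (ZMod.exists_sq_eq_neg_one_iff.trans ?_) rfl rfl
  have h2 : q % 2 ≠ 0 := fun e => by
    have := (Nat.prime_dvd_prime_iff_eq Nat.prime_two hq.out).1 (Nat.dvd_of_mod_eq_zero e)
    omega
  omega

theorem nuThree_prime (h5 : 5 ≤ q) : ModularCurve.nuThree q = if q % 3 = 1 then 2 else 0 := by
  obtain ⟨h2, h3, h4, -, -, -⟩ := FA.ReducedGroups.six_units (q := q) h5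
  let e : {x : ZMod q // x ^ 2 + x + 1 = 0} ≃ {η : ZMod q // η ^ 2 = -3} :=
    { toFun := fun x => ⟨2 * x.1 + 1, by linear_combination 4 * x.2⟩
      invFun := fun η => ⟨(η.1 - 1) / 2, mul_left_cancel₀ h4 (by
        field_simp
        linear_combination η.2)⟩
      left_inv := fun x => Subtype.ext (by field_simp; ring)
      right_inv := fun η => Subtype.ext (by field_simp; ring) }
  rw [ModularCurve.nuThree, Nat.card_congr e, natCard_sqrts (by omega) (neg_ne_zero.2 h3)]
  refine if_congr ?_ rfl rfl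
  rw [← FA.ReducedGroups.exists_sq_eq_neg_three_iff (q := q) h5]
  exact ⟨fun ⟨r, hr⟩ => ⟨r, by rw [hr, sq]⟩, fun ⟨r, hr⟩ => ⟨r, by rw [← hr, sq]⟩⟩

theorem cuspCount_prime : ModularCurve.cuspCount q = 2 := by
  rw [ModularCurve.cuspCount, hq.out.divisors, Finset.sum_pair hq.out.one_lt.ne,
    Nat.div_one, Nat.div_self hq.out.pos]
  simp

/-- **The number of supersingular invariants is the genus plus one.** -/
theorem ncard_eq_finrank_succ (k : Type) [Field k] [CharP k q] [IsAlgClosed k] (h5 : 5 ≤ q) :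
    (FA.SupersingularCount.ssInvariants k q).ncard =
      Module.finrank ℂ (CuspForm (CongruenceSubgroup.Gamma0 q) 2) + 1 := by
  rw [(FA.SupersingularCount.count (k := k) h5).2.2.1]
  have hg := FA.Dim.finrank_S2 q
  have hψ := FA.Dim.dedekindPsi_prime_pow hq.out 0
  simp only [zero_add, pow_one, pow_zero] at hψ
  rw [ModularCurve.genusFormula, hψ, nuTwo_prime h5, nuThree_prime h5, cuspCount_prime] at hg
  have h2 : q % 2 ≠ 0 := fun e => by
    have := (Nat.prime_dvd_prime_iff_eq Nat.prime_two hq.out).1 (Nat.dvd_of_mod_eq_zero e)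
    omega
  have h3 : q % 3 ≠ 0 := fun e => by
    have := (Nat.prime_dvd_prime_iff_eq Nat.prime_three hq.out).1 (Nat.dvd_of_mod_eq_zero e)
    omega
  have key : (12 * Module.finrank ℂ (CuspForm (CongruenceSubgroup.Gamma0 q) 2) +
      3 * (if q % 4 = 1 then 2 else 0) + 4 * (if q % 3 = 1 then 2 else 0) : ℕ) = q + 1 := by
    exact_mod_cast (show (12 * (Module.finrank ℂ (CuspForm (CongruenceSubgroup.Gamma0 q) 2) : ℚ) +
      3 * ((if q % 4 = 1 then 2 else 0 : ℕ) : ℚ) + 4 * ((if q % 3 = 1 then 2 else 0 : ℕ) : ℚ)) =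
      (q : ℚ) + 1 by rw [hg]; push_cast; ring)
  split_ifs at key ⊢ <;> omega

/-- Exactly one invariant. -/
theorem ncard_eq_one_iff (k : Type) [Field k] [CharP k q] [IsAlgClosed k] (h5 : 5 ≤ q) :
    (FA.SupersingularCount.ssInvariants k q).ncard = 1 ↔ q = 5 ∨ q = 7 ∨ q = 13 := by
  rw [(FA.SupersingularCount.count (k := k) h5).2.2.1]
  have h2 : q % 2 ≠ 0 := fun e => by
    have := (Nat.prime_dvd_prime_iff_eq Nat.prime_two hq.out).1 (Nat.dvd_of_mod_eq_zero e)
    omega
  have h3 : q % 3 ≠ 0 := fun e => by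
    have := (Nat.prime_dvd_prime_iff_eq Nat.prime_three hq.out).1 (Nat.dvd_of_mod_eq_zero e)
    omega
  split_ifs <;> omega

end FA.SupersingularGenus

end
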