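import Fermat.Agent.Supersingular.Landen
import Mathlib.RingTheory.PowerSeries.Expand
import Mathlib.RingTheory.PowerSeries.Inverse
import Mathlib.Algebra.Ring.Int.Parity
import Mathlib.Data.Int.Interval

/-!
# The `q`-expansion of the Hasse invariant

With `θ₃ = ∑ q^(n²)` and `θ₄ = ∑ (-1)^n q^(n²)` one has `θ₃² + θ₄² = 2 θ₃(q²)²` and
`θ₃ θ₄ = θ₄(q²)²`. So modulo `p` the homogeneous Hasse invariant `g` of `(θ₃², θ₄²)` satisfies
`g(q) = g(q²)`, hence is the constant `1`.
-/

set_option autoImplicit false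
set_option linter.style.haveILetI false

noncomputable section

open PowerSeries

namespace FA.HasseExpansion

/-- `(-1) ^ x`. -/
def sgn (x : ℤ) : ℤ := if Even x then 1 else -1

theorem sgn_add (x y : ℤ) : sgn (x + y) = sgn x * sgn y := by
  unfold sgn
  by_cases hx : Even x <;> by_cases hy : Even y <;> simp [hx, hy, Int.even_add]

theorem sgn_sub (x y : ℤ) : sgn (x - y) = sgn (x + y) := by
  simp [sgn, Int.even_add, Int.even_sub]

/-- The square roots of `n`. -/
def sqPts (n : ℕ) : Finset ℤ := (Finset.Icc (-(n : ℤ)) n).filter fun x => x ^ 2 = n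

theorem mem_sqPts {n : ℕ} {x : ℤ} : x ∈ sqPts n ↔ x ^ 2 = n := by
  simp only [sqPts, Finset.mem_filter, Finset.mem_Icc, and_iff_right_iff_imp]
  intro h
  constructor <;> nlinarith

/-- The theta series with weights `w`. -/
def theta (w : ℤ → ℤ) : PowerSeries ℤ := PowerSeries.mk fun n => ∑ x ∈ sqPts n, w x

/-- The representations of `n` as a sum of two squares. -/
def pairPts (n : ℕ) : Finset (ℤ × ℤ) :=
  (Finset.Icc (-(n : ℤ)) n ×ˢ Finset.Icc (-(n : ℤ)) n).filter fun z => z.1 ^ 2 + z.2 ^ 2 = n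

theorem mem_pairPts {n : ℕ} {z : ℤ × ℤ} : z ∈ pairPts n ↔ z.1 ^ 2 + z.2 ^ 2 = n := by
  simp only [pairPts, Finset.mem_filter, Finset.mem_product, Finset.mem_Icc,
    and_iff_right_iff_imp]
  intro h
  refine ⟨⟨?_, ?_⟩, ?_, ?_⟩ <;> nlinarith [sq_nonneg z.1, sq_nonneg z.2]

theorem coeff_theta_mul (w w' : ℤ → ℤ) (n : ℕ) :
    coeff n (theta w * theta w') = ∑ z ∈ pairPts n, w z.1 * w' z.2 := by
  rw [coeff_mul]
  simp only [theta, coeff_mk, Finset.sum_mul_sum, ← Finset.sum_product']
  rw [Finset.sum_sigma' (Finset.antidiagonal n) (fun ij => sqPts ij.1 ×ˢ sqPts ij.2)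
    fun _ z => w z.1 * w' z.2]
  refine Finset.sum_bij' (fun a _ => a.2)
    (fun z _ => ⟨((z.1 ^ 2).toNat, (z.2 ^ 2).toNat), z⟩) ?_ ?_ ?_ ?_ (fun _ _ => rfl)
  · rintro ⟨⟨i, j⟩, x, y⟩ h
    simp only [Finset.mem_sigma, Finset.mem_antidiagonal, Finset.mem_product, mem_sqPts] at h
    rw [mem_pairPts, h.2.1, h.2.2, ← h.1]
    push_cast
    ring
  · intro z hz
    rw [mem_pairPts] at hz
    simp only [Finset.mem_sigma, Finset.mem_antidiagonal, Finset.mem_product, mem_sqPts]
    have h1 := sq_nonneg z.1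
    have h2 := sq_nonneg z.2
    exact ⟨by omega, by omega, by omega⟩
  · rintro ⟨⟨i, j⟩, x, y⟩ h
    simp only [Finset.mem_sigma, Finset.mem_antidiagonal, Finset.mem_product, mem_sqPts] at h
    simp [h.2.1, h.2.2]
  · intro z hz
    rfl

theorem even_add_iff_of_mem {n : ℕ} {z : ℤ × ℤ} (hz : z ∈ pairPts n) :
    Even (z.1 + z.2) ↔ Even n := by
  rw [mem_pairPts] at hz
  rw [← Int.even_coe_nat n, ← hz]
  simp [Int.even_add, Int.even_pow]

/-- The rotation onto the representations of `2 t`. -/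
theorem sum_pairPts_two_mul (t : ℕ) (F : ℤ × ℤ → ℤ) :
    ∑ z ∈ pairPts (2 * t), F z = ∑ z ∈ pairPts t, F (z.1 + z.2, z.1 - z.2) := by
  refine Finset.sum_bij' (fun z _ => ((z.1 + z.2) / 2, (z.1 - z.2) / 2))
    (fun z _ => (z.1 + z.2, z.1 - z.2)) ?_ ?_ ?_ ?_ ?_
  · intro z hz
    obtain ⟨r, hr⟩ := (even_add_iff_of_mem hz).2 (even_two_mul t)
    rw [mem_pairPts] at hz ⊢
    push_cast at hz
    dsimp only
    rw [hr, show z.1 - z.2 = 2 * (r - z.2) by linarith,
      Int.mul_ediv_cancel_left _ two_ne_zero, show (r + r) / 2 = r by omega]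
    rw [show z.1 = r + r - z.2 by linarith] at hz
    linarith
  · intro z hz
    rw [mem_pairPts] at hz ⊢
    push_cast
    linear_combination 2 * hz
  · intro z hz
    obtain ⟨r, hr⟩ := (even_add_iff_of_mem hz).2 (even_two_mul t)
    exact Prod.ext (by omega) (by omega)
  · intro z _
    exact Prod.ext (by omega) (by omega)
  · intro z hz
    obtain ⟨r, hr⟩ := (even_add_iff_of_mem hz).2 (even_two_mul t)
    congr 1
    exact Prod.ext (by omega) (by omega)

/-- **`θ₃² + θ₄² = 2 θ₃(q²)²`.** -/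
theorem theta_dup_sum :
    theta (fun _ => 1) * theta (fun _ => 1) + theta sgn * theta sgn =
      2 * PowerSeries.expand 2 two_ne_zero (theta (fun _ => 1) * theta (fun _ => 1)) := by
  ext n
  rw [two_mul, map_add, map_add, coeff_theta_mul, coeff_theta_mul, coeff_expand,
    ← Finset.sum_add_distrib]
  simp only [← sgn_add, mul_one]
  rcases Nat.even_or_odd n with hn | hn
  · obtain ⟨t, rfl⟩ := even_iff_two_dvd.1 hn
    rw [if_pos (dvd_mul_right 2 t), Nat.mul_div_cancel_left _ two_pos, coeff_theta_mul,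
      sum_pairPts_two_mul, ← Finset.sum_add_distrib]
    refine Finset.sum_congr rfl fun z _ => ?_
    rw [sgn, if_pos ⟨z.1, by ring⟩]
    ring
  · rw [if_neg fun h => Nat.not_even_iff_odd.2 hn (even_iff_two_dvd.2 h), add_zero]
    refine Finset.sum_eq_zero fun z hz => ?_
    rw [sgn, if_neg fun h => Nat.not_even_iff_odd.2 hn ((even_add_iff_of_mem hz).1 h)]
    ring

/-- **`θ₃ θ₄ = θ₄(q²)²`.** -/
theorem theta_dup_mul :
    theta (fun _ => 1) * theta sgn =
      PowerSeries.expand 2 two_ne_zero (theta sgn * theta sgn) := by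
  ext n
  rw [coeff_theta_mul, coeff_expand]
  simp only [one_mul]
  rcases Nat.even_or_odd n with hn | hn
  · obtain ⟨t, rfl⟩ := even_iff_two_dvd.1 hn
    rw [if_pos (dvd_mul_right 2 t), Nat.mul_div_cancel_left _ two_pos, coeff_theta_mul,
      sum_pairPts_two_mul]
    refine Finset.sum_congr rfl fun z _ => ?_
    rw [sgn_sub, sgn_add]
  · rw [if_neg fun h => Nat.not_even_iff_odd.2 hn (even_iff_two_dvd.2 h)]
    have hswap : ∑ z ∈ pairPts n, sgn z.2 = ∑ z ∈ pairPts n, sgn z.1 :=
      Finset.sum_nbij' Prod.swap Prod.swap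
        (fun z hz => by simp_all [mem_pairPts, add_comm])
        (fun z hz => by simp_all [mem_pairPts, add_comm])
        (fun z _ => rfl) (fun z _ => rfl) (fun z _ => rfl)
    have hzero : ∑ z ∈ pairPts n, (sgn z.1 + sgn z.2) = 0 := by
      refine Finset.sum_eq_zero fun z hz => ?_
      have h : ¬ Even (z.1 + z.2) := fun h =>
        Nat.not_even_iff_odd.2 hn ((even_add_iff_of_mem hz).1 h)
      rw [Int.even_add] at h
      by_cases h1 : Even z.1 <;> by_cases h2 : Even z.2 <;> simp [sgn, h1, h2] at h ⊢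
    rw [Finset.sum_add_distrib, ← hswap] at hzero
    omega

theorem constantCoeff_theta (w : ℤ → ℤ) : constantCoeff (theta w) = w 0 := by
  rw [← coeff_zero_eq_constantCoeff_apply, theta, coeff_mk,
    show sqPts 0 = {0} by ext x; simp [mem_sqPts]]
  simp

theorem map_hHom {R S : Type*} [CommRing R] [CommRing S] (f : R →+* S) (m : ℕ) (a b : R) :
    f (hHom m a b) = hHom m (f a) (f b) := by
  simp [hHom]

variable {p : ℕ} [hp : Fact p.Prime]

/-- **The Hasse invariant has `q`-expansion `1` modulo `p`.** -/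
theorem hHom_theta {m : ℕ} (hpm : p = 2 * m + 1) :
    PowerSeries.map (Int.castRingHom (ZMod p))
      (hHom m (theta (fun _ => 1) * theta (fun _ => 1)) (theta sgn * theta sgn)) = 1 := by
  set φ := PowerSeries.map (Int.castRingHom (ZMod p)) with hφ
  set A := theta (fun _ => 1) * theta (fun _ => 1) with hA
  set B := theta sgn * theta sgn with hB
  have h1 : 2 * PowerSeries.expand 2 two_ne_zero (φ A) = φ A + φ B := by
    have h := congrArg φ theta_dup_sum
    rw [← hA, ← hB, map_add, map_mul φ 2, map_ofNat, hφ, map_expand] at h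
    exact h.symm
  have h2 : (PowerSeries.expand 2 two_ne_zero (φ B)) ^ 2 = φ A * φ B := by
    rw [hφ, ← map_expand, ← map_pow, ← map_mul, hB, ← theta_dup_mul, hA]
    congr 1
    ring
  have hcA : constantCoeff (φ A) = 1 := by
    rw [hφ, ← coeff_zero_eq_constantCoeff_apply, coeff_map, coeff_zero_eq_constantCoeff_apply,
      hA, map_mul (constantCoeff (R := ℤ)), constantCoeff_theta]
    simp
  have hcB : constantCoeff (φ B) = 1 := by
    rw [hφ, ← coeff_zero_eq_constantCoeff_apply, coeff_map, coeff_zero_eq_constantCoeff_apply,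
      hB, map_mul (constantCoeff (R := ℤ)), constantCoeff_theta]
    simp [sgn]
  have hu : IsUnit (φ A + φ B) := by
    rw [isUnit_iff_constantCoeff, map_add, hcA, hcB, one_add_one_eq_two]
    exact Ne.isUnit (Ring.two_ne_zero (by
      rw [ZMod.ringChar_zmod_n]; have := hp.out.two_le; omega))
  have hg : hHom m (φ A) (φ B) = PowerSeries.expand 2 two_ne_zero (hHom m (φ A) (φ B)) :=
    (hHom_agm (p := p) (PowerSeries.C (R := ZMod p)) hpm h1 h2 hu).trans
      (map_hHom (PowerSeries.expand 2 two_ne_zero (R := ZMod p)).toRingHom m (φ A) (φ B)).symm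
  rw [map_hHom φ m A B]
  ext n
  induction n using Nat.strong_induction_on with
  | _ n ih =>
    rcases Nat.eq_zero_or_pos n with rfl | hn
    · rw [coeff_zero_eq_constantCoeff_apply, map_hHom (constantCoeff (R := ZMod p)), hcA, hcB, coeff_one,
        if_pos rfl,
        hHom, Finset.sum_eq_single 0]
      · simp
      · intro i _ hi
        simp [zero_pow hi]
      · simp
    · rw [hg, coeff_expand, coeff_one, if_neg hn.ne']
      split_ifs with h
      · rw [ih (n / 2) (Nat.div_lt_self hn one_lt_two), coeff_one, if_neg]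
        intro e
        obtain ⟨t, rfl⟩ := h
        omega
      · rfl

end FA.HasseExpansion

end
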