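import Fermat.Agent.Carayol.Hasse.HassePoly
import Mathlib.Algebra.Polynomial.Expand
import Mathlib.Algebra.CharP.Algebra
import Mathlib.Algebra.Field.ZMod

/-!
# Landen's transformation of Deuring's polynomial

Modulo `p = 2 m + 1` both `∑ C(m,i)² 4^i X^i (1 + X)^(2 (m - i))` and `H (X²)` are annihilated by
`P ↦ ((X - X³) P')' - X P`, have degree below `p` and constant term `1`, so they agree. In
homogeneous variables this is Gauss's invariance under the arithmetic-geometric mean.
-/

set_option autoImplicit false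
set_option linter.style.haveILetI false

noncomputable section

open Polynomial

namespace FA.HasseExpansion

variable {p : ℕ} [hp : Fact p.Prime]

/-- The differential operator of the complete elliptic integral. -/
def lop (P : (ZMod p)[X]) : (ZMod p)[X] := derivative ((X - X ^ 3) * derivative P) - X * P

theorem coeff_lop_zero (P : (ZMod p)[X]) : (lop P).coeff 0 = P.coeff 1 := by
  simp [lop, sub_mul, coeff_derivative]

theorem coeff_lop_succ (P : (ZMod p)[X]) (n : ℕ) :
    (lop P).coeff (n + 1) =
      ((n : ZMod p) + 2) ^ 2 * P.coeff (n + 2) - ((n : ZMod p) + 1) ^ 2 * P.coeff n := by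
  rw [lop, coeff_sub, coeff_X_mul, coeff_derivative, sub_mul, coeff_sub, coeff_X_mul,
    coeff_derivative, coeff_X_pow_mul']
  rcases n with _ | n
  · simp; ring
  · rw [if_pos (by omega), show n + 1 + 1 + 1 - 3 = n by omega, coeff_derivative]
    push_cast; ring

/-- The solutions of low degree are determined by their constant term. -/
theorem eq_zero_of_lop {P : (ZMod p)[X]} (hd : P.natDegree < p) (h0 : P.coeff 0 = 0)
    (hL : lop P = 0) : P = 0 := by
  refine Polynomial.ext fun n => ?_
  rw [coeff_zero]
  induction n using Nat.strong_induction_on with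
  | _ n ih =>
    rcases n with _ | _ | n
    · exact h0
    · rw [← coeff_lop_zero, hL, coeff_zero]
    · rcases lt_or_ge (n + 2) p with hlt | hge
      · have h := coeff_lop_succ P n
        rw [hL, coeff_zero, ih n (by omega), mul_zero, sub_zero, eq_comm, mul_eq_zero] at h
        refine h.resolve_left (pow_ne_zero 2 fun e => ?_)
        rw [show (n : ZMod p) + 2 = ((n + 2 : ℕ) : ZMod p) by push_cast; ring,
          ZMod.natCast_eq_zero_iff] at e
        exact absurd (Nat.le_of_dvd (by omega) e) (by omega)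
      · exact coeff_eq_zero_of_natDegree_lt (by omega)

/-- The terms of the transformed polynomial. -/
def term (m i : ℕ) : (ZMod p)[X] := X ^ i * (1 + X) ^ (2 * (m - i))

theorem mul_derivative_pow (Q : (ZMod p)[X]) (n : ℕ) :
    Q * derivative (Q ^ n) = (n : (ZMod p)[X]) * derivative Q * Q ^ n := by
  rcases n with _ | n
  · simp
  · rw [derivative_pow, Nat.add_sub_cancel, C_eq_natCast, pow_succ]
    ring

theorem derivative_term (m i : ℕ) :
    X * (1 + X) * derivative (term m i : (ZMod p)[X]) =
      ((i : (ZMod p)[X]) * (1 + X) + ((2 * (m - i) : ℕ) : (ZMod p)[X]) * X) * term m i := by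
  have h1 := mul_derivative_pow (X : (ZMod p)[X]) i
  have h2 := mul_derivative_pow (1 + X : (ZMod p)[X]) (2 * (m - i))
  rw [derivative_X, mul_one] at h1
  rw [derivative_add, derivative_one, derivative_X, zero_add, mul_one] at h2
  rw [term, derivative_mul]
  linear_combination (1 + X) * (1 + X) ^ (2 * (m - i)) * h1 + X * X ^ i * h2

/-- The terms after `lop`, times `X (1 + X)`. -/
def image (m i : ℕ) : (ZMod p)[X] := (1 - X) * X ^ i * (1 + X) ^ (2 * (m - i) + 2)

theorem lop_term {m i : ℕ} (hpm : p = 2 * m + 1) (hi : i ≤ m) :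
    X * (1 + X) * lop (term m i : (ZMod p)[X]) =
      (i : (ZMod p)[X]) ^ 2 * image m i - (2 * (i : (ZMod p)[X]) + 1) ^ 2 * image m (i + 1) := by
  have hp0 : 2 * (m : (ZMod p)[X]) + 1 = 0 := by
    have : ((p : ℕ) : (ZMod p)[X]) = 0 := by
      rw [← C_eq_natCast, ZMod.natCast_self, C_0]
    have h := congrArg (Nat.cast : ℕ → (ZMod p)[X]) hpm
    rw [this] at h
    push_cast at h
    exact h.symm
  have hD := derivative_term (p := p) m i
  set T : (ZMod p)[X] := term m i with hT
  set P : (ZMod p)[X] := (i : (ZMod p)[X]) * (1 + X) + ((2 * (m - i) : ℕ) : (ZMod p)[X]) * X with hP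
  have hmid : (X - X ^ 3) * derivative T = (1 - X) * P * T := by
    linear_combination (1 - X) * hD
  have hdP : derivative ((1 - X) * P) =
      -P + (1 - X) * ((i : (ZMod p)[X]) + ((2 * (m - i) : ℕ) : (ZMod p)[X])) := by
    simp [hP, derivative_mul]
  have hlast : (2 * (i : (ZMod p)[X]) + 1) ^ 2 * image m (i + 1) =
      (2 * (i : (ZMod p)[X]) + 1) ^ 2 * ((1 - X) * X * T) := by
    rcases lt_or_eq_of_le hi with h | h
    · rw [image, hT, term, show 2 * (m - (i + 1)) + 2 = 2 * (m - i) by omega, pow_succ]
      ring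
    · subst h
      rw [hp0]; ring
  have he : ((2 * (m - i) : ℕ) : (ZMod p)[X]) = -1 - 2 * (i : (ZMod p)[X]) := by
    push_cast [Nat.cast_sub hi]
    linear_combination hp0
  have himage : image m i = (1 - X) * (1 + X) ^ 2 * T := by
    rw [image, hT, term, pow_add]; ring
  rw [hlast, lop, hmid, derivative_mul, hdP, himage]
  simp only [hP, he] at hD ⊢
  linear_combination ((1 - X) * ((i : (ZMod p)[X]) * (1 + X) + (-1 - 2 * (i : (ZMod p)[X])) * X)) * hD

/-- **Landen's transformation modulo `p`.** -/
theorem landen {m : ℕ} (hpm : p = 2 * m + 1) :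
    ∑ i ∈ Finset.range (m + 1), C ((4 : ZMod p) ^ i * (m.choose i : ZMod p) ^ 2) * term m i =
      expand (ZMod p) 2 (FA.Carayol.hPoly m (ZMod p)) := by
  set G := ∑ i ∈ Finset.range (m + 1), C ((4 : ZMod p) ^ i * (m.choose i : ZMod p) ^ 2) *
    (term m i : (ZMod p)[X]) with hG
  set R := expand (ZMod p) 2 (FA.Carayol.hPoly m (ZMod p)) with hR
  have hpo : 2 < p := by have := hp.out.two_le; omega
  have hLG : lop G = 0 := by
    have hlin : ∀ (c : ZMod p) (Q : (ZMod p)[X]), lop (C c * Q) = C c * lop Q := fun c Q => by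
      simp only [lop, derivative_C_mul, mul_left_comm _ (C c), mul_sub]
    have hsum : lop G = ∑ i ∈ Finset.range (m + 1),
        C ((4 : ZMod p) ^ i * (m.choose i : ZMod p) ^ 2) * lop (term m i) := by
      rw [hG, lop, derivative_sum, Finset.mul_sum, derivative_sum, Finset.mul_sum,
        ← Finset.sum_sub_distrib]
      exact Finset.sum_congr rfl fun i _ => hlin _ _
    refine (mul_eq_zero.1 (show X * (1 + X) * lop G = 0 from ?_)).resolve_left ?_
    · set f : ℕ → (ZMod p)[X] := fun i =>
        C ((4 : ZMod p) ^ i * (m.choose i : ZMod p) ^ 2) * (i : (ZMod p)[X]) ^ 2 * image m i with hf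
      rw [hsum, Finset.mul_sum, Finset.sum_congr rfl (g := fun i => f i - f (i + 1)) fun i hi => by
        have hrec := FA.Carayol.hPoly_coeff_rec (k := ZMod p) hpm i
        rw [FA.Carayol.coeff_hPoly, FA.Carayol.coeff_hPoly] at hrec
        have hrec' := congrArg (fun c => C ((4 : ZMod p) ^ i * c)) hrec
        simp only [map_mul, map_pow, map_add, map_one, map_natCast, map_ofNat] at hrec'
        rw [mul_left_comm, lop_term hpm (Nat.lt_succ_iff.1 (Finset.mem_range.1 hi))]
        simp only [hf, map_mul, map_pow, map_natCast, map_ofNat]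
        push_cast
        linear_combination image m (i + 1) * hrec',
        Finset.sum_range_sub']
      simp [hf, Nat.choose_succ_self]
    · refine mul_ne_zero X_ne_zero fun e => ?_
      simpa using congrArg (fun Q => Q.coeff 0) e
  have hLR : lop R = 0 := by
    refine Polynomial.ext fun n => ?_
    rw [coeff_zero]
    rcases n with _ | n
    · rw [coeff_lop_zero, hR, coeff_expand two_pos, if_neg (by omega)]
    · rw [coeff_lop_succ, hR, coeff_expand two_pos, coeff_expand two_pos]
      by_cases h : 2 ∣ n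
      · obtain ⟨j, rfl⟩ := h
        rw [if_pos (by omega), if_pos (by omega), show (2 * j + 2) / 2 = j + 1 by omega,
          show 2 * j / 2 = j by omega]
        have := FA.Carayol.hPoly_coeff_rec (k := ZMod p) hpm j
        push_cast
        linear_combination this
      · rw [if_neg (by omega), if_neg h, mul_zero, mul_zero, sub_zero]
  refine sub_eq_zero.1 (eq_zero_of_lop ?_ ?_ ?_)
  · refine (natDegree_sub_le _ _).trans_lt (max_lt ?_ ?_)
    · refine (natDegree_sum_le_of_forall_le _ _ (n := 2 * m) fun i hi => ?_).trans_lt (by omega)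
      refine natDegree_mul_le.trans ?_
      rw [natDegree_C, zero_add, term]
      refine natDegree_mul_le.trans ?_
      have h1 : ((1 + X : (ZMod p)[X]) ^ (2 * (m - i))).natDegree ≤ 2 * (m - i) := by
        refine natDegree_pow_le.trans ?_
        have : (1 + X : (ZMod p)[X]).natDegree ≤ 1 := by compute_degree
        calc 2 * (m - i) * (1 + X : (ZMod p)[X]).natDegree ≤ 2 * (m - i) * 1 :=
              Nat.mul_le_mul_left _ this
          _ = 2 * (m - i) := mul_one _
      have h2 := natDegree_X_pow_le (R := ZMod p) i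
      have := Finset.mem_range.1 hi
      omega
    · rw [hR, natDegree_expand, FA.Carayol.hPoly_natDegree (q := p) hpm]
      omega
  · rw [coeff_sub, hG, hR, finsetSum_coeff, coeff_expand two_pos, if_pos (dvd_zero 2),
      Nat.zero_div, FA.Carayol.coeff_hPoly, Finset.sum_eq_single 0]
    · simp [term, coeff_zero_eq_eval_zero]
    · intro i _ hi
      simp [term, coeff_zero_eq_eval_zero, zero_pow hi]
    · simp
  · have : lop (G - R) = lop G - lop R := by
      simp only [lop, derivative_sub, mul_sub]; ring
    rw [this, hLG, hLR, sub_zero]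

/-- The homogeneous Hasse invariant in `a = θ₃²`, `b = θ₄²`. -/
def hHom {R : Type*} [CommRing R] (m : ℕ) (a b : R) : R :=
  ∑ i ∈ Finset.range (m + 1), (m.choose i : R) ^ 2 * (a ^ 2 - b ^ 2) ^ i * (a ^ 2) ^ (m - i)

/-- **Gauss's invariance under the arithmetic-geometric mean.** -/
theorem hHom_agm {R : Type*} [CommRing R] (f : ZMod p →+* R) {m : ℕ} (hpm : p = 2 * m + 1)
    {a b a₁ b₁ : R} (h₁ : 2 * a₁ = a + b) (h₂ : b₁ ^ 2 = a * b) (hu : IsUnit (a + b)) :
    hHom m a b = hHom m a₁ b₁ := by
  obtain ⟨u, hu'⟩ := hu.exists_right_inv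
  have h2 : IsUnit (2 : R) := by
    have h : (2 : ZMod p) ≠ 0 := Ring.two_ne_zero (by
      rw [ZMod.ringChar_zmod_n]; have := hp.out.two_le; omega)
    have := (Ne.isUnit h).map f
    rwa [map_ofNat] at this
  refine (h2.pow (2 * m)).mul_left_cancel ?_
  have key := congrArg (Polynomial.eval₂ f ((a - b) * u)) (landen (p := p) hpm)
  rw [Polynomial.eval₂_finsetSum, expand_eq_comp_X_pow, eval₂_comp, eval₂_X_pow, FA.Carayol.hPoly,
    Polynomial.eval₂_finsetSum] at key
  simp only [term, eval₂_mul, eval₂_pow, eval₂_add, eval₂_one, eval₂_X, eval₂_natCast, eval₂_ofNat, map_mul, map_pow,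
    map_ofNat, map_natCast] at key
  have key' := congrArg (fun z => (a + b) ^ (2 * m) * z) key
  simp only [Finset.mul_sum] at key'
  rw [hHom, hHom, Finset.mul_sum, Finset.mul_sum]
  refine Eq.trans (Eq.trans ?_ key') ?_
  · refine Finset.sum_congr rfl fun i hi => ?_
    obtain ⟨j, rfl⟩ := Nat.exists_eq_add_of_le (Nat.lt_succ_iff.1 (Finset.mem_range.1 hi))
    rw [Nat.add_sub_cancel_left, show 2 * (i + j) = i + i + 2 * j by ring, pow_add (a + b),
      pow_add (a + b)]
    have e2 : (a + b) * (1 + (a - b) * u) = 2 * a := by linear_combination (a - b) * hu'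
    have e1 : (a + b) * ((a - b) * u) = a - b := by linear_combination (a - b) * hu'
    calc _ = (4 : R) ^ i * ((i + j).choose i : R) ^ 2 *
          (((a + b) * ((a - b) * u)) ^ i * (a + b) ^ i * ((a + b) * (1 + (a - b) * u)) ^ (2 * j)) := by
            rw [e1, e2, ← mul_pow (a - b), show (a - b) * (a + b) = a ^ 2 - b ^ 2 by ring,
              show (4 : R) = 2 ^ 2 by norm_num, mul_pow (2 : R) a, ← pow_mul, ← pow_mul, pow_add,
              pow_add]
            ring
      _ = _ := by simp only [mul_pow]; ring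
  · refine Finset.sum_congr rfl fun i hi => ?_
    obtain ⟨j, rfl⟩ := Nat.exists_eq_add_of_le (Nat.lt_succ_iff.1 (Finset.mem_range.1 hi))
    rw [Nat.add_sub_cancel_left, show 2 * (i + j) = 2 * i + 2 * j by ring, pow_add (a + b),
      pow_add (2 : R)]
    have e1 : (a + b) * ((a - b) * u) = a - b := by linear_combination (a - b) * hu'
    calc _ = ((i + j).choose i : R) ^ 2 *
          (((a + b) * ((a - b) * u)) ^ 2) ^ i * ((a + b) ^ 2) ^ j := by
            simp only [mul_pow, ← pow_mul]; ring
      _ = ((i + j).choose i : R) ^ 2 * ((2 * a₁) ^ 2 - 4 * b₁ ^ 2) ^ i * ((2 * a₁) ^ 2) ^ j := by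
            rw [e1, h₁, h₂, show (a + b) ^ 2 - 4 * (a * b) = (a - b) ^ 2 by ring]
      _ = _ := by
            rw [show (2 * a₁) ^ 2 - 4 * b₁ ^ 2 = 4 * (a₁ ^ 2 - b₁ ^ 2) by ring, mul_pow (4 : R),
              show (4 : R) = 2 ^ 2 by norm_num, mul_pow (2 : R) a₁, mul_pow, ← pow_mul (2 : R),
              ← pow_mul (2 : R)]
            ring

end FA.HasseExpansion

end
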