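import Fermat.Agent.Supersingular.DeuringCount
import Fermat.Agent.Supersingular.QuadraticField
import Fermat.Agent.Frob.MapHom
import Fermat.Agent.EC.TorsionCard
import Fermat.Agent.Twists.Count
import Fermat.Agent.ReducedGroups.Structure
import Mathlib.FieldTheory.IsAlgClosed.AlgebraicClosure

/-!
# Maximal and minimal curves over a field with `q²` elements

For a root `c` of Deuring's polynomial `c ^ q² = c` and `x (q P) = x (P) ^ q²` on the Legendre curve,
so the `q²`-Frobenius is `q` or `-q` and the points over the field with `q²` elements are those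
killed by `q - 1`, respectively `q + 1`. The quadratic twist has the other number of points.
-/

set_option autoImplicit false
set_option linter.style.haveILetI false

noncomputable section

open Polynomial WeierstrassCurve
open scoped Classical

namespace FA.SupersingularMaximal

open FA.Carayol FA.EC

variable {k : Type} [Field k] {q : ℕ} [hq : Fact q.Prime] [CharP k q] [IsAlgClosed k]

/-- **Deuring's roots are in `𝔽_(q²)`, and `x (q P) = x (P) ^ q²`.** -/
theorem xc_nsmul_legendre (h5 : 5 ≤ q) {c : k} [(legendre c).IsElliptic]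
    (hss : ∀ P : (legendre c).toAffine.Point, q • P = 0 → P = 0) :
    c ^ q ^ 2 = c ∧
      ∀ P : (legendre c).toAffine.Point, P ≠ 0 → xc (q • P) = xc P ^ q ^ 2 := by
  obtain ⟨C, s, hC0, hx⟩ := FA.SupersingularField.exists_xc_nsmul h5 hss
  have hT : ∀ e : k, e * (e - 1) * (e - c) = 0 → e * C = e ^ q ^ 2 - s := fun e he => by
    have hns : (legendre c).toAffine.Nonsingular e 0 := Affine.equation_iff_nonsingular.1 (by
      rw [Affine.equation_iff]
      simp only [legendre]
      linear_combination -he)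
    set T : (legendre c).toAffine.Point := .some e 0 hns
    have h2T : 2 • T = 0 := by
      rw [two_nsmul]
      exact Affine.Point.add_self_of_Y_eq (by simp [Affine.negY, legendre])
    have hqT : q • T = T := by
      obtain ⟨m, hm⟩ := hq.out.odd_of_ne_two (by omega)
      rw [hm, add_nsmul, one_nsmul, mul_nsmul, h2T, nsmul_zero, zero_add]
    have := hx T (Affine.Point.some_ne_zero hns)
    rw [hqT, xc_some, eq_div_iff hC0] at this
    exact this
  have hq0 : q ^ 2 ≠ 0 := pow_ne_zero 2 hq.out.ne_zero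
  obtain rfl : s = 0 := by
    have := hT 0 (by ring)
    rw [zero_mul, zero_pow hq0] at this
    linear_combination this
  obtain rfl : C = 1 := by
    have := hT 1 (by ring)
    rw [one_pow, one_mul, sub_zero] at this
    exact this
  refine ⟨?_, fun P hP => by rw [hx P hP]; simp⟩
  have := hT c (by ring)
  linear_combination -this

/-- A field with `q²` elements is the fixed field of `x ↦ x ^ q²`. -/
theorem mem_range_of_fixed {F : Type} [Field F] [Fintype F] (ι : F →+* k)
    (hF : Fintype.card F = q ^ 2) {x : k} (hx : x ^ q ^ 2 = x) : ∃ x₀, ι x₀ = x := by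
  have hne := FiniteField.X_pow_card_sub_X_ne_zero k
    (Nat.one_lt_pow (two_ne_zero : (2 : ℕ) ≠ 0) hq.out.one_lt)
  have hsub : Finset.univ.image ι ⊆ (X ^ (q ^ 2) - X : k[X]).roots.toFinset := fun z hz => by
    obtain ⟨z₀, -, rfl⟩ := Finset.mem_image.1 hz
    rw [Multiset.mem_toFinset, mem_roots hne]
    simp [← map_pow, ← hF, FiniteField.pow_card]
  have heq := Finset.eq_of_subset_of_card_le hsub (by
    rw [card_roots_frob two_ne_zero, Finset.card_image_of_injective _ ι.injective,
      Finset.card_univ, hF])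
  have : x ∈ (X ^ (q ^ 2) - X : k[X]).roots.toFinset := by
    rw [Multiset.mem_toFinset, mem_roots hne]
    simp [hx]
  rw [← heq] at this
  obtain ⟨x₀, -, e⟩ := Finset.mem_image.1 this
  exact ⟨x₀, e⟩

/-- **The points over the fixed field of a supersingular Legendre curve.** -/
theorem legendre_points {F : Type} [Field F] [Fintype F] (ι : F →+* k) (h5 : 5 ≤ q)
    (hF : Fintype.card F = q ^ 2) {c₀ : F} [(legendre c₀).IsElliptic]
    (hroot : (hPoly ((q - 1) / 2) k).eval (ι c₀) = 0) :
    ∃ n : ℕ, (n = q - 1 ∨ n = q + 1) ∧ Nat.card (legendre c₀).toAffine.Point = n ^ 2 ∧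
      Nonempty ((legendre c₀).toAffine.Point ≃+ ZMod n × ZMod n) := by
  set c := ι c₀
  have hmap : (legendre c₀).map ι = legendre c := legendre_map ι c₀
  haveI : (legendre c).IsElliptic := hmap ▸ inferInstanceAs ((legendre c₀).map ι).IsElliptic
  have hss := (FA.SupersingularCount.legendre_supersingular_iff (c := c) h5).2 hroot
  obtain ⟨hc, hx⟩ := xc_nsmul_legendre h5 hss
  set σ : k →+* k := iterateFrobenius k q 2
  have hσ : ∀ x, σ x = x ^ q ^ 2 := fun x => by simp [σ, iterateFrobenius_def]
  have hσι : ∀ x : F, σ (ι x) = ι x := fun x => by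
    rw [hσ, ← map_pow, ← hF, FiniteField.pow_card]
  have hσmap : (legendre c).map σ = legendre c := by rw [legendre_map, hσ, hc]
  set φ := FA.Frob.mapHom (W := (legendre c).toAffine) (W' := (legendre c).toAffine) σ hσmap
  have hsign : ∀ P, φ P = q • P ∨ φ P = -(q • P) := fun P => by
    rcases eq_or_ne P 0 with rfl | hP
    · exact Or.inl (by rw [map_zero, nsmul_zero])
    refine eq_or_eq_neg_of_xc_eq ?_ (fun e => hP (hss P e)) ?_
    · exact fun e => hP (FA.Frob.mapHom_injective _ _ (e.trans (map_zero φ).symm))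
    · rw [hx P hP]
      obtain ⟨x, y, h, rfl⟩ := exists_some_of_ne_zero hP
      rw [FA.Frob.mapHom_some, xc_some, xc_some, hσ]
  have hall : (∀ P, φ P = q • P) ∨ ∀ P, φ P = -(q • P) := by
    by_contra h
    push Not at h
    obtain ⟨⟨a, ha⟩, b, hb⟩ := h
    have ha' := (hsign a).resolve_left ha
    have hb' := (hsign b).resolve_right hb
    rcases hsign (a + b) with e | e <;> rw [map_add, ha', hb', nsmul_add] at e
    · exact ha (by rw [ha']; exact add_right_cancel e)
    · rw [neg_add] at e; exact hb (by rw [hb']; exact add_left_cancel e)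
  obtain ⟨n, hn, hfix⟩ : ∃ n : ℕ, (n = q - 1 ∨ n = q + 1) ∧ ∀ P, φ P = P ↔ n • P = 0 := by
    rcases hall with h | h
    · refine ⟨q - 1, Or.inl rfl, fun P => ?_⟩
      rw [h, ← sub_eq_zero, sub_nsmul P hq.out.one_le, one_nsmul, ← sub_eq_add_neg]
    · refine ⟨q + 1, Or.inr rfl, fun P => ?_⟩
      rw [h, neg_eq_iff_add_eq_zero, succ_nsmul]
  have hn0 : n ≠ 0 := by have := hq.out.two_le; omega
  have hnk : (n : k) ≠ 0 := fun e => by
    have hd := (CharP.cast_eq_zero_iff k q n).1 e
    have h2 := hq.out.two_le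
    rcases hn with rfl | rfl
    · exact absurd (Nat.le_of_dvd (by omega) hd) (by omega)
    · exact absurd (Nat.le_of_dvd one_pos ((Nat.dvd_add_right (dvd_refl q)).1 hd)) (by omega)
  set m := FA.Frob.mapHom (W := (legendre c₀).toAffine) (W' := (legendre c).toAffine) ι hmap
  have hminj : Function.Injective m := FA.Frob.mapHom_injective _ _
  have hmfix : ∀ P, φ (m P) = m P := fun P => by
    rcases eq_or_ne P 0 with rfl | hP
    · rw [map_zero, map_zero]
    obtain ⟨x, y, h, rfl⟩ := exists_some_of_ne_zero hP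
    rw [FA.Frob.mapHom_some, FA.Frob.mapHom_some, Affine.Point.some.injEq]
    exact ⟨hσι x, hσι y⟩
  have hrange : ∀ x : k, σ x = x → ∃ x₀, ι x₀ = x := fun x hx =>
    mem_range_of_fixed ι hF (by rwa [hσ] at hx)
  have hcard : Nat.card (legendre c₀).toAffine.Point = n ^ 2 := by
    rw [← natCard_nsmul_eq_zero (W := legendre c) hnk]
    refine Nat.card_eq_of_bijective (fun P => ⟨m P, (hfix _).1 (hmfix P)⟩)
      ⟨fun a b e => hminj (congrArg Subtype.val e), fun ⟨Q, hQ⟩ => ?_⟩
    rcases eq_or_ne Q 0 with rfl | hQ0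
    · exact ⟨0, Subtype.ext (map_zero m)⟩
    obtain ⟨x, y, h, rfl⟩ := exists_some_of_ne_zero hQ0
    have e := (hfix _).2 hQ
    rw [FA.Frob.mapHom_some, Affine.Point.some.injEq] at e
    obtain ⟨x₀, rfl⟩ := hrange x e.1
    obtain ⟨y₀, rfl⟩ := hrange y e.2
    have h₀ : (legendre c₀).toAffine.Nonsingular x₀ y₀ :=
      ((legendre c₀).toAffine.map_nonsingular ι.injective x₀ y₀).1 (by
        show ((legendre c₀).map ι).toAffine.Nonsingular _ _
        rw [hmap]; exact h)
    exact ⟨.some x₀ y₀ h₀, Subtype.ext (FA.Frob.mapHom_some _ _ _)⟩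
  refine ⟨n, hn, hcard, ?_⟩
  haveI : Finite (legendre c₀).toAffine.Point :=
    Nat.finite_of_card_ne_zero (by rw [hcard]; exact pow_ne_zero 2 hn0)
  have hkill : ∀ P : (legendre c₀).toAffine.Point, n • P = 0 := fun P =>
    hminj (by rw [map_nsmul, map_zero]; exact (hfix _).1 (hmfix P))
  obtain ⟨d, hde, hdcard, heq⟩ := FA.ReducedGroups.exists_equiv
    (G := (legendre c₀).toAffine.Point) fun j hj => by
      have hg0 : 0 < Nat.gcd j n := Nat.gcd_pos_of_pos_left n hj
      have hgk : ((Nat.gcd j n : ℕ) : k) ≠ 0 := fun e => hnk (by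
        obtain ⟨t, ht⟩ := Nat.gcd_dvd_right j n
        rw [ht, Nat.cast_mul, e, zero_mul])
      haveI : Finite {P : (legendre c).toAffine.Point // Nat.gcd j n • P = 0} :=
        Nat.finite_of_card_ne_zero (by
          rw [natCard_nsmul_eq_zero (W := legendre c) hgk]; exact pow_ne_zero 2 hg0.ne')
      refine le_trans (Nat.card_le_card_of_injective
        (fun P => (⟨m P.1, ?_⟩ : {P : (legendre c).toAffine.Point // Nat.gcd j n • P = 0}))
        fun a b e => Subtype.ext (hminj (congrArg Subtype.val e))) ?_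
      · rw [← map_nsmul, (addOrderOf_dvd_iff_nsmul_eq_zero (x := P.1)).1
          (Nat.dvd_gcd (addOrderOf_dvd_of_nsmul_eq_zero P.2)
            (addOrderOf_dvd_of_nsmul_eq_zero (hkill P.1))), map_zero]
      · rw [natCard_nsmul_eq_zero (W := legendre c) hgk]
        exact Nat.pow_le_pow_left (Nat.le_of_dvd hj (Nat.gcd_dvd_left j n)) 2
  have he : AddMonoid.exponent (legendre c₀).toAffine.Point ≤ n :=
    Nat.le_of_dvd (Nat.pos_of_ne_zero hn0) (AddMonoid.exponent_dvd_of_forall_nsmul_eq_zero hkill)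
  have hd : d ≤ AddMonoid.exponent (legendre c₀).toAffine.Point :=
    Nat.le_of_dvd (Nat.pos_of_ne_zero AddMonoid.exponent_ne_zero_of_finite) hde
  rw [hcard] at hdcard
  have he' : AddMonoid.exponent (legendre c₀).toAffine.Point = n := by nlinarith
  rw [he'] at hdcard heq
  obtain rfl : d = n := mul_right_cancel₀ hn0 (by rw [hdcard]; ring)
  exact heq

/-- The twist of a Legendre curve. -/
def legendreTwist {F : Type} [CommRing F] (d c : F) : WeierstrassCurve F :=
  ⟨0, -(d * (1 + c)), 0, d ^ 2 * c, 0⟩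

/-- The twist by a non-square has the complementary number of points. -/
theorem card_twist_add {F : Type} [Field F] [Fintype F] (hF : ringChar F ≠ 2) {d c : F}
    (hd : ¬ IsSquare d) (hΔ : (legendre c).Δ ≠ 0) :
    (legendreTwist d c).Δ ≠ 0 ∧ (Nat.card (legendre c).toAffine.Point : ℤ) +
      Nat.card (legendreTwist d c).toAffine.Point = 2 * Fintype.card F + 2 := by
  have hd0 : d ≠ 0 := fun e => hd (e ▸ IsSquare.zero)
  have e : (legendreTwist d c).Δ = d ^ 6 * (legendre c).Δ := by
    simp only [legendreTwist, legendre, WeierstrassCurve.Δ, WeierstrassCurve.b₂,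
      WeierstrassCurve.b₄, WeierstrassCurve.b₆, WeierstrassCurve.b₈]
    ring
  have hΔ' : (legendreTwist d c).Δ ≠ 0 := e ▸ mul_ne_zero (pow_ne_zero 6 hd0) hΔ
  refine ⟨hΔ', ?_⟩
  rw [FA.Twists.natCard_point_eq_sum hF _ hΔ, FA.Twists.natCard_point_eq_sum hF _ hΔ']
  have hχ : quadraticChar F (d ^ 3) = -1 := by
    rw [pow_succ, map_mul, quadraticChar_sq_one' hd0, one_mul]
    exact quadraticChar_neg_one_iff_not_isSquare.2 hd
  have key : ∑ x : F, quadraticChar F (4 * x ^ 3 + (legendreTwist d c).b₂ * x ^ 2 +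
        2 * (legendreTwist d c).b₄ * x + (legendreTwist d c).b₆) =
      -∑ x : F, quadraticChar F (4 * x ^ 3 + (legendre c).b₂ * x ^ 2 +
        2 * (legendre c).b₄ * x + (legendre c).b₆) := by
    rw [← neg_one_mul, ← hχ, Finset.mul_sum]
    refine (Fintype.sum_equiv (Equiv.mulLeft₀ d hd0) _ _ fun x => ?_).symm
    rw [← map_mul]
    congr 1
    show _ = 4 * (d * x) ^ 3 + (legendreTwist d c).b₂ * (d * x) ^ 2 +
      2 * (legendreTwist d c).b₄ * (d * x) + (legendreTwist d c).b₆
    simp only [legendreTwist, legendre, WeierstrassCurve.b₂, WeierstrassCurve.b₄,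
      WeierstrassCurve.b₆]
    ring
  rw [key]
  ring

/-- **Maximal and minimal curves exist.** -/
theorem exists_extremal (h5 : 5 ≤ q) (F : Type) [Field F] [Fintype F]
    (hF : Fintype.card F = q ^ 2) :
    ∃ W W' : WeierstrassCurve F, W.Δ ≠ 0 ∧ W'.Δ ≠ 0 ∧
      Nat.card W.toAffine.Point = (q + 1) ^ 2 ∧ Nat.card W'.toAffine.Point = (q - 1) ^ 2 := by
  haveI : CharP F q := charP_of_card_eq_prime_pow hF
  haveI : CharP (AlgebraicClosure F) q :=
    charP_of_injective_algebraMap (algebraMap F (AlgebraicClosure F)).injective q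
  set ι := algebraMap F (AlgebraicClosure F)
  set h := (q - 1) / 2
  have hqh : q = 2 * h + 1 := odd_half (by omega)
  have h2k : (2 : AlgebraicClosure F) ≠ 0 := two_ne_zero_charP (q := q) (by omega)
  obtain ⟨c, hc⟩ : ∃ c, (hPoly h (AlgebraicClosure F)).eval c = 0 := by
    have : 0 < (hPoly h (AlgebraicClosure F)).roots.toFinset.card := by
      rw [card_roots_hPoly hqh]; omega
    obtain ⟨c, hc⟩ := Finset.card_pos.1 this
    exact ⟨c, (mem_roots'.1 (Multiset.mem_toFinset.1 hc)).2⟩
  have hc0 : c ≠ 0 := fun e => one_ne_zero (eval_zero_hPoly.symm.trans (e ▸ hc))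
  have hc1 : c ≠ 1 := fun e => eval_one_hPoly_ne_zero hqh (e ▸ hc)
  haveI := isElliptic_legendre h2k hc0 hc1
  have hfix := (xc_nsmul_legendre h5
    ((FA.SupersingularCount.legendre_supersingular_iff (c := c) h5).2 hc)).1
  obtain ⟨c₀, rfl⟩ := mem_range_of_fixed ι hF hfix
  have h2F : (2 : F) ≠ 0 := fun e => h2k (by rw [← map_ofNat ι 2, e, map_zero])
  haveI := isElliptic_legendre h2F (c := c₀) (fun e => hc0 (by rw [e, map_zero]))
    (fun e => hc1 (by rw [e, map_one]))
  obtain ⟨n, hn, hcard, -⟩ := legendre_points ι h5 hF hc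
  have hchar : ringChar F ≠ 2 := by rw [ringChar.eq F q]; omega
  obtain ⟨d, hd⟩ := FiniteField.exists_nonsquare hchar
  have hΔ : (legendre c₀).Δ ≠ 0 := (legendre c₀).isUnit_Δ.ne_zero
  obtain ⟨hΔ', hsum⟩ := card_twist_add hchar hd hΔ
  rw [hcard, hF] at hsum
  rcases hn with rfl | rfl
  · refine ⟨_, _, hΔ', hΔ, ?_, hcard⟩
    zify
    push_cast [Nat.cast_sub hq.out.one_le] at hsum
    linear_combination hsum
  · refine ⟨_, _, hΔ, hΔ', hcard, ?_⟩
    zify [hq.out.one_le]
    push_cast at hsum
    linear_combination hsum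

end FA.SupersingularMaximal

end
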