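import Fermat.Agent.Supersingular.PrimeField
import Fermat.Agent.Supersingular.Landen
import Fermat.Agent.Ribet.AsymptoticTraces

/-!
# Supersingular invariants all in the prime field

Landen's transformation sends a root `c` of Deuring's polynomial to one over
`R (1 - c) = 16 (d² + 14 d + 1)³ / (d (1 - d)⁴)`, `d = 1 - c`: a two-isogeny. If all invariants are
rational then at a root `c ∉ 𝔽_p` two of the three neighbours coincide, so
`w (1 - w)` is `1`, `16` or a root of `u² - 752 u + 256`; and a root `c ∈ 𝔽_p`, so `p ≡ 3 (mod 4)`,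
has an irrational neighbour. So there are at most seven invariants besides `0` and `1728`, and
`p < 96`.
-/

set_option autoImplicit false
set_option linter.style.haveILetI false

noncomputable section

open Polynomial WeierstrassCurve
open scoped Classical

namespace FA.OggBound

open FA.Carayol FA.SupersingularCount

variable {k : Type} [Field k] {p : ℕ} [hp : Fact p.Prime] [CharP k p] [IsAlgClosed k]

/-- The invariant of the neighbour through the kernel given by `d`. -/
def neighbour (d : k) : k := 16 * (d ^ 2 + 14 * d + 1) ^ 3 / (d * (1 - d) ^ 4)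

omit [CharP k p] [IsAlgClosed k] in
theorem neighbour_inv {d : k} (h0 : d ≠ 0) (h1 : d ≠ 1) : neighbour (1 / d) = neighbour d := by
  have h1' : 1 - d ≠ 0 := sub_ne_zero.2 (Ne.symm h1)
  have h2 : d - 1 ≠ 0 := sub_ne_zero.2 h1
  unfold neighbour
  field_simp
  ring

omit [IsAlgClosed k] in
theorem map_neighbour (d : k) : neighbour d ^ p = neighbour (d ^ p) := by
  simp only [← frobenius_def, neighbour, map_div₀, map_mul, map_pow, map_add, map_sub, map_ofNat,
    map_one]

/-- The roots of Deuring's polynomial fill the fibres over supersingular invariants. -/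
theorem root_of_mem (h5 : 5 ≤ p) {c : k} (h0 : c ≠ 0) (h1 : c ≠ 1)
    (h : jLegendre c ∈ ssInvariants k p) : (hPoly ((p - 1) / 2) k).eval c = 0 := by
  obtain ⟨h2, -, -, -, -⟩ := small_ne_zero (k := k) (q := p) h5
  haveI := isElliptic_legendre h2 h0 h1
  obtain ⟨W, _, hW, hss⟩ := h
  obtain ⟨C, hC⟩ := exists_variableChange_of_j_eq W (legendre c)
    (hW.trans (j_legendre (q := p) h5).symm)
  refine (legendre_supersingular_iff (c := c) h5).1 fun P hP => ?_
  have h := hss (FA.Frob.vcEquiv C hC P) (by rw [← map_nsmul, hP, map_zero])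
  exact (map_eq_zero_iff _ (FA.Frob.vcEquiv C hC).injective).1 h

/-- A root is a supersingular parameter. -/
theorem root_facts (h5 : 5 ≤ p) {c : k} (hc : (hPoly ((p - 1) / 2) k).eval c = 0) :
    c ≠ 0 ∧ c ≠ 1 ∧ jLegendre c ∈ ssInvariants k p := by
  refine ⟨fun e => one_ne_zero (α := k) (eval_zero_hPoly.symm.trans (e ▸ hc)),
    fun e => eval_one_hPoly_ne_zero (odd_half (q := p) (by omega)) (e ▸ hc), ?_⟩
  rw [ssInvariants_eq h5, Finset.mem_coe, Finset.mem_image]
  exact ⟨c, by simp [ssRoots, Multiset.mem_toFinset, mem_roots hPoly_ne_zero', hc], rfl⟩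

/-- **Landen**: the transform of a root is a root. -/
theorem landen_root (h5 : 5 ≤ p) {c : k} (hc : (hPoly ((p - 1) / 2) k).eval c = 0) {b : k}
    (hb : b ^ 2 = 1 - c) :
    (hPoly ((p - 1) / 2) k).eval (((1 - b) / (1 + b)) ^ 2) = 0 ∧
      jLegendre (((1 - b) / (1 + b)) ^ 2) = neighbour (1 - c) := by
  obtain ⟨h2, -, -, -, -⟩ := small_ne_zero (k := k) (q := p) h5
  obtain ⟨hc0, hc1, -⟩ := root_facts h5 hc
  set m := (p - 1) / 2
  have hb0 : b ≠ 0 := fun e => hc1 (by rw [e] at hb; linear_combination hb)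
  have hp1 : 1 + b ≠ 0 := fun e => hc0 (by linear_combination (1 - b) * e + hb)
  have hm1 : 1 - b ≠ 0 := fun e => hc0 (by linear_combination (1 + b) * e + hb)
  obtain ⟨s, hs⟩ := IsAlgClosed.exists_pow_nat_eq b two_pos
  let f := ZMod.castHom (dvd_refl p) k
  have key := FA.HasseExpansion.hHom_agm f (odd_half (q := p) (by omega)) (a := 1) (b := b)
    (a₁ := (1 + b) / 2) (b₁ := s) (by field_simp) (by rw [hs, one_mul])
    (isUnit_iff_ne_zero.2 hp1)
  refine ⟨?_, ?_⟩
  · have e1 : FA.HasseExpansion.hHom m 1 b = 0 := by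
      rw [← hc, eval_hPoly, FA.HasseExpansion.hHom]
      exact Finset.sum_congr rfl fun i _ => by
        rw [one_pow, one_pow, mul_one, show 1 - b ^ 2 = c by rw [hb]; ring]
    have e2 : FA.HasseExpansion.hHom m ((1 + b) / 2) s =
        (((1 + b) / 2) ^ 2) ^ m * (hPoly m k).eval (((1 - b) / (1 + b)) ^ 2) := by
      rw [eval_hPoly, FA.HasseExpansion.hHom, Finset.mul_sum]
      refine Finset.sum_congr rfl fun i hi => ?_
      rw [show ((1 + b) / 2) ^ 2 - s ^ 2 = ((1 + b) / 2) ^ 2 * ((1 - b) / (1 + b)) ^ 2 by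
        rw [hs]; field_simp; ring, mul_pow _ _ i]
      have e : (((1 + b) / 2) ^ 2) ^ m =
          (((1 + b) / 2) ^ 2) ^ i * (((1 + b) / 2) ^ 2) ^ (m - i) := by
        rw [← pow_add, Nat.add_sub_of_le (Nat.lt_succ_iff.1 (Finset.mem_range.1 hi))]
      rw [e]
      ring
    rw [e1, e2, eq_comm, mul_eq_zero] at key
    exact key.resolve_left (pow_ne_zero _ (pow_ne_zero _ (div_ne_zero hp1 h2)))
  · rw [← hb, jLegendre, neighbour, show ((1 - b) / (1 + b)) ^ 2 - 1 = -(4 * b) / (1 + b) ^ 2 by
      field_simp; ring,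
      show (((1 - b) / (1 + b)) ^ 2) ^ 2 - ((1 - b) / (1 + b)) ^ 2 + 1 =
        (b ^ 4 + 14 * b ^ 2 + 1) / (1 + b) ^ 4 by field_simp; ring,
      show 1 - b ^ 2 = (1 - b) * (1 + b) by ring]
    have h4 : (4 : k) ≠ 0 := by
      rw [show (4 : k) = 2 ^ 2 by norm_num]; exact pow_ne_zero _ h2
    field_simp
    ring

omit [CharP k p] [IsAlgClosed k] in
/-- The six values of `c`. -/
theorem orbit_cases {x c : k} (h256 : (256 : k) ≠ 0) (hx0 : x ≠ 0) (hx1 : x ≠ 1) (hc0 : c ≠ 0)
    (hc1 : c ≠ 1) (h : jLegendre x = jLegendre c) :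
    x = c ∨ x = 1 - c ∨ c * x = 1 ∨ (1 - c) * x = 1 ∨ c * x = c - 1 ∨ (c - 1) * x = c := by
  rw [jLegendre, jLegendre, div_eq_div_iff
    (mul_ne_zero (pow_ne_zero _ hx0) (pow_ne_zero _ (sub_ne_zero.2 hx1)))
    (mul_ne_zero (pow_ne_zero _ hc0) (pow_ne_zero _ (sub_ne_zero.2 hc1)))] at h
  have e : (256 : k) * ((x - c) * (x - (1 - c)) * (c * x - 1) * ((1 - c) * x - 1) *
      (c * x - (c - 1)) * ((c - 1) * x - c)) = 0 := by linear_combination -h
  simp only [mul_eq_zero, h256, false_or, sub_eq_zero, or_assoc] at e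
  exact e

omit [CharP k p] [IsAlgClosed k] in
/-- **Two equal neighbours.** -/
theorem cases_of_neighbour_eq {w : k} (h16 : (16 : k) ≠ 0) (hw0 : w ≠ 0) (hw1 : w ≠ 1)
    (hw : 2 * w ≠ 1) (h : neighbour w = neighbour (1 - w)) :
    w * (1 - w) = 1 ∨ w * (1 - w) = 16 ∨
      (w * (1 - w)) ^ 2 - 752 * (w * (1 - w)) + 256 = 0 := by
  have h1 : 1 - w ≠ 0 := sub_ne_zero.2 (Ne.symm hw1)
  rw [neighbour, neighbour, sub_sub_cancel,
    div_eq_div_iff (mul_ne_zero hw0 (pow_ne_zero _ h1)) (mul_ne_zero h1 (pow_ne_zero _ hw0))] at h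
  have e : (16 : k) * w * (1 - w) * ((2 * w - 1) * ((w * (1 - w) - 16) *
      ((w * (1 - w) - 1) * ((w * (1 - w)) ^ 2 - 752 * (w * (1 - w)) + 256)))) = 0 := by
    linear_combination h
  simp only [mul_eq_zero, h16, hw0, h1, sub_ne_zero.2 hw, false_or] at e
  rcases e with e | e | e
  · exact Or.inr (Or.inl (sub_eq_zero.1 e))
  · exact Or.inl (sub_eq_zero.1 e)
  · exact Or.inr (Or.inr e)

/-- The neighbours are supersingular, so rational. -/
theorem neighbour_fixed (h5 : 5 ≤ p) (hall : ∀ j ∈ ssInvariants k p, j ^ p = j) {c : k}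
    (hc : (hPoly ((p - 1) / 2) k).eval c = 0) : neighbour (1 - c) ^ p = neighbour (1 - c) := by
  obtain ⟨b, hb⟩ := IsAlgClosed.exists_pow_nat_eq (1 - c) two_pos
  obtain ⟨h1, h2⟩ := landen_root h5 hc hb
  rw [← h2]
  exact hall _ (root_facts h5 h1).2.2

/-- The orbit of a root consists of roots. -/
theorem roots_orbit (h5 : 5 ≤ p) {c : k} (hc : (hPoly ((p - 1) / 2) k).eval c = 0) :
    (hPoly ((p - 1) / 2) k).eval (1 - c) = 0 ∧ (hPoly ((p - 1) / 2) k).eval (1 / c) = 0 := by
  obtain ⟨h0, h1, hm⟩ := root_facts h5 hc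
  exact ⟨root_of_mem h5 (sub_ne_zero.2 (Ne.symm h1)) (fun e => h0 (by linear_combination -e))
    (by rwa [jLegendre_one_sub]),
    root_of_mem h5 (one_div_ne_zero h0) (fun e => h1 (by field_simp at e; exact e.symm))
    (by rwa [jLegendre_inv h0 h1])⟩

/-- At a root with `c ^ p = 1 / c` the neighbours given by `c / (c - 1)` and `1 / (1 - c)` agree. -/
theorem neighbour_eq_of_inv (h5 : 5 ≤ p) (hall : ∀ j ∈ ssInvariants k p, j ^ p = j) {c : k}
    (hc : (hPoly ((p - 1) / 2) k).eval c = 0) (h : c * c ^ p = 1) :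
    neighbour (c / (c - 1)) = neighbour (1 - c / (c - 1)) := by
  obtain ⟨h0, h1, -⟩ := root_facts h5 hc
  have hs : c - 1 ≠ 0 := sub_ne_zero.2 h1
  have hs' : 1 - c ≠ 0 := sub_ne_zero.2 (Ne.symm h1)
  have e := neighbour_fixed h5 hall hc
  have e2 : c ^ p = 1 / c := by rw [eq_div_iff h0, mul_comm, h]
  rw [map_neighbour, sub_pow_char, one_pow, e2, ← neighbour_inv hs' fun e => h0 (by
    linear_combination -e)] at e
  rw [show 1 - c / (c - 1) = 1 / (1 - c) by field_simp; ring, ← e,
    show (1 : k) - 1 / c = 1 / (c / (c - 1)) by field_simp,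
    neighbour_inv (div_ne_zero h0 hs) fun e => one_ne_zero (α := k) (by
      field_simp at e; linear_combination e)]

/-- **A root outside the prime field has, up to the six substitutions, two equal neighbours.** -/
theorem exists_equal_neighbours (h5 : 5 ≤ p) (hall : ∀ j ∈ ssInvariants k p, j ^ p = j) {c : k}
    (hc : (hPoly ((p - 1) / 2) k).eval c = 0) (hcp : c ^ p ≠ c) :
    ∃ w, w ≠ 0 ∧ w ≠ 1 ∧ 2 * w ≠ 1 ∧ jLegendre w = jLegendre c ∧
      neighbour w = neighbour (1 - w) := by
  obtain ⟨h2, -, h256, -, -⟩ := small_ne_zero (k := k) (q := p) h5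
  obtain ⟨h0, h1, hm⟩ := root_facts h5 hc
  have hp0 : p ≠ 0 := hp.out.ne_zero
  have hs : c - 1 ≠ 0 := sub_ne_zero.2 h1
  have hs' : 1 - c ≠ 0 := sub_ne_zero.2 (Ne.symm h1)
  have e1 := neighbour_fixed h5 hall hc
  have e2 := neighbour_fixed h5 hall (roots_orbit h5 hc).1
  rw [sub_sub_cancel] at e2
  have e3 := neighbour_fixed h5 hall (roots_orbit h5 hc).2
  rw [map_neighbour] at e1 e2 e3
  rw [sub_pow_char, one_pow] at e1
  -- values fixed by the prime field
  have hrat : ∀ x : k, x = 2 ∨ x = -1 ∨ 2 * x = 1 → x ^ p = x := by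
    have t2 : (2 : k) ^ p = 2 := by rw [← frobenius_def]; exact map_ofNat _ 2
    rintro x (rfl | rfl | hx)
    · exact t2
    · rw [← frobenius_def, map_neg, map_one]
    · rw [show x = 1 / 2 by field_simp; linear_combination hx, div_pow, one_pow, t2]
  have hj : jLegendre (c ^ p) = jLegendre c := by
    conv_rhs => rw [← hall _ hm]
    simp only [← frobenius_def, jLegendre, map_div₀, map_mul, map_pow, map_add, map_sub, map_ofNat,
      map_one]
  rcases orbit_cases h256 (pow_ne_zero p h0)
    (fun e => h1 ((frobenius_inj k p) (by rw [frobenius_def, map_one, e]))) h0 h1 hj with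
    e | e | e | e | e | e
  · exact absurd e hcp
  · refine ⟨c, h0, h1, fun h => hcp (hrat c (Or.inr (Or.inr h))), rfl, ?_⟩
    rw [e] at e2
    exact e2.symm
  · refine ⟨c / (c - 1), div_ne_zero h0 hs, fun h => one_ne_zero (α := k) (by
      field_simp at h; linear_combination h), fun h => hcp (hrat c (Or.inr (Or.inl (by
      field_simp at h; linear_combination h)))), ?_, neighbour_eq_of_inv h5 hall hc e⟩
    rw [show c / (c - 1) = 1 / (1 - 1 / c) by field_simp,
      jLegendre_inv (sub_ne_zero.2 fun e => h1 (by field_simp at e; exact e))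
        (fun e => one_ne_zero (α := k) (by field_simp at e; linear_combination -e)),
      jLegendre_one_sub, jLegendre_inv h0 h1]
  · refine ⟨c, h0, h1, fun h => hcp (hrat c (Or.inr (Or.inr h))), rfl, ?_⟩
    have e' : c ^ p = 1 / (1 - c) := by rw [eq_div_iff hs', mul_comm, e]
    rw [e', neighbour_inv hs' fun e => h0 (by linear_combination -e)] at e2
    exact e2.symm
  · refine ⟨c, h0, h1, fun h => hcp (hrat c (Or.inr (Or.inr h))), rfl, ?_⟩
    have e' : c ^ p = (c - 1) / c := by rw [eq_div_iff h0, mul_comm, e]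
    rw [e', show 1 - (c - 1) / c = 1 / c by field_simp; ring, neighbour_inv h0 h1] at e1
    exact e1
  · refine ⟨1 / c, one_div_ne_zero h0, fun h => h1 (by field_simp at h; exact h.symm),
      fun h => hcp (hrat c (Or.inl (by field_simp at h; linear_combination -h))),
      jLegendre_inv h0 h1, ?_⟩
    have e' : c ^ p = c / (c - 1) := by rw [eq_div_iff hs, mul_comm, e]
    rw [e', show c / (c - 1) = 1 / ((c - 1) / c) by rw [one_div_div],
      neighbour_inv (div_ne_zero hs h0) fun h => one_ne_zero (α := k) (by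
        field_simp at h; linear_combination -h)] at e2
    rw [neighbour_inv h0 h1, show (1 : k) - 1 / c = (c - 1) / c by field_simp]
    exact e2.symm

/-- A root in the prime field needs `p ≡ 3 (mod 4)`. -/
theorem mod_four_of_root (h5 : 5 ≤ p) {c : ZMod p}
    (hc : (hPoly ((p - 1) / 2) k).eval (ZMod.castHom (dvd_refl p) k c) = 0) : p % 4 = 3 := by
  set f := ZMod.castHom (dvd_refl p) k with hf
  obtain ⟨h0, h1, hm⟩ := root_facts h5 hc
  have h2 : (2 : ZMod p) ≠ 0 := two_ne_zero_charP (q := p) (by omega)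
  have c0 : c ≠ 0 := fun e => h0 (by rw [e, map_zero])
  have c1 : c ≠ 1 := fun e => h1 (by rw [e, map_one])
  haveI := isElliptic_legendre h2 c0 c1
  have ht : (legendre c).traceOfFrobenius = 0 := by
    rw [FA.SupersingularPrime.trace_eq_zero_iff f h5]
    have hjc : f (legendre c).j = jLegendre (f c) := by
      rw [← WeierstrassCurve.map_j]
      obtain ⟨h2', -, -, -, -⟩ := small_ne_zero (k := k) (q := p) h5
      haveI := isElliptic_legendre h2' h0 h1
      simp only [legendre_map]
      exact j_legendre (q := p) h5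
    rwa [hjc]
  have hP : (legendre c).toAffine.Nonsingular 0 0 := Affine.equation_iff_nonsingular.mp (by
    rw [Affine.equation_iff]; simp [legendre])
  have hQ : (legendre c).toAffine.Nonsingular 1 0 := Affine.equation_iff_nonsingular.mp (by
    rw [Affine.equation_iff]; simp [legendre])
  have h4 := FA.Ribet.four_dvd_natCard_of_two (Affine.Point.some_ne_zero hP)
    (Affine.Point.some_ne_zero hQ) (fun h => by injection h with h _; exact zero_ne_one h)
    (Affine.Point.add_self_of_Y_eq (by simp [Affine.negY, legendre]))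
    (Affine.Point.add_self_of_Y_eq (by simp [Affine.negY, legendre]))
  rw [WeierstrassCurve.traceOfFrobenius, WeierstrassCurve.card, Nat.card_zmod] at ht
  obtain ⟨i, hi⟩ := h4
  rw [hi] at ht
  omega

variable (k) in
/-- The possible `u = w (1 - w)`, given a square root `r` of `5`. -/
def uValues (r : k) : Finset k := {16, 376 + 168 * r, 376 - 168 * r}

/-- The seven exceptions. -/
def exceptions (r : k) : Finset k :=
  (uValues k r).image (fun u => 256 * (1 - u) ^ 3 / u ^ 2) ∪
    (insert 1 (uValues k r)).image fun u => -16 * (1 - 16 * u) ^ 3 / u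

omit [CharP k p] [IsAlgClosed k] in
theorem card_exceptions_le (r : k) : (exceptions r).card ≤ 7 := by
  have h : (uValues k r).card ≤ 3 := Finset.card_le_three
  refine (Finset.card_union_le _ _).trans ?_
  have := Finset.card_image_le (s := uValues k r) (f := fun u => 256 * (1 - u) ^ 3 / u ^ 2)
  have := Finset.card_image_le (s := insert 1 (uValues k r))
    (f := fun u => -16 * (1 - 16 * u) ^ 3 / u)
  have := Finset.card_insert_le (1 : k) (uValues k r)
  omega

omit [CharP k p] [IsAlgClosed k] in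
theorem mem_uValues {r u : k} (hr : r ^ 2 = 5)
    (h : u = 16 ∨ u ^ 2 - 752 * u + 256 = 0) : u ∈ uValues k r := by
  simp only [uValues, Finset.mem_insert, Finset.mem_singleton]
  rcases h with h | h
  · exact Or.inl h
  · have e : (u - (376 + 168 * r)) * (u - (376 - 168 * r)) = 0 := by
      linear_combination h - 28224 * hr
    rcases mul_eq_zero.1 e with e | e
    · exact Or.inr (Or.inl (sub_eq_zero.1 e))
    · exact Or.inr (Or.inr (sub_eq_zero.1 e))

/-- A root in the prime field can be moved so that `1 - c` is not a square there. -/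
theorem exists_nonsquare_root (h5 : 5 ≤ p) {c : k}
    (hc : (hPoly ((p - 1) / 2) k).eval c = 0) (hcp : c ^ p = c) :
    ∃ x, (hPoly ((p - 1) / 2) k).eval x = 0 ∧ jLegendre x = jLegendre c ∧
      ∀ b : k, b ^ 2 = 1 - x → b ^ p = -b := by
  obtain ⟨c', rfl⟩ := FA.SupersingularPrime.mem_range_of_pow_eq (ZMod.castHom (dvd_refl p) k) hcp
  set f := ZMod.castHom (dvd_refl p) k
  obtain ⟨h0, h1, hm⟩ := root_facts h5 hc
  have h4 := mod_four_of_root h5 hc
  have c0 : c' ≠ 0 := fun e => h0 (by rw [e, map_zero])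
  have c1 : c' ≠ 1 := fun e => h1 (by rw [e, map_one])
  have hns : ∀ d : ZMod p, d ≠ 0 → ¬IsSquare d → ∀ b : k, b ^ 2 = f d → b ^ p = -b := by
    intro d hd hsq b hb
    have h := ZMod.euler_criterion p hd
    rcases ZMod.pow_div_two_eq_neg_one_or_one p hd with e | e
    · exact absurd (h.2 e) hsq
    · conv_lhs => rw [show p = 2 * (p / 2) + 1 by omega]
      rw [pow_succ, pow_mul, hb, ← map_pow, e, map_neg, map_one, neg_one_mul]
  have hneg : ¬IsSquare (-1 : ZMod p) := fun h => ZMod.exists_sq_eq_neg_one_iff.1 h h4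
  -- one of `1 - c`, `c`, `(c - 1) / c` is not a square
  have hone : ¬IsSquare (1 - c') ∨ ¬IsSquare c' ∨ ¬IsSquare ((c' - 1) / c') := by
    by_contra! hall
    obtain ⟨⟨x, hx⟩, ⟨y, hy⟩, z, hz⟩ := hall
    have hs : 1 - c' ≠ 0 := sub_ne_zero.2 (Ne.symm c1)
    refine hneg ⟨x * y * z / (1 - c'), ?_⟩
    rw [div_mul_div_comm, eq_div_iff (mul_ne_zero hs hs)]
    have e : (c' - 1) = z * z * c' := by rw [← hz, div_mul_cancel₀ _ c0]
    linear_combination (z * z * (y * y)) * hx + z * z * (1 - c') * hy + (1 - c') * e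
  rcases hone with h | h | h
  · exact ⟨f c', hc, rfl, fun b hb => hns _ (sub_ne_zero.2 (Ne.symm c1)) h b
      (by rw [hb, map_sub, map_one])⟩
  · exact ⟨1 - f c', (roots_orbit h5 hc).1, jLegendre_one_sub _, fun b hb =>
      hns _ c0 h b (by rw [hb, sub_sub_cancel])⟩
  · refine ⟨1 / f c', (roots_orbit h5 hc).2, jLegendre_inv h0 h1, fun b hb =>
      hns _ (div_ne_zero (sub_ne_zero.2 c1) c0) h b ?_⟩
    rw [hb, map_div₀, map_sub, map_one]
    field_simp

/-- **The bound**: if all supersingular invariants are rational, those other than `0` and `1728`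
are among seven exceptions. -/
theorem mem_exceptions (h5 : 5 ≤ p) (hall : ∀ j ∈ ssInvariants k p, j ^ p = j) {r : k}
    (hr : r ^ 2 = 5) {j : k} (hj : j ∈ ssInvariants k p) (hj0 : j ≠ 0) (hj1 : j ≠ 1728) :
    j ∈ exceptions r := by
  obtain ⟨h2, -, h256, -, -⟩ := small_ne_zero (k := k) (q := p) h5
  have h16 : (16 : k) ≠ 0 := by
    rw [show (16 : k) = 2 ^ 4 by norm_num]; exact pow_ne_zero _ h2
  obtain ⟨c, hc⟩ := fibre_nonempty (q := p) h5 j
  obtain ⟨hc0, hc1, hcj⟩ := (mem_fibre (q := p) h5).1 hc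
  have hroot := root_of_mem h5 hc0 hc1 (hcj ▸ hj)
  rw [exceptions, Finset.mem_union, Finset.mem_image, Finset.mem_image]
  by_cases hcp : c ^ p = c
  · -- an irrational neighbour
    right
    obtain ⟨x, hx, hxj, hxb⟩ := exists_nonsquare_root h5 hroot hcp
    obtain ⟨x0, x1, -⟩ := root_facts h5 hx
    obtain ⟨b, hb⟩ := IsAlgClosed.exists_pow_nat_eq (1 - x) two_pos
    obtain ⟨hroot', -⟩ := landen_root h5 hx hb
    have hp1 : 1 + b ≠ 0 := fun e => x0 (by linear_combination (1 - b) * e + hb)
    have hm1 : 1 - b ≠ 0 := fun e => x0 (by linear_combination (1 + b) * e + hb)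
    have hb0 : b ≠ 0 := fun e => x1 (by rw [e] at hb; linear_combination hb)
    set v := ((1 - b) / (1 + b)) ^ 2 with hv
    obtain ⟨v0, v1, -⟩ := root_facts h5 hroot'
    have hvs : v - 1 ≠ 0 := sub_ne_zero.2 v1
    have hinv : v * v ^ p = 1 := by
      have e : v ^ p = ((1 + b) / (1 - b)) ^ 2 := by
        rw [hv, ← pow_mul, mul_comm, pow_mul, div_pow _ _ p, sub_pow_char, add_pow_char, one_pow,
          hxb b hb, sub_neg_eq_add, ← sub_eq_add_neg]
      rw [e, hv, ← mul_pow, div_mul_div_comm, mul_comm (1 + b), div_self (mul_ne_zero hm1 hp1),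
        one_pow]
    -- `j` is the neighbour of the transform
    have hjv : neighbour v = j := by
      rw [← hcj, ← hxj, ← jLegendre_one_sub x, ← hb, hv, neighbour, jLegendre,
        show 1 - ((1 - b) / (1 + b)) ^ 2 = 4 * b / (1 + b) ^ 2 by field_simp; ring,
        show (b ^ 2 - 1) ^ 2 = ((1 - b) * (1 + b)) ^ 2 by ring]
      have h4 : (4 : k) ≠ 0 := by
        rw [show (4 : k) = 2 ^ 2 by norm_num]; exact pow_ne_zero _ h2
      field_simp
      ring
    have hv1 : v ≠ -1 := fun e => hj1 (by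
      rw [← hjv, e, neighbour, show (-1 : k) * (1 - -1) ^ 4 = -16 by ring,
        div_eq_iff (neg_ne_zero.2 h16)]
      ring)
    have hw0 : v / (v - 1) ≠ 0 := div_ne_zero v0 hvs
    have hw1 : v / (v - 1) ≠ 1 := fun e => one_ne_zero (α := k) (by
      field_simp at e; linear_combination e)
    have hw : 2 * (v / (v - 1)) ≠ 1 := fun e => hv1 (by
      field_simp at e; linear_combination e)
    refine ⟨v / (v - 1) * (1 - v / (v - 1)), ?_, ?_⟩
    · rw [Finset.mem_insert]
      rcases cases_of_neighbour_eq h16 hw0 hw1 hw (neighbour_eq_of_inv h5 hall hroot' hinv) with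
        e | e | e
      · exact Or.inl e
      · exact Or.inr (mem_uValues hr (Or.inl e))
      · exact Or.inr (mem_uValues hr (Or.inr e))
    · rw [← hjv, neighbour, show v / (v - 1) * (1 - v / (v - 1)) = -v / (1 - v) ^ 2 by
        rw [show (1 - v) ^ 2 = (v - 1) ^ 2 by ring]; field_simp; ring]
      have : 1 - v ≠ 0 := sub_ne_zero.2 (Ne.symm v1)
      field_simp
      ring
  · left
    obtain ⟨w, w0, w1, w2, hwj, hw⟩ := exists_equal_neighbours h5 hall hroot hcp
    have hs : w - 1 ≠ 0 := sub_ne_zero.2 w1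
    have hs' : 1 - w ≠ 0 := sub_ne_zero.2 (Ne.symm w1)
    refine ⟨w * (1 - w), ?_, ?_⟩
    · rcases cases_of_neighbour_eq h16 w0 w1 w2 hw with e | e | e
      · refine absurd ?_ hj0
        rw [← hcj, ← hwj, jLegendre, show w ^ 2 - w + 1 = 0 by linear_combination -e]
        simp
      · exact mem_uValues hr (Or.inl e)
      · exact mem_uValues hr (Or.inr e)
    · rw [← hcj, ← hwj, jLegendre, show (w - 1) ^ 2 = (1 - w) ^ 2 by ring]
      field_simp
      ring

variable (k) in
/-- **Ogg's bound**: all supersingular invariants rational implies `p < 96`. -/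
theorem lt_of_all_rational (h5 : 5 ≤ p) (hall : ∀ j ∈ ssInvariants k p, j ^ p = j) : p < 96 := by
  obtain ⟨h0, h1728, hcard, hfin⟩ := count (k := k) (q := p) h5
  obtain ⟨r, hr⟩ := IsAlgClosed.exists_pow_nat_eq (5 : k) two_pos
  set T : Finset k := (if p % 3 = 2 then {0} else ∅) ∪ (if p % 4 = 3 then {1728} else ∅) ∪
    exceptions r with hT
  have hsub : ssInvariants k p ⊆ ↑T := fun j hj => by
    rw [hT, Finset.mem_coe, Finset.mem_union, Finset.mem_union]
    by_cases hj0 : j = 0
    · exact Or.inl (Or.inl (by rw [if_pos (h0.1 (hj0 ▸ hj)), hj0]; simp))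
    by_cases hj1 : j = 1728
    · exact Or.inl (Or.inr (by rw [if_pos (h1728.1 (hj1 ▸ hj)), hj1]; simp))
    exact Or.inr (mem_exceptions h5 hall hr hj hj0 hj1)
  have h := Set.ncard_le_ncard hsub T.finite_toSet
  rw [Set.ncard_coe_finset, hcard, hT] at h
  have h7 := card_exceptions_le r
  have u1 := Finset.card_union_le ((if p % 3 = 2 then {0} else ∅ : Finset k) ∪
    (if p % 4 = 3 then {1728} else ∅)) (exceptions r)
  have u2 := Finset.card_union_le (if p % 3 = 2 then {0} else ∅ : Finset k)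
    (if p % 4 = 3 then {1728} else ∅)
  split_ifs at h u1 u2 <;> simp only [Finset.card_singleton, Finset.card_empty] at u2 <;> omega

end FA.OggBound

end
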