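import Fermat.Agent.Supersingular.Criterion
import Fermat.Agent.Supersingular.DeuringCount
import Fermat.Agent.Supersingular.QuadraticField
import Mathlib.AlgebraicGeometry.EllipticCurve.ModelsWithJ
import Mathlib.FieldTheory.IsAlgClosed.AlgebraicClosure

/-!
# Supersingular invariants in the prime field

Over `𝔽_q` the trace vanishes exactly when `j` is a supersingular invariant. The `q`-power map is an
involution of those invariants, so for `q ≡ 13 (mod 24)` it fixes one.
-/

set_option autoImplicit false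
set_option linter.style.haveILetI false

noncomputable section

open Polynomial WeierstrassCurve
open scoped Classical

namespace FA.SupersingularPrime

open FA.Carayol FA.SupersingularCount

variable {k : Type} [Field k] {q : ℕ} [hq : Fact q.Prime] [CharP k q] [IsAlgClosed k]
  (f : ZMod q →+* k)

/-- **Supersingularity depends only on `j`.** -/
theorem trace_eq_zero_iff (h5 : 5 ≤ q) (W : WeierstrassCurve (ZMod q)) [W.IsElliptic] :
    W.traceOfFrobenius = 0 ↔ f W.j ∈ ssInvariants k q := by
  constructor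
  · intro h
    exact ⟨W.map f, inferInstance, WeierstrassCurve.map_j .., fun P hP =>
      FA.DeuringCriterion.eq_zero_of_dvd W f h5 (h ▸ dvd_zero _) hP⟩
  · rintro ⟨W', _, hj, hW'⟩
    refine FA.DeuringCriterion.trace_eq_zero W h5 (by_contra fun ha => ?_)
    have hc := (FA.DeuringCriterion.psi_facts W f ha).1
    haveI : Finite (FA.DeuringCriterion.psi W f).ker :=
      Nat.finite_of_card_ne_zero (by rw [hc]; exact hq.out.ne_zero)
    haveI : Nontrivial (FA.DeuringCriterion.psi W f).ker :=
      Finite.one_lt_card_iff_nontrivial.1 (by rw [hc]; exact hq.out.one_lt)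
    obtain ⟨⟨P, hP⟩, hne⟩ := exists_ne (0 : (FA.DeuringCriterion.psi W f).ker)
    obtain ⟨C, hC⟩ := exists_variableChange_of_j_eq W' (W.map f)
      (hj.trans (WeierstrassCurve.map_j ..).symm)
    have hPq : q • P = 0 := by
      rw [FA.DeuringCriterion.nsmul_eq W f, AddMonoidHom.mem_ker.1 hP, map_zero]
    have h0 := hW' (FA.Frob.vcEquiv C hC P) (by rw [← map_nsmul, hPq, map_zero])
    exact hne (Subtype.ext ((map_eq_zero_iff _ (FA.Frob.vcEquiv C hC).injective).1 h0))

omit [IsAlgClosed k] [CharP k q] in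
include f in
/-- The fixed field of the `q`-power map is the prime field. -/
theorem mem_range_of_pow_eq {x : k} (hx : x ^ q = x) : ∃ a, f a = x := by
  by_contra hne
  push Not at hne
  have h0 : (X ^ q - X : k[X]) ≠ 0 := FiniteField.X_pow_card_sub_X_ne_zero k hq.out.one_lt
  have hsub : insert x (Finset.univ.image f) ⊆ (X ^ q - X : k[X]).roots.toFinset := fun w hw => by
    rw [Multiset.mem_toFinset, mem_roots h0]
    rcases Finset.mem_insert.1 hw with rfl | hw
    · simp [hx]
    · obtain ⟨a, -, rfl⟩ := Finset.mem_image.1 hw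
      simp [← map_pow]
  have hc := (Finset.card_le_card hsub).trans ((Multiset.toFinset_card_le _).trans (card_roots' _))
  rw [Finset.card_insert_of_notMem (by simpa using fun a => hne a),
    Finset.card_image_of_injective _ f.injective, Finset.card_univ, ZMod.card,
    FiniteField.X_pow_card_sub_X_natDegree_eq k hq.out.one_lt] at hc
  omega

/-- The `q`-power map preserves the invariants. -/
theorem pow_mem (h5 : 5 ≤ q) {j : k} (hj : j ∈ ssInvariants k q) : j ^ q ∈ ssInvariants k q := by
  rw [ssInvariants_eq h5, Finset.coe_image] at hj ⊢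
  obtain ⟨c, hc, rfl⟩ := hj
  refine ⟨frobenius k q c, ?_, ?_⟩
  · simp only [ssRoots, Finset.mem_coe, Multiset.mem_toFinset, mem_roots hPoly_ne_zero',
      IsRoot] at hc ⊢
    rw [eval_hPoly_map, hc, map_zero]
  · rw [← frobenius_def q (jLegendre c)]
    simp [jLegendre, map_ofNat]

omit [IsAlgClosed k] in
/-- An involution of an odd set has a fixed point. -/
theorem exists_fixed {α : Type*} [DecidableEq α] {s : Finset α} (g : α → α)
    (hs : ∀ a ∈ s, g a ∈ s) (hg : ∀ a ∈ s, g (g a) = a) (hodd : Odd s.card) :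
    ∃ a ∈ s, g a = a := by
  by_contra hne
  push Not at hne
  have h : ∑ _a ∈ s, (1 : ZMod 2) = 0 :=
    Finset.sum_involution (fun a _ => g a) (fun _ _ => by decide) (fun a ha _ => hne a ha)
      hs hg
  rw [Finset.sum_const, nsmul_one] at h
  exact Nat.not_even_iff_odd.2 hodd (ZMod.natCast_eq_zero_iff_even.1 h)

include f in
/-- **A supersingular invariant in the prime field for `q ≢ 1 (mod 24)`.** -/
theorem exists_invariant (h5 : 5 ≤ q) (h24 : q % 24 ≠ 1) :
    ∃ j : ZMod q, f j ∈ ssInvariants k q := by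
  obtain ⟨h0, h1728, hcard, hfin⟩ := count (k := k) h5
  by_cases h3 : q % 3 = 2
  · exact ⟨0, by rw [map_zero]; exact h0.2 h3⟩
  by_cases h4 : q % 4 = 3
  · exact ⟨1728, by rw [map_ofNat]; exact h1728.2 h4⟩
  rw [if_neg h3, if_neg h4, add_zero, add_zero, Set.ncard_eq_toFinset_card _ hfin] at hcard
  have hne3 : q % 3 ≠ 0 := fun e => by
    have := (Nat.prime_dvd_prime_iff_eq Nat.prime_three hq.out).1 (Nat.dvd_of_mod_eq_zero e)
    omega
  have hne2 : q % 2 ≠ 0 := fun e => by
    have := (Nat.prime_dvd_prime_iff_eq Nat.prime_two hq.out).1 (Nat.dvd_of_mod_eq_zero e)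
    omega
  obtain ⟨a, ha, he⟩ := exists_fixed (s := hfin.toFinset) (fun j => j ^ q)
    (fun a ha => hfin.mem_toFinset.2 (pow_mem h5 (hfin.mem_toFinset.1 ha)))
    (fun a ha => by
      obtain ⟨W, _, rfl, hW⟩ := hfin.mem_toFinset.1 ha
      rw [← pow_mul, ← sq]
      exact FA.SupersingularField.j_pow_sq h5 hW)
    (Nat.odd_iff.2 (by omega))
  obtain ⟨j, rfl⟩ := mem_range_of_pow_eq f he
  exact ⟨j, hfin.mem_toFinset.1 ha⟩

/-- **A curve with `q + 1` points.** -/
theorem exists_trace_zero (h5 : 5 ≤ q) (h24 : q % 24 ≠ 1) :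
    ∃ W : WeierstrassCurve (ZMod q), W.Δ ≠ 0 ∧ W.traceOfFrobenius = 0 := by
  let k' := AlgebraicClosure (ZMod q)
  haveI : CharP k' q := charP_of_injective_algebraMap (algebraMap (ZMod q) k').injective q
  obtain ⟨j, hj⟩ := exists_invariant (algebraMap (ZMod q) k') h5 h24
  exact ⟨ofJ j, (ofJ j).isUnit_Δ.ne_zero,
    (trace_eq_zero_iff (algebraMap (ZMod q) k') h5 (ofJ j)).2 (by rwa [ofJ_j])⟩

end FA.SupersingularPrime

end
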