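import Fermat.Agent.Supersingular.CMField

/-!
# A plane with an endomorphism of given discriminant

Let `M` satisfy `M² + b M + e = 0` on a divisible `l`-primary group of corank two and be no scalar
modulo `l`. A commuting `π` with `π² - a π + q = 0` is `x + y M` on each level; with the count of
the kernels of `c - π` this makes `b² - 4 e` divide `a² - 4 q` at `l`, and if the quotient is `d²`
then `π` is trivial exactly on the levels dividing `d`.
-/

set_option autoImplicit false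
set_option linter.style.haveILetI false

noncomputable section

open scoped Classical

namespace FA.Rueck

/-- A power of a prime in a product is shared by the factors. -/
theorem pow_dvd_or {l : ℤ} (hl : Prime l) : ∀ (m n : ℕ) (x y : ℤ), l ^ (m + n) ∣ x * y →
    l ^ m ∣ x ∨ l ^ n ∣ y := by
  intro m
  induction m with
  | zero => exact fun n x y _ => Or.inl (by rw [pow_zero]; exact one_dvd x)
  | succ m ih =>
    intro n x y h
    by_cases hx : l ∣ x
    · obtain ⟨x', rfl⟩ := hx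
      rw [show m + 1 + n = m + n + 1 by omega, pow_succ', mul_assoc,
        mul_dvd_mul_iff_left hl.ne_zero] at h
      rcases ih n x' y h with h' | h'
      · exact Or.inl (by rw [pow_succ']; exact mul_dvd_mul_left l h')
      · exact Or.inr h'
    · exact Or.inr (dvd_trans (pow_dvd_pow l (by omega)) (hl.pow_dvd_of_dvd_mul_left _ hx h))

section plane

variable {G : Type*} [AddCommGroup G] {l : ℕ} [hl : Fact l.Prime]

theorem dvd_of_zsmul {X : G} (hX : l • X = 0) (hX0 : X ≠ 0) {i : ℤ} (hi : i • X = 0) :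
    (l : ℤ) ∣ i := by
  rw [← addOrderOf_eq_prime hX hX0]
  exact addOrderOf_dvd_iff_zsmul_eq_zero.2 hi

/-- Division by an integer prime to `l`. -/
theorem exists_eq_zsmul {X Y : G} (hY : l • Y = 0) {i j : ℤ} (hj : ¬ (l : ℤ) ∣ j)
    (h : j • Y = i • X) : ∃ c : ℤ, Y = c • X := by
  obtain ⟨u, w, huw⟩ := (Nat.prime_iff_prime_int.1 hl.out).coprime_iff_not_dvd.2 hj
  refine ⟨w * i, ?_⟩
  calc Y = (u * l + w * j) • Y := by rw [huw, one_zsmul]
    _ = (w * i) • X := by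
      rw [add_smul, mul_smul, natCast_zsmul, hY, zsmul_zero, zero_add, mul_smul, h, mul_smul]

variable {M : G →+ G} (hns : ∀ k : ℤ, ∃ P, l • P = 0 ∧ M P ≠ k • P)

include hns in
/-- A nonscalar map moves some line. -/
theorem exists_moved : ∃ P, l • P = 0 ∧ ∀ k : ℤ, M P ≠ k • P := by
  by_contra! hall
  obtain ⟨P, hP, hP0⟩ := hns 0
  have hPne : P ≠ 0 := fun e => hP0 (by rw [e, map_zero, zsmul_zero])
  obtain ⟨k, hk⟩ := hall P hP
  obtain ⟨Q, hQ, hQk⟩ := hns k
  obtain ⟨k', hk'⟩ := hall Q hQ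
  obtain ⟨k'', hk''⟩ := hall (P + Q) (by rw [nsmul_add, hP, hQ, add_zero])
  have h : (k' - k'') • Q = (k'' - k) • P := by
    rw [map_add, hk, hk', zsmul_add] at hk''
    linear_combination (norm := module) hk''
  by_cases hd : (l : ℤ) ∣ k' - k''
  · obtain ⟨u, hu⟩ := hd
    have h0 : (k' - k'') • Q = 0 := by rw [hu, mul_comm, mul_smul, natCast_zsmul, hQ, zsmul_zero]
    obtain ⟨v, hv⟩ := dvd_of_zsmul hP hPne (i := k'' - k) (h.symm.trans h0)
    refine hQk ?_
    rw [hk', show k' = k + (l : ℤ) * (u + v) by linear_combination hu + hv, add_smul,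
      mul_comm, mul_smul, natCast_zsmul, hQ, zsmul_zero, add_zero]
  · obtain ⟨c, rfl⟩ := exists_eq_zsmul hQ hd h
    exact hQk (by rw [map_zsmul, hk, smul_comm])

variable (hdiv : ∀ P : G, ∃ R, l • R = P)
  (hcard : ∀ n : ℕ, Nat.card {P : G // l ^ n • P = 0} = (l ^ n) ^ 2)

include hns hdiv hcard in
/-- A cyclic vector on each level. -/
theorem exists_cyclic (n : ℕ) :
    ∃ P : G, l ^ n • P = 0 ∧
      (∀ i j : ℤ, i • P + j • M P = 0 → (l : ℤ) ^ n ∣ i ∧ (l : ℤ) ^ n ∣ j) ∧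
      ∀ Q, l ^ n • Q = 0 → ∃ i j : ℤ, Q = i • P + j • M P := by
  obtain ⟨P₀, hP₀, hmove⟩ := exists_moved hns
  have hP₀0 : P₀ ≠ 0 := fun e => hmove 0 (by rw [e, map_zero, zsmul_zero])
  have hlift : ∀ r : ℕ, ∃ P, l ^ r • P = P₀ := by
    intro r
    induction r with
    | zero => exact ⟨P₀, by rw [pow_zero, one_smul]⟩
    | succ r ih =>
      obtain ⟨P, hP⟩ := ih
      obtain ⟨R, hR⟩ := hdiv P
      exact ⟨R, by rw [pow_succ, mul_smul, hR, hP]⟩
  rcases Nat.eq_zero_or_pos n with rfl | hn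
  · refine ⟨0, by simp, fun i j _ => by simp, fun Q hQ => ⟨0, 0, ?_⟩⟩
    rw [pow_zero, one_smul] at hQ
    simp [hQ]
  obtain ⟨P, hP⟩ := hlift (n - 1)
  have hPn : l ^ n • P = 0 := by
    rw [show n = n - 1 + 1 by omega, pow_succ', mul_smul, hP, hP₀]
  have hind : ∀ i j : ℤ, i • P + j • M P = 0 → (l : ℤ) ^ n ∣ i ∧ (l : ℤ) ^ n ∣ j := by
    intro i j h
    suffices ∀ r ≤ n, (l : ℤ) ^ r ∣ i ∧ (l : ℤ) ^ r ∣ j from this n le_rfl
    intro r
    induction r with
    | zero => exact fun _ => by simp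
    | succ r ih =>
      intro hr
      obtain ⟨⟨i', hi⟩, j', hj⟩ := ih (by omega)
      have hc : (l : ℤ) ^ (n - 1 - r) * (l : ℤ) ^ r = ((l ^ (n - 1) : ℕ) : ℤ) := by
        rw [← pow_add, show n - 1 - r + r = n - 1 by omega, Nat.cast_pow]
      have h0 := congrArg (fun X => ((l : ℤ) ^ (n - 1 - r)) • X) h
      simp only [zsmul_add, zsmul_zero, smul_smul, hi, hj, ← mul_assoc, hc] at h0
      rw [mul_comm, mul_smul, natCast_zsmul, hP, mul_comm, mul_smul, natCast_zsmul, ← map_nsmul,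
        hP] at h0
      have hjd : (l : ℤ) ∣ j' := by
        by_contra hjd
        obtain ⟨c, hc⟩ := exists_eq_zsmul (X := P₀) (Y := M P₀)
          (by rw [← map_nsmul, hP₀, map_zero]) hjd (i := -i')
          (by rw [neg_smul]; exact eq_neg_of_add_eq_zero_right h0)
        exact hmove c hc
      have hid : (l : ℤ) ∣ i' := by
        obtain ⟨w, hw⟩ := hjd
        refine dvd_of_zsmul hP₀ hP₀0 ?_
        rwa [hw, mul_comm, mul_smul, natCast_zsmul, ← map_nsmul, hP₀, map_zero, zsmul_zero,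
          add_zero] at h0
      exact ⟨by rw [pow_succ, hi]; exact mul_dvd_mul_left _ hid,
        by rw [pow_succ, hj]; exact mul_dvd_mul_left _ hjd⟩
  refine ⟨P, hPn, hind, fun Q hQ => ?_⟩
  have hL0 : l ^ n ≠ 0 := pow_ne_zero _ hl.out.ne_zero
  haveI : NeZero (l ^ n) := ⟨hL0⟩
  haveI : Finite {X : G // l ^ n • X = 0} :=
    Nat.finite_of_card_ne_zero ((hcard n).trans_ne (pow_ne_zero 2 hL0))
  let F : ZMod (l ^ n) × ZMod (l ^ n) → {X : G // l ^ n • X = 0} := fun z =>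
    ⟨(z.1.val : ℤ) • P + (z.2.val : ℤ) • M P, by
      rw [nsmul_add, smul_comm, hPn, zsmul_zero, zero_add, smul_comm, ← map_nsmul, hPn, map_zero,
        zsmul_zero]⟩
  have hF : Function.Injective F := fun u v huv => by
    have he := congrArg Subtype.val huv
    simp only [F] at he
    obtain ⟨h1, h2⟩ := hind ((u.1.val : ℤ) - v.1.val) ((u.2.val : ℤ) - v.2.val)
      (by linear_combination (norm := module) he)
    rw [← Nat.cast_pow, ← ZMod.intCast_zmod_eq_zero_iff_dvd, Int.cast_sub, Int.cast_natCast,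
      Int.cast_natCast, ZMod.natCast_zmod_val, ZMod.natCast_zmod_val, sub_eq_zero] at h1 h2
    exact Prod.ext h1 h2
  obtain ⟨z, hz⟩ := ((Nat.bijective_iff_injective_and_card F).2 ⟨hF, by
    rw [Nat.card_prod, Nat.card_zmod, hcard, sq]⟩).2 ⟨Q, hQ⟩
  exact ⟨_, _, (congrArg Subtype.val hz).symm⟩

variable {π : G →+ G} (hπM : ∀ P, π (M P) = M (π P)) {a b e q : ℤ}
  (hMM : ∀ P, M (M P) + b • M P + e • P = 0) (hπ : ∀ P, π (π P) - a • π P + q • P = 0)
  {p : ℕ} [hp : Fact p.Prime] (hlp : l ≠ p)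
  (hker : ∀ (m : ℕ) (c : ℤ), ¬ (p : ℤ) ∣ c → (∀ P, l ^ m • P = 0 → π P = c • P) →
    (l : ℤ) ^ (2 * m) ∣ c ^ 2 - a * c + q)

include hns hdiv hcard hπM hMM hπ hlp hker in
/-- **The coordinates of `π`**: on the level `l ^ m` it is `x + y M`, where modulo `l ^ m` twice its
trace is that of `x + y M` and the discriminants agree. -/
theorem exists_coeffs (m : ℕ) :
    ∃ x y : ℤ, (∀ P, l ^ m • P = 0 → π P = x • P + y • M P) ∧
      (l : ℤ) ^ m ∣ 2 * x - b * y - a ∧
      (l : ℤ) ^ m ∣ (b ^ 2 - 4 * e) * y ^ 2 - (a ^ 2 - 4 * q) := by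
  obtain ⟨P₀, hP₀, hind, hspan⟩ := exists_cyclic hns hdiv hcard (2 * m)
  obtain ⟨x, y, hxy⟩ := hspan (π P₀) (by rw [← map_nsmul, hP₀, map_zero])
  have hall : ∀ P, l ^ m • P = 0 → π P = x • P + y • M P := fun P hP => by
    obtain ⟨i, j, rfl⟩ := hspan P (by rw [two_mul, pow_add, mul_smul, hP, nsmul_zero])
    simp only [map_add, map_zsmul, hπM, hxy]
    module
  have hMM' : M (M P₀) = -(b • M P₀) - e • P₀ := by
    linear_combination (norm := module) hMM P₀
  obtain ⟨h1, h2⟩ := hind (x ^ 2 - a * x + q - e * y ^ 2) (y * (2 * x - b * y - a)) (by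
    have h := hπ P₀
    simp only [hxy, map_add, map_zsmul, hπM, hMM'] at h
    linear_combination (norm := module) h)
  set A := 2 * x - b * y - a with hA
  have hAm : (l : ℤ) ^ m ∣ A := by
    have hlz : Prime (l : ℤ) := Nat.prime_iff_prime_int.1 hl.out
    rw [two_mul m] at h2
    rcases pow_dvd_or hlz m m y A h2 with hy | hA'
    · obtain ⟨u, hu⟩ := hy
      have hscal : ∀ P, l ^ m • P = 0 → π P = x • P := fun P hP => by
        rw [hall P hP, hu, mul_comm, mul_smul, ← Nat.cast_pow, natCast_zsmul, ← map_nsmul, hP,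
          map_zero, zsmul_zero, add_zero]
      have hpl : ¬ (p : ℤ) ∣ (l : ℤ) ^ m := fun h => hlp <| Eq.symm <|
        (Nat.prime_dvd_prime_iff_eq hp.out hl.out).1 <|
          Int.natCast_dvd_natCast.1 <| (Nat.prime_iff_prime_int.1 hp.out).dvd_of_dvd_pow h
      obtain ⟨c, w, hc, hcp⟩ : ∃ c w : ℤ, c = x + (l : ℤ) ^ m * w ∧ ¬ (p : ℤ) ∣ c := by
        by_cases hd : (p : ℤ) ∣ x
        · exact ⟨_, 1, rfl, fun h0 => hpl (by
            rw [mul_one] at h0; exact (Int.dvd_add_right hd).1 h0)⟩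
        · exact ⟨x, 0, by ring, hd⟩
      have hscal' : ∀ (z : ℤ) (P : G), l ^ m • P = 0 →
          π P = (x + (l : ℤ) ^ m * z) • P := fun z P hP => by
        rw [hscal P hP, add_smul, mul_comm, mul_smul, ← Nat.cast_pow, natCast_zsmul, hP, zsmul_zero,
          add_zero]
      obtain ⟨s, hs⟩ := hker m c hcp (hc ▸ hscal' w)
      obtain ⟨t, ht⟩ := hker m (c + (p : ℤ) * (l : ℤ) ^ m)
        (fun h0 => hcp ((Int.dvd_add_left (dvd_mul_right _ _)).1 h0))
        (by rw [hc, show x + (l : ℤ) ^ m * w + (p : ℤ) * (l : ℤ) ^ m =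
          x + (l : ℤ) ^ m * (w + p) by ring]; exact hscal' (w + p))
      have hL0 : (l : ℤ) ^ m ≠ 0 := pow_ne_zero _ hlz.ne_zero
      have hd : (l : ℤ) ^ m ∣ (p : ℤ) * (2 * c - a) :=
        ⟨t - s - (p : ℤ) ^ 2, mul_left_cancel₀ hL0 (by
          rw [two_mul, pow_add] at hs ht
          linear_combination ht - hs)⟩
      have hco : IsCoprime ((l : ℤ) ^ m) p :=
        ((Nat.prime_iff_prime_int.1 hp.out).coprime_iff_not_dvd.2 hpl).symm
      obtain ⟨v, hv⟩ := hco.dvd_of_dvd_mul_left hd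
      exact ⟨v - 2 * w - b * u, by rw [hA]; linear_combination hv - 2 * hc - b * hu⟩
    · exact hA'
  refine ⟨x, y, hall, hAm, ?_⟩
  obtain ⟨u, hu⟩ := dvd_trans (pow_dvd_pow (l : ℤ) (by omega : m ≤ 2 * m)) h1
  obtain ⟨v, hv⟩ := hAm
  exact ⟨4 * u - v * (2 * x + b * y - a), by
    linear_combination 4 * hu - (2 * x + b * y - a) * hv + (2 * x + b * y - a) * hA⟩

include hns hdiv hcard hπM hMM hπ hlp hker in
/-- At `l` the discriminant of `M` divides that of `π`. -/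
theorem pow_dvd_disc {m : ℕ} (h : (l : ℤ) ^ m ∣ b ^ 2 - 4 * e) :
    (l : ℤ) ^ m ∣ a ^ 2 - 4 * q := by
  obtain ⟨x, y, -, -, h3⟩ := exists_coeffs hns hdiv hcard hπM hMM hπ hlp hker m
  rw [show a ^ 2 - 4 * q = (b ^ 2 - 4 * e) * y ^ 2 -
    ((b ^ 2 - 4 * e) * y ^ 2 - (a ^ 2 - 4 * q)) by ring]
  exact dvd_sub (dvd_mul_of_dvd_left h _) h3

include hns hdiv hcard hπM hMM hπ hlp hker in
/-- **Rück's criterion**: if the discriminants differ by `d²` the levels fixed by `π` are those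
dividing `d`, given that such a level divides `a - 2` and its square `q + 1 - a`. -/
theorem fixed_iff {d : ℤ} (hD : b ^ 2 - 4 * e ≠ 0)
    (hd : a ^ 2 - 4 * q = d ^ 2 * (b ^ 2 - 4 * e)) (j : ℕ)
    (hdj : (l : ℤ) ^ j ∣ d → (l : ℤ) ^ j ∣ a - 2 ∧ (l : ℤ) ^ (2 * j) ∣ q + 1 - a) :
    (∀ P, l ^ j • P = 0 → π P = P) ↔ (l : ℤ) ^ j ∣ d := by
  set D := b ^ 2 - 4 * e with hDdef
  have hlz : Prime (l : ℤ) := Nat.prime_iff_prime_int.1 hl.out
  obtain ⟨k, D₀, hD₀, hDk⟩ := Nat.exists_eq_pow_mul_and_not_dvd (Int.natAbs_ne_zero.2 hD) l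
    hl.out.ne_one
  obtain ⟨D₁, hD₁, hlD⟩ : ∃ D₁ : ℤ, D = (l : ℤ) ^ k * D₁ ∧ ¬ (l : ℤ) ∣ D₁ := by
    rcases Int.natAbs_eq D with h | h
    · exact ⟨D₀, by rw [h, hDk]; push_cast; rfl, fun h' => hD₀ (Int.natCast_dvd_natCast.1 h')⟩
    · exact ⟨-D₀, by rw [h, hDk]; push_cast; ring,
        fun h' => hD₀ (Int.natCast_dvd_natCast.1 (dvd_neg.1 h'))⟩
  set m := 2 * j + k + 1 with hm
  obtain ⟨x, y, hall, hA, h3⟩ := exists_coeffs hns hdiv hcard hπM hMM hπ hlp hker m
  have h4 : (l : ℤ) ^ m ∣ D * (y ^ 2 - d ^ 2) := by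
    rw [show D * (y ^ 2 - d ^ 2) = D * y ^ 2 - (a ^ 2 - 4 * q) by rw [hd]; ring]
    exact h3
  have h5 : (l : ℤ) ^ (2 * j + 1) ∣ y ^ 2 - d ^ 2 := by
    rw [hm, show 2 * j + k + 1 = k + (2 * j + 1) by ring, pow_add, hD₁, mul_assoc,
      mul_dvd_mul_iff_left (pow_ne_zero _ hlz.ne_zero)] at h4
    exact hlz.pow_dvd_of_dvd_mul_left _ hlD h4
  have h6 : (l : ℤ) ^ j ∣ y ↔ (l : ℤ) ^ j ∣ d := by
    have h7 : ((l : ℤ) ^ j) ^ 2 ∣ y ^ 2 - d ^ 2 := by
      rw [← pow_mul, mul_comm]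
      exact dvd_trans (pow_dvd_pow _ (Nat.le_succ _)) h5
    rw [← Int.pow_dvd_pow_iff two_ne_zero (a := (l : ℤ) ^ j),
      ← Int.pow_dvd_pow_iff two_ne_zero (a := (l : ℤ) ^ j) (b := d)]
    exact ⟨fun h => (dvd_sub_right h).1 h7, fun h => (dvd_sub_left h).1 h7⟩
  have hle : ∀ P : G, l ^ j • P = 0 → l ^ m • P = 0 := fun P hP => by
    rw [show m = j + k + 1 + j by omega, pow_add, mul_smul, hP, nsmul_zero]
  constructor
  · intro hfix
    obtain ⟨P, hP, hind, -⟩ := exists_cyclic hns hdiv hcard j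
    exact h6.1 (hind (x - 1) y (by
      have h := (hall P (hle P hP)).symm.trans (hfix P hP)
      linear_combination (norm := module) h)).2
  intro hjd P hP
  obtain ⟨⟨s, hs⟩, w, hw⟩ := hdj hjd
  obtain ⟨y', hy'⟩ := h6.2 hjd
  obtain ⟨d', hd'⟩ := hjd
  obtain ⟨A', hA'⟩ := hA
  have hsd : s ^ 2 - D * d' ^ 2 = 4 * w := by
    refine mul_left_cancel₀ (pow_ne_zero 2 (pow_ne_zero j hlz.ne_zero)) ?_
    rw [← pow_mul, mul_comm j 2]
    linear_combination -(a - 2 + (l : ℤ) ^ j * s) * hs + hd +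
      (b ^ 2 - 4 * e) * (d + (l : ℤ) ^ j * d') * hd' + 4 * hw
  have key : (l : ℤ) ^ j ∣ x - 1 := by
    rcases eq_or_ne l 2 with rfl | hl2
    · -- parity
      obtain ⟨u, hu⟩ := h5
      obtain ⟨i, hi⟩ : (2 : ℤ) ∣ y' - d' := by
        have h8 : (2 : ℤ) ∣ (y' - d') * (y' + d') := ⟨u, mul_left_cancel₀
          (pow_ne_zero (2 * j) (show ((2 : ℕ) : ℤ) ≠ 0 by norm_num)) (by
            rw [hy', hd', mul_pow, mul_pow, ← pow_mul, mul_comm j 2, pow_succ] at hu
            push_cast at hu ⊢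
            linear_combination hu)⟩
        rcases Int.prime_two.dvd_or_dvd h8 with h | ⟨i, hi⟩
        · exact h
        · exact ⟨i - d', by linear_combination hi⟩
      obtain ⟨r, hr⟩ : (2 : ℤ) ∣ s - b * d' := by
        have h8 : (2 : ℤ) ∣ (s - b * d') * (s + b * d') :=
          ⟨2 * (w - e * d' ^ 2), by rw [hDdef] at hsd; linear_combination hsd⟩
        rcases Int.prime_two.dvd_or_dvd h8 with h | ⟨r, hr⟩
        · exact h
        · exact ⟨r - b * d', by linear_combination hr⟩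
      refine ⟨b * i + b * d' + r + ((2 : ℕ) : ℤ) ^ (j + k) * A',
        mul_left_cancel₀ (two_ne_zero (α := ℤ)) ?_⟩
      rw [hm, show 2 * j + k + 1 = j + (j + k) + 1 by ring, pow_succ, pow_add] at hA'
      push_cast at hA' hy' hs ⊢
      linear_combination hA' + b * hy' + hs + (2 : ℤ) ^ j * (b * hi + hr)
    · have h2 : (l : ℤ) ^ j ∣ 2 * (x - 1) := ⟨(l : ℤ) ^ (j + k + 1) * A' + (b * y' + s), by
        rw [hm, show 2 * j + k + 1 = j + (j + k + 1) by ring, pow_add] at hA'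
        linear_combination hA' + b * hy' + hs⟩
      refine hlz.pow_dvd_of_dvd_mul_left _ (fun h => hl2 ?_) h2
      exact (Nat.prime_dvd_prime_iff_eq hl.out Nat.prime_two).1 (by exact_mod_cast h)
  obtain ⟨x', hx'⟩ := key
  rw [hall P (hle P hP), hy', mul_comm _ y', mul_smul y', ← Nat.cast_pow, natCast_zsmul,
    ← map_nsmul, hP, map_zero, zsmul_zero, add_zero,
    show x = x' * (l : ℤ) ^ j + 1 by linear_combination hx', add_smul, mul_smul, ← Nat.cast_pow,
    natCast_zsmul, hP, zsmul_zero, zero_add, one_zsmul]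

end plane

end FA.Rueck

end
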