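import Fermat.Agent.Supersingular.DeuringExistence
import Fermat.Agent.Supersingular.RueckLevels

/-!
# Frobenius among the multipliers

At an ordinary reduction of a singular modulus a power `π ^ N = x + y π` of Frobenius commutes with
the multipliers and `y` is prime to `p`, so `π` does. Hence the discriminant of the modulus divides
`a² - 4 p`, and the quotient gives the points killed by `n` that are rational.
-/

set_option autoImplicit false
set_option linter.style.haveILetI false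
set_option linter.unusedSectionVars false

noncomputable section

open WeierstrassCurve Polynomial
open scoped Classical UpperHalfPlane

namespace FA.Rueck

open FA.Frob FA.EC FA.CMReduction FA.HasseBound

section frobenius

variable {k : Type*} [Field k] [IsAlgClosed k] {p : ℕ} [hp : Fact p.Prime] [CharP k p]
  (W : WeierstrassCurve k) [W.IsElliptic] (hW : W.map (frobenius k p) = W)

theorem frob_iterate_some (N : ℕ) : ∀ (x y : k) (h : W.toAffine.Nonsingular x y),
    ∃ h', (frobEnd W hW)^[N] (.some x y h) = .some (x ^ p ^ N) (y ^ p ^ N) h' := by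
  induction N with
  | zero => exact fun x y h => ⟨by simpa using h, by simp⟩
  | succ N ih =>
    intro x y h
    obtain ⟨h', e⟩ := ih x y h
    have h'' : W.toAffine.Nonsingular ((x ^ p ^ N) ^ p) ((y ^ p ^ N) ^ p) :=
      nonsingular_mapHom _ hW h'
    simp only [← pow_mul, ← pow_succ] at h''
    refine ⟨h'', ?_⟩
    rw [Function.iterate_succ_apply', e, frobEnd, mapHom_some]
    simp only [frobenius_def, ← pow_mul, ← pow_succ]

theorem qEnd_eq_iterate {N : ℕ} (hWN : W.map (iterateFrobenius k p N) = W)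
    (P : W.toAffine.Point) : qEnd W hWN P = (frobEnd W hW)^[N] P := by
  rcases P with _ | ⟨x, y, h⟩
  · exact ((iterate_map_zero (frobEnd W hW) N).trans (map_zero (qEnd W hWN)).symm).symm
  · obtain ⟨h', e⟩ := frob_iterate_some W hW N x y h
    rw [e, qEnd, mapHom_some]
    simp only [iterateFrobenius_def]

/-- A power of Frobenius in terms of Frobenius. -/
theorem exists_iterate_eq (N : ℕ) :
    ∃ x y : ℤ, (∀ P, (frobEnd W hW)^[N + 1] P = x • P + y • frobEnd W hW P) ∧
      (p : ℤ) ∣ x ∧ (p : ℤ) ∣ y - trEnd W hW ^ N := by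
  induction N with
  | zero => exact ⟨0, 1, fun P => by simp, dvd_zero _, by simp⟩
  | succ N ih =>
    obtain ⟨x, y, h, hx, hy⟩ := ih
    refine ⟨-(p : ℤ) * y, x + trEnd W hW * y, fun P => ?_,
      dvd_mul_of_dvd_left (dvd_neg.2 dvd_rfl) _,
      ?_⟩
    · rw [Function.iterate_succ_apply', h, map_add, map_zsmul, map_zsmul]
      linear_combination (norm := module) y • frobEnd_quadratic W hW P
    · rw [show x + trEnd W hW * y - trEnd W hW ^ (N + 1) =
        x + trEnd W hW * (y - trEnd W hW ^ N) by ring]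
      exact dvd_add hx (dvd_mul_of_dvd_right hy _)

/-- Frobenius on the points of `l`-power order. -/
def primFrob (l : ℕ) : primary W l →+ primary W l :=
  ((frobEnd W hW).comp (primary W l).subtype).codRestrict _ fun P => by
    obtain ⟨n, hn⟩ := P.2
    exact ⟨n, by
      show l ^ n • frobEnd W hW P.1 = 0
      rw [← map_nsmul, hn, map_zero]⟩

theorem primFrob_coe (l : ℕ) (P : primary W l) : (primFrob W hW l P).1 = frobEnd W hW P.1 := rfl

variable {l : ℕ} [hl : Fact l.Prime]

theorem not_dvd_pow (hlp : l ≠ p) (n : ℕ) : ¬ p ∣ l ^ n := fun h =>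
  hlp ((Nat.prime_dvd_prime_iff_eq hp.out hl.out).1 (hp.out.dvd_of_dvd_pow h)).symm

theorem primary_div (P : primary W l) : ∃ R, l • R = P := by
  obtain ⟨R, hR⟩ := FA.CMReduction.exists_nsmul_eq (p := l) P.1
  obtain ⟨n, hn⟩ := P.2
  exact ⟨⟨R, n + 1, by rw [pow_succ, mul_smul, hR, hn]⟩, Subtype.ext hR⟩

theorem primary_card (hlp : l ≠ p) (n : ℕ) :
    Nat.card {P : primary W l // l ^ n • P = 0} = (l ^ n) ^ 2 := by
  rw [← natCard_nsmul_eq_zero W (n := l ^ n) fun h => not_dvd_pow hlp n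
    ((CharP.cast_eq_zero_iff k p _).1 h)]
  exact Nat.card_congr
    { toFun := fun P => ⟨P.1.1, congrArg Subtype.val P.2⟩
      invFun := fun P => ⟨⟨P.1, n, P.2⟩, Subtype.ext P.2⟩
      left_inv := fun P => rfl
      right_inv := fun P => rfl }

theorem primary_ker (hlp : l ≠ p) (m : ℕ) (c : ℤ) (hc : ¬ (p : ℤ) ∣ c)
    (h : ∀ P : primary W l, l ^ m • P = 0 → primFrob W hW l P = c • P) :
    (l : ℤ) ^ (2 * m) ∣ c ^ 2 - trEnd W hW * c + p := by
  rw [← natCard_ker_sub W hW hc, mul_comm, pow_mul, ← Nat.cast_pow, ← Nat.cast_pow,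
    Int.natCast_dvd_natCast, ← natCard_nsmul_eq_zero W (n := l ^ m) fun e => not_dvd_pow hlp m
      ((CharP.cast_eq_zero_iff k p _).1 e)]
  refine dvd_trans (dvd_of_eq ?_)
    (AddSubgroup.card_dvd_of_le (show killed W (l ^ m) ≤ _ from fun P hP => ?_))
  · exact Nat.card_congr (Equiv.subtypeEquivRight fun P => Iff.rfl)
  have e := congrArg Subtype.val (h ⟨P, m, hP⟩ (Subtype.ext hP))
  rw [primFrob_coe, AddSubgroup.coe_zsmul] at e
  show c • P - frobEnd W hW P = 0
  rw [e, sub_self]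

theorem primary_quadratic (P : primary W l) :
    primFrob W hW l (primFrob W hW l P) - trEnd W hW • primFrob W hW l P + (p : ℤ) • P = 0 :=
  Subtype.ext (frobEnd_quadratic W hW P.1)

/-- What commutes with a power of an ordinary Frobenius commutes with it. -/
theorem primFrob_comm (ha : ¬ (p : ℤ) ∣ trEnd W hW) {N : ℕ} (hN : N ≠ 0)
    (hWN : W.map (iterateFrobenius k p N) = W) {M : primary W l →+ primary W l}
    (hM : ∀ P Q : primary W l, qEnd W hWN P.1 = Q.1 → qEnd W hWN (M P).1 = (M Q).1)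
    (P : primary W l) : primFrob W hW l (M P) = M (primFrob W hW l P) := by
  obtain ⟨N, rfl⟩ := Nat.exists_eq_succ_of_ne_zero hN
  obtain ⟨x, y, hxy, -, hy⟩ := exists_iterate_eq W hW N
  have hq : ∀ R : primary W l, qEnd W hWN R.1 = (x • R + y • primFrob W hW l R).1 := fun R => by
    rw [qEnd_eq_iterate W hW, hxy, AddSubgroup.coe_add, AddSubgroup.coe_zsmul,
      AddSubgroup.coe_zsmul, primFrob_coe]
  set π := primFrob W hW l
  have hd : ∀ R, y • (π (M R) - M (π R)) = 0 := fun R => by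
    have h : x • M R + y • π (M R) = M (x • R + y • π R) :=
      Subtype.ext ((hq (M R)).symm.trans (hM R _ (hq R)))
    rw [map_add, map_zsmul, map_zsmul] at h
    linear_combination (norm := module) h
  have hy0 : y ≠ 0 := fun e => ha ((Nat.prime_iff_prime_int.1 hp.out).dvd_of_dvd_pow (n := N)
    (by rw [e, zero_sub, dvd_neg] at hy; exact hy))
  obtain ⟨r, u, hu, hyu⟩ := Nat.exists_eq_pow_mul_and_not_dvd (Int.natAbs_ne_zero.2 hy0) l
    hl.out.ne_one
  have hd' : ∀ R, y.natAbs • (π (M R) - M (π R)) = 0 := fun R => by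
    rcases Int.natAbs_eq y with h | h <;> have := hd R <;> rw [h] at this
    · rwa [natCast_zsmul] at this
    · rwa [neg_smul, neg_eq_zero, natCast_zsmul] at this
  obtain ⟨R, hR⟩ : ∃ R : primary W l, l ^ r • R = P := by
    clear hyu hu
    induction r generalizing P with
    | zero => exact ⟨P, by rw [pow_zero, one_smul]⟩
    | succ r ih =>
      obtain ⟨R, hR⟩ := ih P
      obtain ⟨S, hS⟩ := primary_div W R
      exact ⟨S, by rw [pow_succ, mul_smul, hS, hR]⟩
  set D := π (M P) - M (π P) with hD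
  have h1 : u • D = 0 := by
    rw [hD, ← hR]
    simp only [map_nsmul, ← nsmul_sub]
    rw [smul_smul, mul_comm, ← hyu, hd']
  obtain ⟨n, hn⟩ := D.2
  have h2 : l ^ n • D = 0 := Subtype.ext hn
  have hco : Nat.gcd u (l ^ n) = 1 :=
    Nat.Coprime.pow_right _ ((hl.out.coprime_iff_not_dvd.2 hu).symm)
  have h3 : addOrderOf D ∣ 1 :=
    hco ▸ Nat.dvd_gcd (addOrderOf_dvd_of_nsmul_eq_zero h1) (addOrderOf_dvd_of_nsmul_eq_zero h2)
  exact sub_eq_zero.1 (AddMonoid.addOrderOf_eq_one_iff.1 (Nat.dvd_one.1 h3))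

end frobenius

section rational

variable {k : Type*} [Field k] [IsAlgClosed k] {p : ℕ} [hp : Fact p.Prime] [CharP k p]
  (V : WeierstrassCurve (ZMod p)) [V.IsElliptic] (f : ZMod p →+* k)

/-- All points killed by `L` are rational exactly when Frobenius fixes them. -/
theorem natCard_eq_sq_iff {L : ℕ} (hL : ¬ p ∣ L) :
    Nat.card {P : V.toAffine.Point // L • P = 0} = L ^ 2 ↔
      ∀ P : (V.map f).toAffine.Point, L • P = 0 →
        frobEnd (V.map f) (map_frobenius_map V f) P = P := by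
  let m : V.toAffine.Point →+ (V.map f).toAffine.Point := mapHom f rfl
  have hfix : ∀ Q, frobEnd (V.map f) (map_frobenius_map V f) (m Q) = m Q := by
    rintro (_ | ⟨x, y, h⟩)
    · rfl
    · simp only [m, frobEnd, mapHom_some, frobenius_def, ← map_pow, ZMod.pow_card]
  have hroot : ∀ z : k, z ^ p = z → ∃ a, f a = z := fun z hz => by
    rw [← Subfield.mem_bot_iff_pow_eq_self k p, ← ZMod.fieldRange_castHom_eq_bot p] at hz
    obtain ⟨a, ha⟩ := hz
    exact ⟨a, by rw [RingHom.ext_zmod f (ZMod.castHom (dvd_refl p) k)]; exact ha⟩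
  have hc : Nat.card {P : (V.map f).toAffine.Point // L • P = 0} = L ^ 2 :=
    natCard_nsmul_eq_zero _ fun e => hL ((CharP.cast_eq_zero_iff k p L).1 e)
  haveI : Finite {P : (V.map f).toAffine.Point // L • P = 0} :=
    Nat.finite_of_card_ne_zero (hc.trans_ne (pow_ne_zero 2 fun e => hL (e ▸ dvd_zero p)))
  let F : {P : V.toAffine.Point // L • P = 0} → {P : (V.map f).toAffine.Point // L • P = 0} :=
    fun P => ⟨m P.1, by rw [← map_nsmul, P.2, map_zero]⟩
  have hF : Function.Injective F := fun P Q h =>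
    Subtype.ext (mapHom_injective _ _ (congrArg Subtype.val h :))
  constructor
  · intro h P hP
    obtain ⟨Q, hQ⟩ := ((Nat.bijective_iff_injective_and_card F).2 ⟨hF, h.trans hc.symm⟩).2 ⟨P, hP⟩
    rw [show P = m Q.1 from (congrArg Subtype.val hQ).symm]
    exact hfix _
  · intro h
    rw [← hc]
    refine Nat.card_eq_of_bijective F ⟨hF, fun P => ?_⟩
    obtain ⟨Q, hQ⟩ : ∃ Q, m Q = P.1 := by
      have e := h P.1 P.2
      rcases hPe : P.1 with _ | ⟨x, y, hxy⟩
      · exact ⟨0, rfl⟩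
      simp only [hPe, frobEnd, mapHom_some, frobenius_def, Affine.Point.some.injEq] at e
      obtain ⟨x', rfl⟩ := hroot x e.1
      obtain ⟨y', rfl⟩ := hroot y e.2
      exact ⟨.some x' y' ((V.toAffine.map_nonsingular f.injective x' y').1 hxy),
        by simp only [m, mapHom_some]⟩
    exact ⟨⟨Q, mapHom_injective f rfl
      (show m (L • Q) = m 0 by rw [map_nsmul, hQ, P.2, map_zero])⟩, Subtype.ext hQ⟩

end rational

section singular

local notation "Qb" => AlgebraicClosure ℚ

variable {p : ℕ} [hp : Fact p.Prime] {D : ℤ} {H : ℤ[X]}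

/-- The multipliers of a singular modulus with Frobenius among them. -/
theorem exists_planes (hp5 : 5 ≤ p) {A : ValuationSubring Qb} (hA : A.LiesOverPrime p)
    [CharP (FA.Frob.Res A) p] [IsAlgClosed (FA.Frob.Res A)] (hH : H.Monic)
    (hroots : ∀ z : ℂ, aeval z H = 0 → ∃ (a b c : ℤ) (τ : ℍ), 0 < a ∧ b ^ 2 - 4 * a * c = D ∧
      Int.gcd (Int.gcd a b) c = 1 ∧ (a : ℂ) * (τ : ℂ) ^ 2 + b * (τ : ℂ) + c = 0 ∧
        FA.ModField.jfun τ = z)
    (V : WeierstrassCurve (ZMod p)) [V.IsElliptic]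
    (hr : (H.map (Int.castRingHom (ZMod p))).IsRoot V.j) (ha : ¬ (p : ℤ) ∣ V.traceOfFrobenius)
    (f : ZMod p →+* FA.Frob.Res A) {l : ℕ} [Fact l.Prime] (hlp : l ≠ p) :
    ∃ (b e : ℤ) (M : primary (V.map f) l →+ primary (V.map f) l), b ^ 2 - 4 * e = D ∧
      (∀ P, M (M P) + b • M P + e • P = 0) ∧
      (∀ k : ℤ, ∃ P, l • P = 0 ∧ M P ≠ k • P) ∧
      ∀ P, primFrob (V.map f) (map_frobenius_map V f) l (M P) =
        M (primFrob (V.map f) (map_frobenius_map V f) l P) := by
  have hr' : (H.map (Int.castRingHom (FA.Frob.Res A))).IsRoot (V.map f).j := by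
    rw [WeierstrassCurve.map_j, show Int.castRingHom (FA.Frob.Res A) =
      f.comp (Int.castRingHom (ZMod p)) from RingHom.ext_int _ _, ← Polynomial.map_map]
    exact hr.map
  obtain ⟨a, b, c, N, hWN, hD, hN, hM⟩ := FA.CMField.exists_cm_action hp5 hA hH hroots (V.map f)
    hr' one_ne_zero (by rw [iterateFrobenius_one]; exact map_frobenius_map V f)
  obtain ⟨M, hMM, hns, hcomm⟩ := hM l hlp
  exact ⟨b, a * c, M, by rw [← hD, mul_assoc], hMM, hns,
    primFrob_comm _ _ (by rwa [trEnd_map]) hN hWN hcomm⟩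

variable (hp5 : 5 ≤ p) (hH : H.Monic)
  (hroots : ∀ z : ℂ, aeval z H = 0 → ∃ (a b c : ℤ) (τ : ℍ), 0 < a ∧ b ^ 2 - 4 * a * c = D ∧
    Int.gcd (Int.gcd a b) c = 1 ∧ (a : ℂ) * (τ : ℂ) ^ 2 + b * (τ : ℂ) + c = 0 ∧
      FA.ModField.jfun τ = z)
  (V : WeierstrassCurve (ZMod p)) [V.IsElliptic]
  (hr : (H.map (Int.castRingHom (ZMod p))).IsRoot V.j) (ha : ¬ (p : ℤ) ∣ V.traceOfFrobenius)

include hp5 hH hroots hr ha in
/-- **The discriminant of the modulus divides that of Frobenius.** -/
theorem disc_dvd (hpD : ¬ (p : ℤ) ∣ D) : D ∣ V.traceOfFrobenius ^ 2 - 4 * (p : ℤ) := by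
  obtain ⟨A, hA⟩ := FA.Deform.exists_liesOverPrime hp.out
  haveI := residueField_charP A hp.out hA
  haveI : IsAlgClosed (FA.Frob.Res A) := residueField_isAlgClosed A
  set f := ZMod.castHom (dvd_refl p) (FA.Frob.Res A)
  rw [Int.dvd_natAbs.symm, Int.natAbs_dvd.symm, Int.natCast_dvd_natCast,
    Nat.dvd_iff_prime_pow_dvd_dvd]
  intro l m hl hlD
  rcases Nat.eq_zero_or_pos m with rfl | hm
  · simp
  haveI := Fact.mk hl
  have hlp : l ≠ p := by
    rintro rfl
    exact hpD (Int.natCast_dvd.2 (dvd_trans (dvd_pow_self _ hm.ne') hlD))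
  obtain ⟨b, e, M, hD, hMM, hns, hcomm⟩ := exists_planes hp5 hA hH hroots V hr ha f hlp
  have h := pow_dvd_disc (m := m) hns (primary_div _) (primary_card _ hlp) hcomm hMM
    (primary_quadratic _ _) hlp (primary_ker _ _ hlp)
    (by rw [hD, ← Int.dvd_natAbs, ← Nat.cast_pow]; exact Int.natCast_dvd_natCast.2 hlD)
  rw [trEnd_map, ← Int.dvd_natAbs, ← Nat.cast_pow] at h
  exact Int.natCast_dvd_natCast.1 h

include hp5 hH hroots hr ha in
/-- **The rational torsion**: if `a² - 4 p = d² D` all points killed by `l ^ j` are rational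
exactly when it divides `d`, given that it then divides `a - 2` and its square `p + 1 - a`. -/
theorem natCard_torsion_iff {d : ℤ} (hD0 : D ≠ 0)
    (hd : V.traceOfFrobenius ^ 2 - 4 * (p : ℤ) = d ^ 2 * D) {l : ℕ} [Fact l.Prime]
    (hlp : l ≠ p) (j : ℕ)
    (hdj : (l : ℤ) ^ j ∣ d → (l : ℤ) ^ j ∣ V.traceOfFrobenius - 2 ∧
      (l : ℤ) ^ (2 * j) ∣ (p : ℤ) + 1 - V.traceOfFrobenius) :
    Nat.card {P : V.toAffine.Point // l ^ j • P = 0} = (l ^ j) ^ 2 ↔ (l : ℤ) ^ j ∣ d := by
  obtain ⟨A, hA⟩ := FA.Deform.exists_liesOverPrime hp.out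
  haveI := residueField_charP A hp.out hA
  haveI : IsAlgClosed (FA.Frob.Res A) := residueField_isAlgClosed A
  set f := ZMod.castHom (dvd_refl p) (FA.Frob.Res A)
  obtain ⟨b, e, M, hD, hMM, hns, hcomm⟩ := exists_planes hp5 hA hH hroots V hr ha f hlp
  subst hD
  rw [natCard_eq_sq_iff V f (not_dvd_pow hlp j), ← fixed_iff (d := d) hns (primary_div _)
    (primary_card _ hlp) hcomm hMM (primary_quadratic _ _) hlp (primary_ker _ _ hlp) hD0
    (by rw [trEnd_map]; exact hd) j (by rw [trEnd_map]; exact hdj)]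
  exact ⟨fun h P hP => Subtype.ext (h P.1 (congrArg Subtype.val hP)),
    fun h P hP => congrArg Subtype.val (h ⟨P, j, hP⟩ (Subtype.ext hP))⟩

end singular

end FA.Rueck

end
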