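import Fermat.Agent.Supersingular.SchoofTwoTorsion
import Fermat.Agent.Supersingular.SchoofNeighbours

/-!
# Schoof: the count, and the form of an ordinary invariant

The count at trace zero reduces to `H(4 p) = c H(p)`, `c` the `4` or `2` by which the equations of
trace zero exceed those with full two-torsion. At an ordinary invariant other than `0` and `1728`
the weight `2` is split evenly between the two traces, so each has a single form.
-/

set_option autoImplicit false
set_option linter.style.haveILetI false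
set_option linter.unusedSectionVars false

noncomputable section

open Polynomial
open scoped Classical UpperHalfPlane

namespace FA.Schoof

open FA.BirchMoment FA.DeuringExistence FA.ClassRelation FA.ModField FA.Singular FA.ClassTrace
open FA.ReducedGroups (jFibre mem_jFibre)

variable {p : ℕ} [hp : Fact p.Prime]

theorem fullAt_one (ab : ZMod p × ZMod p) : FullAt 1 ab := by
  haveI : Unique {P : (shortMod ab.1 ab.2).toAffine.Point // 1 • P = 0} :=
    ⟨⟨⟨0, nsmul_zero 1⟩⟩, fun P => Subtype.ext ((one_nsmul P.1).symm.trans P.2)⟩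
  rw [FullAt, Nat.card_unique, one_pow]

/-- **The count.** -/
theorem two_mul_card (h5 : 5 ≤ p) {t : ℤ} (ht : t ^ 2 < 4 * (p : ℤ)) {n : ℕ} (h1 : n ∣ p - 1)
    (h2 : (n : ℤ) ^ 2 ∣ (p : ℤ) + 1 - t) :
    2 * (((nonsingular p).filter fun ab => tr ab = t ∧ FullAt n ab).card : ℚ) =
      ((p : ℚ) - 1) * classNumberH ((4 * (p : ℤ) - t ^ 2) / (n : ℤ) ^ 2).toNat := by
  rcases eq_or_ne t 0 with rfl | h0
  swap
  · exact two_mul_card_full h5 ht h0 h1 h2
  have hn : n ∣ p + 1 := by
    have h : (n : ℤ) ∣ ((p + 1 : ℕ) : ℤ) := by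
      push_cast
      simpa using (dvd_pow_self (n : ℤ) two_ne_zero).trans h2
    exact_mod_cast h
  have hn2 : n ∣ 2 := by
    have := Nat.dvd_sub hn h1
    rwa [show p + 1 - (p - 1) = 2 by omega] at this
  rcases (Nat.dvd_prime Nat.prime_two).1 hn2 with rfl | rfl
  · rw [Nat.cast_one, one_pow, Int.ediv_one, ← two_mul_card_trace h5 ht,
      show (nonsingular p).filter (fun ab => tr ab = 0 ∧ FullAt 1 ab) =
        (nonsingular p).filter fun ab => tr ab = 0 from
      Finset.filter_congr fun ab _ => and_iff_left (fullAt_one ab)]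
  have h4 : p % 4 = 3 := by
    norm_num at h2
    omega
  rw [show Int.toNat ((4 * (p : ℤ) - 0 ^ 2) / ((2 : ℕ) : ℤ) ^ 2) = p by push_cast; omega]
  have h := two_mul_card_trace h5 ht
  rw [show Int.toNat (4 * (p : ℤ) - 0 ^ 2) = 4 * p by omega, (classNumberH_eq h5 h4).2,
    ncard_red_four h5 h4, show ((nonsingular p).filter fun ab => tr ab = 0).card = _ from
      card_zeros_eq h5 h4] at h
  rw [(classNumberH_eq h5 h4).1] at h ⊢
  split_ifs at h <;> push_cast at h <;> linarith

/-- Without the two divisibilities nothing is counted. -/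
theorem eq_empty_of_not (h5 : 5 ≤ p) {t : ℤ} {n : ℕ}
    (h : ¬ (n ∣ p - 1 ∧ (n : ℤ) ^ 2 ∣ (p : ℤ) + 1 - t)) :
    (nonsingular p).filter (fun ab => tr ab = t ∧ FullAt n ab) = ∅ := by
  refine Finset.filter_eq_empty_iff.2 fun ab hab hh => h ?_
  haveI : (shortMod ab.1 ab.2).IsElliptic :=
    ⟨(shortMod_Δ_ne_zero h5 (Finset.mem_filter.1 hab).2).isUnit⟩
  have := conditions_of_full h5 (shortMod ab.1 ab.2) hh.2
  rwa [show (shortMod ab.1 ab.2).traceOfFrobenius = t from hh.1] at this

/-- **One form for an ordinary invariant and a trace.** -/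
theorem card_forms_eq_one (h5 : 5 ≤ p) {red : (Σ _ : ℤ, ℤ × ℤ × ℤ) → ZMod p}
    (hsum : ∀ r, ∑ q ∈ (traceForms p).filter (fun q => red q = r), weight q.2 = 2)
    (hsame : ∀ q ∈ traceForms p, ∀ q' ∈ traceForms p, q.2 = q'.2 → red q = red q')
    (hroot : ∀ q ∈ traceForms p, ∀ P : ℤ[X], aeval (jfun (rootOf q.2)) P = 0 →
      (P.map (Int.castRingHom (ZMod p))).IsRoot (red q))
    {r A B : ZMod p} (hr0 : r ≠ 0) (hr1 : r ≠ 1728) (hAB : (A, B) ∈ jFibre r)
    (ht : tr (A, B) ≠ 0) :
    ((traceForms p).filter fun q => red q = r ∧ q.1 = tr (A, B)).card = 1 := by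
  set t := tr (A, B) with htdef
  obtain ⟨hne, hrel⟩ := mem_jFibre_iff.1 hAB
  have hN : ∀ s, s ^ 2 = t ^ 2 → p - 1 ≤ 2 * ((jFibre r).filter fun ab => tr ab = s).card :=
    fun s hs => by
    obtain ⟨A', B', hne', hrel', htr⟩ := exists_signed h5 (a := s) hne hrel hs.symm
    refine sub_one_le_card h5 (mem_jFibre_iff.2 ⟨hne', hrel'⟩) htr two_pos
      fun u h4 h6 => Units.ext ?_
    have hA : A' ≠ 0 := fun e => by
      rw [e] at hrel' hne'
      exact mul_ne_zero hr0 hne' (by linear_combination -hrel')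
    have hB : B' ≠ 0 := fun e => by
      rw [e] at hrel' hne'
      exact mul_ne_zero (sub_ne_zero.2 hr1) hne' (by linear_combination -hrel')
    have e4 : (u : ZMod p) ^ 4 = 1 := mul_left_cancel₀ hA (by rw [h4, mul_one])
    have e6 : (u : ZMod p) ^ 6 = 1 := mul_left_cancel₀ hB (by rw [h6, mul_one])
    rw [Units.val_pow_eq_pow_val, Units.val_one]
    linear_combination e6 - (u : ZMod p) ^ 2 * e4
  have h1 := hN t rfl
  have h2 := hN (-t) (neg_sq t)
  have hdisj : Disjoint ((jFibre r).filter fun ab => tr ab = t)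
      ((jFibre r).filter fun ab => tr ab = -t) :=
    Finset.disjoint_filter.2 fun ab _ e e' => ht (by omega)
  have h3 := Finset.card_le_card (Finset.union_subset (Finset.filter_subset (fun ab => tr ab = t)
    (jFibre r)) (Finset.filter_subset (fun ab => tr ab = -t) (jFibre r)))
  rw [Finset.card_union_of_disjoint hdisj, FA.ReducedGroups.card_jFibre h5] at h3
  have hfib := fibre_eq h5 hsum hsame hroot r t
  rw [show (((jFibre r).filter fun ab => tr ab = t).card : ℚ) = ((p : ℚ) - 1) / 2 by
      rw [eq_div_iff two_ne_zero]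
      have : ((jFibre r).filter fun ab => tr ab = t).card * 2 = p - 1 := by omega
      rw [← Nat.cast_ofNat (R := ℚ) (n := 2), ← Nat.cast_mul, this, Nat.cast_sub hp.out.one_le,
        Nat.cast_one], mul_div_cancel₀ _ (two_ne_zero' ℚ), eq_comm, mul_eq_left₀ (sub_ne_zero.mpr
      (Nat.cast_ne_one.mpr hp.out.ne_one)), wt,
    Finset.sum_congr rfl fun q hq => (show weight q.2 = 1 by
      obtain ⟨hq, hqr, -⟩ := Finset.mem_filter.1 hq
      obtain ⟨D, k, b, ⟨a₁, b₁, c₁⟩, hk, hqf, -, ⟨-, hprim, ha, -⟩, hτ, -⟩ :=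
        exists_disc hroot hq
      simp only at hprim ha
      rw [hqf, weight_smulForm hk.ne']
      unfold weight
      simp only
      rw [if_neg, if_neg]
      · rintro ⟨rfl, rfl⟩
        obtain rfl : a₁ = 1 := by
          simp only [Int.gcd_self, Int.natCast_natAbs] at hprim
          rw [abs_of_pos ha] at hprim
          simp at hprim
          omega
        exact hr0 (hqr.symm.trans (red_eq_of_root_rho hroot hq hτ))
      · rintro ⟨rfl, rfl⟩
        obtain rfl : a₁ = 1 := by
          rw [Int.gcd_zero_right, Int.natCast_natAbs, abs_of_pos ha, Int.gcd_self] at hprim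
          omega
        exact hr1 (hqr.symm.trans (red_eq_of_root_I hroot hq hτ))),
    Finset.sum_const, nsmul_eq_mul, mul_one, Nat.cast_eq_one] at hfib
  exact hfib

end FA.Schoof

end
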