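import Fermat.Agent.Supersingular.DeuringClassNumber

/-!
# Schoof: full rational torsion at an ordinary invariant

Let `(t, k f)` be a form over `r`, `f` primitive, and `n ∣ p - 1`, `n² ∣ p + 1 - t`. A curve of
trace `t ≠ 0` with invariant `r` has all `n²` points killed by `n` rational exactly when `n ∣ k`.
So these curves and the multiples of `n` among the forms are counted alike.
-/

set_option autoImplicit false
set_option linter.style.haveILetI false
set_option linter.unusedSectionVars false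

noncomputable section

open Polynomial
open scoped Classical UpperHalfPlane

namespace FA.Schoof

open FA.BirchMoment FA.DeuringExistence FA.ClassRelation FA.ModField FA.Singular FA.ClassTrace
open FA.ReducedGroups (jFibre mem_jFibre)

variable {p : ℕ} [hp : Fact p.Prime]

/-- All `n²` points killed by `n` are rational. -/
def FullAt (n : ℕ) (ab : ZMod p × ZMod p) : Prop :=
  Nat.card {P : (shortMod ab.1 ab.2).toAffine.Point // n • P = 0} = n ^ 2

/-- The coefficients are multiples of `n`. -/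
def DvdForm (n : ℕ) (f : ℤ × ℤ × ℤ) : Prop :=
  (n : ℤ) ∣ f.1 ∧ (n : ℤ) ∣ f.2.1 ∧ (n : ℤ) ∣ f.2.2

/-- The invariant `d` of the group decides the levels with full torsion. -/
theorem exists_level (h5 : 5 ≤ p) (V : WeierstrassCurve (ZMod p)) [V.IsElliptic] :
    ∃ d e : ℕ, d ∣ e ∧ d * e = Nat.card V.toAffine.Point ∧ d ∣ p - 1 ∧
      e = AddMonoid.exponent V.toAffine.Point ∧
      ∀ m : ℕ, 0 < m → (Nat.card {P : V.toAffine.Point // m • P = 0} = m ^ 2 ↔ m ∣ d) := by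
  obtain ⟨d, hde, hcard, h1, -, ⟨φ⟩⟩ := FA.ReducedGroups.exists_equiv_zmod (by omega) V
  haveI : NeZero (AddMonoid.exponent V.toAffine.Point) :=
    ⟨AddMonoid.exponent_ne_zero_of_finite⟩
  haveI : NeZero d := ⟨fun e => by
    rw [e, zero_mul] at hcard
    exact Nat.card_pos.ne hcard⟩
  exact ⟨d, _, hde, hcard, h1, rfl, fun m hm => FA.ReducedGroups.natCard_nsmul_eq_sq_iff φ hde hm⟩

/-- Full torsion forces `n ∣ p - 1` and `n² ∣ p + 1 - t`. -/
theorem conditions_of_full (h5 : 5 ≤ p) (V : WeierstrassCurve (ZMod p)) [V.IsElliptic] {n : ℕ}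
    (h : Nat.card {P : V.toAffine.Point // n • P = 0} = n ^ 2) :
    n ∣ p - 1 ∧ (n : ℤ) ^ 2 ∣ (p : ℤ) + 1 - V.traceOfFrobenius := by
  obtain ⟨d, e, hde, hcard, h1, -, hlev⟩ := exists_level h5 V
  rcases Nat.eq_zero_or_pos n with rfl | hn
  · exact absurd (h.trans (zero_pow two_ne_zero)) (Nat.card_ne_zero.2
      ⟨⟨⟨0, nsmul_zero 0⟩⟩, inferInstance⟩)
  have hnd := (hlev n hn).1 h
  refine ⟨hnd.trans h1, ?_⟩
  rw [FA.Rueck.trace_eq_sub_card, sub_sub_cancel, ← hcard, sq, Nat.cast_mul]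
  exact mul_dvd_mul (Int.natCast_dvd_natCast.2 hnd) (Int.natCast_dvd_natCast.2 (hnd.trans hde))

/-- Full torsion is decided at the prime powers. -/
theorem full_iff_prime_pow (h5 : 5 ≤ p) (V : WeierstrassCurve (ZMod p)) [V.IsElliptic] {n : ℕ}
    (hn : 0 < n) : Nat.card {P : V.toAffine.Point // n • P = 0} = n ^ 2 ↔
      ∀ l j : ℕ, l.Prime → l ^ j ∣ n →
        Nat.card {P : V.toAffine.Point // l ^ j • P = 0} = (l ^ j) ^ 2 := by
  obtain ⟨d, e, -, -, -, -, hlev⟩ := exists_level h5 V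
  rw [hlev n hn, Nat.dvd_iff_prime_pow_dvd_dvd]
  exact forall₂_congr fun l j => imp_congr_right fun hl =>
    imp_congr_right fun _ => (hlev _ (pow_pos hl.pos j)).symm

/-- A multiple of a primitive form is a multiple of `n` exactly when the factor is. -/
theorem dvdForm_smul {n : ℕ} {k : ℤ} (hk : 0 < k) {f : ℤ × ℤ × ℤ}
    (hprim : Int.gcd (Int.gcd f.1 f.2.1) f.2.2 = 1) :
    DvdForm n (smulForm k f) ↔ n ∣ k.natAbs := by
  rw [← Int.natCast_dvd_natCast, Int.natAbs_of_nonneg hk.le]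
  refine ⟨fun ⟨h1, h2, h3⟩ => ?_, fun h => ⟨h.mul_right _, h.mul_right _, h.mul_right _⟩⟩
  have h := Int.dvd_coe_gcd (Int.dvd_coe_gcd h1 h2) h3
  simp only [smulForm] at h
  rw [Int.gcd_mul_left, Nat.cast_mul, Int.natAbs_of_nonneg hk.le, Int.gcd_mul_left, hprim, mul_one,
    Int.natAbs_of_nonneg hk.le] at h
  exact h

/-- **The rational torsion over a form**: full at `n` exactly when the form is a multiple. -/
theorem full_iff_dvdForm (h5 : 5 ≤ p) {red : (Σ _ : ℤ, ℤ × ℤ × ℤ) → ZMod p}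
    (hroot : ∀ q ∈ traceForms p, ∀ P : ℤ[X], aeval (jfun (rootOf q.2)) P = 0 →
      (P.map (Int.castRingHom (ZMod p))).IsRoot (red q))
    {q : Σ _ : ℤ, ℤ × ℤ × ℤ} (hq : q ∈ traceForms p) {ab : ZMod p × ZMod p}
    (hab : ab ∈ jFibre (red q)) (htr : tr ab = q.1) (h0 : q.1 ≠ 0) {n : ℕ} (h1 : n ∣ p - 1)
    (h2 : (n : ℤ) ^ 2 ∣ (p : ℤ) + 1 - q.1) : FullAt n ab ↔ DvdForm n q.2 := by
  obtain ⟨D, k, b, f₁, hk, hqf, -, hf₁, -, hD, hd, -, H, hH, hroots, hHr⟩ := exists_disc hroot hq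
  obtain ⟨hne, hrel⟩ := mem_jFibre_iff.1 (show (ab.1, ab.2) ∈ jFibre (red q) from hab)
  haveI : (shortMod ab.1 ab.2).IsElliptic := ⟨(shortMod_Δ_ne_zero h5 hne).isUnit⟩
  have hn : 0 < n := Nat.pos_of_ne_zero fun e => by
    subst e
    rw [zero_dvd_iff] at h1
    omega
  have hnp : n < p := lt_of_le_of_lt (Nat.le_of_dvd (by omega) h1) (by omega)
  rw [FullAt, full_iff_prime_pow h5 _ hn, hqf, dvdForm_smul hk hf₁.2.1,
    Nat.dvd_iff_prime_pow_dvd_dvd]
  refine forall₂_congr fun l j => forall₂_congr fun hl hln => ?_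
  rcases Nat.eq_zero_or_pos j with rfl | hj
  · simp only [pow_zero, one_dvd, iff_true, one_pow]
    haveI : Unique {P : (shortMod ab.1 ab.2).toAffine.Point // 1 • P = 0} :=
      ⟨⟨⟨0, nsmul_zero 1⟩⟩, fun P => Subtype.ext ((one_nsmul P.1).symm.trans P.2)⟩
    exact Nat.card_unique
  have hlp : l ≠ p := fun e => (Nat.le_of_dvd hn ((dvd_pow_self l hj.ne').trans hln)).not_gt
    (e ▸ hnp)
  haveI := Fact.mk hl
  have hln' : (l : ℤ) ^ j ∣ n := by exact_mod_cast Int.natCast_dvd_natCast.2 hln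
  have e : (shortMod ab.1 ab.2).traceOfFrobenius = q.1 := htr
  rw [FA.Rueck.natCard_torsion_iff h5 hH hroots (shortMod ab.1 ab.2)
    (by rwa [shortMod_j h5 hne hrel])
    (by rw [e]; exact not_dvd_of_sq_lt h5 ((mem_traceForms p).1 hq).1 h0) (d := k) hD.ne
    (by rw [e]; exact hd) hlp j fun _ => ⟨?_, ?_⟩]
  · rw [← Int.natCast_dvd_natCast, Nat.cast_pow, Int.natAbs_of_nonneg hk.le]
  · rw [show (shortMod ab.1 ab.2).traceOfFrobenius - 2 =
      ((p - 1 : ℕ) : ℤ) - ((p : ℤ) + 1 - (shortMod ab.1 ab.2).traceOfFrobenius) by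
        rw [Nat.cast_sub hp.out.one_le]; push_cast; ring]
    refine dvd_sub (hln'.trans (Int.natCast_dvd_natCast.2 h1)) (hln'.trans ?_)
    rw [show (shortMod ab.1 ab.2).traceOfFrobenius = q.1 from htr]
    exact (dvd_pow_self _ two_ne_zero).trans h2
  · rw [pow_mul', show (shortMod ab.1 ab.2).traceOfFrobenius = q.1 from htr]
    exact (pow_dvd_pow_of_dvd hln' 2).trans h2

theorem weight_pos (f : ℤ × ℤ × ℤ) : 0 < weight f := by
  unfold weight
  split_ifs <;> norm_num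

/-- **One invariant.** -/
theorem fibre_full_eq (h5 : 5 ≤ p) {red : (Σ _ : ℤ, ℤ × ℤ × ℤ) → ZMod p}
    (hsum : ∀ r, ∑ q ∈ (traceForms p).filter (fun q => red q = r), weight q.2 = 2)
    (hsame : ∀ q ∈ traceForms p, ∀ q' ∈ traceForms p, q.2 = q'.2 → red q = red q')
    (hroot : ∀ q ∈ traceForms p, ∀ P : ℤ[X], aeval (jfun (rootOf q.2)) P = 0 →
      (P.map (Int.castRingHom (ZMod p))).IsRoot (red q)) {t : ℤ} (h0 : t ≠ 0) {n : ℕ}
    (h1 : n ∣ p - 1) (h2 : (n : ℤ) ^ 2 ∣ (p : ℤ) + 1 - t) (r : ZMod p) :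
    2 * (((jFibre r).filter fun ab => tr ab = t ∧ FullAt n ab).card : ℚ) = ((p : ℚ) - 1) *
      ∑ q ∈ (traceForms p).filter (fun q => red q = r ∧ q.1 = t ∧ DvdForm n q.2), weight q.2 := by
  have hfib := fibre_eq h5 hsum hsame hroot r t
  have hp1 : (p : ℚ) - 1 ≠ 0 := sub_ne_zero.mpr (Nat.cast_ne_one.mpr hp.out.ne_one)
  have key : ∀ q ∈ traceForms p, red q = r → q.1 = t → ∀ ab ∈ jFibre r, tr ab = t →
      (FullAt n ab ↔ DvdForm n q.2) := fun q hq hqr hqt ab hab htr =>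
    full_iff_dvdForm h5 hroot hq (hqr.symm ▸ hab) (htr.trans hqt.symm) (hqt.symm ▸ h0) h1
      (hqt.symm ▸ h2)
  by_cases hab : ∃ ab ∈ jFibre r, tr ab = t
  swap
  · push Not at hab
    rw [Finset.filter_eq_empty_iff.2 fun ab h e => hab ab h e, Finset.card_empty, Nat.cast_zero,
      mul_zero, eq_comm, mul_eq_zero, or_iff_right hp1] at hfib
    rw [Finset.filter_eq_empty_iff.2 fun ab h e => hab ab h e.1, Finset.card_empty, Nat.cast_zero,
      mul_zero, eq_comm, mul_eq_zero]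
    refine Or.inr (Finset.sum_eq_zero fun q hq => ?_)
    obtain ⟨hq, hqr, hqt, -⟩ := Finset.mem_filter.1 hq
    exact (Finset.sum_eq_zero_iff_of_nonneg fun q _ => (weight_pos q.2).le).1 hfib q
      (Finset.mem_filter.2 ⟨hq, hqr, hqt⟩)
  obtain ⟨ab₀, hab₀, htr₀⟩ := hab
  obtain ⟨q₀, hq₀, hqr₀, hqt₀⟩ : ∃ q ∈ traceForms p, red q = r ∧ q.1 = t := by
    by_contra! h
    rw [wt, Finset.filter_eq_empty_iff.2 fun q hq e => h q hq e.1 e.2, Finset.sum_empty, mul_zero,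
      mul_eq_zero, or_iff_right two_ne_zero, Nat.cast_eq_zero, Finset.card_eq_zero] at hfib
    exact Finset.notMem_empty _ (hfib ▸ Finset.mem_filter.2 ⟨hab₀, htr₀⟩)
  by_cases hd : DvdForm n q₀.2
  · rw [show (jFibre r).filter (fun ab => tr ab = t ∧ FullAt n ab) =
        (jFibre r).filter fun ab => tr ab = t from Finset.filter_congr fun ab hab =>
          and_iff_left_of_imp fun htr => (key q₀ hq₀ hqr₀ hqt₀ ab hab htr).2 hd,
      show (traceForms p).filter (fun q => red q = r ∧ q.1 = t ∧ DvdForm n q.2) =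
        (traceForms p).filter (fun q => red q = r ∧ q.1 = t) from Finset.filter_congr fun q hq =>
          and_congr_right fun hqr => and_iff_left_of_imp fun hqt => (key q hq hqr hqt ab₀ hab₀
            htr₀).1 ((key q₀ hq₀ hqr₀ hqt₀ ab₀ hab₀ htr₀).2 hd)]
    exact hfib
  · rw [Finset.filter_eq_empty_iff.2 fun ab hab e =>
        hd ((key q₀ hq₀ hqr₀ hqt₀ ab hab e.1).1 e.2),
      Finset.filter_eq_empty_iff.2 fun q hq (e : red q = r ∧ q.1 = t ∧ DvdForm n q.2) =>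
        hd ((key q₀ hq₀ hqr₀ hqt₀ ab₀ hab₀ htr₀).1
          ((key q hq e.1 e.2.1 ab₀ hab₀ htr₀).2 e.2.2))]
    simp

/-- The multiples of `n` among the forms of discriminant `-n² M` are those of `-M`, enlarged. -/
theorem sum_weight_dvdForm {n : ℕ} (hn : 0 < n) (M : ℕ) :
    ∑ f ∈ (redForms (n ^ 2 * M)).filter (DvdForm n), weight f = classNumberH M := by
  have hn : (0 : ℤ) < n := Nat.cast_pos.2 hn
  symm
  refine Finset.sum_nbij (smulForm n) (fun f hf => ?_) (fun f _ g _ e => ?_) (fun f hf => ?_)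
    fun f _ => (weight_smulForm hn.ne' f).symm
  · obtain ⟨hd, ha, hb, hc, hbd⟩ := mem_redForms.1 hf
    refine Finset.mem_filter.2 ⟨mem_redForms.2 ⟨?_, mul_pos hn ha, ?_,
      mul_le_mul_of_nonneg_left hc hn.le, ?_⟩,
      dvd_mul_right _ _, dvd_mul_right _ _, dvd_mul_right _ _⟩
    · simp only [smulForm]
      push_cast
      linear_combination (n : ℤ) ^ 2 * hd
    · simp only [smulForm, abs_mul, abs_of_pos hn]
      exact mul_le_mul_of_nonneg_left hb hn.le
    · simp only [smulForm, abs_mul, abs_of_pos hn]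
      exact fun h => mul_nonneg hn.le
        (hbd (h.imp (mul_left_cancel₀ hn.ne') (mul_left_cancel₀ hn.ne')))
  · simp only [smulForm, Prod.mk.injEq, mul_right_inj' hn.ne'] at e
    exact Prod.ext e.1 (Prod.ext e.2.1 e.2.2)
  · obtain ⟨hf', ⟨a, ha⟩, ⟨b, hb⟩, c, hc⟩ := Finset.mem_filter.1 (Finset.mem_coe.1 hf)
    obtain ⟨a', b', c'⟩ := f
    simp only at ha hb hc
    subst ha hb hc
    obtain ⟨hd, h3, h4, h5', h6⟩ := mem_redForms.1 hf'
    simp only [abs_mul, abs_of_pos hn] at hd h4 h6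
    refine ⟨(a, b, c), mem_redForms.2 ⟨mul_left_cancel₀ (pow_ne_zero 2 hn.ne') ?_,
      pos_of_mul_pos_right h3 hn.le, le_of_mul_le_mul_left h4 hn, le_of_mul_le_mul_left h5' hn,
      fun h => nonneg_of_mul_nonneg_right (h6 (h.imp (congrArg _) (congrArg _))) hn⟩, rfl⟩
    push_cast at hd
    linear_combination hd

/-- **The trace `t ≠ 0`.** -/
theorem two_mul_card_full (h5 : 5 ≤ p) {t : ℤ} (ht : t ^ 2 < 4 * (p : ℤ)) (h0 : t ≠ 0) {n : ℕ}
    (h1 : n ∣ p - 1) (h2 : (n : ℤ) ^ 2 ∣ (p : ℤ) + 1 - t) :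
    2 * (((nonsingular p).filter fun ab => tr ab = t ∧ FullAt n ab).card : ℚ) =
      ((p : ℚ) - 1) * classNumberH ((4 * (p : ℤ) - t ^ 2) / (n : ℤ) ^ 2).toNat := by
  haveI : NeZero p := ⟨hp.out.ne_zero⟩
  let _ := Fintype.ofFinite (FA.Dim.Cos p)
  obtain ⟨red, hsum, hsame, hroot⟩ := exists_reduction p
  have hn : (0 : ℤ) < n := by
    refine Nat.cast_pos.2 (Nat.pos_of_ne_zero fun e => ?_)
    subst e
    rw [zero_dvd_iff] at h1
    omega
  have hN : (n : ℤ) ^ 2 ∣ 4 * (p : ℤ) - t ^ 2 := by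
    rw [show 4 * (p : ℤ) - t ^ 2 = 4 * ((p : ℤ) + 1 - t) - (t - 2) ^ 2 by ring]
    refine dvd_sub (h2.mul_left 4) (pow_dvd_pow_of_dvd ?_ 2)
    rw [show t - 2 = ((p - 1 : ℕ) : ℤ) - ((p : ℤ) + 1 - t) by
      rw [Nat.cast_sub hp.out.one_le]; push_cast; ring]
    exact dvd_sub (Int.natCast_dvd_natCast.2 h1) ((dvd_pow_self _ two_ne_zero).trans h2)
  obtain ⟨M, hM⟩ := hN
  have hM0 : 0 ≤ M := by nlinarith
  rw [hM, Int.mul_ediv_cancel_left _ (pow_ne_zero 2 hn.ne'), card_filter_eq_sum, Nat.cast_sum,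
    Finset.mul_sum, Finset.sum_congr rfl fun r _ => fibre_full_eq h5 hsum hsame hroot h0 h1 h2 r,
    ← Finset.mul_sum]
  refine congrArg _ ?_
  rw [← Finset.sum_congr rfl fun r _ => Finset.sum_congr
      (show ((traceForms p).filter fun q => q.1 = t ∧ DvdForm n q.2).filter (fun q => red q = r) =
        (traceForms p).filter (fun q => red q = r ∧ q.1 = t ∧ DvdForm n q.2) by
        rw [Finset.filter_filter]; exact Finset.filter_congr fun q _ => and_comm) fun _ _ => rfl,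
    Finset.sum_fiberwise_of_maps_to fun q _ => Finset.mem_univ _]
  have e : (4 * (p : ℤ) - t ^ 2).toNat = n ^ 2 * M.toNat := by
    rw [hM, Int.toNat_mul (by positivity) hM0, ← Nat.cast_pow, Int.toNat_natCast]
  rw [← sum_weight_dvdForm (Nat.cast_pos.1 hn) M.toNat, ← e]
  refine Finset.sum_nbij' (fun q => q.2) (fun f => ⟨t, f⟩) (fun q hq => ?_) (fun f hf => ?_)
    (fun q hq => ?_) (fun f _ => rfl) fun q _ => rfl
  · obtain ⟨hq', rfl, hd⟩ := Finset.mem_filter.1 hq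
    rw [traceForms, Finset.mem_sigma] at hq'
    exact Finset.mem_filter.2 ⟨hq'.2, hd⟩
  · obtain ⟨hf', hd⟩ := Finset.mem_filter.1 hf
    refine Finset.mem_filter.2 ⟨?_, rfl, hd⟩
    rw [traceForms, Finset.mem_sigma]
    exact ⟨(FA.ClassRelation.mem_traces p).2 ht, hf'⟩
  · obtain ⟨-, rfl, -⟩ := Finset.mem_filter.1 hq
    rfl

end FA.Schoof

end
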