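import Fermat.Agent.Supersingular.SchoofTorsion
import Fermat.Agent.CM.Isogeny
import Fermat.Agent.ReducedGroups.CubicRoots

/-!
# Schoof: trace zero and full two-torsion, `p ≡ 3 (mod 4)`

Sort the pairs (equation of trace zero, root `e` of its cubic) by the characters of `b = 3 e² + A`
(is `(e, 0)` halvable here or on the twist) and of `c = -3 e² - 4 A` (are there three roots). The
two-isogeny exchanges them. An equation with one root has `b` a square there; one with three roots
has no such root for `p ≡ 3 (mod 8)` and two for `p ≡ 7 (mod 8)`. So a quarter, or a half, of the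
equations of trace zero have full two-torsion.
-/

set_option autoImplicit false
set_option linter.style.haveILetI false
set_option linter.unusedSectionVars false

noncomputable section

open WeierstrassCurve
open scoped Classical

namespace FA.Schoof

open FA.BirchMoment FA.ClassTrace FA.ReducedGroups

variable {p : ℕ} [hp : Fact p.Prime]

/-- The coefficient of `x` after moving the root `e` to the origin. -/
def bco (A e : ZMod p) : ZMod p := 3 * e ^ 2 + A

/-- The discriminant of the remaining quadratic. -/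
def dco (A e : ZMod p) : ZMod p := -3 * e ^ 2 - 4 * A

theorem coeffs_ne_zero {A B e : ZMod p} (hns : 4 * A ^ 3 + 27 * B ^ 2 ≠ 0)
    (he : e ^ 3 + A * e + B = 0) : bco A e ≠ 0 ∧ dco A e ≠ 0 := by
  obtain rfl : B = -e ^ 3 - A * e := by linear_combination he
  rw [show 4 * A ^ 3 + 27 * (-e ^ 3 - A * e) ^ 2 = -(bco A e ^ 2 * dco A e) by
    simp only [bco, dco]; ring, neg_ne_zero, mul_ne_zero_iff, pow_ne_zero_iff two_ne_zero] at hns
  exact hns

/-- The character sum around a root. -/
theorem charSum_root (A e : ZMod p) : charSum A (-e ^ 3 - A * e) =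
    ∑ x : ZMod p, quadraticChar (ZMod p) (x ^ 3 + 3 * e * x ^ 2 + bco A e * x) := by
  rw [charSum]
  refine (Fintype.sum_equiv (Equiv.addRight e) _ _ fun x => ?_).symm
  rw [Equiv.coe_addRight, bco]
  ring_nf

/-- The trace zero equations. -/
def zeros (p : ℕ) [Fact p.Prime] : Finset (ZMod p × ZMod p) :=
  (nonsingular p).filter fun ab => tr ab = 0

/-- The pairs `(A, e)`: an equation of trace zero with a root of its cubic. -/
def rootPairs (p : ℕ) [Fact p.Prime] : Finset (ZMod p × ZMod p) :=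
  Finset.univ.filter fun Ae => (Ae.1, -Ae.2 ^ 3 - Ae.1 * Ae.2) ∈ zeros p

/-- The two-isogeny on the pairs. -/
def isog (Ae : ZMod p × ZMod p) : ZMod p × ZMod p := (-15 * Ae.2 ^ 2 - 4 * Ae.1, -2 * Ae.2)

theorem isog_mem (h5 : 5 ≤ p) {Ae : ZMod p × ZMod p} (h : Ae ∈ rootPairs p) :
    isog Ae ∈ rootPairs p := by
  obtain ⟨A, e⟩ := Ae
  simp only [rootPairs, zeros, nonsingular, Finset.mem_filter, Finset.mem_univ, true_and] at h ⊢
  obtain ⟨hns, htr⟩ := h
  obtain ⟨hb, hd⟩ := coeffs_ne_zero hns (e := e) (by ring)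
  have h2 := (natCast_two_three (p := p) h5).1
  have hns' : 4 * (isog (A, e)).1 ^ 3 +
      27 * (-(isog (A, e)).2 ^ 3 - (isog (A, e)).1 * (isog (A, e)).2) ^ 2 ≠ 0 := by
    rw [show 4 * (isog (A, e)).1 ^ 3 +
        27 * (-(isog (A, e)).2 ^ 3 - (isog (A, e)).1 * (isog (A, e)).2) ^ 2 =
      -(dco A e ^ 2 * (2 ^ 4 * bco A e)) by simp only [isog, bco, dco]; ring]
    exact neg_ne_zero.2 (mul_ne_zero (pow_ne_zero 2 hd) (mul_ne_zero (pow_ne_zero 4 h2) hb))
  refine ⟨hns', ?_⟩
  rw [tr, traceOfFrobenius_eq h5 hns', neg_eq_zero]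
  rw [tr, traceOfFrobenius_eq h5 hns, neg_eq_zero, charSum_root,
    FA.CM.sum_char_two_isogeny (ringChar_ne_two h5) _ hb] at htr
  rw [← htr, charSum_root]
  refine Finset.sum_congr rfl fun x _ => congrArg _ ?_
  simp only [isog, bco]
  ring

/-- **The swap**: as many pairs have `b` a square as have `c` a square. -/
theorem card_swap (h5 : 5 ≤ p) :
    ((rootPairs p).filter fun Ae => quadraticChar (ZMod p) (bco Ae.1 Ae.2) = 1).card =
      ((rootPairs p).filter fun Ae => quadraticChar (ZMod p) (dco Ae.1 Ae.2) = 1).card := by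
  have h2 := (natCast_two_three (p := p) h5).1
  have hinj : Function.Injective (isog (p := p)) := fun u v huv => by
    simp only [isog, Prod.mk.injEq] at huv
    have he : u.2 = v.2 := mul_left_cancel₀ (neg_ne_zero.2 h2) huv.2
    refine Prod.ext (mul_left_cancel₀ (pow_ne_zero 2 h2) ?_) he
    rw [he] at huv
    linear_combination -huv.1
  have hd : ∀ A e : ZMod p, bco (isog (A, e)).1 (isog (A, e)).2 = dco A e ∧
      quadraticChar (ZMod p) (dco (isog (A, e)).1 (isog (A, e)).2) =
        quadraticChar (ZMod p) (bco A e) := fun A e => by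
    refine ⟨by simp only [isog, bco, dco]; ring, ?_⟩
    rw [show dco (isog (A, e)).1 (isog (A, e)).2 = (2 ^ 2) ^ 2 * bco A e by
      simp only [isog, bco, dco]; ring, map_mul, quadraticChar_sq_one' (pow_ne_zero 2 h2), one_mul]
  apply le_antisymm <;> refine Finset.card_le_card_of_injOn isog (fun Ae h => ?_) hinj.injOn <;>
    simp only [Finset.mem_coe, Finset.mem_filter] at h ⊢
  · exact ⟨isog_mem h5 h.1, (hd Ae.1 Ae.2).2.trans h.2⟩
  · exact ⟨isog_mem h5 h.1, (congrArg _ (hd Ae.1 Ae.2).1).trans h.2⟩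

/-- The pairs are sorted by equations. -/
theorem card_rootPairs (P : ZMod p → ZMod p → Prop) [∀ A e, Decidable (P A e)] :
    ((rootPairs p).filter fun Ae => P Ae.1 Ae.2).card =
      ∑ ab ∈ zeros p, ((cubicRoots ab).filter fun e => P ab.1 e).card := by
  rw [← Finset.card_sigma]
  refine Finset.card_bij' (fun Ae _ => ⟨(Ae.1, -Ae.2 ^ 3 - Ae.1 * Ae.2), Ae.2⟩)
    (fun z _ => (z.1.1, z.2)) (fun Ae h => ?_) (fun z h => ?_) (fun _ _ => rfl) (fun z h => ?_)
  · obtain ⟨hU, hP⟩ := Finset.mem_filter.1 h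
    exact Finset.mem_sigma.2 ⟨(Finset.mem_filter.1 hU).2,
      Finset.mem_filter.2 ⟨mem_cubicRoots.2 (by ring), hP⟩⟩
  · obtain ⟨⟨a, b⟩, e⟩ := z
    obtain ⟨hz, he⟩ := Finset.mem_sigma.1 h
    obtain ⟨he, hP⟩ := Finset.mem_filter.1 he
    obtain rfl : b = -e ^ 3 - a * e := by linear_combination mem_cubicRoots.1 he
    exact Finset.mem_filter.2 ⟨Finset.mem_filter.2 ⟨Finset.mem_univ _, hz⟩, hP⟩
  · obtain ⟨⟨a, b⟩, e⟩ := z
    obtain ⟨-, he⟩ := Finset.mem_sigma.1 h
    obtain rfl : b = -e ^ 3 - a * e := by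
      linear_combination mem_cubicRoots.1 (Finset.mem_filter.1 he).1
    rfl

/-- Three roots exactly when `c` is a square. -/
theorem char_dco_iff (h5 : 5 ≤ p) {A B e : ZMod p} (hab : (A, B) ∈ nonsingular p)
    (he : e ∈ cubicRoots (A, B)) :
    quadraticChar (ZMod p) (dco A e) = 1 ↔ (cubicRoots (A, B)).card = 3 := by
  have hns : 4 * A ^ 3 + 27 * B ^ 2 ≠ 0 := (Finset.mem_filter.1 hab).2
  have he' : e ^ 3 + A * e + B = 0 := mem_cubicRoots.1 he
  obtain ⟨hb, hd⟩ := coeffs_ne_zero hns he'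
  have h2 := (natCast_two_three (p := p) h5).1
  rw [quadraticChar_one_iff_isSquare hd]
  constructor
  · rintro ⟨s, hs⟩
    have hy : ((-e + s) / 2) ^ 3 + A * ((-e + s) / 2) + B = 0 := by
      have : ((-e + s) / 2) * 2 = -e + s := div_mul_cancel₀ _ h2
      refine mul_left_cancel₀ (pow_ne_zero 3 h2) ?_
      rw [dco] at hs
      linear_combination (4 * ((-e + s) / 2) ^ 2 + 2 * ((-e + s) / 2) * (-e + s) + (-e + s) ^ 2 +
        4 * A) * this + (-(s - 3 * e)) * hs + 8 * he'
    have hne : (-e + s) / 2 ≠ e := fun h => hb (by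
      rw [div_eq_iff h2] at h
      refine mul_left_cancel₀ (pow_ne_zero 2 h2) ?_
      rw [dco] at hs
      rw [bco]
      linear_combination -hs + -(s + 3 * e) * h)
    have := Finset.one_lt_card.2 ⟨_, mem_cubicRoots.2 hy, e, he, hne⟩
    rcases card_cubicRoots hab with h | h | h <;> omega
  · intro h3
    obtain ⟨y, hy, hne⟩ := Finset.exists_mem_ne (s := cubicRoots (A, B)) (by omega) e
    refine ⟨e + 2 * y, ?_⟩
    have hy' : y ^ 3 + A * y + B = 0 := mem_cubicRoots.1 hy
    rw [dco, eq_of_two_roots (Ne.symm hne) he' hy']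
    ring

/-- Twice a point and a root of the cubic. -/
theorem double_x (h5 : 5 ≤ p) {A B e x y : ZMod p} (he : e ^ 3 + A * e + B = 0)
    (h : (shortMod A B).toAffine.Nonsingular x y) (hy : y ≠ 0) :
    ∃ X Y h', 2 • Affine.Point.some x y h = Affine.Point.some X Y h' ∧
      (2 * y) ^ 2 * (X - e) = ((x - e) ^ 2 - bco A e) ^ 2 := by
  have h2 := (natCast_two_three (p := p) h5).1
  have hneg : (shortMod A B).toAffine.negY x y = -y := by
    simp [Affine.negY]
  have hne : y ≠ (shortMod A B).toAffine.negY x y := by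
    rw [hneg]
    exact fun e' => hy ((mul_eq_zero.mp (by linear_combination e' : 2 * y = 0)).resolve_left h2)
  have hE := (Affine.equation_iff x y).mp h.1
  simp only [zero_mul, add_zero] at hE
  refine ⟨_, _, _, (two_nsmul _).trans (Affine.Point.add_self_of_Y_ne hne), ?_⟩
  rw [Affine.slope_of_Y_ne rfl hne, hneg, Affine.addX]
  simp only [mul_zero, zero_mul, add_zero, sub_zero, sub_neg_eq_add, bco, ← two_mul]
  field_simp
  linear_combination -4 * (2 * x + e) * hE - 4 * (2 * x + e) * he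

/-- The group at trace zero: one root and exponent `p + 1`, or three and `(p + 1) / 2`. -/
theorem exponent_cases (h5 : 5 ≤ p) {A B : ZMod p} (h : (A, B) ∈ zeros p) :
    ((cubicRoots (A, B)).card = 1 ∧
        AddMonoid.exponent (shortMod A B).toAffine.Point = p + 1) ∨
      ((cubicRoots (A, B)).card = 3 ∧
        2 * AddMonoid.exponent (shortMod A B).toAffine.Point = p + 1) := by
  obtain ⟨hab, htr⟩ := Finset.mem_filter.1 h
  haveI : (shortMod A B).IsElliptic :=
    ⟨(shortMod_Δ_ne_zero h5 (Finset.mem_filter.1 hab).2).isUnit⟩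
  obtain ⟨d, e, -, hcard, h1, rfl, hlev⟩ := exists_level h5 (shortMod A B)
  have hN : Nat.card (shortMod A B).toAffine.Point = p + 1 := by
    have e1 := FA.Rueck.trace_eq_sub_card (shortMod A B)
    rw [show (shortMod A B).traceOfFrobenius = 0 from htr] at e1
    omega
  rw [hN] at hcard
  have hd : d ∣ 2 := by
    have := Nat.dvd_sub (Dvd.intro _ hcard : d ∣ p + 1) h1
    rwa [show p + 1 - (p - 1) = 2 by omega] at this
  have hroots : (cubicRoots (A, B)).card ≠ 0 := fun h0 => by
    obtain ⟨Q, hQ⟩ := exists_prime_addOrderOf_dvd_card' (G := (shortMod A B).toAffine.Point) 2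
      (by rw [hN]; rcases hp.out.eq_two_or_odd with h | h <;> omega)
    have h2Q : 2 • Q = 0 := hQ ▸ addOrderOf_nsmul_eq_zero Q
    have hc := natCard_two_torsion_short h5 hab
    rw [h0, Nat.card_eq_one_iff_unique] at hc
    haveI := hc.1
    have := congrArg Subtype.val (Subsingleton.elim
      (⟨Q, h2Q⟩ : {P : (shortMod A B).toAffine.Point // 2 • P = 0}) ⟨0, nsmul_zero 2⟩)
    simp only at this
    rw [this, addOrderOf_zero] at hQ
    omega
  have hlev2 := hlev 2 two_pos
  rw [natCard_two_torsion_short h5 hab] at hlev2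
  rcases (Nat.dvd_prime Nat.prime_two).1 hd with rfl | rfl
  · refine Or.inl ⟨?_, by omega⟩
    rcases card_cubicRoots hab with h' | h' | h'
    · exact absurd h' hroots
    · exact h'
    · exact absurd (hlev2.1 (by rw [h']; norm_num)) (by norm_num)
  · exact Or.inr ⟨by have := hlev2.2 dvd_rfl; omega, hcard⟩

/-- A point of order four makes `b` a square at a root. -/
theorem exists_square_of_four (h5 : 5 ≤ p) {A B : ZMod p} (hab : (A, B) ∈ nonsingular p)
    {Q : (shortMod A B).toAffine.Point} (h4 : 4 • Q = 0) (hQ : 2 • Q ≠ 0) :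
    ∃ e ∈ cubicRoots (A, B), quadraticChar (ZMod p) (bco A e) = 1 := by
  have h2 := (natCast_two_three (p := p) h5).1
  rw [show 4 = 2 * 2 from rfl, mul_smul] at h4
  rcases Q with _ | ⟨x, y, hxy⟩
  · exact absurd (nsmul_zero 2) hQ
  have hE := (Affine.equation_iff x y).mp hxy.1
  simp only [zero_mul, add_zero] at hE
  rcases eq_or_ne y 0 with rfl | hy
  · exact absurd ((two_nsmul_eq_zero_iff_root A B h2 hxy).mpr
      ⟨rfl, by linear_combination -hE⟩) hQ
  -- the double is a point of order two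
  cases hD : 2 • Affine.Point.some x y hxy with
  | zero => exact absurd hD hQ
  | some u v huv =>
    rw [hD] at h4
    obtain ⟨-, hu⟩ := (two_nsmul_eq_zero_iff_root A B h2 huv).mp h4
    obtain ⟨X, Y, h', hXY, hsq⟩ := double_x h5 hu hxy hy
    rw [hD, Affine.Point.some.injEq] at hXY
    rw [← hXY.1, sub_self, mul_zero, eq_comm, pow_eq_zero_iff two_ne_zero, sub_eq_zero] at hsq
    refine ⟨u, mem_cubicRoots.2 hu, ?_⟩
    rw [← hsq]
    refine quadraticChar_sq_one' fun h0 => (coeffs_ne_zero (Finset.mem_filter.1 hab).2 hu).1 ?_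
    rw [← hsq, h0, zero_pow two_ne_zero]

/-- A halving gives a point of order four. -/
theorem exists_four_of_square (h5 : 5 ≤ p) {A B e β : ZMod p} (hab : (A, B) ∈ nonsingular p)
    (he : e ^ 3 + A * e + B = 0) (hβ : β ^ 2 = bco A e) {s : ZMod p}
    (hs : s ^ 2 = 3 * e + 2 * β) :
    ∃ Q : (shortMod A B).toAffine.Point, 4 • Q = 0 ∧ 2 • Q ≠ 0 := by
  have h2 := (natCast_two_three (p := p) h5).1
  obtain ⟨hb, hd⟩ := coeffs_ne_zero (Finset.mem_filter.1 hab).2 he
  have hy : β * s ≠ 0 := by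
    refine mul_ne_zero (fun h => hb (by rw [← hβ, h]; ring)) fun h => hd ?_
    rw [bco] at hβ
    rw [dco]
    linear_combination (3 * e - 2 * β) * (s * h - hs) + 4 * hβ
  have hΔ := shortMod_Δ_ne_zero h5 (Finset.mem_filter.1 hab).2
  have hxy : (shortMod A B).toAffine.Nonsingular (e + β) (β * s) :=
    (Affine.equation_iff_nonsingular_of_Δ_ne_zero hΔ).1 (by
      rw [Affine.equation_iff]
      simp only [zero_mul, add_zero]
      rw [bco] at hβ
      linear_combination β ^ 2 * hs + β * hβ - he)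
  obtain ⟨X, Y, h', hXY, hsq⟩ := double_x h5 he hxy hy
  rw [add_sub_cancel_left, hβ, sub_self, zero_pow two_ne_zero, mul_eq_zero,
    or_iff_right (pow_ne_zero 2 (mul_ne_zero h2 hy)), sub_eq_zero] at hsq
  subst hsq
  have hY : Y = 0 := by
    have hE := (Affine.equation_iff X Y).mp h'.1
    simp only [zero_mul, add_zero] at hE
    exact (pow_eq_zero_iff two_ne_zero).1 (by linear_combination hE + he)
  refine ⟨.some _ _ hxy, ?_, fun e0 => hy ((two_nsmul_eq_zero_iff_root A B h2 hxy).mp e0).1⟩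
  rw [show 4 = 2 * 2 from rfl, mul_smul, hXY]
  exact (two_nsmul_eq_zero_iff_root A B h2 h').mpr ⟨hY, he⟩

/-- The twist by `-1`. -/
theorem neg_mem_zeros (h5 : 5 ≤ p) {A B : ZMod p} (h : (A, B) ∈ zeros p) :
    (A, -B) ∈ zeros p := by
  obtain ⟨hab, htr⟩ := Finset.mem_filter.1 h
  have hns : 4 * A ^ 3 + 27 * B ^ 2 ≠ 0 := (Finset.mem_filter.1 hab).2
  have hns' : 4 * A ^ 3 + 27 * (-B) ^ 2 ≠ 0 := by rwa [neg_sq]
  refine Finset.mem_filter.2 ⟨Finset.mem_filter.2 ⟨Finset.mem_univ _, hns'⟩, ?_⟩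
  rw [tr, traceOfFrobenius_eq h5 hns'] at *
  rw [traceOfFrobenius_eq h5 hns, neg_eq_zero] at htr
  rw [neg_eq_zero, show A = A * (-1) ^ 2 by ring, show -B = B * (-1) ^ 3 by ring,
    FA.DeuringExistence.charSum_scale (neg_ne_zero.2 one_ne_zero), htr, mul_zero]

variable (h5 : 5 ≤ p) (h4 : p % 4 = 3)

include h5 h4 in
/-- Three roots and `b` a square at one: `8 ∣ p + 1`. -/
theorem mod_eight_of_square {A B : ZMod p} (h : (A, B) ∈ zeros p)
    (h3 : (cubicRoots (A, B)).card = 3) {e : ZMod p} (he : e ∈ cubicRoots (A, B))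
    (hsq : quadraticChar (ZMod p) (bco A e) = 1) : p % 8 = 7 := by
  obtain ⟨hab, -⟩ := Finset.mem_filter.1 h
  have he' := mem_cubicRoots.1 he
  obtain ⟨hb, hd⟩ := coeffs_ne_zero (Finset.mem_filter.1 hab).2 he'
  obtain ⟨β, hβ⟩ := (quadraticChar_one_iff_isSquare hb).1 hsq
  rw [← sq] at hβ
  have key : ∀ {A B e β : ZMod p}, (A, B) ∈ zeros p → (cubicRoots (A, B)).card = 3 →
      e ^ 3 + A * e + B = 0 → β ^ 2 = bco A e → IsSquare (3 * e + 2 * β) → p % 8 = 7 := by
    intro A B e β h h3 he hβ ⟨s, hs⟩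
    obtain ⟨hab, -⟩ := Finset.mem_filter.1 h
    haveI : (shortMod A B).IsElliptic :=
      ⟨(shortMod_Δ_ne_zero h5 (Finset.mem_filter.1 hab).2).isUnit⟩
    obtain ⟨Q, hQ4, hQ2⟩ := exists_four_of_square h5 hab he hβ (s := s) (by rw [hs]; ring)
    haveI : Fact (Nat.Prime 2) := ⟨Nat.prime_two⟩
    have h4Q : addOrderOf Q = 2 ^ (1 + 1) :=
      addOrderOf_eq_prime_pow (by simpa using hQ2) hQ4
    have hdvd := AddMonoid.addOrder_dvd_exponent Q
    rw [h4Q] at hdvd
    rcases exponent_cases h5 h with ⟨hc, -⟩ | ⟨-, he2⟩ <;> omega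
  by_cases hsquare : IsSquare (3 * e + 2 * β)
  · exact key h h3 he' hβ.symm hsquare
  · refine key (neg_mem_zeros h5 h) ?_ (e := -e) (β := -β) (by linear_combination -he')
      (by rw [neg_sq, ← hβ, bco, bco, neg_sq]) ?_
    · have he'' : -e ∈ cubicRoots (A, -B) := mem_cubicRoots.2 (by linear_combination -he')
      rw [← char_dco_iff h5 (Finset.mem_filter.1 (neg_mem_zeros h5 h)).1 he'', dco, neg_sq]
      exact (char_dco_iff h5 hab he).2 h3
    · rw [show 3 * -e + 2 * -β = -1 * (3 * e + 2 * β) by ring]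
      have hne : 3 * e + 2 * β ≠ 0 := fun h0 => hsquare (h0 ▸ IsSquare.zero)
      rw [← quadraticChar_one_iff_isSquare (mul_ne_zero (neg_ne_zero.2 one_ne_zero) hne), map_mul,
        quadraticChar_neg_one (ringChar_ne_two h5), ZMod.card, ZMod.χ₄_nat_three_mod_four h4,
        (quadraticChar_neg_one_iff_not_isSquare).2 hsquare]
      norm_num

include h5 h4 in
/-- The roots with `b` a square. -/
theorem card_square_roots {A B : ZMod p} (h : (A, B) ∈ zeros p) :
    ((cubicRoots (A, B)).filter fun e => quadraticChar (ZMod p) (bco A e) = 1).card =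
      if (cubicRoots (A, B)).card = 3 then (if p % 8 = 3 then 0 else 2) else 1 := by
  obtain ⟨hab, -⟩ := Finset.mem_filter.1 h
  haveI : (shortMod A B).IsElliptic :=
    ⟨(shortMod_Δ_ne_zero h5 (Finset.mem_filter.1 hab).2).isUnit⟩
  have hfour : 4 ∣ AddMonoid.exponent (shortMod A B).toAffine.Point →
      ∃ e ∈ cubicRoots (A, B), quadraticChar (ZMod p) (bco A e) = 1 := fun h4e => by
    obtain ⟨P, hP⟩ := AddMonoid.exists_addOrderOf_eq_exponent
      (AddMonoid.ExponentExists.of_finite (G := (shortMod A B).toAffine.Point))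
    obtain ⟨c, hc⟩ := h4e
    rw [hc] at hP
    have hc0 : c ≠ 0 := fun e0 => (addOrderOf_pos P).ne' (by rw [hP, e0, mul_zero])
    have hQ : addOrderOf (c • P) = 4 := by
      rw [addOrderOf_nsmul' P hc0, hP, Nat.gcd_eq_right (Dvd.intro_left 4 rfl),
        Nat.mul_div_cancel _ (Nat.pos_of_ne_zero hc0)]
    refine exists_square_of_four h5 hab (Q := c • P) (hQ ▸ addOrderOf_nsmul_eq_zero _) fun e0 => ?_
    have := addOrderOf_dvd_of_nsmul_eq_zero e0
    rw [hQ] at this
    omega
  rcases exponent_cases h5 h with ⟨hc, he⟩ | ⟨hc, he⟩ <;> rw [hc]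
  · rw [if_neg (by norm_num)]
    refine le_antisymm ((Finset.card_filter_le _ _).trans hc.le) (Finset.card_pos.2 ?_)
    obtain ⟨e, he1, he2⟩ := hfour (by rw [he]; omega)
    exact ⟨e, Finset.mem_filter.2 ⟨he1, he2⟩⟩
  rw [if_pos rfl]
  split_ifs with h8
  · rw [Finset.card_eq_zero, Finset.filter_eq_empty_iff]
    exact fun e he' hsq => by have := mod_eight_of_square h5 h4 h hc he' hsq; omega
  obtain ⟨x, hx, hxsq⟩ := hfour (by omega)
  obtain ⟨y, hy, hne⟩ := Finset.exists_mem_ne (s := cubicRoots (A, B)) (by omega) x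
  have hx' : x ^ 3 + A * x + B = 0 := mem_cubicRoots.1 hx
  have hy' : y ^ 3 + A * y + B = 0 := mem_cubicRoots.1 hy
  obtain ⟨hset, hzx, hzy⟩ := cubicRoots_of_two (Finset.mem_filter.1 hab).2 (Ne.symm hne) hx' hy'
  have hprod : quadraticChar (ZMod p) (bco A x) * quadraticChar (ZMod p) (bco A y) *
      quadraticChar (ZMod p) (bco A (-x - y)) = -1 := by
    have hA := eq_of_two_roots (Ne.symm hne) hx' hy'
    have hne0 : (x - y) * (2 * x + y) * (x + 2 * y) ≠ 0 :=
      mul_ne_zero (mul_ne_zero (sub_ne_zero.2 (Ne.symm hne))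
        fun e0 => hzx (by linear_combination -e0)) fun e0 => hzy (by linear_combination -e0)
    rw [← map_mul, ← map_mul, show bco A x * bco A y * bco A (-x - y) =
      -1 * ((x - y) * (2 * x + y) * (x + 2 * y)) ^ 2 by rw [bco, bco, bco, hA]; ring, map_mul,
      quadraticChar_sq_one' hne0, quadraticChar_neg_one (ringChar_ne_two h5), ZMod.card,
      ZMod.χ₄_nat_three_mod_four h4, mul_one]
  rw [hxsq, one_mul] at hprod
  rw [hset, Finset.filter_insert, if_pos hxsq, Finset.filter_insert, Finset.filter_singleton]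
  rcases Int.eq_one_or_neg_one_of_mul_eq_neg_one' hprod with ⟨h1, h1'⟩ | ⟨h1, h1'⟩ <;>
    rw [h1, h1'] <;> simp [Ne.symm hne, Ne.symm hzx]

include h5 h4 in
/-- **Trace zero**: the equations with full two-torsion are a quarter or a half of all. -/
theorem card_zeros_eq :
    (zeros p).card = (if p % 8 = 3 then 4 else 2) *
      ((nonsingular p).filter fun ab => tr ab = 0 ∧ FullAt 2 ab).card := by
  have hF : (nonsingular p).filter (fun ab => tr ab = 0 ∧ FullAt 2 ab) =
      (zeros p).filter fun ab => (cubicRoots ab).card = 3 := by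
    rw [zeros, Finset.filter_filter]
    refine Finset.filter_congr fun ab hab => and_congr_right fun _ => ?_
    rw [FullAt, natCard_two_torsion_short h5 (show (ab.1, ab.2) ∈ _ from hab)]
    simp only [Prod.mk.eta]
    omega
  rw [hF]
  have h := card_swap (p := p) h5
  rw [show _ = _ from card_rootPairs fun A e : ZMod p => quadraticChar (ZMod p) (bco A e) = 1,
    show _ = _ from card_rootPairs fun A e : ZMod p => quadraticChar (ZMod p) (dco A e) = 1,
    Finset.sum_congr rfl fun ab hab => card_square_roots h5 h4 (show (ab.1, ab.2) ∈ _ from hab),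
    Finset.sum_congr rfl (fun ab hab => (show ((cubicRoots ab).filter fun e =>
      quadraticChar (ZMod p) (dco ab.1 e) = 1).card =
        if (cubicRoots ab).card = 3 then 3 else 0 by
      have hn := (Finset.mem_filter.1 hab).1
      split_ifs with h3
      · rw [Finset.filter_true_of_mem fun e he => (char_dco_iff h5 (A := ab.1) (B := ab.2) hn he).2
          h3, h3]
      · rw [Finset.card_eq_zero, Finset.filter_eq_empty_iff]
        exact fun e he hsq => h3 ((char_dco_iff h5 (A := ab.1) (B := ab.2) hn he).1 hsq)))] at h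
  have htot := Finset.card_filter_add_card_filter_not (s := zeros p)
    fun ab => (cubicRoots ab).card = 3
  split_ifs at h ⊢ with h8 <;>
    simp only [Finset.sum_ite, Finset.sum_const, smul_eq_mul, Prod.mk.eta] at h <;> omega

end FA.Schoof

end
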