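import Fermat.Agent.Supersingular.SchoofCount

/-!
# Deuring: the class polynomial at a prime `4 p = t² - k² D`

The reduction of the forms of discriminant `t² - 4 p`, `t ≠ 0`, is injective: an ordinary invariant
other than `0`, `1728` has one of them, those two only multiples of one form. So for `p ∤ D` and
`4 p = t² - k² D` the class polynomial of `D` is modulo `p` a product of `h(D)` distinct linear
factors. Conversely a root modulo `p`, `D` a square there, yields such an equation.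
-/

set_option autoImplicit false
set_option linter.style.haveILetI false
set_option linter.unusedSectionVars false

noncomputable section

open Polynomial
open scoped Classical UpperHalfPlane

namespace FA.SplitReduction

open FA.BirchMoment FA.DeuringExistence FA.ClassRelation FA.ModField FA.Singular FA.ClassTrace
open FA.ReducedGroups (jFibre mem_jFibre)

variable {p : ℕ} [hp : Fact p.Prime]

/-- Multiples of one form with the same `t` are equal. -/
theorem eq_of_multiples {q q' : Σ _ : ℤ, ℤ × ℤ × ℤ} (hq : q ∈ traceForms p)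
    (hq' : q' ∈ traceForms p) (ht : q.1 = q'.1) {f : ℤ × ℤ × ℤ} (hf : disc f ≠ 0) {k k' : ℤ}
    (hk : 0 < k) (hk' : 0 < k') (e : q.2 = smulForm k f) (e' : q'.2 = smulForm k' f) : q = q' := by
  obtain ⟨t, g⟩ := q
  obtain ⟨t', g'⟩ := q'
  simp only at ht e e'
  subst ht e e'
  have h1 := ((mem_traceForms p).1 hq).2.1
  have h2 := ((mem_traceForms p).1 hq').2.1
  rw [disc_smulForm] at h1 h2
  rw [(pow_left_inj₀ hk.le hk'.le two_ne_zero).1 (mul_right_cancel₀ hf (h1.trans h2.symm))]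

section red

variable (h5 : 5 ≤ p) {red : (Σ _ : ℤ, ℤ × ℤ × ℤ) → ZMod p}
  (hsum : ∀ r, ∑ q ∈ (traceForms p).filter (fun q => red q = r), weight q.2 = 2)
  (hsame : ∀ q ∈ traceForms p, ∀ q' ∈ traceForms p, q.2 = q'.2 → red q = red q')
  (hroot : ∀ q ∈ traceForms p, ∀ P : ℤ[X], aeval (jfun (rootOf q.2)) P = 0 →
    (P.map (Int.castRingHom (ZMod p))).IsRoot (red q))

include h5 hsum hsame hroot

/-- **Injectivity of the reduction** at a trace `t ≠ 0`. -/
theorem red_injective {q q' : Σ _ : ℤ, ℤ × ℤ × ℤ} (hq : q ∈ traceForms p)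
    (hq' : q' ∈ traceForms p) (ht : q.1 = q'.1) (h0 : q.1 ≠ 0) (e : red q = red q') : q = q' := by
  rcases eq_or_ne (red q) 1728 with h1 | h1
  · obtain ⟨k, hk, hqf⟩ := form_over_1728 h5 hroot hq h1 h0
    obtain ⟨k', hk', hqf'⟩ := form_over_1728 h5 hroot hq' (e.symm.trans h1) (ht ▸ h0)
    exact eq_of_multiples hq hq' ht (by norm_num [disc]) hk hk' hqf hqf'
  rcases eq_or_ne (red q) 0 with h2 | h2
  · obtain ⟨k, hk, hqf⟩ := form_over_zero h5 hroot hq h2 h0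
    obtain ⟨k', hk', hqf'⟩ := form_over_zero h5 hroot hq' (e.symm.trans h2) (ht ▸ h0)
    exact eq_of_multiples hq hq' ht (by norm_num [disc]) hk hk' hqf hqf'
  obtain ⟨ab, hab, htr⟩ : ∃ ab ∈ jFibre (red q), tr ab = q.1 := by
    have hfib := fibre_eq h5 hsum hsame hroot (red q) q.1
    by_contra! hn
    rw [Finset.filter_eq_empty_iff.2 fun ab h e => hn ab h e, Finset.card_empty, Nat.cast_zero,
      mul_zero, eq_comm, mul_eq_zero,
      or_iff_right (sub_ne_zero.mpr (Nat.cast_ne_one.mpr hp.out.ne_one))] at hfib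
    exact (FA.Schoof.weight_pos q.2).ne' ((Finset.sum_eq_zero_iff_of_nonneg
      fun x _ => (FA.Schoof.weight_pos x.2).le).1 hfib q (Finset.mem_filter.2 ⟨hq, rfl, rfl⟩))
  have hone := FA.Schoof.card_forms_eq_one h5 hsum hsame hroot (A := ab.1) (B := ab.2) h2 h1 hab
    (htr.symm ▸ h0)
  exact Finset.card_le_one.1 hone.le q (Finset.mem_filter.2 ⟨hq, rfl, htr.symm⟩) q'
    (Finset.mem_filter.2 ⟨hq', e.symm, ht.symm.trans htr.symm⟩)

/-- **The roots are the reductions**: `h(D)` distinct ones, and no more. -/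
theorem roots_eq_red {D t k : ℤ} (hD : D < 0) (hk : 0 < k)
    (hd : t ^ 2 - 4 * (p : ℤ) = k ^ 2 * D) (ht : t ≠ 0) {H : ℤ[X]} (hH : H.Monic)
    (hdeg : H.natDegree = (Red D).ncard) (hval : ∀ z ∈ values D, aeval z H = 0) :
    ∃ S : Finset (ZMod p), S.card = H.natDegree ∧
      H.map (Int.castRingHom (ZMod p)) = ∏ r ∈ S, (X - C r) ∧
      ∀ r ∈ S, ∃ f ∈ Red D, (⟨t, smulForm k f⟩ : Σ _ : ℤ, ℤ × ℤ × ℤ) ∈ traceForms p ∧
        red ⟨t, smulForm k f⟩ = r := by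
  have hlt : t ^ 2 < 4 * (p : ℤ) := by nlinarith [sq_pos_of_pos hk]
  have hmem : ∀ f ∈ Red D, (⟨t, smulForm k f⟩ : Σ _ : ℤ, ℤ × ℤ × ℤ) ∈ traceForms p := by
    rintro f ⟨hfd, -, ha, hb, hc, hbd⟩
    refine (mem_traceForms p).2 ⟨hlt, ?_, mul_pos hk ha, ?_,
      mul_le_mul_of_nonneg_left hc hk.le, ?_⟩
    · rw [disc_smulForm, show disc f = D from hfd, hd]
    · simp only [smulForm, abs_mul, abs_of_pos hk]
      exact mul_le_mul_of_nonneg_left hb hk.le
    · simp only [smulForm, abs_mul, abs_of_pos hk]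
      exact fun h => mul_nonneg hk.le
        (hbd (h.imp (mul_left_cancel₀ hk.ne') (mul_left_cancel₀ hk.ne')))
  set S : Finset (ZMod p) := (red_finite D).toFinset.image fun f => red ⟨t, smulForm k f⟩ with hS
  have hcard : S.card = H.natDegree := by
    rw [hdeg, Set.ncard_eq_toFinset_card _ (red_finite D)]
    refine Finset.card_image_of_injOn fun f hf g hg e => ?_
    rw [Set.Finite.coe_toFinset] at hf hg
    have h := congrArg Sigma.snd
      (red_injective h5 hsum hsame hroot (hmem f hf) (hmem g hg) rfl ht e)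
    simp only [smulForm, Prod.mk.injEq, mul_right_inj' hk.ne'] at h
    exact Prod.ext h.1 (Prod.ext h.2.1 h.2.2)
  refine ⟨S, hcard, ?_, fun r hr => ?_⟩
  · refine eq_of_monic_of_dvd_of_natDegree_le (monic_prod_X_sub_C _ _) (hH.map _)
      (Finset.prod_dvd_of_coprime
        (fun a _ b _ hne => pairwise_coprime_X_sub_C Function.injective_id hne) fun r hr => ?_) ?_
    · obtain ⟨f, hf, rfl⟩ := Finset.mem_image.1 hr
      rw [Set.Finite.mem_toFinset] at hf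
      rw [dvd_iff_isRoot]
      obtain ⟨-, hd', ha, -⟩ := (mem_traceForms p).1 (hmem f hf)
      obtain ⟨τ, hτ⟩ := exists_isRoot hf.2.2.1 (show disc f < 0 by
        rw [show disc f = D from hf.1]; exact hD)
      refine hroot _ (hmem f hf) H (hval _ ⟨f, hf, τ, hτ, ?_⟩)
      rw [root_unique ha.ne' (isRoot_rootOf ha (by rw [hd']; linarith)) (isRoot_smulForm hτ)]
    · rw [natDegree_finsetProd_X_sub_C_eq_card, (hH.natDegree_map _), hcard]
  · obtain ⟨f, hf, rfl⟩ := Finset.mem_image.1 hr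
    rw [Set.Finite.mem_toFinset] at hf
    exact ⟨f, hf, hmem f hf, rfl⟩

end red

/-- `4 p = t² - k² D` with `p ∤ D` has `t ≠ 0` and `p ∤ k`. -/
theorem facts_of_equation (h5 : 5 ≤ p) {D t k : ℤ} (hpD : ¬ (p : ℤ) ∣ D)
    (hd : t ^ 2 - 4 * (p : ℤ) = k ^ 2 * D) : t ≠ 0 ∧ ¬ (p : ℤ) ∣ k := by
  have hpz : Prime (p : ℤ) := Nat.prime_iff_prime_int.1 hp.out
  have hpk : ¬ (p : ℤ) ∣ k := fun h => by
    obtain ⟨c, rfl⟩ := h
    obtain ⟨s, rfl⟩ : (p : ℤ) ∣ t :=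
      hpz.dvd_of_dvd_pow (n := 2) ⟨4 + p * c ^ 2 * D, by linear_combination hd⟩
    have h4 : (p : ℤ) ∣ 4 :=
      ⟨s ^ 2 - c ^ 2 * D, mul_left_cancel₀ hpz.ne_zero (by linear_combination -hd)⟩
    have := Int.le_of_dvd (by norm_num) h4
    omega
  refine ⟨fun e => ?_, hpk⟩
  subst e
  rcases hpz.dvd_or_dvd (show (p : ℤ) ∣ k ^ 2 * D from ⟨-4, by linear_combination -hd⟩) with h | h
  · exact hpk (hpz.dvd_of_dvd_pow h)
  · exact hpD h

/-- **Splitting**: at `4 p = t² - k² D` into distinct linear factors. -/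
theorem split_distinct (h5 : 5 ≤ p) {D t k : ℤ} (hD : D < 0) (hpD : ¬ (p : ℤ) ∣ D)
    (hd : t ^ 2 - 4 * (p : ℤ) = k ^ 2 * D) {H : ℤ[X]} (hH : H.Monic)
    (hdeg : H.natDegree = (Red D).ncard) (hval : ∀ z ∈ values D, aeval z H = 0) :
    ∃ S : Finset (ZMod p), S.card = H.natDegree ∧
      H.map (Int.castRingHom (ZMod p)) = ∏ r ∈ S, (X - C r) := by
  haveI : NeZero p := ⟨hp.out.ne_zero⟩
  let _ := Fintype.ofFinite (FA.Dim.Cos p)
  obtain ⟨red, hsum, hsame, hroot⟩ := exists_reduction p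
  obtain ⟨ht, hpk⟩ := facts_of_equation h5 hpD hd
  have hk0 : k ≠ 0 := fun e => hpk (e ▸ dvd_zero _)
  obtain ⟨S, h1, h2, -⟩ := roots_eq_red h5 hsum hsame hroot hD (abs_pos.2 hk0)
    (by rw [sq_abs]; exact hd) ht hH hdeg hval
  exact ⟨S, h1, h2⟩

/-- `4 p = t² - k² D` makes `D` a square modulo `p`. -/
theorem isSquare_of_equation (h5 : 5 ≤ p) {D t k : ℤ} (hpD : ¬ (p : ℤ) ∣ D)
    (hd : t ^ 2 - 4 * (p : ℤ) = k ^ 2 * D) : IsSquare (D : ZMod p) := by
  have hkz : (k : ZMod p) ≠ 0 := by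
    rw [Ne, ZMod.intCast_zmod_eq_zero_iff_dvd]
    exact (facts_of_equation h5 hpD hd).2
  refine ⟨(t : ZMod p) / k, ?_⟩
  have := congrArg (fun i : ℤ => (i : ZMod p)) hd
  push_cast at this
  rw [ZMod.natCast_self, mul_zero, sub_zero] at this
  field_simp
  linear_combination -this

/-- **A root gives the equation**: the trace at it. -/
theorem equation_of_root (h5 : 5 ≤ p) {D : ℤ} (hD : D < 0) (hpD : ¬ (p : ℤ) ∣ D)
    (hsq : IsSquare (D : ZMod p)) {H : ℤ[X]} (hH : H.Monic)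
    (hroots : ∀ z : ℂ, aeval z H = 0 → ∃ (a b c : ℤ) (τ : ℍ), 0 < a ∧ b ^ 2 - 4 * a * c = D ∧
      Int.gcd (Int.gcd a b) c = 1 ∧ (a : ℂ) * (τ : ℂ) ^ 2 + b * (τ : ℂ) + c = 0 ∧ jfun τ = z)
    {r : ZMod p} (hr : (H.map (Int.castRingHom (ZMod p))).IsRoot r) :
    ∃ t k : ℤ, t ^ 2 - 4 * (p : ℤ) = k ^ 2 * D := by
  obtain ⟨A, B, hne, hrel⟩ := exists_short_j h5 r
  haveI : (shortMod A B).IsElliptic := ⟨(shortMod_Δ_ne_zero h5 hne).isUnit⟩
  obtain ⟨hlt, z, hz⟩ := trace_rel h5 (FA.CMField.isSquare_padic_of_zmod (by omega) hpD hsq) hD.ne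
    hH hroots hne hrel hr
  set a := (shortMod A B).traceOfFrobenius with ha
  have hpz : Prime (p : ℤ) := Nat.prime_iff_prime_int.1 hp.out
  have ha0 : a ≠ 0 := fun e => by
    rw [e] at hz
    obtain ⟨c, rfl⟩ : (p : ℤ) ∣ z := hpz.dvd_of_dvd_pow (n := 2) ⟨-4 * D, by linear_combination -hz⟩
    have h4 : (p : ℤ) ∣ 4 * D := ⟨-c ^ 2, mul_left_cancel₀ hpz.ne_zero (by linear_combination -hz)⟩
    have h := (hpz.dvd_or_dvd h4).resolve_right hpD
    have := Int.le_of_dvd (by norm_num) h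
    omega
  obtain ⟨m, hm⟩ := FA.Rueck.disc_dvd h5 hH hroots (shortMod A B)
    (by rwa [shortMod_j h5 hne hrel]) (not_dvd_of_sq_lt h5 hlt ha0) hpD
  rw [hm] at hz
  obtain ⟨k, rfl⟩ : D ∣ z := (Int.pow_dvd_pow_iff two_ne_zero).1 ⟨m, by linear_combination -hz⟩
  refine ⟨a, k, ?_⟩
  rw [hm]
  have : m = k ^ 2 := mul_left_cancel₀ (pow_ne_zero 2 hD.ne) (by linear_combination hz)
  rw [this]
  ring

/-- The equation and the principal form. -/
theorem represented_iff {D B C : ℤ} (hBC : B ^ 2 - 4 * C = D) :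
    (∃ x y : ℤ, (p : ℤ) = x ^ 2 + B * x * y + C * y ^ 2) ↔
      ∃ t k : ℤ, t ^ 2 - 4 * (p : ℤ) = k ^ 2 * D := by
  subst hBC
  refine ⟨fun ⟨x, y, h⟩ => ⟨2 * x + B * y, y, by linear_combination -4 * h⟩, fun ⟨t, k, h⟩ => ?_⟩
  obtain ⟨x, hx⟩ : (2 : ℤ) ∣ t - k * B := by
    have h2 : (2 : ℤ) ∣ (t - k * B) * (t + k * B) :=
      ⟨2 * p - 2 * k ^ 2 * C, by linear_combination h⟩
    rcases Int.prime_two.dvd_or_dvd h2 with h | ⟨w, hw⟩
    · exact h
    · exact ⟨w - k * B, by linear_combination hw⟩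
  refine ⟨x, k, mul_left_cancel₀ (four_ne_zero (α := ℤ)) ?_⟩
  linear_combination -h + (t + k * B + 2 * x) * hx

/-- The class polynomial, by `values`. -/
theorem exists_classPoly {D : ℤ} (hD : D < 0) {a b c : ℤ} (ha : 0 < a)
    (hd : b ^ 2 - 4 * a * c = D) (hg : Int.gcd (Int.gcd a b) c = 1) :
    ∃ H : ℤ[X], H.Monic ∧ Irreducible (H.map (Int.castRingHom ℚ)) ∧
      H.natDegree = (Red D).ncard ∧
      ∀ z : ℂ, aeval z H = 0 ↔ z ∈ values D := by
  obtain ⟨H, hH, hirr, hdeg, hroots⟩ := FA.Summary.classPolynomial hD ⟨a, b, c, ha, hd, hg⟩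
  refine ⟨H, hH, hirr, hdeg, fun z => (hroots z).trans ⟨?_, ?_⟩⟩
  · rintro ⟨a, b, c, τ, ha, hd, hg, hτ, rfl⟩
    have := jfun_mem_values (t := (a, b, c)) ha (hd.trans_lt hD) hg hτ
    rwa [show disc (a, b, c) = D from hd] at this
  · rintro ⟨f, hf, τ, hτ, rfl⟩
    exact ⟨f.1, f.2.1, f.2.2, τ, hf.2.2.1, hf.1, hf.2.1, hτ, rfl⟩

/-- **The invariants of trace `t`**: the roots of exactly one of the class polynomials of the
discriminants `(t² - 4 p) / k²`. -/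
theorem invariant_iff (h5 : 5 ≤ p) {t : ℤ} (hlt : t ^ 2 < 4 * (p : ℤ)) (ht : t ≠ 0) (r : ZMod p) :
    (∃ A B, (A, B) ∈ jFibre r ∧ tr (A, B) = t) ↔
      ∃! D : ℤ, (∃ k : ℤ, t ^ 2 - 4 * (p : ℤ) = k ^ 2 * D) ∧
        ∀ H : ℤ[X], (∀ z ∈ values D, aeval z H = 0) →
          (H.map (Int.castRingHom (ZMod p))).IsRoot r := by
  haveI : NeZero p := ⟨hp.out.ne_zero⟩
  let _ := Fintype.ofFinite (FA.Dim.Cos p)
  obtain ⟨red, hsum, hsame, hroot⟩ := exists_reduction p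
  have hfib := fibre_eq h5 hsum hsame hroot r t
  have hp1 : (p : ℚ) - 1 ≠ 0 := sub_ne_zero.mpr (Nat.cast_ne_one.mpr hp.out.ne_one)
  have key : ∀ D : ℤ, (∃ k : ℤ, t ^ 2 - 4 * (p : ℤ) = k ^ 2 * D) →
      (∀ H : ℤ[X], (∀ z ∈ values D, aeval z H = 0) →
        (H.map (Int.castRingHom (ZMod p))).IsRoot r) →
      ∃ (k : ℤ) (f : ℤ × ℤ × ℤ), 0 < k ∧ f ∈ Red D ∧
        (⟨t, smulForm k f⟩ : Σ _ : ℤ, ℤ × ℤ × ℤ) ∈ traceForms p ∧ red ⟨t, smulForm k f⟩ = r := by
    rintro D ⟨k, hk⟩ hall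
    have hk0 : k ≠ 0 := fun e => by rw [e] at hk; linarith
    have hD : D < 0 := by nlinarith [pow_two_pos_of_ne_zero hk0]
    obtain ⟨z, f, hf, -⟩ : (values D).Nonempty := by
      by_contra he
      have := hall 1 fun z hz => absurd ⟨z, hz⟩ he
      simp at this
    obtain ⟨H, hH, -, hdeg, hz⟩ := exists_classPoly hD hf.2.2.1 hf.1 hf.2.1
    obtain ⟨S, -, hprod, hS⟩ := roots_eq_red h5 hsum hsame hroot hD (abs_pos.2 hk0)
      (by rw [sq_abs]; exact hk) ht hH hdeg fun z h => (hz z).2 h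
    have hr := hall H fun z h => (hz z).2 h
    rw [hprod, Polynomial.IsRoot.def, eval_prod, Finset.prod_eq_zero_iff] at hr
    obtain ⟨s, hs, h0⟩ := hr
    rw [eval_sub, eval_X, eval_C, sub_eq_zero] at h0
    obtain ⟨g, hg, hgm, hgr⟩ := hS s hs
    exact ⟨|k|, g, abs_pos.2 hk0, hg, hgm, hgr.trans h0.symm⟩
  constructor
  · rintro ⟨A, B, hAB, htr⟩
    obtain ⟨q, hq⟩ : ((traceForms p).filter fun q => red q = r ∧ q.1 = t).Nonempty := by
      refine Finset.nonempty_of_sum_ne_zero (f := fun q => weight q.2) fun h => ?_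
      rw [wt, h, mul_zero, mul_eq_zero, or_iff_right two_ne_zero, Nat.cast_eq_zero,
        Finset.card_eq_zero] at hfib
      exact Finset.notMem_empty (A, B) (hfib ▸ Finset.mem_filter.2 ⟨hAB, htr⟩)
    obtain ⟨hq, hqr, hqt⟩ := Finset.mem_filter.1 hq
    obtain ⟨D, k, b, f₁, hk, hqf, hfD, hf₁, hτ, -, hd, -⟩ := exists_disc hroot hq
    refine ⟨D, ⟨⟨k, hqt ▸ hd⟩, fun H hH => hqr ▸ hroot q hq H (hH _ ⟨f₁, hf₁, _, hτ, rfl⟩)⟩, ?_⟩
    rintro D' ⟨hk', hall⟩
    obtain ⟨k', g, hk0', hg, hgm, hgr⟩ := key D' hk' hall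
    have e := red_injective h5 hsum hsame hroot hgm hq hqt.symm ht (hgr.trans hqr.symm)
    have e2 : smulForm k' g = smulForm k f₁ := by rw [← hqf, ← e]
    have hdd := congrArg disc e2
    rw [disc_smulForm, disc_smulForm, hfD, show disc g = D' from hg.1] at hdd
    have h1 : k'.natAbs ∣ k.natAbs := (FA.Schoof.dvdForm_smul hk hf₁.2.1).1
      (e2 ▸ (FA.Schoof.dvdForm_smul hk0' hg.2.1).2 dvd_rfl)
    have h2 : k.natAbs ∣ k'.natAbs := (FA.Schoof.dvdForm_smul hk0' hg.2.1).1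
      (e2.symm ▸ (FA.Schoof.dvdForm_smul hk hf₁.2.1).2 dvd_rfl)
    have hkk : k' = k := by have := Nat.dvd_antisymm h1 h2; omega
    subst hkk
    exact mul_left_cancel₀ (pow_ne_zero 2 hk0'.ne') hdd
  · rintro ⟨D, ⟨hk, hall⟩, -⟩
    obtain ⟨k, g, hk0, -, hgm, hgr⟩ := key D hk hall
    by_contra! hn
    rw [Finset.filter_eq_empty_iff.2 fun ab h e => hn ab.1 ab.2 h e, Finset.card_empty,
      Nat.cast_zero, mul_zero, eq_comm, mul_eq_zero, or_iff_right hp1] at hfib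
    exact (FA.Schoof.weight_pos (smulForm k g)).ne' ((Finset.sum_eq_zero_iff_of_nonneg
      fun x _ => (FA.Schoof.weight_pos x.2).le).1 hfib ⟨t, smulForm k g⟩
        (Finset.mem_filter.2 ⟨hgm, hgr, rfl⟩))

end FA.SplitReduction

end
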